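import Fermat.Agent.S20.Alg_Defs

/-!
# S20, algebraic half: the numbers of primes over a point of the line

* `rFin K F c` : number of primes of the integral closure of `K[X]` in `F` lying over `X - c`
* `rInf K F`   : number of primes of the integral closure of the ring at infinity `DW.Oinf K`
  lying over its maximal ideal
-/

namespace Fermat.Agent.S20.Alg

open Polynomial Module

noncomputable section

variable (K : Type*) [Field K] [DecidableEq (RatFunc K)]
  (F : Type*) [Field F] [Algebra (RatFunc K) F] [Algebra K[X] F]

/-- Number of primes of the integral closure of `K[X]` lying over `X - c`. -/
def rFin (c : K) : ℕ :=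
  Nat.card ((Ideal.span {X - C c} : Ideal K[X]).primesOver (integralClosure K[X] F))

/-- Number of primes of the integral closure of the ring at infinity lying over its
maximal ideal. -/
def rInf : ℕ :=
  Nat.card ((IsLocalRing.maximalIdeal (DW.Oinf K)).primesOver (integralClosure (DW.Oinf K) F))

end

end Fermat.Agent.S20.Alg
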