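import Mathlib

/-!
# S20 [L4] — the tame different (helper16)

Pure Dedekind theory on top of Mathlib's `differentIdeal`.  Mathlib proves
`pow_sub_one_dvd_differentIdeal` (`P ^ (e - 1) ∣ 𝔇`) and characterises the unramified primes;
here we prove the *exactness* of the exponent `e - 1` in the tame situation that matters for
function fields over an algebraically closed field of characteristic zero:

* `h16_not_dvd_differentIdeal_of_isCoprime_of_trace_ne_zero` : if `p B = I * Q` with `I`, `Q`
  coprime and `B ⧸ I` contains an element of non-zero trace over `A ⧸ p`, then `¬ I ∣ 𝔇`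
  (`I` is not assumed to be prime).
* `h16_not_dvd_differentIdeal_of_isCoprime_of_finrank` : the same when
  `dim_{A/p} (B/I)` is non-zero in `A ⧸ p`.
* `h16_not_pow_count_dvd_differentIdeal`, `h16_count_differentIdeal`,
  `h16_count_differentIdeal_eq_ramificationIdx_sub_one` : if the residue field `A ⧸ p` has
  characteristic zero then the multiplicity of `P` in `𝔇` is exactly `e(P | p) - 1`.
* `h16_isSeparable_fractionRing` : transfer of separability from arbitrary fraction fields
  `K ⊆ L` to `FractionRing A ⊆ FractionRing B` (the form in which Mathlib states the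
  different-ideal lemmas).
-/

namespace Fermat.Agent.S20.Tame

open Ideal Algebra Module UniqueFactorizationMonoid

attribute [local instance] FractionRing.liftAlgebra FractionRing.isScalarTower_liftAlgebra
  Ideal.Quotient.field

section Transfer

variable (A K L B : Type*) [CommRing A] [Field K] [CommRing B] [Field L]
  [Algebra A K] [Algebra B L] [Algebra A B] [Algebra K L] [Algebra A L]
  [IsScalarTower A K L] [IsScalarTower A B L]
  [IsDomain A] [IsFractionRing A K] [IsDomain B] [IsFractionRing B L]
  [Module.IsTorsionFree A B]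

/-- The comparison square between `K → L` and `FractionRing A → FractionRing B`. -/
theorem h16_fractionRing_square :
    RingHom.comp (algebraMap (FractionRing A) (FractionRing B))
      ↑(FractionRing.algEquiv A K).symm.toRingEquiv =
        RingHom.comp ↑(FractionRing.algEquiv B L).symm.toRingEquiv (algebraMap K L) := by
  apply IsLocalization.ringHom_ext (nonZeroDivisors A)
  ext
  simp only [RingHom.coe_comp, RingHom.coe_coe,
    AlgEquiv.coe_ringEquiv, Function.comp_apply, AlgEquiv.commutes,
    ← IsScalarTower.algebraMap_apply]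
  rw [IsScalarTower.algebraMap_apply A B L, AlgEquiv.commutes, ← IsScalarTower.algebraMap_apply]

/-- Separability of `L / K` gives separability of `FractionRing B / FractionRing A`. -/
theorem h16_isSeparable_fractionRing [Algebra.IsSeparable K L] :
    Algebra.IsSeparable (FractionRing A) (FractionRing B) :=
  Algebra.IsSeparable.of_equiv_equiv _ _ (h16_fractionRing_square A K L B)

/-- Finite-dimensionality of `L / K` gives that of `FractionRing B / FractionRing A`. -/
theorem h16_finiteDimensional_fractionRing [FiniteDimensional K L] :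
    FiniteDimensional (FractionRing A) (FractionRing B) :=
  Module.Finite.of_equiv_equiv _ _ (h16_fractionRing_square A K L B)

end Transfer

section LiesOver

variable (A : Type*) {B : Type*} [CommRing A] [CommRing B] [Algebra A B]

/-- A positive power `P ^ e` of an ideal `P` over `p`, dividing `p B`, lies over `p`. -/
theorem h16_pow_liesOver {p : Ideal A} (P : Ideal B) [P.LiesOver p]
    {e : ℕ} (he : e ≠ 0) (hP : P ^ e ∣ p.map (algebraMap A B)) : (P ^ e).LiesOver p := by
  constructor
  apply le_antisymm
  · rw [Ideal.under_def, ← Ideal.map_le_iff_le_comap]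
    exact Ideal.le_of_dvd hP
  · calc (P ^ e).under A ≤ P.under A := Ideal.comap_mono (Ideal.pow_le_self he)
      _ = p := (Ideal.over_def P p).symm

end LiesOver

variable (A : Type*) {B : Type*} [CommRing A] [CommRing B] [Algebra A B]
  [IsDedekindDomain A] [IsDedekindDomain B] [Module.IsTorsionFree A B] [Module.Finite A B]

/-- Generalisation of Mathlib's `not_dvd_differentIdeal_of_isCoprime_of_isSeparable`:
the factor `I` need not be prime; what is needed is an element of non-zero trace in `B ⧸ I`. -/
theorem h16_not_dvd_differentIdeal_of_isCoprime_of_trace_ne_zero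
    [Algebra.IsSeparable (FractionRing A) (FractionRing B)]
    {p : Ideal A} [p.IsMaximal] (I Q : Ideal B) [I.LiesOver p]
    (hIQ : IsCoprime I Q) (hI : I * Q = Ideal.map (algebraMap A B) p)
    (x : B ⧸ I) (hx : Algebra.trace (A ⧸ p) (B ⧸ I) x ≠ 0) :
    ¬ I ∣ differentIdeal A B := by
  let : Algebra (A ⧸ p) (B ⧸ Q) := Ideal.Quotient.algebraQuotientOfLEComap (by
      rw [← Ideal.map_le_iff_le_comap, ← hI]
      exact Ideal.mul_le_right)
  have : IsScalarTower A (A ⧸ p) (B ⧸ Q) := .of_algebraMap_eq' rfl
  have : Module.Finite (A ⧸ p) (B ⧸ Q) :=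
    Module.Finite.of_restrictScalars_finite A (A ⧸ p) (B ⧸ Q)
  have : Module.Finite (A ⧸ p) (B ⧸ I) :=
    Module.Finite.of_restrictScalars_finite A (A ⧸ p) (B ⧸ I)
  let e : (B ⧸ p.map (algebraMap A B)) ≃ₐ[A ⧸ p] ((B ⧸ I) × B ⧸ Q) :=
    { __ := (Ideal.quotEquivOfEq hI.symm).trans (Ideal.quotientMulEquivQuotientProd I Q hIQ),
      commutes' := Quotient.ind fun _ ↦ rfl }
  obtain ⟨y, hy⟩ := Ideal.Quotient.mk_surjective (e.symm (x, 0))
  refine not_dvd_differentIdeal_of_intTrace_not_mem A I Q hI y ?_ ?_
  · have := congr((e $hy).2)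
    simp at this
    simpa [e, Ideal.Quotient.eq_zero_iff_mem] using this
  · rw [← Ideal.Quotient.eq_zero_iff_mem, ← Algebra.trace_quotient_eq_of_isDedekindDomain,
      hy, Algebra.trace_eq_of_algEquiv, Algebra.trace_prod_apply]
    simpa

/-- If the dimension of `B ⧸ I` over the residue field `A ⧸ p` is non-zero in `A ⧸ p`
(e.g. if the residue field has characteristic zero), then `I` does not divide the different. -/
theorem h16_not_dvd_differentIdeal_of_isCoprime_of_finrank
    [Algebra.IsSeparable (FractionRing A) (FractionRing B)]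
    {p : Ideal A} [p.IsMaximal] (I Q : Ideal B) [I.LiesOver p]
    (hIQ : IsCoprime I Q) (hI : I * Q = Ideal.map (algebraMap A B) p)
    (h : ((Module.finrank (A ⧸ p) (B ⧸ I) : ℕ) : A ⧸ p) ≠ 0) :
    ¬ I ∣ differentIdeal A B := by
  refine h16_not_dvd_differentIdeal_of_isCoprime_of_trace_ne_zero A I Q hIQ hI 1 ?_
  have h1 : (1 : B ⧸ I) = algebraMap (A ⧸ p) (B ⧸ I) 1 := (map_one _).symm
  rw [h1, Algebra.trace_algebraMap]
  simpa using h

/-- In residue characteristic zero: `I` does not divide the different as soon as `I ≠ ⊤`. -/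
theorem h16_not_dvd_differentIdeal_of_isCoprime_of_charZero
    [Algebra.IsSeparable (FractionRing A) (FractionRing B)]
    {p : Ideal A} [p.IsMaximal] [CharZero (A ⧸ p)] (I Q : Ideal B) [I.LiesOver p]
    (hI1 : I ≠ ⊤)
    (hIQ : IsCoprime I Q) (hI : I * Q = Ideal.map (algebraMap A B) p) :
    ¬ I ∣ differentIdeal A B := by
  refine h16_not_dvd_differentIdeal_of_isCoprime_of_finrank A I Q hIQ hI ?_
  have : Module.Finite (A ⧸ p) (B ⧸ I) :=
    Module.Finite.of_restrictScalars_finite A (A ⧸ p) (B ⧸ I)
  have : Nontrivial (B ⧸ I) := Ideal.Quotient.nontrivial_iff.mpr hI1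
  have hpos : 0 < Module.finrank (A ⧸ p) (B ⧸ I) := Module.finrank_pos
  exact_mod_cast hpos.ne'

omit [Module.Finite A B] in
/-- The multiplicity of a prime `P` over `p ≠ ⊥` in `p B` is positive. -/
theorem h16_count_map_ne_zero {p : Ideal A} (hp : p ≠ ⊥)
    (P : Ideal B) [P.IsPrime] [P.LiesOver p] :
    (normalizedFactors (p.map (algebraMap A B))).count P ≠ 0 := by
  have hp' : p.map (algebraMap A B) ≠ ⊥ := Ideal.map_ne_bot_of_ne_bot hp
  have hPbot : P ≠ ⊥ := Ideal.ne_bot_of_liesOver_of_ne_bot hp P
  have hPle : p.map (algebraMap A B) ≤ P :=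
    Ideal.map_le_iff_le_comap.mpr (Ideal.over_def P p).le
  rw [Ne, Multiset.count_eq_zero, not_not]
  obtain ⟨q, hq, hq'⟩ := exists_mem_normalizedFactors_of_dvd hp'
    ((Ideal.prime_of_isPrime hPbot inferInstance).irreducible) (Ideal.dvd_iff_le.mpr hPle)
  rwa [associated_iff_eq.mp hq']

/-- **Tame different, non-divisibility**: in residue characteristic zero, `P ^ e ∤ 𝔇` where
`e` is the multiplicity of `P` in `p B`. -/
theorem h16_not_pow_count_dvd_differentIdeal
    [Algebra.IsSeparable (FractionRing A) (FractionRing B)]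
    {p : Ideal A} [p.IsMaximal] (hp : p ≠ ⊥) [CharZero (A ⧸ p)]
    (P : Ideal B) [P.IsPrime] [P.LiesOver p] :
    ¬ P ^ (normalizedFactors (p.map (algebraMap A B))).count P ∣ differentIdeal A B := by
  have hp' : p.map (algebraMap A B) ≠ ⊥ := Ideal.map_ne_bot_of_ne_bot hp
  have hPbot : P ≠ ⊥ := Ideal.ne_bot_of_liesOver_of_ne_bot hp P
  have hPmax : P.IsMaximal := Ideal.IsPrime.isMaximal inferInstance hPbot
  obtain ⟨Q, h₁, h₂⟩ := Ideal.eq_prime_pow_mul_coprime hp' P
  have he := h16_count_map_ne_zero A hp P
  set e := (normalizedFactors (p.map (algebraMap A B))).count P with he_def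
  have hdvd : P ^ e ∣ p.map (algebraMap A B) := ⟨Q, h₂⟩
  have : (P ^ e).LiesOver p := h16_pow_liesOver A P he hdvd
  have hcop : IsCoprime (P ^ e) Q := (Ideal.isCoprime_iff_sup_eq.mpr h₁).pow_left
  have htop : P ^ e ≠ ⊤ := fun h => hPmax.ne_top (by
    rw [_root_.eq_top_iff] at h ⊢
    exact h.trans (Ideal.pow_le_self he))
  exact h16_not_dvd_differentIdeal_of_isCoprime_of_charZero A (P ^ e) Q htop hcop h₂.symm

/-- **Tame different, residue characteristic zero**: the exact power of `P` dividing the
different ideal is `e - 1`, where `e` is the multiplicity of `P` in `p B`. -/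
theorem h16_count_differentIdeal
    [Algebra.IsSeparable (FractionRing A) (FractionRing B)]
    {p : Ideal A} [p.IsMaximal] (hp : p ≠ ⊥) [CharZero (A ⧸ p)]
    (P : Ideal B) [P.IsPrime] [P.LiesOver p] :
    (normalizedFactors (differentIdeal A B)).count P =
      (normalizedFactors (p.map (algebraMap A B))).count P - 1 := by
  have hp' : p.map (algebraMap A B) ≠ ⊥ := Ideal.map_ne_bot_of_ne_bot hp
  have hPbot : P ≠ ⊥ := Ideal.ne_bot_of_liesOver_of_ne_bot hp P
  have hPmax : P.IsMaximal := Ideal.IsPrime.isMaximal inferInstance hPbot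
  obtain ⟨Q, h₁, h₂⟩ := Ideal.eq_prime_pow_mul_coprime hp' P
  have hnot := h16_not_pow_count_dvd_differentIdeal A hp P
  have he := h16_count_map_ne_zero A hp P
  set e := (normalizedFactors (p.map (algebraMap A B))).count P with he_def
  have hdvd : P ^ e ∣ p.map (algebraMap A B) := ⟨Q, h₂⟩
  have h1 := pow_sub_one_dvd_differentIdeal A P e hp hdvd
  refine Ideal.count_normalizedFactors_eq (Ideal.dvd_iff_le.mp h1) ?_
  rw [Nat.sub_add_cancel (Nat.one_le_iff_ne_zero.mpr he)]
  exact fun h => hnot (Ideal.dvd_iff_le.mpr h)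

/-- Same with Mathlib's ramification index `P.ramificationIdx A`. -/
theorem h16_count_differentIdeal_eq_ramificationIdx_sub_one
    [Algebra.IsSeparable (FractionRing A) (FractionRing B)]
    {p : Ideal A} [p.IsMaximal] (hp : p ≠ ⊥) [CharZero (A ⧸ p)]
    (P : Ideal B) [P.IsPrime] [P.LiesOver p] :
    (normalizedFactors (differentIdeal A B)).count P = P.ramificationIdx A - 1 := by
  rw [h16_count_differentIdeal A hp P,
    Ideal.IsDedekindDomain.ramificationIdx_eq_normalizedFactors_count p P
      (Ideal.map_ne_bot_of_ne_bot hp)]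

end Fermat.Agent.S20.Tame
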