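import Mathlib
import Fermat.Agent.S20.H16_TameDifferent

/-!
# S20 [Br2] (V1) — the trace dual in valuation form (helper16)

Generic Dedekind theory (Mathlib + `H16_TameDifferent`).

* `h16_intValuation_le_of_mem`, `h16_exists_mem_intValuation_eq` : elements of an ideal `I` have
  `P`-adic valuation `≤ exp (- count P I)`, and the bound is attained.
* `h16_mem_inv_iff_valuation` : `u ∈ I⁻¹ ↔ ∀ P, v_P(u) ≤ exp (count P I)`.
* `h16_count_differentIdeal_int` : the exponent of `P` in the different is `e(P) - 1`
  (residue characteristic zero).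
* `h16_mem_dual_one_iff`, `h16_mem_traceDual_one_iff`, `h16_forall_trace_mem_iff` :
  `u ∈ B* ↔ ∀ P, v_P(u) ≤ exp (e(P) - 1)` for the trace dual `B*` of `B` over `A`.
-/

namespace Fermat.Agent.S20.Tame

open Ideal Algebra Module UniqueFactorizationMonoid IsDedekindDomain WithZero nonZeroDivisors

attribute [local instance] FractionRing.liftAlgebra FractionRing.isScalarTower_liftAlgebra
  Ideal.Quotient.field

section FracIdeal

variable {B : Type*} [CommRing B] [IsDedekindDomain B]

/-- Elements of an ideal have valuation at most `exp (- count)`. -/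
theorem h16_intValuation_le_of_mem (I : Ideal B) (P : HeightOneSpectrum B) {y : B}
    (hy : y ∈ I) :
    P.intValuation y ≤ exp (-((normalizedFactors I).count P.asIdeal : ℤ)) := by
  by_cases hI : I = ⊥
  · subst hI
    have : y = 0 := by simpa using hy
    simp [this]
  rw [HeightOneSpectrum.intValuation_le_pow_iff_mem]
  have hdvd : P.asIdeal ^ (normalizedFactors I).count P.asIdeal ∣ I := by
    obtain ⟨Q, -, hQ⟩ := Ideal.eq_prime_pow_mul_coprime hI P.asIdeal
    exact ⟨Q, hQ⟩
  exact Ideal.le_of_dvd hdvd hy

/-- Some element of a non-zero ideal attains the valuation `exp (- count)`. -/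
theorem h16_exists_mem_intValuation_eq (I : Ideal B) (hI : I ≠ ⊥) (P : HeightOneSpectrum B) :
    ∃ y ∈ I, P.intValuation y = exp (-((normalizedFactors I).count P.asIdeal : ℤ)) := by
  set n := (normalizedFactors I).count P.asIdeal with hn
  have hnot : ¬ I ≤ P.asIdeal ^ (n + 1) := by
    intro hle
    have hdvd : P.asIdeal ^ (n + 1) ∣ I := Ideal.dvd_iff_le.mpr hle
    have hirr : Irreducible P.asIdeal := P.irreducible
    have := (UniqueFactorizationMonoid.le_emultiplicity_iff_replicate_le_normalizedFactors
      (a := P.asIdeal) (b := I) (n := n + 1) hirr hI).mp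
      (le_emultiplicity_of_pow_dvd hdvd)
    have h2 := Multiset.count_le_of_le P.asIdeal this
    rw [normalize_eq, Multiset.count_replicate_self] at h2
    omega
  obtain ⟨y, hyI, hyP⟩ := Set.not_subset.mp hnot
  refine ⟨y, hyI, le_antisymm (h16_intValuation_le_of_mem I P hyI) ?_⟩
  by_contra hlt
  rw [not_le] at hlt
  apply hyP
  rw [SetLike.mem_coe, ← HeightOneSpectrum.intValuation_le_pow_iff_mem]
  have hy0 : y ≠ 0 := by
    rintro rfl
    exact hyP (Ideal.zero_mem _)
  obtain ⟨m, hm⟩ : ∃ m : ℤ, P.intValuation y = exp m := by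
    have : P.intValuation y ≠ 0 := P.intValuation_ne_zero y hy0
    exact ⟨WithZero.log (P.intValuation y), (WithZero.exp_log this).symm⟩
  rw [hm, exp_lt_exp] at hlt
  rw [hm, exp_le_exp]
  push_cast
  omega

variable (L : Type*) [Field L] [Algebra B L] [IsFractionRing B L]

/-- **Valuation description of the inverse of an integral ideal** of a Dedekind domain. -/
theorem h16_mem_inv_iff_valuation (I : Ideal B) (hI : I ≠ ⊥) (u : L) :
    u ∈ ((I : FractionalIdeal B⁰ L))⁻¹ ↔
      ∀ P : HeightOneSpectrum B,
        P.valuation L u ≤ exp ((normalizedFactors I).count P.asIdeal : ℤ) := by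
  have hI' : (I : FractionalIdeal B⁰ L) ≠ 0 := by
    simpa using hI
  rw [FractionalIdeal.mem_inv_iff hI']
  constructor
  · intro h P
    obtain ⟨y, hyI, hy⟩ := h16_exists_mem_intValuation_eq I hI P
    have h1 := h (algebraMap B L y) (FractionalIdeal.mem_coeIdeal_of_mem _ hyI)
    rw [FractionalIdeal.mem_one_iff] at h1
    obtain ⟨z, hz⟩ := h1
    have h2 : P.valuation L (u * algebraMap B L y) ≤ 1 := by
      rw [← hz]; exact P.valuation_le_one z
    rw [map_mul, HeightOneSpectrum.valuation_of_algebraMap, hy] at h2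
    have h3 : P.valuation L u = P.valuation L u * exp (-((normalizedFactors I).count P.asIdeal : ℤ))
        * exp ((normalizedFactors I).count P.asIdeal : ℤ) := by
      rw [mul_assoc, ← exp_add]; simp
    rw [h3]
    calc _ ≤ 1 * exp ((normalizedFactors I).count P.asIdeal : ℤ) := by gcongr
      _ = _ := one_mul _
  · intro h y hy
    obtain ⟨y0, hy0, rfl⟩ := (FractionalIdeal.mem_coeIdeal _).mp hy
    rw [FractionalIdeal.mem_one_iff]
    have := HeightOneSpectrum.mem_integers_of_valuation_le_one (R := B) (K := L)
      (u * algebraMap B L y0) ?_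
    · obtain ⟨z, hz⟩ := this
      exact ⟨z, hz⟩
    intro P
    rw [map_mul, HeightOneSpectrum.valuation_of_algebraMap]
    calc P.valuation L u * P.intValuation y0
        ≤ exp ((normalizedFactors I).count P.asIdeal : ℤ) *
          exp (-((normalizedFactors I).count P.asIdeal : ℤ)) := by
          gcongr
          · exact h P
          · exact h16_intValuation_le_of_mem I P hy0
      _ = 1 := by rw [← exp_add]; simp

end FracIdeal

section CountInt

variable (A : Type*) {B : Type*} [CommRing A] [CommRing B] [Algebra A B]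
  [IsDedekindDomain A] [IsDedekindDomain B] [Module.IsTorsionFree A B] [Module.Finite A B]

/-- The exponent of `P` in the different is `e(P) - 1` (as an integer), in residue
characteristic zero. -/
theorem h16_count_differentIdeal_int
    [Algebra.IsSeparable (FractionRing A) (FractionRing B)]
    (hchar : ∀ p : Ideal A, p.IsMaximal → p ≠ ⊥ → CharZero (A ⧸ p))
    (P : HeightOneSpectrum B) :
    ((normalizedFactors (differentIdeal A B)).count P.asIdeal : ℤ) =
      (P.asIdeal.ramificationIdx A : ℤ) - 1 := by
  have hp0 : P.asIdeal.under A ≠ ⊥ := Ideal.under_ne_bot A P.ne_bot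
  have hpmax : (P.asIdeal.under A).IsMaximal :=
    Ideal.IsPrime.isMaximal inferInstance hp0
  have hcz : CharZero (A ⧸ P.asIdeal.under A) := hchar _ hpmax hp0
  have hpos : 0 < P.asIdeal.ramificationIdx A := Ideal.ramificationIdx_pos _ _
  rw [h16_count_differentIdeal_eq_ramificationIdx_sub_one A hp0 P.asIdeal]
  omega

end CountInt

section Dual

variable (A K : Type*) {L B : Type*} [CommRing A] [Field K] [CommRing B] [Field L]
  [Algebra A K] [Algebra B L] [Algebra A B] [Algebra K L] [Algebra A L]
  [IsScalarTower A K L] [IsScalarTower A B L]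
  [IsFractionRing A K] [IsFractionRing B L] [IsDedekindDomain A] [IsDedekindDomain B]
  [Module.IsTorsionFree A B] [Module.Finite A B]
  [FiniteDimensional K L] [Algebra.IsSeparable K L]

/-- **Trace dual in valuation form** (tame case): `u` lies in the trace dual `A* = 𝔇⁻¹` of `B`
iff `v_P(u) ≥ -(e(P) - 1)` for all height-one primes `P` of `B`. -/
theorem h16_mem_dual_one_iff
    (hchar : ∀ p : Ideal A, p.IsMaximal → p ≠ ⊥ → CharZero (A ⧸ p)) (u : L) :
    u ∈ FractionalIdeal.dual A K (1 : FractionalIdeal B⁰ L) ↔
      ∀ P : HeightOneSpectrum B,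
        P.valuation L u ≤ exp ((P.asIdeal.ramificationIdx A : ℤ) - 1) := by
  have hsep : Algebra.IsSeparable (FractionRing A) (FractionRing B) :=
    h16_isSeparable_fractionRing A K L B
  have hD : differentIdeal A B ≠ ⊥ := differentIdeal_ne_bot
  have h1 : FractionalIdeal.dual A K (1 : FractionalIdeal B⁰ L) =
      ((differentIdeal A B : Ideal B) : FractionalIdeal B⁰ L)⁻¹ := by
    rw [coeIdeal_differentIdeal A K L B, inv_inv]
  rw [h1, h16_mem_inv_iff_valuation L _ hD]
  refine forall_congr' fun P => ?_
  rw [h16_count_differentIdeal_int A hchar P]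

/-- The same, with the trace dual unfolded. -/
theorem h16_forall_trace_mem_iff
    (hchar : ∀ p : Ideal A, p.IsMaximal → p ≠ ⊥ → CharZero (A ⧸ p)) (u : L) :
    (∀ b : B, Algebra.trace K L (u * algebraMap B L b) ∈ (algebraMap A K).range) ↔
      ∀ P : HeightOneSpectrum B,
        P.valuation L u ≤ exp ((P.asIdeal.ramificationIdx A : ℤ) - 1) := by
  rw [← h16_mem_dual_one_iff A K hchar u, FractionalIdeal.mem_dual (one_ne_zero' (FractionalIdeal B⁰ L))]
  constructor
  · intro h a ha
    obtain ⟨b, rfl⟩ := (FractionalIdeal.mem_one_iff _).mp ha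
    exact h b
  · intro h b
    exact h _ ((FractionalIdeal.mem_one_iff _).mpr ⟨b, rfl⟩)

/-- The same for `Submodule.traceDual`. -/
theorem h16_mem_traceDual_one_iff
    (hchar : ∀ p : Ideal A, p.IsMaximal → p ≠ ⊥ → CharZero (A ⧸ p)) (u : L) :
    u ∈ Submodule.traceDual A K (1 : Submodule B L) ↔
      ∀ P : HeightOneSpectrum B,
        P.valuation L u ≤ exp ((P.asIdeal.ramificationIdx A : ℤ) - 1) := by
  rw [← h16_mem_dual_one_iff A K hchar u, ← FractionalIdeal.coe_dual_one A K L B,
    FractionalIdeal.mem_coe]

end Dual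

end Fermat.Agent.S20.Tame
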