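import Fermat.Agent.S20.H22_DictInf
import Fermat.Agent.S20.H16_DualVal

/-!
# S20, BRIDGE [Br2b] (helper16): the trace dual of `B = integralClosure (Oinf K) F` in place form

`u ∈ B*` iff `ord_v (u) ≥ -(e_v - 1)` at all places `v` over infinity, where `e_v = - ord_v x`:

* `h16_mem_Bdual_iff_valuation` : `u ∈ Bdual K F ↔ ∀ P, P.valuation F u ≤ exp (e_P - 1)`;
* `h16_mem_Bdual_iff_ord_placeOfPrime` : the same with `(placeOfPrime K P).ord u`;
* `h16_mem_Bdual_iff_places` : literally the hypothesis `hBr2b` of `RRA.alg_main_rat_of_leaves`.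

Inputs: `Tame.h16_forall_trace_mem_iff` (`H16_DualVal`) and helper22's dictionary at infinity
(`H22_DictInf`: instances for the integral closure, places with a pole of `x` <-> primes,
`e_P = - ord_P x`).
-/

set_option autoImplicit false
set_option linter.unusedSectionVars false
set_option linter.style.haveILetI false

namespace Fermat.Agent.S20.Tame

open Polynomial IsDedekindDomain AlgebraicCurve WithZero
open Fermat.Agent.S24.Alg Fermat.Agent.S20.Alg Fermat.Agent.S20.H22

variable (K : Type*) [Field K] [DecidableEq (RatFunc K)]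
  (F : Type*) [Field F] [Algebra (RatFunc K) F] [Algebra K[X] F]
  [IsScalarTower K[X] (RatFunc K) F] [Algebra K F] [IsScalarTower K (RatFunc K) F]
  [FiniteDimensional (RatFunc K) F] [CharZero K]

attribute [local instance] h22_algebraOinf h22_isScalarTower_Oinf_ratFunc h22_isScalarTower_Oinf

omit [DecidableEq (RatFunc K)] in
/-- The residue field of the valuation ring at infinity has characteristic zero. -/
theorem h16_charZero_quotient_Oinf [DecidableEq (RatFunc K)] (p : Ideal (DW.Oinf K))
    (hp : p.IsMaximal) : CharZero (DW.Oinf K ⧸ p) := by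
  haveI : Nontrivial (DW.Oinf K ⧸ p) := Ideal.Quotient.nontrivial_iff.mpr hp.ne_top
  exact charZero_of_injective_algebraMap (algebraMap K (DW.Oinf K ⧸ p)).injective

/-- **[L4v], infinite part**: `B*` in valuation form. -/
theorem h16_mem_Bdual_iff_valuation (u : F) :
    u ∈ Bdual K F ↔ ∀ P : HeightOneSpectrum (integralClosure (DW.Oinf K) F),
      P.valuation F u ≤ exp ((P.asIdeal.ramificationIdx (DW.Oinf K) : ℤ) - 1) := by
  rw [← h16_forall_trace_mem_iff (DW.Oinf K) (RatFunc K) (L := F)
    (B := integralClosure (DW.Oinf K) F) (fun p hp _ => h16_charZero_quotient_Oinf K p hp) u,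
    mem_Bdual]
  constructor
  · intro h b
    rw [DW.range_algebraMap_Oinf]
    exact h _ b.2
  · intro h a ha
    have := h ⟨a, ha⟩
    rwa [DW.range_algebraMap_Oinf] at this

/-- `B*` in terms of the places attached to the primes of `B1`. -/
theorem h16_mem_Bdual_iff_ord_placeOfPrime (u : F) (hu : u ≠ 0) :
    u ∈ Bdual K F ↔ ∀ P : HeightOneSpectrum (integralClosure (DW.Oinf K) F),
      0 ≤ (placeOfPrime K P (F := F)).ord u + (P.asIdeal.ramificationIdx (DW.Oinf K) : ℤ) - 1 := by
  rw [h16_mem_Bdual_iff_valuation]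
  refine forall_congr' fun P => ?_
  have hv : P.valuation F u ≠ 0 := (Valuation.ne_zero_iff _).mpr hu
  rw [ord_placeOfPrime, ← log_le_iff_le_exp hv]
  constructor <;> intro h <;> linarith

/-- **[Br2b]** the trace dual of `B` in place form (= `hBr2b` of `alg_main_rat_of_leaves`). -/
theorem h16_mem_Bdual_iff_places (u : F) (hu : u ≠ 0) :
    u ∈ Bdual K F ↔ ∀ v : Place K F, v.ord (xF K F) < 0 →
      0 ≤ v.ord u - v.ord (xF K F) - 1 := by
  rw [h16_mem_Bdual_iff_ord_placeOfPrime K F u hu]
  constructor
  · intro h v hv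
    obtain ⟨P, rfl⟩ := (h22_ord_neg_iff_exists_prime v).mp hv
    have := h P
    rw [h22_ramificationIdx_eq_neg_ord P] at this
    linarith
  · intro h P
    have hneg : (placeOfPrime K P (F := F)).ord (xF K F) < 0 :=
      (h22_ord_neg_iff_exists_prime _).mpr ⟨P, rfl⟩
    have := h (placeOfPrime K P) hneg
    rw [h22_ramificationIdx_eq_neg_ord P]
    linarith

end Fermat.Agent.S20.Tame
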