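import Mathlib

/-!
# S20 [L4f-fib] — fibre sums of `e - 1` (helper16)

Generic Dedekind theory, Mathlib only.  `A0 ⊆ A1` Dedekind domains, `A1` finite and torsion-free
over `A0`, `n = Module.finrank A0 A1` (`= [Frac A1 : Frac A0]`, Mathlib `IsFractionRing.finrank_eq`).

* `h16_fibreEquiv` : the height-one primes of `A1` above `p ≠ ⊥` are `p.primesOver A1`.
* `h16_sum_ramificationIdx_eq_finrank`, `h16_sum_ramificationIdx_sub_one`,
  `h16_card_primesOver_le`, `h16_ramificationIdx_eq_one_of_card` : the fundamental identity with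
  all inertia degrees one, fibrewise: `∑_{q | p} (e_q - 1) = n - #{q | p}`.
* `h16_finsum_ramificationIdx_sub_one` (and `_index`) : the global count
  `∑ᶠ P, (e_P - 1) = ∑_{p ∈ S} (n - #{q | p})` for every finite set `S` of non-zero primes of `A0`
  containing those with fewer than `n` primes above them.
* `h16_inertiaDeg_eq_one` : all inertia degrees are one when the residue fields of `A0` are an
  algebraically closed field `K`.
-/

namespace Fermat.Agent.S20.Tame

open Ideal Module IsDedekindDomain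

variable (A0 : Type*) {A1 : Type*} [CommRing A0] [CommRing A1] [Algebra A0 A1]
  [IsDedekindDomain A0] [IsDedekindDomain A1] [Module.IsTorsionFree A0 A1] [Module.Finite A0 A1]

/-- The height-one primes of `A1` above a non-zero prime `p` of `A0` are the primes over `p`. -/
noncomputable def h16_fibreEquiv {p : Ideal A0} (hp : p ≠ ⊥) :
    {P : HeightOneSpectrum A1 // P.asIdeal.under A0 = p} ≃ p.primesOver A1 where
  toFun P := ⟨P.1.asIdeal, P.1.isPrime, ⟨P.2.symm⟩⟩
  invFun q := ⟨⟨q.1, q.2.1, Ideal.ne_bot_of_mem_primesOver hp q.2⟩, (q.2.2.over).symm⟩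
  left_inv _ := rfl
  right_inv _ := rfl

theorem h16_fibre_finite (p : Ideal A0) [p.IsMaximal] (hp : p ≠ ⊥) :
    {P : HeightOneSpectrum A1 | P.asIdeal.under A0 = p}.Finite := by
  have : Finite {P : HeightOneSpectrum A1 // P.asIdeal.under A0 = p} :=
    Finite.of_equiv _ (h16_fibreEquiv A0 hp).symm
  exact Set.finite_coe_iff.mp this

/-- With all inertia degrees over `p` equal to one: `∑_{q | p} e_q = n`. -/
theorem h16_sum_ramificationIdx_eq_finrank (p : Ideal A0) [p.IsMaximal]
    (hf : ∀ q : p.primesOver A1, q.1.inertiaDeg A0 = 1) :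
    ∑ q : p.primesOver A1, q.1.ramificationIdx A0 = Module.finrank A0 A1 := by
  rw [← Ideal.sum_ramification_inertia_eq_finrank p A1]
  refine Finset.sum_congr rfl fun q _ => ?_
  rw [hf q, mul_one]

/-- With all inertia degrees over `p` equal to one: `∑_{q | p} (e_q - 1) = n - #{q | p}`. -/
theorem h16_sum_ramificationIdx_sub_one (p : Ideal A0) [p.IsMaximal]
    (hf : ∀ q : p.primesOver A1, q.1.inertiaDeg A0 = 1) :
    ∑ q : p.primesOver A1, (q.1.ramificationIdx A0 - 1) =
      Module.finrank A0 A1 - Nat.card (p.primesOver A1) := by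
  have h1 := h16_sum_ramificationIdx_eq_finrank A0 p hf
  have h2 : ∑ q : p.primesOver A1, q.1.ramificationIdx A0 =
      ∑ q : p.primesOver A1, (q.1.ramificationIdx A0 - 1) + Nat.card (p.primesOver A1) := by
    rw [Nat.card_eq_fintype_card, ← Finset.card_univ, Finset.card_eq_sum_ones,
      ← Finset.sum_add_distrib]
    refine Finset.sum_congr rfl fun q _ => ?_
    have : 0 < q.1.ramificationIdx A0 := Ideal.ramificationIdx_pos _ _
    omega
  omega

/-- The number of primes over `p` is at most the degree. -/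
theorem h16_card_primesOver_le (p : Ideal A0) [p.IsMaximal]
    (hf : ∀ q : p.primesOver A1, q.1.inertiaDeg A0 = 1) :
    Nat.card (p.primesOver A1) ≤ Module.finrank A0 A1 := by
  rw [← h16_sum_ramificationIdx_eq_finrank A0 p hf, Nat.card_eq_fintype_card, ← Finset.card_univ,
    Finset.card_eq_sum_ones]
  refine Finset.sum_le_sum fun q _ => ?_
  exact Ideal.ramificationIdx_pos _ _

/-- If there are `n` primes over `p`, then `p` is unramified. -/
theorem h16_ramificationIdx_eq_one_of_card (p : Ideal A0) [p.IsMaximal]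
    (hf : ∀ q : p.primesOver A1, q.1.inertiaDeg A0 = 1)
    (hcard : Nat.card (p.primesOver A1) = Module.finrank A0 A1) (q : p.primesOver A1) :
    q.1.ramificationIdx A0 = 1 := by
  have h := h16_sum_ramificationIdx_sub_one A0 p hf
  rw [hcard, Nat.sub_self] at h
  have := (Finset.sum_eq_zero_iff.mp h) q (Finset.mem_univ q)
  have hpos : 0 < q.1.ramificationIdx A0 := Ideal.ramificationIdx_pos _ _
  omega

omit [Module.IsTorsionFree A0 A1] in
/-- The prime of `A0` below a height-one prime of `A1` is maximal and non-zero. -/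
theorem h16_under_isMaximal (P : HeightOneSpectrum A1) :
    (P.asIdeal.under A0).IsMaximal ∧ P.asIdeal.under A0 ≠ ⊥ := by
  have hp0 : P.asIdeal.under A0 ≠ ⊥ := Ideal.under_ne_bot A0 P.ne_bot
  exact ⟨Ideal.IsPrime.isMaximal inferInstance hp0, hp0⟩

/-- The sum of `e - 1` over a fibre, as a sum over a finset of height-one primes. -/
theorem h16_sum_fibre (p : Ideal A0) [p.IsMaximal] (hp : p ≠ ⊥)
    (hf : ∀ P : HeightOneSpectrum A1, P.asIdeal.inertiaDeg A0 = 1)
    (T : Finset (HeightOneSpectrum A1)) (hT : ∀ P, P ∈ T ↔ P.asIdeal.under A0 = p) :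
    ∑ P ∈ T, (P.asIdeal.ramificationIdx A0 - 1) =
      Module.finrank A0 A1 - Nat.card (p.primesOver A1) := by
  classical
  have hf' : ∀ q : p.primesOver A1, q.1.inertiaDeg A0 = 1 := fun q =>
    hf ((h16_fibreEquiv A0 hp).symm q).1
  rw [← h16_sum_ramificationIdx_sub_one A0 p hf']
  let : Fintype {P : HeightOneSpectrum A1 // P.asIdeal.under A0 = p} :=
    Fintype.ofEquiv _ (h16_fibreEquiv A0 hp).symm
  rw [Finset.sum_subtype T hT (fun P => P.asIdeal.ramificationIdx A0 - 1)]
  exact Fintype.sum_equiv (h16_fibreEquiv A0 hp) _ _ (fun _ => rfl)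

/-- **Fibre sums**: if all inertia degrees are one and `S` is a finite set of non-zero primes of
`A0` containing all primes with fewer than `n` primes above them, then
`∑_P (e_P - 1) = ∑_{p ∈ S} (n - #{primes over p})`. -/
theorem h16_finsum_ramificationIdx_sub_one
    (hf : ∀ P : HeightOneSpectrum A1, P.asIdeal.inertiaDeg A0 = 1)
    (S : Finset (Ideal A0)) (hSmax : ∀ p ∈ S, p.IsMaximal ∧ p ≠ ⊥)
    (hS : ∀ p : Ideal A0, p.IsMaximal → p ≠ ⊥ → p ∉ S →
      Nat.card (p.primesOver A1) = Module.finrank A0 A1) :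
    ∑ᶠ P : HeightOneSpectrum A1, (P.asIdeal.ramificationIdx A0 - 1) =
      ∑ p ∈ S, (Module.finrank A0 A1 - Nat.card (p.primesOver A1)) := by
  classical
  -- the finite set of primes above `S`
  have hfin : {P : HeightOneSpectrum A1 | P.asIdeal.under A0 ∈ S}.Finite := by
    have : {P : HeightOneSpectrum A1 | P.asIdeal.under A0 ∈ S} =
        ⋃ p ∈ S, {P : HeightOneSpectrum A1 | P.asIdeal.under A0 = p} := by
      ext P; simp
    rw [this]
    refine Set.Finite.biUnion S.finite_toSet fun p hp => ?_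
    have := (hSmax p hp).1
    exact h16_fibre_finite A0 p (hSmax p hp).2
  set T := hfin.toFinset with hTdef
  have hTmem : ∀ P, P ∈ T ↔ P.asIdeal.under A0 ∈ S := fun P => by
    rw [hTdef, Set.Finite.mem_toFinset]; rfl
  have hsupp : Function.support (fun P : HeightOneSpectrum A1 =>
      P.asIdeal.ramificationIdx A0 - 1) ⊆ T := by
    intro P hP
    rw [Function.mem_support] at hP
    rw [Finset.mem_coe, hTmem]
    by_contra hnot
    obtain ⟨hmax, hne⟩ := h16_under_isMaximal A0 P
    have := hmax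
    have hcard := hS _ hmax hne hnot
    have hf' : ∀ q : (P.asIdeal.under A0).primesOver A1, q.1.inertiaDeg A0 = 1 := fun q =>
      hf ((h16_fibreEquiv A0 hne).symm q).1
    have := h16_ramificationIdx_eq_one_of_card A0 _ hf' hcard
      (h16_fibreEquiv A0 hne ⟨P, rfl⟩)
    apply hP
    have h2 : P.asIdeal.ramificationIdx A0 = 1 := this
    omega
  rw [finsum_eq_sum_of_support_subset _ hsupp]
  rw [← Finset.sum_fiberwise_of_maps_to (g := fun P : HeightOneSpectrum A1 => P.asIdeal.under A0)
    (t := S) (fun P hP => (hTmem P).mp hP)]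
  refine Finset.sum_congr rfl fun p hp => ?_
  have := (hSmax p hp).1
  refine h16_sum_fibre A0 p (hSmax p hp).2 hf _ fun P => ?_
  rw [Finset.mem_filter, hTmem]
  constructor
  · exact fun h => h.2
  · intro h
    exact ⟨h ▸ hp, h⟩

/-- Indexed version (e.g. `ι = K`, `p c = span {X - C c}`). -/
theorem h16_finsum_ramificationIdx_sub_one_index
    (hf : ∀ P : HeightOneSpectrum A1, P.asIdeal.inertiaDeg A0 = 1)
    {ι : Type*} (S : Finset ι) (p : ι → Ideal A0) (hinj : Set.InjOn p S)
    (hmax : ∀ i ∈ S, (p i).IsMaximal ∧ p i ≠ ⊥)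
    (hS : ∀ q : Ideal A0, q.IsMaximal → q ≠ ⊥ → (∀ i ∈ S, q ≠ p i) →
      Nat.card (q.primesOver A1) = Module.finrank A0 A1) :
    ∑ᶠ P : HeightOneSpectrum A1, (P.asIdeal.ramificationIdx A0 - 1) =
      ∑ i ∈ S, (Module.finrank A0 A1 - Nat.card ((p i).primesOver A1)) := by
  classical
  rw [h16_finsum_ramificationIdx_sub_one A0 hf (S.image p)]
  · rw [Finset.sum_image]
    exact fun i hi j hj h => hinj hi hj h
  · intro q hq
    obtain ⟨i, hi, rfl⟩ := Finset.mem_image.mp hq
    exact hmax i hi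
  · intro q hqmax hq0 hq
    refine hS q hqmax hq0 fun i hi h => hq ?_
    rw [h]
    exact Finset.mem_image_of_mem p hi

omit [Module.IsTorsionFree A0 A1] in
/-- Over an algebraically closed base field `K` such that the residue fields of `A0` are `K`,
all inertia degrees of `A1 / A0` are one. -/
theorem h16_inertiaDeg_eq_one (K : Type*) [Field K] [IsAlgClosed K]
    [Algebra K A0] [Algebra K A1] [IsScalarTower K A0 A1]
    (hres : ∀ p : Ideal A0, p.IsMaximal → Function.Surjective (algebraMap K (A0 ⧸ p)))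
    (P : HeightOneSpectrum A1) : P.asIdeal.inertiaDeg A0 = 1 := by
  have hp0 : P.asIdeal.under A0 ≠ ⊥ := Ideal.under_ne_bot A0 P.ne_bot
  have hpmax : (P.asIdeal.under A0).IsMaximal := Ideal.IsPrime.isMaximal inferInstance hp0
  have hPmax : P.asIdeal.IsMaximal := P.isMaximal
  set p := P.asIdeal.under A0 with hp
  rw [Ideal.inertiaDeg_eq_of_isMaximal p P.asIdeal]
  let : Field (A0 ⧸ p) := Ideal.Quotient.field p
  let : Field (A1 ⧸ P.asIdeal) := Ideal.Quotient.field P.asIdeal
  have hint1 : Algebra.IsIntegral K (A0 ⧸ p) := Algebra.isIntegral_of_surjective (hres p hpmax)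
  have hfin : Module.Finite (A0 ⧸ p) (A1 ⧸ P.asIdeal) :=
    Module.Finite.of_restrictScalars_finite A0 _ _
  have hint2 : Algebra.IsIntegral (A0 ⧸ p) (A1 ⧸ P.asIdeal) := inferInstance
  have hint : Algebra.IsIntegral K (A1 ⧸ P.asIdeal) :=
    Algebra.IsIntegral.trans (R := K) (A := A0 ⧸ p) (B := A1 ⧸ P.asIdeal)
  have hbij : Function.Bijective (algebraMap K (A1 ⧸ P.asIdeal)) :=
    IsAlgClosed.algebraMap_bijective_of_isIntegral
  have hsurj : Function.Surjective (algebraMap (A0 ⧸ p) (A1 ⧸ P.asIdeal)) := by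
    intro y
    obtain ⟨c, rfl⟩ := hbij.2 y
    exact ⟨algebraMap K (A0 ⧸ p) c, (IsScalarTower.algebraMap_apply K (A0 ⧸ p) _ c).symm⟩
  have hbij' : Function.Bijective (algebraMap (A0 ⧸ p) (A1 ⧸ P.asIdeal)) :=
    ⟨(algebraMap (A0 ⧸ p) (A1 ⧸ P.asIdeal)).injective, hsurj⟩
  let e : (A0 ⧸ p) ≃ₗ[A0 ⧸ p] (A1 ⧸ P.asIdeal) :=
    LinearEquiv.ofBijective (Algebra.linearMap (A0 ⧸ p) (A1 ⧸ P.asIdeal)) hbij'
  rw [← e.finrank_eq, Module.finrank_self]

end Fermat.Agent.S20.Tame
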