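import Fermat.Agent.S20.H3_DiffCount
import Fermat.Agent.S20.H16_TameDifferent

/-!
# S20 / [L4g]: the dual quotient in the pivot shape

`finrank_dual_quot`: for a Dedekind `K`-algebra `A0` (all residue fields `= K`, `K` algebraically
closed of characteristic zero), `F` finite separable over `K0 = Frac A0`, `M` the integral
closure of `A0` in `F` and `N` its trace dual (both given as `K`-subspaces of `F` by their
membership predicates):
`dim_K (N / M) = ∑ᶠ P, (e_P - 1)`, the sum over the height-one primes of `integralClosure A0 F`.
-/

set_option autoImplicit false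
set_option linter.style.haveILetI false

namespace Fermat.Agent.S20.L4c

open Module Ideal UniqueFactorizationMonoid nonZeroDivisors IsDedekindDomain

attribute [local instance] FractionRing.liftAlgebra FractionRing.isScalarTower_liftAlgebra
  Ideal.Quotient.field

section Finsum

variable {B : Type*} [CommRing B] [IsDedekindDomain B]

/-- The number of prime factors (with multiplicity) of a nonzero ideal of a Dedekind domain, as a
finite sum over the height-one spectrum. -/
theorem h3_card_normalizedFactors_eq_finsum (J : Ideal B) :
    Multiset.card (normalizedFactors J) =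
      ∑ᶠ P : HeightOneSpectrum B, (normalizedFactors J).count P.asIdeal := by
  classical
  let s : Finset (Ideal B) := (normalizedFactors J).toFinset
  have hs : ∀ I ∈ s, I.IsPrime ∧ I ≠ ⊥ := fun I hI => by
    have hI' := Multiset.mem_toFinset.mp hI
    have hprime := prime_of_normalized_factor I hI'
    exact ⟨Ideal.isPrime_of_prime hprime, hprime.ne_zero⟩
  let g : {I // I ∈ s} → HeightOneSpectrum B := fun I => ⟨I.1, (hs I.1 I.2).1, (hs I.1 I.2).2⟩
  have hg : Function.Injective g := fun I I' h => by
    have : (g I).asIdeal = (g I').asIdeal := by rw [h]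
    exact Subtype.ext this
  let T : Finset (HeightOneSpectrum B) := s.attach.image g
  have hsupp : (Function.support fun P : HeightOneSpectrum B =>
      (normalizedFactors J).count P.asIdeal) ⊆ ↑T := by
    intro P hP
    rw [Function.mem_support, Ne, Multiset.count_eq_zero, not_not] at hP
    have hPs : P.asIdeal ∈ s := Multiset.mem_toFinset.mpr hP
    rw [Finset.mem_coe, Finset.mem_image]
    exact ⟨⟨P.asIdeal, hPs⟩, Finset.mem_attach _ _, rfl⟩
  rw [finsum_eq_sum_of_support_subset _ hsupp, Finset.sum_image (fun I _ I' _ h => hg h)]
  rw [Finset.sum_attach s (fun I => (normalizedFactors J).count I)]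
  exact (Multiset.toFinset_sum_count_eq (normalizedFactors J)).symm

end Finsum

section Residue

variable {K A0 B : Type*} [Field K] [IsAlgClosed K] [CommRing A0] [CommRing B]
  [Algebra K A0] [Algebra A0 B] [Algebra K B] [IsScalarTower K A0 B]
  [Algebra.IsIntegral A0 B]

/-- If all residue fields of `A0` are `K` (algebraically closed) and `B` is integral over `A0`,
then all residue fields of `B` are one-dimensional over `K`. -/
theorem h3_rank_quot_eq_one_of_integral
    (hres : ∀ p : Ideal A0, p.IsMaximal → Function.Surjective (algebraMap K (A0 ⧸ p)))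
    (P : Ideal B) [hP : P.IsMaximal] : Module.rank K (B ⧸ P) = 1 := by
  have hp : (P.under A0).IsMaximal := Ideal.isMaximal_comap_of_isIntegral_of_isMaximal P
  have h1 : (algebraMap K (A0 ⧸ P.under A0)).IsIntegral :=
    RingHom.isIntegral_of_surjective _ (hres _ hp)
  have h2 : (algebraMap (A0 ⧸ P.under A0) (B ⧸ P)).IsIntegral :=
    fun x => Algebra.IsIntegral.isIntegral x
  have h3 := RingHom.IsIntegral.trans _ _ h1 h2
  have heq : (algebraMap (A0 ⧸ P.under A0) (B ⧸ P)).comp (algebraMap K (A0 ⧸ P.under A0)) =
      algebraMap K (B ⧸ P) := by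
    ext c
    simp only [RingHom.comp_apply]
    rw [IsScalarTower.algebraMap_apply K A0 (A0 ⧸ P.under A0), Ideal.Quotient.algebraMap_eq,
      Ideal.Quotient.algebraMap_mk_of_liesOver,
      IsScalarTower.algebraMap_apply K B (B ⧸ P), Ideal.Quotient.algebraMap_eq,
      ← IsScalarTower.algebraMap_apply K A0 B]
  rw [heq] at h3
  have : Algebra.IsIntegral K (B ⧸ P) := ⟨h3⟩
  exact h3_rank_quot_eq_one_of_isAlgClosed P

end Residue

section Main

variable (K A0 K0 F : Type*) [Field K] [CommRing A0] [IsDedekindDomain A0] [Algebra K A0]
  [Field K0] [Algebra A0 K0] [IsFractionRing A0 K0] [Field F] [Algebra K0 F] [Algebra A0 F]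
  [IsScalarTower A0 K0 F] [Algebra K F] [IsScalarTower K A0 F] [FiniteDimensional K0 F]
  [Algebra.IsSeparable K0 F]

omit [IsDedekindDomain A0] [FiniteDimensional K0 F] [Algebra.IsSeparable K0 F] in
include K0 in
theorem h3_faithfulSMul : FaithfulSMul A0 F := by
  rw [faithfulSMul_iff_algebraMap_injective, IsScalarTower.algebraMap_eq A0 K0 F]
  exact (algebraMap K0 F).injective.comp (IsFractionRing.injective A0 K0)

/-- **[L4g]** (generic count, pivot shape). Note the hypothesis `[IsAlgClosed K]`: without it the
residue degrees of the integral closure enter. -/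
theorem finrank_dual_quot [CharZero K] [IsAlgClosed K]
    (hres : ∀ p : Ideal A0, p.IsMaximal → Function.Surjective (algebraMap K (A0 ⧸ p)))
    (M N : Submodule K F) (hM : ∀ h, h ∈ M ↔ IsIntegral A0 h)
    (hN : ∀ h, h ∈ N ↔ ∀ a, IsIntegral A0 a →
      Algebra.trace K0 F (h * a) ∈ (algebraMap A0 K0).range) :
    Module.finrank K (↥N ⧸ M.submoduleOf N) =
      ∑ᶠ P : HeightOneSpectrum (integralClosure A0 F), (P.asIdeal.ramificationIdx A0 - 1) := by
  classical
  -- instances
  letI : Algebra K (integralClosure A0 F) :=
    ((algebraMap A0 (integralClosure A0 F)).comp (algebraMap K A0)).toAlgebra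
  haveI : IsScalarTower K A0 (integralClosure A0 F) := IsScalarTower.of_algebraMap_eq fun _ => rfl
  haveI : IsScalarTower K (integralClosure A0 F) F := IsScalarTower.of_algebraMap_eq fun c => by
    rw [IsScalarTower.algebraMap_apply K A0 F,
      IsScalarTower.algebraMap_apply A0 (integralClosure A0 F) F]
    rfl
  haveI : FaithfulSMul A0 F := h3_faithfulSMul A0 K0 F
  haveI : IsDedekindDomain (integralClosure A0 F) := integralClosure.isDedekindDomain A0 K0 F
  haveI : IsFractionRing (integralClosure A0 F) F :=
    integralClosure.isFractionRing_of_finite_extension K0 F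
  haveI : Module.Finite A0 (integralClosure A0 F) :=
    IsIntegralClosure.finite A0 K0 F (integralClosure A0 F)
  haveI : Algebra.IsIntegral A0 (integralClosure A0 F) :=
    IsIntegralClosure.isIntegral_algebra A0 F
  haveI : Algebra.IsSeparable (FractionRing A0) (FractionRing (integralClosure A0 F)) :=
    Tame.h16_isSeparable_fractionRing A0 K0 F (integralClosure A0 F)
  -- residue fields of the integral closure
  have hresB : ∀ P ∈ normalizedFactors (differentIdeal A0 (integralClosure A0 F)),
      Module.rank K ((integralClosure A0 F) ⧸ P) = 1 := fun P hP => by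
    have hprime := prime_of_normalized_factor P hP
    haveI : P.IsPrime := Ideal.isPrime_of_prime hprime
    haveI : P.IsMaximal := Ideal.IsPrime.isMaximal inferInstance hprime.ne_zero
    exact h3_rank_quot_eq_one_of_integral (A0 := A0) hres P
  -- step 1: the codifferent quotient
  have h1 := finrank_codifferent_quot K A0 K0 (L := F) (B := integralClosure A0 F) hresB
  -- step 2: bridge to the pivot shape
  have hone : ∀ x : F, x ∈ (1 : Submodule (integralClosure A0 F) F) ↔ IsIntegral A0 x := by
    intro x
    rw [Submodule.mem_one]
    constructor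
    · rintro ⟨b, rfl⟩
      exact b.2
    · intro hx
      exact ⟨⟨x, hx⟩, rfl⟩
  have h2 := h3_finrank_subquot_eq_of_coe_eq (k := K)
    (Submodule.traceDual A0 K0 (1 : Submodule (integralClosure A0 F) F))
    (1 : Submodule (integralClosure A0 F) F) N M
    (by
      ext x
      simp only [SetLike.mem_coe]
      rw [hN, Submodule.mem_traceDual]
      constructor
      · intro h a ha
        exact h a ((hone a).mpr ha)
      · intro h a ha
        exact h a ((hone a).mp ha))
    (by
      ext x
      simp only [SetLike.mem_coe]
      rw [hM, hone])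
  rw [show M.submoduleOf N = Submodule.comap N.subtype M from rfl, ← h2, h1,
    h3_card_normalizedFactors_eq_finsum]
  -- step 3: exact exponents
  refine finsum_congr fun P => ?_
  have hp0 : P.asIdeal.under A0 ≠ ⊥ := Ideal.under_ne_bot A0 P.ne_bot
  haveI : (P.asIdeal.under A0).IsMaximal :=
    Ideal.isMaximal_comap_of_isIntegral_of_isMaximal P.asIdeal
  haveI : CharZero (A0 ⧸ P.asIdeal.under A0) :=
    charZero_of_injective_algebraMap (algebraMap K (A0 ⧸ P.asIdeal.under A0)).injective
  exact Tame.h16_count_differentIdeal_eq_ramificationIdx_sub_one A0 hp0 P.asIdeal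

end Main

end Fermat.Agent.S20.L4c
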