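import Fermat.Agent.S20.Alg_Defs
import Fermat.Agent.S20.H3_DualQuot

/-!
# S20 / [L4f], finsum form: `codim A A*` and `codim B B*` as sums of `e_P - 1`

Specialisation of `L4c.finrank_dual_quot` to `A0 = K[X]` and `A0 = DW.Oinf K` on the objects of
`Alg_Defs` (`K` algebraically closed of characteristic zero):

* `h3_codim_Aint_eq_finsum` :
  `codim (Aint K F) (Adual K F) = ∑ᶠ P, (e_P - 1)` over the primes of `integralClosure K[X] F`;
* `h3_codim_Bint_eq_finsum` :
  `codim (Bint K F) (Bdual K F) = ∑ᶠ Q, (e_Q - 1)` over the primes of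
  `integralClosure (DW.Oinf K) F`;
* `h3_hres_poly`, `h3_hres_Oinf` : the residue fields of `K[X]` and of `DW.Oinf K` are `K`;
* `h3_exists_const_sub_lt` : every element of `DW.Oinf K` is a constant modulo the maximal ideal.
-/

set_option autoImplicit false
set_option linter.style.haveILetI false
set_option linter.unusedSectionVars false

namespace Fermat.Agent.S20.L4c

open Polynomial Module IsDedekindDomain

section Poly

variable (K : Type*) [Field K] [IsAlgClosed K]

/-- Over an algebraically closed field, all residue fields of `K[X]` are `K`. -/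
theorem h3_hres_poly (p : Ideal K[X]) (hp : p.IsMaximal) :
    Function.Surjective (algebraMap K (K[X] ⧸ p)) := by
  letI : Field (K[X] ⧸ p) := Ideal.Quotient.field p
  haveI : Module.Finite K (K[X] ⧸ p) := finite_of_finite_type_of_isJacobsonRing K (K[X] ⧸ p)
  haveI : Algebra.IsIntegral K (K[X] ⧸ p) := Algebra.IsIntegral.of_finite K (K[X] ⧸ p)
  exact (IsAlgClosed.algebraMap_bijective_of_isIntegral (k := K) (K := K[X] ⧸ p)).2

end Poly

section Codim

variable (K : Type*) [Field K] [DecidableEq (RatFunc K)]
  (F : Type*) [Field F] [Algebra (RatFunc K) F] [Algebra K[X] F]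
  [IsScalarTower K[X] (RatFunc K) F] [Algebra K F] [IsScalarTower K (RatFunc K) F]
  [FiniteDimensional (RatFunc K) F] [Algebra.IsSeparable (RatFunc K) F]
  [CharZero K] [IsAlgClosed K]

theorem h3_isScalarTower_poly : IsScalarTower K K[X] F :=
  IsScalarTower.of_algebraMap_eq fun c => Alg.algebraMap_K_eq_poly K F c

/-- **[L4f], finite part, finsum form.** -/
theorem h3_codim_Aint_eq_finsum :
    Alg.codim (Alg.Aint K F) (Alg.Adual K F) =
      ∑ᶠ P : HeightOneSpectrum (integralClosure K[X] F), (P.asIdeal.ramificationIdx K[X] - 1) := by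
  haveI := h3_isScalarTower_poly K F
  exact finrank_dual_quot K K[X] (RatFunc K) F (h3_hres_poly K) (Alg.Aint K F) (Alg.Adual K F)
    (fun _ => Iff.rfl) (fun _ => Iff.rfl)

end Codim

section Oinf

variable (K : Type*) [Field K] [DecidableEq (RatFunc K)]

theorem h3_algebraMap_mem_Oinf (c : K) : algebraMap K (RatFunc K) c ∈ DW.Oinf K := by
  rw [DW.mem_Oinf_iff]
  by_cases h : c = 0
  · simp [h]
  · rw [RatFunc.algebraMap_eq_C, RatFunc.inftyValuation.C K h]

/-- The `K`-algebra structure on the valuation ring at infinity. -/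
noncomputable def h3_ringHomOinf : K →+* DW.Oinf K :=
  (algebraMap K (RatFunc K)).codRestrict (DW.Oinf K).toSubring (h3_algebraMap_mem_Oinf K)

theorem h3_ringHomOinf_coe (c : K) :
    ((h3_ringHomOinf K c : DW.Oinf K) : RatFunc K) = algebraMap K (RatFunc K) c := rfl

/-- Every element of the valuation ring at infinity is congruent to a constant modulo the
maximal ideal. -/
theorem h3_exists_const_sub_lt (f : RatFunc K) (hf : RatFunc.inftyValuation K f ≤ 1) :
    ∃ c : K, RatFunc.inftyValuation K (f - algebraMap K (RatFunc K) c) < 1 := by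
  by_cases hf0 : f = 0
  · exact ⟨0, by simp [hf0]⟩
  have hv : RatFunc.inftyValuation K f = WithZero.exp f.intDegree :=
    RatFunc.inftyValuation_of_nonzero K hf0
  rw [hv] at hf
  have hdeg : f.intDegree ≤ 0 := by
    have := WithZero.exp_le_exp.mp (by simpa using hf : WithZero.exp f.intDegree ≤ WithZero.exp 0)
    exact this
  rcases lt_or_eq_of_le hdeg with hlt | heq
  · refine ⟨0, ?_⟩
    rw [map_zero, sub_zero, hv]
    have : WithZero.exp f.intDegree < WithZero.exp (0 : ℤ) := WithZero.exp_lt_exp.mpr hlt
    simpa using this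
  · -- degree zero
    have hnum : f.num ≠ 0 := RatFunc.num_ne_zero hf0
    have hden : f.denom ≠ 0 := RatFunc.denom_ne_zero f
    have hnd : f.num.natDegree = f.denom.natDegree := by
      have := heq
      rw [RatFunc.intDegree] at this
      omega
    set c : K := f.num.leadingCoeff / f.denom.leadingCoeff with hc
    have hc0 : c ≠ 0 := div_ne_zero (Polynomial.leadingCoeff_ne_zero.mpr hnum)
      (Polynomial.leadingCoeff_ne_zero.mpr hden)
    refine ⟨c, ?_⟩
    set g : K[X] := f.num - Polynomial.C c * f.denom with hg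
    have hfg : f - algebraMap K (RatFunc K) c =
        algebraMap K[X] (RatFunc K) g / algebraMap K[X] (RatFunc K) f.denom := by
      have hden' : algebraMap K[X] (RatFunc K) f.denom ≠ 0 :=
        (map_ne_zero_iff _ (IsFractionRing.injective K[X] (RatFunc K))).mpr hden
      have hnd' : f * algebraMap K[X] (RatFunc K) f.denom = algebraMap K[X] (RatFunc K) f.num := by
        have h := RatFunc.num_div_denom f
        rw [div_eq_iff hden'] at h
        exact h.symm
      rw [eq_div_iff hden', sub_mul, hg, map_sub, map_mul, hnd', RatFunc.algebraMap_eq_C,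
        RatFunc.algebraMap_C]
    by_cases hg0 : g = 0
    · rw [hfg, hg0, map_zero, zero_div, map_zero]
      exact zero_lt_one
    have hdeglt : g.degree < f.num.degree := by
      rw [hg]
      refine Polynomial.degree_sub_lt_left ?_ hnum ?_
      · rw [Polynomial.degree_C_mul hc0, Polynomial.degree_eq_natDegree hnum,
          Polynomial.degree_eq_natDegree hden, hnd]
      · rw [Polynomial.leadingCoeff_mul, Polynomial.leadingCoeff_C, hc,
          div_mul_cancel₀ _ (Polynomial.leadingCoeff_ne_zero.mpr hden)]
    have hnatlt : g.natDegree < f.denom.natDegree := by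
      rw [← hnd]
      exact Polynomial.natDegree_lt_natDegree hg0 hdeglt
    have hg' : algebraMap K[X] (RatFunc K) g ≠ 0 :=
      (map_ne_zero_iff _ (IsFractionRing.injective K[X] (RatFunc K))).mpr hg0
    have hden' : algebraMap K[X] (RatFunc K) f.denom ≠ 0 :=
      (map_ne_zero_iff _ (IsFractionRing.injective K[X] (RatFunc K))).mpr hden
    have hvg : RatFunc.inftyValuation K (algebraMap K[X] (RatFunc K) g) =
        WithZero.exp (g.natDegree : ℤ) := RatFunc.inftyValuation.polynomial K hg0
    have hvd : RatFunc.inftyValuation K (algebraMap K[X] (RatFunc K) f.denom) =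
        WithZero.exp (f.denom.natDegree : ℤ) := RatFunc.inftyValuation.polynomial K hden
    rw [hfg, map_div₀, hvg, hvd, ← WithZero.exp_sub]
    have : WithZero.exp ((g.natDegree : ℤ) - f.denom.natDegree) < WithZero.exp (0 : ℤ) :=
      WithZero.exp_lt_exp.mpr (by omega)
    simpa using this

end Oinf

section CodimInf

variable (K : Type*) [Field K] [DecidableEq (RatFunc K)]
  (F : Type*) [Field F] [Algebra (RatFunc K) F] [Algebra K[X] F]
  [IsScalarTower K[X] (RatFunc K) F] [Algebra K F] [IsScalarTower K (RatFunc K) F]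
  [FiniteDimensional (RatFunc K) F] [Algebra.IsSeparable (RatFunc K) F]
  [CharZero K] [IsAlgClosed K]

/-- The `K`-algebra structure on the valuation ring at infinity (a local instance only). -/
@[reducible] noncomputable def h3_algebraOinf : Algebra K (DW.Oinf K) :=
  (h3_ringHomOinf K).toAlgebra

attribute [local instance] h3_algebraOinf

/-- The residue field of the valuation ring at infinity is `K`. -/
theorem h3_hres_Oinf (p : Ideal (DW.Oinf K)) (hp : p.IsMaximal) :
    Function.Surjective (algebraMap K (DW.Oinf K ⧸ p)) := by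
  intro y
  obtain ⟨u, rfl⟩ := Ideal.Quotient.mk_surjective y
  obtain ⟨c, hc⟩ := h3_exists_const_sub_lt K (u : RatFunc K) u.2
  refine ⟨c, ?_⟩
  rw [IsScalarTower.algebraMap_apply K (DW.Oinf K) (DW.Oinf K ⧸ p), Ideal.Quotient.algebraMap_eq,
    Ideal.Quotient.eq, IsLocalRing.eq_maximalIdeal hp, Valuation.mem_maximalIdeal_iff]
  have : ((algebraMap K (DW.Oinf K) c - u : DW.Oinf K) : RatFunc K) =
      -((u : RatFunc K) - algebraMap K (RatFunc K) c) := by
    push_cast
    rw [neg_sub]
    rfl
  rw [this, Valuation.map_neg]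
  exact hc

/-- **[L4f], infinite part, finsum form.** -/
theorem h3_codim_Bint_eq_finsum :
    Alg.codim (Alg.Bint K F) (Alg.Bdual K F) =
      ∑ᶠ P : HeightOneSpectrum (integralClosure (DW.Oinf K) F),
        (P.asIdeal.ramificationIdx (DW.Oinf K) - 1) := by
  haveI : IsScalarTower K (DW.Oinf K) F := IsScalarTower.of_algebraMap_eq fun c => by
    rw [IsScalarTower.algebraMap_apply K (RatFunc K) F,
      IsScalarTower.algebraMap_apply (DW.Oinf K) (RatFunc K) F]
    rfl
  refine finrank_dual_quot K (DW.Oinf K) (RatFunc K) F (h3_hres_Oinf K) (Alg.Bint K F)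
    (Alg.Bdual K F) (fun _ => Iff.rfl) (fun h => ?_)
  rw [Alg.mem_Bdual]
  refine forall₂_congr fun a _ => ?_
  rw [DW.range_algebraMap_Oinf, DW.mem_Oinf_iff]

end CodimInf

end Fermat.Agent.S20.L4c
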