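import Fermat.Agent.S20.Alg_Counts
import Fermat.Agent.S20.H3_CodimSpec
import Fermat.Agent.S20.H16_FibreSum

/-!
# S20 [L4f] — `codim A A*` and `codim B B*` as fibre counts (helper16)

Final form of the tame different count on the objects of `Alg_Defs` / `Alg_Counts`
(`K` algebraically closed of characteristic zero, `F` finite separable over `RatFunc K`,
`n = finrank (RatFunc K) F`):

* `h16_codim_Aint` : `codim (Aint K F) (Adual K F) = ∑ c ∈ S, (n - rFin K F c)` for every finite
  `S` containing all `c` with `rFin K F c ≠ n`;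
* `h16_codim_Bint` : `codim (Bint K F) (Bdual K F) = n - rInf K F`;
* `h16_rFin_le`, `h16_rInf_le` : `rFin K F c ≤ n`, `rInf K F ≤ n`.

These are literally the hypotheses `hcodimA`, `hcodimB`, `hrF_le`, `hrI_le` of
`RRA.alg_main_rat_of_leaves` (with `rF := rFin K F`, `rI := rInf K F`).
Inputs: helper3's `L4c.h3_codim_Aint_eq_finsum` / `h3_codim_Bint_eq_finsum` (finsum form, which
contains the exact exponent `e - 1` of `H16_TameDifferent`) and the fibre sums of `H16_FibreSum`.
-/

set_option autoImplicit false
set_option linter.style.haveILetI false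
set_option linter.unusedSectionVars false

namespace Fermat.Agent.S20.Tame

open Polynomial Module IsDedekindDomain

section Poly

variable (K : Type*) [Field K]

theorem h16_span_X_sub_C_isMaximal (c : K) : (Ideal.span {X - C c} : Ideal K[X]).IsMaximal :=
  PrincipalIdealRing.isMaximal_of_irreducible (irreducible_X_sub_C c)

theorem h16_span_X_sub_C_ne_bot (c : K) : (Ideal.span {X - C c} : Ideal K[X]) ≠ ⊥ := by
  rw [Ne, Ideal.span_singleton_eq_bot]
  exact X_sub_C_ne_zero c

theorem h16_span_X_sub_C_injective :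
    Function.Injective (fun c : K => (Ideal.span {X - C c} : Ideal K[X])) := by
  intro c c' h
  have hmem : (X - C c' : K[X]) ∈ (Ideal.span {X - C c} : Ideal K[X]) := by
    have h' : (Ideal.span {X - C c} : Ideal K[X]) = Ideal.span {X - C c'} := h
    rw [h']
    exact Ideal.mem_span_singleton_self _
  rw [Ideal.mem_span_singleton, dvd_iff_isRoot] at hmem
  have : c - c' = 0 := by simpa using hmem
  exact sub_eq_zero.mp this

/-- Over an algebraically closed field every maximal ideal of `K[X]` is some `(X - c)`. -/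
theorem h16_exists_eq_span_X_sub_C [IsAlgClosed K] (q : Ideal K[X]) (hq : q.IsMaximal) :
    ∃ c : K, q = Ideal.span {X - C c} := by
  obtain ⟨c, hc⟩ := L4c.h3_hres_poly K q hq (Ideal.Quotient.mk q X)
  refine ⟨c, ?_⟩
  have hmem : (X - C c : K[X]) ∈ q := by
    rw [← Ideal.Quotient.eq_zero_iff_mem, map_sub, sub_eq_zero]
    rw [← hc]
    rfl
  have hle : (Ideal.span {X - C c} : Ideal K[X]) ≤ q :=
    (Ideal.span_singleton_le_iff_mem _).mpr hmem
  exact ((h16_span_X_sub_C_isMaximal K c).eq_of_le hq.ne_top hle).symm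

end Poly

section Fin

variable (K : Type*) [Field K] [DecidableEq (RatFunc K)]
  (F : Type*) [Field F] [Algebra (RatFunc K) F] [Algebra K[X] F]
  [IsScalarTower K[X] (RatFunc K) F] [Algebra K F] [IsScalarTower K (RatFunc K) F]
  [FiniteDimensional (RatFunc K) F] [Algebra.IsSeparable (RatFunc K) F]

/-- The rank of the integral closure of `K[X]` is the degree of `F` over `RatFunc K`. -/
theorem h16_finrank_integralClosure_poly :
    Module.finrank K[X] (integralClosure K[X] F) = Module.finrank (RatFunc K) F := by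
  haveI : IsFractionRing (integralClosure K[X] F) F :=
    integralClosure.isFractionRing_of_finite_extension (RatFunc K) F
  exact (IsFractionRing.finrank_eq K[X] (RatFunc K) (integralClosure K[X] F) F).symm

variable [CharZero K] [IsAlgClosed K]

/-- All inertia degrees of the integral closure of `K[X]` are one. -/
theorem h16_inertiaDeg_poly (P : HeightOneSpectrum (integralClosure K[X] F)) :
    P.asIdeal.inertiaDeg K[X] = 1 := by
  haveI := L4c.h3_isScalarTower_poly K F
  haveI : FaithfulSMul K[X] F := L4c.h3_faithfulSMul K[X] (RatFunc K) F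
  haveI : IsDedekindDomain (integralClosure K[X] F) :=
    integralClosure.isDedekindDomain K[X] (RatFunc K) F
  haveI : Module.Finite K[X] (integralClosure K[X] F) :=
    IsIntegralClosure.finite K[X] (RatFunc K) F (integralClosure K[X] F)
  exact h16_inertiaDeg_eq_one K[X] K (L4c.h3_hres_poly K) P

/-- `rFin ≤ n`. -/
theorem h16_rFin_le (c : K) : Alg.rFin K F c ≤ Module.finrank (RatFunc K) F := by
  haveI : FaithfulSMul K[X] F := L4c.h3_faithfulSMul K[X] (RatFunc K) F
  haveI : IsDedekindDomain (integralClosure K[X] F) :=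
    integralClosure.isDedekindDomain K[X] (RatFunc K) F
  haveI : Module.Finite K[X] (integralClosure K[X] F) :=
    IsIntegralClosure.finite K[X] (RatFunc K) F (integralClosure K[X] F)
  haveI := h16_span_X_sub_C_isMaximal K c
  rw [← h16_finrank_integralClosure_poly K F]
  refine h16_card_primesOver_le K[X] (Ideal.span {X - C c}) fun q => ?_
  exact h16_inertiaDeg_poly K F ((h16_fibreEquiv K[X] (h16_span_X_sub_C_ne_bot K c)).symm q).1

/-- **[L4f], finite part**: `codim A A* = ∑_{c ∈ S} (n - r_c)`. -/
theorem h16_codim_Aint (S : Finset K)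
    (hS : ∀ c, c ∉ S → Alg.rFin K F c = Module.finrank (RatFunc K) F) :
    Alg.codim (Alg.Aint K F) (Alg.Adual K F) =
      ∑ c ∈ S, (Module.finrank (RatFunc K) F - Alg.rFin K F c) := by
  haveI : FaithfulSMul K[X] F := L4c.h3_faithfulSMul K[X] (RatFunc K) F
  haveI : IsDedekindDomain (integralClosure K[X] F) :=
    integralClosure.isDedekindDomain K[X] (RatFunc K) F
  haveI : Module.Finite K[X] (integralClosure K[X] F) :=
    IsIntegralClosure.finite K[X] (RatFunc K) F (integralClosure K[X] F)
  rw [L4c.h3_codim_Aint_eq_finsum K F,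
    h16_finsum_ramificationIdx_sub_one_index K[X] (h16_inertiaDeg_poly K F) S
      (fun c => (Ideal.span {X - C c} : Ideal K[X]))
      ((h16_span_X_sub_C_injective K).injOn)
      (fun c _ => ⟨h16_span_X_sub_C_isMaximal K c, h16_span_X_sub_C_ne_bot K c⟩) ?_]
  · rw [h16_finrank_integralClosure_poly K F]
    rfl
  · intro q hq _ hne
    obtain ⟨c, rfl⟩ := h16_exists_eq_span_X_sub_C K q hq
    have hc : c ∉ S := fun hc => hne c hc rfl
    rw [h16_finrank_integralClosure_poly K F, ← hS c hc]
    rfl

end Fin

section Inf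

variable (K : Type*) [Field K] [DecidableEq (RatFunc K)]

/-- The valuation ring at infinity is not a field. -/
theorem h16_maximalIdeal_Oinf_ne_bot : IsLocalRing.maximalIdeal (DW.Oinf K) ≠ ⊥ := by
  have hval : RatFunc.inftyValuation K (1 / RatFunc.X) < 1 := by
    rw [RatFunc.inftyValuation.X_inv, ← WithZero.exp_zero, WithZero.exp_lt_exp]
    norm_num
  have hmem : (1 / RatFunc.X : RatFunc K) ∈ DW.Oinf K := by
    rw [DW.mem_Oinf_iff]
    exact hval.le
  intro h
  have h1 : (⟨1 / RatFunc.X, hmem⟩ : DW.Oinf K) ∈ IsLocalRing.maximalIdeal (DW.Oinf K) := by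
    rw [Valuation.mem_maximalIdeal_iff]
    exact hval
  rw [h, Ideal.mem_bot] at h1
  have h2 : (1 / RatFunc.X : RatFunc K) = 0 := congrArg Subtype.val h1
  rw [one_div, inv_eq_zero] at h2
  exact RatFunc.X_ne_zero h2

variable (F : Type*) [Field F] [Algebra (RatFunc K) F] [Algebra K[X] F]
  [IsScalarTower K[X] (RatFunc K) F] [Algebra K F] [IsScalarTower K (RatFunc K) F]
  [FiniteDimensional (RatFunc K) F] [Algebra.IsSeparable (RatFunc K) F]

/-- The rank of the integral closure of `Oinf` is the degree of `F` over `RatFunc K`. -/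
theorem h16_finrank_integralClosure_Oinf :
    Module.finrank (DW.Oinf K) (integralClosure (DW.Oinf K) F) = Module.finrank (RatFunc K) F := by
  haveI : IsFractionRing (integralClosure (DW.Oinf K) F) F :=
    integralClosure.isFractionRing_of_finite_extension (RatFunc K) F
  exact (IsFractionRing.finrank_eq (DW.Oinf K) (RatFunc K) (integralClosure (DW.Oinf K) F) F).symm

variable [CharZero K] [IsAlgClosed K]

attribute [local instance] L4c.h3_algebraOinf

theorem h16_isScalarTower_Oinf : IsScalarTower K (DW.Oinf K) F :=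
  IsScalarTower.of_algebraMap_eq fun c => by
    rw [IsScalarTower.algebraMap_apply K (RatFunc K) F,
      IsScalarTower.algebraMap_apply (DW.Oinf K) (RatFunc K) F]
    rfl

/-- All inertia degrees of the integral closure of `Oinf` are one. -/
theorem h16_inertiaDeg_Oinf (P : HeightOneSpectrum (integralClosure (DW.Oinf K) F)) :
    P.asIdeal.inertiaDeg (DW.Oinf K) = 1 := by
  haveI := h16_isScalarTower_Oinf K F
  haveI : FaithfulSMul (DW.Oinf K) F := L4c.h3_faithfulSMul (DW.Oinf K) (RatFunc K) F
  haveI : IsDedekindDomain (integralClosure (DW.Oinf K) F) :=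
    integralClosure.isDedekindDomain (DW.Oinf K) (RatFunc K) F
  haveI : Module.Finite (DW.Oinf K) (integralClosure (DW.Oinf K) F) :=
    IsIntegralClosure.finite (DW.Oinf K) (RatFunc K) F (integralClosure (DW.Oinf K) F)
  exact h16_inertiaDeg_eq_one (DW.Oinf K) K (L4c.h3_hres_Oinf K) P

/-- `rInf ≤ n`. -/
theorem h16_rInf_le : Alg.rInf K F ≤ Module.finrank (RatFunc K) F := by
  haveI : FaithfulSMul (DW.Oinf K) F := L4c.h3_faithfulSMul (DW.Oinf K) (RatFunc K) F
  haveI : IsDedekindDomain (integralClosure (DW.Oinf K) F) :=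
    integralClosure.isDedekindDomain (DW.Oinf K) (RatFunc K) F
  haveI : Module.Finite (DW.Oinf K) (integralClosure (DW.Oinf K) F) :=
    IsIntegralClosure.finite (DW.Oinf K) (RatFunc K) F (integralClosure (DW.Oinf K) F)
  rw [← h16_finrank_integralClosure_Oinf K F]
  refine h16_card_primesOver_le (DW.Oinf K) (IsLocalRing.maximalIdeal (DW.Oinf K)) fun q => ?_
  exact h16_inertiaDeg_Oinf K F
    ((h16_fibreEquiv (DW.Oinf K) (h16_maximalIdeal_Oinf_ne_bot K)).symm q).1

/-- **[L4f], infinite part**: `codim B B* = n - r_∞`. -/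
theorem h16_codim_Bint :
    Alg.codim (Alg.Bint K F) (Alg.Bdual K F) = Module.finrank (RatFunc K) F - Alg.rInf K F := by
  haveI : FaithfulSMul (DW.Oinf K) F := L4c.h3_faithfulSMul (DW.Oinf K) (RatFunc K) F
  haveI : IsDedekindDomain (integralClosure (DW.Oinf K) F) :=
    integralClosure.isDedekindDomain (DW.Oinf K) (RatFunc K) F
  haveI : Module.Finite (DW.Oinf K) (integralClosure (DW.Oinf K) F) :=
    IsIntegralClosure.finite (DW.Oinf K) (RatFunc K) F (integralClosure (DW.Oinf K) F)
  rw [L4c.h3_codim_Bint_eq_finsum K F,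
    h16_finsum_ramificationIdx_sub_one_index (DW.Oinf K) (h16_inertiaDeg_Oinf K F)
      ({()} : Finset Unit) (fun _ => IsLocalRing.maximalIdeal (DW.Oinf K))
      (fun _ _ _ _ _ => rfl)
      (fun _ _ => ⟨IsLocalRing.maximalIdeal.isMaximal _, h16_maximalIdeal_Oinf_ne_bot K⟩) ?_]
  · rw [Finset.sum_singleton, h16_finrank_integralClosure_Oinf K F]
    rfl
  · intro q hq _ hne
    exact absurd (IsLocalRing.eq_maximalIdeal hq) (hne () (Finset.mem_singleton_self _))

end Inf

end Fermat.Agent.S20.Tame
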