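import Fermat.Agent.S20.H18_DictFin3
import Fermat.Agent.S20.H16_DualVal

/-!
# S20, BRIDGE [Br2a] (helper18): the trace dual of `A = integralClosure K[X] F` in place form

`u ∈ A*` iff `ord_v (u) ≥ -(e_v - 1)` at all places `v` over a finite point `c`, where
`e_v = ord_v (x - c)`.
-/

set_option linter.unusedSectionVars false
set_option linter.style.haveILetI false

namespace Fermat.Agent.S20.DictFin

open Polynomial IsDedekindDomain AlgebraicCurve WithZero
open Fermat.Agent.S24.Alg Fermat.Agent.S20.Alg

variable (K : Type*) [Field K] [DecidableEq (RatFunc K)]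
  (F : Type*) [Field F] [Algebra (RatFunc K) F] [Algebra K[X] F]
  [IsScalarTower K[X] (RatFunc K) F] [Algebra K F] [IsScalarTower K (RatFunc K) F]
  [FiniteDimensional (RatFunc K) F] [CharZero K]

omit [DecidableEq (RatFunc K)] in
/-- The residue fields of `K[X]` have characteristic zero. -/
theorem charZero_quotient_poly (p : Ideal K[X]) (hp : p.IsMaximal) : CharZero (K[X] ⧸ p) := by
  haveI : Nontrivial (K[X] ⧸ p) := Ideal.Quotient.nontrivial_iff.mpr hp.ne_top
  exact charZero_of_injective_algebraMap (algebraMap K (K[X] ⧸ p)).injective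

/-- `A*` in valuation form. -/
theorem mem_Adual_iff_valuation (u : F) :
    u ∈ Adual K F ↔ ∀ P : HeightOneSpectrum (integralClosure K[X] F),
      P.valuation F u ≤ exp ((P.asIdeal.ramificationIdx K[X] : ℤ) - 1) := by
  rw [← Tame.h16_forall_trace_mem_iff K[X] (RatFunc K) (L := F)
    (B := integralClosure K[X] F) (fun p hp _ => charZero_quotient_poly K p hp) u, mem_Adual]
  constructor
  · intro h b
    exact h _ b.2
  · intro h a ha
    exact h ⟨a, ha⟩

/-- `A*` in terms of the places attached to the primes of `A1`. -/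
theorem mem_Adual_iff_ord_placeOfPrime (u : F) (hu : u ≠ 0) :
    u ∈ Adual K F ↔ ∀ P : HeightOneSpectrum (integralClosure K[X] F),
      0 ≤ (placeOfPrime K P (F := F)).ord u + (P.asIdeal.ramificationIdx K[X] : ℤ) - 1 := by
  rw [mem_Adual_iff_valuation]
  refine forall_congr' fun P => ?_
  have hv : P.valuation F u ≠ 0 := (Valuation.ne_zero_iff _).mpr hu
  rw [ord_placeOfPrime, ← log_le_iff_le_exp hv]
  constructor <;> intro h <;> linarith

/-- [Br2a] the trace dual of `A` in place form. -/
theorem mem_Adual_iff_places [IsAlgClosed K] (u : F) (hu : u ≠ 0) :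
    u ∈ Adual K F ↔ ∀ (v : Place K F) (c : K), 0 < v.ord (xF K F - algebraMap K F c) →
      0 ≤ v.ord u + v.ord (xF K F - algebraMap K F c) - 1 := by
  rw [mem_Adual_iff_ord_placeOfPrime K F u hu]
  constructor
  · intro h v c hv
    obtain ⟨q, hq⟩ := placeOver_surjective K F c ⟨v, hv⟩
    have hq' : placeOfPrime K (primeOver c q) (F := F) = v := congrArg Subtype.val hq
    have := h (primeOver c q)
    rw [hq'] at this
    have he := ord_primeOver K F c q
    rw [hq'] at he
    rw [he]
    exact this
  · intro h P
    obtain ⟨c, hc⟩ := exists_liesOver K F P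
    have hpos := (ord_pos_iff_liesOver K F c P).mpr hc
    have := h (placeOfPrime K P) c hpos
    rw [ramificationIdx_eq_ord K F c P hc]
    exact this

end Fermat.Agent.S20.DictFin
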