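import Fermat.Agent.S20.H18_DictFin2
import Fermat.Agent.S20.Alg_Counts

/-!
# S20, BRIDGE (helper18): [Br5a], [Br5c] in terms of `Alg.rFin`
-/

set_option linter.unusedSectionVars false

namespace Fermat.Agent.S20.DictFin

open Polynomial IsDedekindDomain AlgebraicCurve Fermat.Agent.S24.Alg Fermat.Agent.S20.Alg

variable (K : Type*) [Field K] [DecidableEq (RatFunc K)]
  (F : Type*) [Field F] [Algebra (RatFunc K) F] [Algebra K[X] F]
  [IsScalarTower K[X] (RatFunc K) F] [Algebra K F] [IsScalarTower K (RatFunc K) F]
  [FiniteDimensional (RatFunc K) F] [CharZero K]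

/-- [Br5a] the number of primes over `(X - c)` is the number of places where `x - c` has
positive order. -/
theorem rFin_eq_card (c : K) :
    rFin K F c = Nat.card {v : Place K F // 0 < v.ord (xF K F - algebraMap K F c)} :=
  rFin_eq_card_places K F c

/-- [Br5c] an unramified fibre has `n` points. -/
theorem rFin_eq_finrank_of_unramified [IsAlgClosed K] (c : K)
    (h : ∀ v : Place K F, 0 < v.ord (xF K F - algebraMap K F c) →
      v.ord (xF K F - algebraMap K F c) = 1) :
    rFin K F c = Module.finrank (RatFunc K) F :=
  rFin_eq_of_unramified K F c h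

/-- `rFin ≤ n`. -/
theorem rFin_le_finrank [IsAlgClosed K] (c : K) : rFin K F c ≤ Module.finrank (RatFunc K) F := by
  have key := sum_ramificationIdx_eq_finrank K F c
  have h1 : ∀ q : (idealAt c).primesOver (integralClosure K[X] F),
      (1 : ℤ) ≤ (q.1.ramificationIdx K[X] : ℤ) := by
    intro q
    haveI : q.1.IsPrime := q.2.1
    have := Ideal.ramificationIdx_pos q.1 K[X]
    exact_mod_cast this
  have h2 : ∑ _q : (idealAt c).primesOver (integralClosure K[X] F), (1 : ℤ) ≤
      (Module.finrank (RatFunc K) F : ℤ) := by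
    rw [← key]
    exact Finset.sum_le_sum fun q _ => h1 q
  rw [Finset.sum_const, Finset.card_univ, nsmul_eq_mul, mul_one] at h2
  change Nat.card ((idealAt c).primesOver (integralClosure K[X] F)) ≤ _
  rw [Nat.card_eq_fintype_card]
  exact_mod_cast h2

end Fermat.Agent.S20.DictFin
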