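import Fermat.Agent.S20.Alg_Defs
import Fermat.Agent.S24.H2_PlacesDedekind

/-!
# S20, bridge leaf [DICT-INF] (helper22): places over infinity

Setting of `Alg_Defs`: `F` a finite extension of `RatFunc K`, `x = xF K F` the image of `X`,
`Oinf K` the valuation ring at infinity of `RatFunc K` and `B1 = integralClosure (Oinf K) F`.

* instance layer: `K`-algebra structure on `Oinf K`, `B1` is a Dedekind domain with fraction
  field `F`, finite over `Oinf K`;
* `h22_maximalIdeal_Oinf` : the maximal ideal of `Oinf K` is generated by `X⁻¹`;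
* `h22_liesOver` : every nonzero prime of `B1` lies over it;
* `h22_not_mem_iff_exists_prime` : the places of `F` with `x ∉ O_v` are exactly the places
  attached to the primes of `B1`;
* `h22_ramificationIdx_eq_neg_ord` : `e_P = - ord_P x`;
* `h22_isIntegral_Oinf_iff_places` ([Br1b]) and `h22_card_primesOver_eq_card_places` ([Br5b]).
-/

set_option autoImplicit false
set_option linter.style.haveILetI false
set_option linter.unusedSectionVars false

open Polynomial Module AlgebraicCurve IsDedekindDomain WithZero

namespace Fermat.Agent.S20.H22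

open Fermat.Agent.S20 Fermat.Agent.S20.Alg Fermat.Agent.S24.Alg

noncomputable section

variable (K : Type*) [Field K] [DecidableEq (RatFunc K)]
  (F : Type*) [Field F] [Algebra (RatFunc K) F] [Algebra K[X] F]
  [IsScalarTower K[X] (RatFunc K) F] [Algebra K F] [IsScalarTower K (RatFunc K) F]

/-! ### The `K`-algebra structure on the valuation ring at infinity -/

theorem h22_algebraMap_mem_Oinf (c : K) : algebraMap K (RatFunc K) c ∈ DW.Oinf K := by
  rw [DW.mem_Oinf_iff]
  by_cases h : c = 0
  · simp [h]
  · rw [RatFunc.algebraMap_eq_C, RatFunc.inftyValuation.C K h]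

/-- The inclusion of the constants in the valuation ring at infinity. -/
def h22_toOinf : K →+* DW.Oinf K :=
  (algebraMap K (RatFunc K)).codRestrict (DW.Oinf K).toSubring (h22_algebraMap_mem_Oinf K)

/-- The `K`-algebra structure on the valuation ring at infinity. -/
@[reducible] def h22_algebraOinf : Algebra K (DW.Oinf K) := (h22_toOinf K).toAlgebra

attribute [local instance] h22_algebraOinf

theorem h22_isScalarTower_Oinf_ratFunc : IsScalarTower K (DW.Oinf K) (RatFunc K) :=
  IsScalarTower.of_algebraMap_eq (fun _ => rfl)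

attribute [local instance] h22_isScalarTower_Oinf_ratFunc

theorem h22_isScalarTower_Oinf : IsScalarTower K (DW.Oinf K) F :=
  IsScalarTower.of_algebraMap_eq (fun c => by
    rw [IsScalarTower.algebraMap_apply K (RatFunc K) F]
    rfl)

attribute [local instance] h22_isScalarTower_Oinf

/-! ### The maximal ideal of the valuation ring at infinity -/

theorem h22_inv_X_mem_Oinf : (RatFunc.X : RatFunc K)⁻¹ ∈ DW.Oinf K := by
  rw [DW.mem_Oinf_iff, map_inv₀, RatFunc.inftyValuation.X, ← exp_neg, ← exp_zero, exp_le_exp]
  omega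

/-- `X⁻¹` as an element of the valuation ring at infinity. -/
def h22_tInf : DW.Oinf K := ⟨(RatFunc.X : RatFunc K)⁻¹, h22_inv_X_mem_Oinf K⟩

@[simp]
theorem h22_coe_tInf : ((h22_tInf K : DW.Oinf K) : RatFunc K) = (RatFunc.X : RatFunc K)⁻¹ := rfl

theorem h22_tInf_ne_zero : h22_tInf K ≠ 0 := by
  intro h
  have := congrArg Subtype.val h
  simp only [h22_coe_tInf, ZeroMemClass.coe_zero, inv_eq_zero] at this
  exact RatFunc.X_ne_zero this

theorem h22_mem_maximalIdeal_Oinf_iff (a : DW.Oinf K) :
    a ∈ IsLocalRing.maximalIdeal (DW.Oinf K) ↔ RatFunc.inftyValuation K a.1 < 1 := by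
  rw [ValuationSubring.valuation_lt_one_iff]
  exact ((RatFunc.inftyValuation K).isEquiv_valuation_valuationSubring.lt_one_iff_lt_one).symm

/-- (iv) The maximal ideal of the valuation ring at infinity is generated by `X⁻¹`. -/
theorem h22_maximalIdeal_Oinf :
    IsLocalRing.maximalIdeal (DW.Oinf K) = Ideal.span {h22_tInf K} := by
  ext a
  rw [h22_mem_maximalIdeal_Oinf_iff, Ideal.mem_span_singleton']
  constructor
  · intro ha
    have hmem : a.1 * RatFunc.X ∈ DW.Oinf K := by
      rw [DW.mem_Oinf_iff, map_mul, RatFunc.inftyValuation.X]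
      calc RatFunc.inftyValuation K a.1 * exp (1 : ℤ)
          ≤ exp (-1 : ℤ) * exp (1 : ℤ) := by
            gcongr
            exact le_exp_neg_one_of_lt_one ha
        _ = 1 := by rw [← exp_add]; simp
    refine ⟨⟨_, hmem⟩, Subtype.ext ?_⟩
    show a.1 * RatFunc.X * (RatFunc.X : RatFunc K)⁻¹ = a.1
    rw [mul_assoc, mul_inv_cancel₀ RatFunc.X_ne_zero, mul_one]
  · rintro ⟨b, rfl⟩
    show RatFunc.inftyValuation K (b.1 * (RatFunc.X : RatFunc K)⁻¹) < 1
    rw [map_mul, map_inv₀, RatFunc.inftyValuation.X]
    have hb : RatFunc.inftyValuation K b.1 ≤ 1 := b.2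
    calc RatFunc.inftyValuation K b.1 * (exp (1 : ℤ))⁻¹
        ≤ 1 * (exp (1 : ℤ))⁻¹ := by gcongr
      _ < 1 := by
        rw [one_mul, ← exp_neg, ← exp_zero, exp_lt_exp]
        omega

theorem h22_maximalIdeal_Oinf_ne_bot : IsLocalRing.maximalIdeal (DW.Oinf K) ≠ ⊥ := by
  rw [h22_maximalIdeal_Oinf, Ne, Ideal.span_singleton_eq_bot]
  exact h22_tInf_ne_zero K

/-- The image of `X⁻¹ ∈ Oinf K` in `F` is the inverse of `x`. -/
theorem h22_algebraMap_tInf : algebraMap (DW.Oinf K) F (h22_tInf K) = (xF K F)⁻¹ := by
  rw [IsScalarTower.algebraMap_apply (DW.Oinf K) (RatFunc K) F]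
  show algebraMap (RatFunc K) F (RatFunc.X : RatFunc K)⁻¹ = _
  rw [map_inv₀]

/-! ### The integral closure of the valuation ring at infinity -/

variable [FiniteDimensional (RatFunc K) F] [CharZero K]

instance h22_charZero_ratFunc : CharZero (RatFunc K) :=
  charZero_of_injective_algebraMap (algebraMap K (RatFunc K)).injective

/-- (i) `B1` is a Dedekind domain. -/
instance h22_isDedekindDomain : IsDedekindDomain (integralClosure (DW.Oinf K) F) :=
  IsIntegralClosure.isDedekindDomain (DW.Oinf K) (RatFunc K) F _

/-- (i) `F` is the fraction field of `B1`. -/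
instance h22_isFractionRing : IsFractionRing (integralClosure (DW.Oinf K) F) F :=
  IsIntegralClosure.isFractionRing_of_finite_extension (DW.Oinf K) (RatFunc K) F _

/-- (i) `B1` is finite over `Oinf K`. -/
instance h22_finite : Module.Finite (DW.Oinf K) (integralClosure (DW.Oinf K) F) :=
  IsIntegralClosure.finite (DW.Oinf K) (RatFunc K) F _

/-- (iv) Every nonzero prime of `B1` lies over the maximal ideal of `Oinf K`. -/
theorem h22_liesOver (P : HeightOneSpectrum (integralClosure (DW.Oinf K) F)) :
    P.asIdeal.LiesOver (IsLocalRing.maximalIdeal (DW.Oinf K)) := by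
  constructor
  have hprime : (P.asIdeal.under (DW.Oinf K)).IsPrime := Ideal.IsPrime.under _ P.asIdeal
  have hne : P.asIdeal.under (DW.Oinf K) ≠ ⊥ := Ideal.under_ne_bot _ P.ne_bot
  exact (IsLocalRing.eq_maximalIdeal (hprime.isMaximal hne)).symm

theorem h22_algebraMap_tInf_mem (P : HeightOneSpectrum (integralClosure (DW.Oinf K) F)) :
    algebraMap (DW.Oinf K) (integralClosure (DW.Oinf K) F) (h22_tInf K) ∈ P.asIdeal := by
  haveI := h22_liesOver K F P
  have h : h22_tInf K ∈ P.asIdeal.under (DW.Oinf K) := by
    rw [← P.asIdeal.over_def (IsLocalRing.maximalIdeal (DW.Oinf K)), h22_maximalIdeal_Oinf]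
    exact Ideal.mem_span_singleton_self _
  exact h

theorem h22_algebraMap_tInf_ne_zero :
    algebraMap (DW.Oinf K) (integralClosure (DW.Oinf K) F) (h22_tInf K) ≠ 0 := by
  intro h
  have h2 := congrArg (algebraMap (integralClosure (DW.Oinf K) F) F) h
  rw [← IsScalarTower.algebraMap_apply, h22_algebraMap_tInf, map_zero, inv_eq_zero] at h2
  exact RatFunc.X_ne_zero ((map_eq_zero _).1 h2)


variable {K F}

/-! ### Places over infinity -/

/-- The valuation ring of a place with `x ∉ O_v` contains the valuation ring at infinity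
(Ostrowski for `K(X)`). -/
theorem h22_Oinf_le_place (v : Place K F) (hx : xF K F ∉ v.toValuationSubring)
    (a : DW.Oinf K) : algebraMap (DW.Oinf K) F a ∈ v.toValuationSubring := by
  let w : Valuation (RatFunc K) v.toValuationSubring.ValueGroup :=
    v.toValuationSubring.valuation.comap (algebraMap (RatFunc K) F)
  haveI : w.IsTrivialOn K := Valuation.IsTrivialOn.of_le_one w (fun c => by
    show v.toValuationSubring.valuation
      (algebraMap (RatFunc K) F (algebraMap K (RatFunc K) c)) ≤ 1
    rw [← IsScalarTower.algebraMap_apply, ValuationSubring.valuation_le_one_iff]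
    exact v.algebraMap_mem' c)
  have hlt : 1 < w RatFunc.X := by
    show 1 < v.toValuationSubring.valuation (xF K F)
    rw [← not_le, ValuationSubring.valuation_le_one_iff]
    exact hx
  have heq := RatFunc.valuation_isEquiv_inftyValuation_of_one_lt_valuation_X hlt
  have h1 : w a.1 ≤ 1 := (Valuation.isEquiv_iff_val_le_one.1 heq).2 a.2
  rw [IsScalarTower.algebraMap_apply (DW.Oinf K) (RatFunc K) F,
    ← ValuationSubring.valuation_le_one_iff]
  exact h1

/-- [Br1b], easy direction: an element integral over the valuation ring at infinity lies in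
the valuation ring of every place with `x ∉ O_v`. -/
theorem h22_mem_place_of_isIntegral (v : Place K F) (hx : xF K F ∉ v.toValuationSubring)
    (u : F) (hu : IsIntegral (DW.Oinf K) u) : u ∈ v.toValuationSubring := by
  have hmem := h22_Oinf_le_place v hx
  letI : Algebra (DW.Oinf K) v.toValuationSubring :=
    ((algebraMap (DW.Oinf K) F).codRestrict v.toValuationSubring.toSubring hmem).toAlgebra
  haveI : IsScalarTower (DW.Oinf K) v.toValuationSubring F :=
    IsScalarTower.of_algebraMap_eq (fun _ => rfl)
  have hu' : IsIntegral v.toValuationSubring u := hu.tower_top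
  obtain ⟨y, hy⟩ := IsIntegrallyClosed.isIntegral_iff.1 hu'
  rw [← hy]
  exact y.2

theorem h22_one_lt_valuation_xF (P : HeightOneSpectrum (integralClosure (DW.Oinf K) F)) :
    1 < P.valuation F (xF K F) := by
  have h : P.valuation F (algebraMap (integralClosure (DW.Oinf K) F) F
      (algebraMap (DW.Oinf K) (integralClosure (DW.Oinf K) F) (h22_tInf K))) < 1 :=
    (P.valuation_lt_one_iff_mem (K := F) _).2 (h22_algebraMap_tInf_mem K F P)
  have h2 : algebraMap (integralClosure (DW.Oinf K) F) F
      (algebraMap (DW.Oinf K) (integralClosure (DW.Oinf K) F) (h22_tInf K)) = (xF K F)⁻¹ := by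
    rw [← IsScalarTower.algebraMap_apply, h22_algebraMap_tInf]
  rw [h2, map_inv₀] at h
  have hpos : 0 < P.valuation F (xF K F) :=
    zero_lt_iff.2 ((Valuation.ne_zero_iff _).2 (by
      rw [Ne, map_eq_zero]; exact RatFunc.X_ne_zero))
  exact (inv_lt_one₀ hpos).1 h

theorem h22_xF_not_mem_placeOfPrime (P : HeightOneSpectrum (integralClosure (DW.Oinf K) F)) :
    xF K F ∉ (placeOfPrime K P).toValuationSubring := by
  rw [mem_placeOfPrime_iff, not_le]
  exact h22_one_lt_valuation_xF P

/-- (ii) The places of `F` with `x ∉ O_v` are exactly the places attached to the primes of the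
integral closure of the valuation ring at infinity. -/
theorem h22_not_mem_iff_exists_prime (v : Place K F) :
    xF K F ∉ v.toValuationSubring ↔
      ∃ P : HeightOneSpectrum (integralClosure (DW.Oinf K) F), v = placeOfPrime K P := by
  constructor
  · intro hx
    exact exists_prime_of_le v (fun b => h22_mem_place_of_isIntegral v hx b.1 b.2)
  · rintro ⟨P, rfl⟩
    exact h22_xF_not_mem_placeOfPrime P

theorem h22_not_mem_iff_ord_neg (v : Place K F) :
    xF K F ∉ v.toValuationSubring ↔ v.ord (xF K F) < 0 := by
  have hx0 : xF K F ≠ 0 := by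
    rw [Ne, map_eq_zero]; exact RatFunc.X_ne_zero
  rw [mem_iff_ord_nonneg v hx0, not_le]

theorem h22_not_mem_iff_ord_inv_pos (v : Place K F) :
    xF K F ∉ v.toValuationSubring ↔ 0 < v.ord (xF K F)⁻¹ := by
  rw [h22_not_mem_iff_ord_neg, Place.ord_inv, neg_pos]

/-- (ii), `ord` form. -/
theorem h22_ord_neg_iff_exists_prime (v : Place K F) :
    v.ord (xF K F) < 0 ↔
      ∃ P : HeightOneSpectrum (integralClosure (DW.Oinf K) F), v = placeOfPrime K P := by
  rw [← h22_not_mem_iff_ord_neg, h22_not_mem_iff_exists_prime]

/-- (iii) The ramification index of a prime over infinity is the pole order of `x`. -/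
theorem h22_ramificationIdx_eq_neg_ord
    (P : HeightOneSpectrum (integralClosure (DW.Oinf K) F)) :
    (P.asIdeal.ramificationIdx (DW.Oinf K) : ℤ) = -(placeOfPrime K P).ord (xF K F) := by
  haveI := h22_liesOver K F P
  have hne : (IsLocalRing.maximalIdeal (DW.Oinf K)).map
      (algebraMap (DW.Oinf K) (integralClosure (DW.Oinf K) F)) ≠ ⊥ := by
    rw [h22_maximalIdeal_Oinf, Ideal.map_span, Set.image_singleton, Ne,
      Ideal.span_singleton_eq_bot]
    exact h22_algebraMap_tInf_ne_zero K F
  rw [← Place.ord_inv, ← h22_algebraMap_tInf,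
    IsScalarTower.algebraMap_apply (DW.Oinf K) (integralClosure (DW.Oinf K) F) F,
    ord_placeOfPrime, HeightOneSpectrum.valuation_of_algebraMap,
    HeightOneSpectrum.intValuation_eq_exp_neg_multiplicity _ (h22_algebraMap_tInf_ne_zero K F),
    log_exp, neg_neg,
    Ideal.IsDedekindDomain.ramificationIdx_eq_multiplicity
      (IsLocalRing.maximalIdeal (DW.Oinf K)) P.asIdeal hne,
    h22_maximalIdeal_Oinf, Ideal.map_span, Set.image_singleton]

/-- (iii) in the form `ord_v x = - e_P`. -/
theorem h22_ord_xF_placeOfPrime (P : HeightOneSpectrum (integralClosure (DW.Oinf K) F)) :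
    (placeOfPrime K P).ord (xF K F) = -(P.asIdeal.ramificationIdx (DW.Oinf K) : ℤ) := by
  rw [h22_ramificationIdx_eq_neg_ord, neg_neg]

/-- [Br1b] An element of `F` is integral over the valuation ring at infinity iff it lies in
the valuation ring of every place at which `x` has a pole. -/
theorem h22_isIntegral_Oinf_iff_places (u : F) :
    IsIntegral (DW.Oinf K) u ↔
      ∀ v : Place K F, xF K F ∉ v.toValuationSubring → u ∈ v.toValuationSubring := by
  constructor
  · intro hu v hx
    exact h22_mem_place_of_isIntegral v hx u hu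
  · intro h
    have h1 : ∀ P : HeightOneSpectrum (integralClosure (DW.Oinf K) F),
        P.valuation F u ≤ 1 :=
      fun P => h (placeOfPrime K P) (h22_xF_not_mem_placeOfPrime P)
    obtain ⟨b, hb⟩ := HeightOneSpectrum.mem_integers_of_valuation_le_one F u h1
    rw [← hb]
    exact b.2

/-! ### Counting the places over infinity -/

theorem h22_ne_bot_of_liesOver (q : Ideal (integralClosure (DW.Oinf K) F))
    [q.LiesOver (IsLocalRing.maximalIdeal (DW.Oinf K))] : q ≠ ⊥ := by
  rintro rfl
  apply h22_maximalIdeal_Oinf_ne_bot K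
  rw [(⊥ : Ideal (integralClosure (DW.Oinf K) F)).over_def
    (IsLocalRing.maximalIdeal (DW.Oinf K)), Ideal.under_def, Ideal.comap_bot_of_injective]
  exact ValuationSubring.integralClosure_algebraMap_injective (RatFunc.inftyValuation K) F

/-- A prime of `B1` over the maximal ideal of `Oinf K`, as an element of the height one
spectrum. -/
def h22_primeOver
    (q : (IsLocalRing.maximalIdeal (DW.Oinf K)).primesOver (integralClosure (DW.Oinf K) F)) :
    HeightOneSpectrum (integralClosure (DW.Oinf K) F) :=
  haveI : q.1.LiesOver (IsLocalRing.maximalIdeal (DW.Oinf K)) := q.2.2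
  ⟨q.1, q.2.1, h22_ne_bot_of_liesOver q.1⟩

@[simp]
theorem h22_primeOver_asIdeal
    (q : (IsLocalRing.maximalIdeal (DW.Oinf K)).primesOver (integralClosure (DW.Oinf K) F)) :
    (h22_primeOver q).asIdeal = q.1 := rfl

/-- The primes over infinity are all the nonzero primes of `B1`. -/
def h22_primesOverEquiv :
    (IsLocalRing.maximalIdeal (DW.Oinf K)).primesOver (integralClosure (DW.Oinf K) F) ≃
      HeightOneSpectrum (integralClosure (DW.Oinf K) F) where
  toFun := h22_primeOver
  invFun P := ⟨P.asIdeal, P.isPrime, h22_liesOver K F P⟩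
  left_inv _ := Subtype.ext rfl
  right_inv _ := HeightOneSpectrum.ext rfl

/-- The nonzero primes of `B1` are the places at which `x` has a pole. -/
def h22_primesEquivPlaces :
    HeightOneSpectrum (integralClosure (DW.Oinf K) F) ≃
      {v : Place K F // 0 < v.ord (xF K F)⁻¹} :=
  Equiv.ofBijective
    (fun P => ⟨placeOfPrime K P,
      (h22_not_mem_iff_ord_inv_pos _).1 (h22_xF_not_mem_placeOfPrime P)⟩)
    ⟨fun P Q h => placeOfPrime_injective (K := K) (F := F) (congrArg Subtype.val h),
      fun v => by
        obtain ⟨P, hP⟩ := (h22_not_mem_iff_exists_prime v.1).1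
          ((h22_not_mem_iff_ord_inv_pos v.1).2 v.2)
        exact ⟨P, Subtype.ext hP.symm⟩⟩

/-- [Br5b] The number of primes of `B1` over infinity is the number of poles of `x`. -/
theorem h22_card_primesOver_eq_card_places :
    Nat.card ((IsLocalRing.maximalIdeal (DW.Oinf K)).primesOver
        (integralClosure (DW.Oinf K) F)) =
      Nat.card {v : Place K F // 0 < v.ord (xF K F)⁻¹} :=
  Nat.card_congr (h22_primesOverEquiv.trans h22_primesEquivPlaces)

/-- The number of nonzero primes of `B1` is the number of poles of `x`. -/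
theorem h22_card_heightOneSpectrum_eq_card_places :
    Nat.card (HeightOneSpectrum (integralClosure (DW.Oinf K) F)) =
      Nat.card {v : Place K F // 0 < v.ord (xF K F)⁻¹} :=
  Nat.card_congr h22_primesEquivPlaces

end

end Fermat.Agent.S20.H22
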