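import Fermat.Agent.S21.Assembly
import Fermat.Agent.S21.H11_Injective
import Fermat.Agent.S21.H22_Parabolic
import Fermat.Agent.S21.H10_ParBoundFinal
import Fermat.Agent.S21.H22_FinDim

/-
S20, upper bound (helper26): `dim S₂(Γ₀(N)) ≤ genusFormula N`, from the Eichler-Shimura
inputs of S21 (E1 injectivity of the period map: helper11 + helper5; E2 dimension bound for
parabolic homomorphisms: helper10; E3 periods are parabolic: helper22), and finite
dimensionality of `S₂(Γ₀(N))` (helper22).
-/

set_option autoImplicit false

open CongruenceSubgroup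

namespace Fermat.Agent.S20.Upper

/-- The upper bound half of the dimension formula. -/
theorem finrank_cuspForm_le_genusFormula (N : ℕ) [NeZero N] :
    (Module.finrank ℂ (CuspForm (Gamma0 N) 2) : ℚ) ≤ ModularCurve.genusFormula N :=
  Fermat.Agent.S21.finrank_cuspForm_le N (Fermat.Agent.S21.Inj.periodHomPair_injective N)
    (Fermat.Agent.S21.H22.range_periodHomPair_le N)
    (Fermat.Agent.S21.E2.finiteDimensional_parabolicHoms N)
    (Fermat.Agent.S21.E2.finrank_parabolicHoms_le_two_genus N)

/-- Finite dimensionality of `S₂(Γ₀(N))`. -/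
theorem finiteDimensional_cuspForm_two (N : ℕ) [NeZero N] :
    FiniteDimensional ℂ (CuspForm (Gamma0 N) 2) :=
  Fermat.Agent.S21.finiteDimensional_cuspForm N

end Fermat.Agent.S20.Upper
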