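import Fermat.Agent.S20.H26_Final
import Fermat.Agent.S20.H26_Upper
import Fermat.Agent.S24.H25_Wiring

/-
S20, final assembly, second layer (helper26): the dimension formula from
  * `Fermat.Agent.S24.Final.Inputs ℂ N`  (helper25's bundle of the S24 package outputs, at `K = ℂ`),
  * `AlgMainT ℂ (FC N)`                  (ALG-MAIN with the transcendence / finiteness binders),
  * `hL0`  (`L(0) = ℂ`) and `hinj` (an injective linear map `W → S₂(Γ₀(N))`),
the upper bound being `Upper.finrank_cuspForm_le_genusFormula` (S21 E1 + E2 + E3).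
-/

set_option autoImplicit false

open AlgebraicCurve KaehlerDifferential CongruenceSubgroup IntermediateField
open scoped MatrixGroups

namespace Fermat.Agent.S20.Final

open Fermat.Agent.S24

/-- ALG-MAIN (Riemann-Roch for the canonical divisor, place form), with `x` transcendental,
`F` finite over `K(x)` and `n = [F : K(x)]`. -/
def AlgMainT (K F : Type*) [Field K] [Field F] [Algebra K F] : Prop :=
  ∀ (x : F), Transcendental K x → ∀ [FiniteDimensional K⟮x⟯ F],
    RH.CountData (K := K) x (Module.finrank K⟮x⟯ F) →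
    (∀ u : F, u ≠ 0 → (∀ v : Place K F, 0 ≤ v.ord u) → u ∈ Set.range (algebraMap K F)) →
    ∀ (B : Finset K),
    (∀ c, c ∉ B → ∀ v : Place K F, 0 < v.ord (x - algebraMap K F c) →
        v.ord (x - algebraMap K F c) = 1) →
    Module.Finite K (regSub K x) ∧
    2 * (Module.finrank K (regSub K x) : ℤ) - 2 =
      ∑ c ∈ B, ((Module.finrank K⟮x⟯ F : ℤ) -
          (Nat.card {v : Place K F // 0 < v.ord (x - algebraMap K F c)} : ℤ))
        - ((Module.finrank K⟮x⟯ F : ℤ) + (Nat.card {v : Place K F // 0 < v.ord x⁻¹} : ℤ))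

variable (N : ℕ) [NeZero N]

omit [NeZero N] in
lemma jF_eq_S24 : jF N = Fermat.Agent.S24.Final.jF ℂ N := rfl

/-- The lower bound `g ≤ dim S₂(Γ₀(N))` (the existence half; this is what S21 needs). -/
theorem genusFormula_le_of_S24_inputs
    (hI : Fermat.Agent.S24.Final.Inputs ℂ N)
    (halg : AlgMainT ℂ (FC N))
    (hL0 : ∀ u : FC N, u ≠ 0 → (∀ v : Place ℂ (FC N), 0 ≤ v.ord u) →
      u ∈ Set.range (algebraMap ℂ (FC N)))
    (hinj : ∃ φ : regSub ℂ (jF N) →ₗ[ℂ] CuspForm (Gamma0 N) 2, Function.Injective φ) :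
    ModularCurve.genusFormula N ≤ (Module.finrank ℂ (CuspForm (Gamma0 N) 2) : ℚ) := by
  have hfin : FiniteDimensional ℂ⟮jF N⟯ (FC N) := hI.finDim
  have hB : ∀ c : ℂ, c ∉ ({0, 1728} : Finset ℂ) → ∀ v : Place ℂ (FC N),
      0 < v.ord (jF N - algebraMap ℂ (FC N) c) → v.ord (jF N - algebraMap ℂ (FC N) c) = 1 := by
    intro c hcB v hv
    have hc0 : c ≠ 0 := fun h => hcB (by simp [h])
    have hc1 : c ≠ 1728 := fun h => hcB (by simp [h])
    refine RH.FundId.ord_eq_one_of_card_eq (hI.count.zero c) ?_ hv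
    rw [hI.finrank_eq]
    exact hI.gen c hc0 hc1
  obtain ⟨-, hcount⟩ := halg (jF N) (Fermat.Agent.S24.Final.transcendental_jF ℂ N) hI.count hL0
    {0, 1728} hB
  have hne : (0 : ℂ) ≠ 1728 := by norm_num
  have h0 := hI.zero
  have h1 := hI.one
  have hinf := hI.inf
  have hfr := hI.finrank_eq
  change Module.finrank ℂ⟮jF N⟯ (FC N) = _ at hfr
  change Nat.card {v : Place ℂ (FC N) // 0 < v.ord (jF N - algebraMap ℂ (FC N) 0)} = _ at h0
  change Nat.card {v : Place ℂ (FC N) // 0 < v.ord (jF N - algebraMap ℂ (FC N) 1728)} = _ at h1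
  change Nat.card {v : Place ℂ (FC N) // 0 < v.ord (jF N)⁻¹} = _ at hinf
  rw [Finset.sum_pair hne, h0, h1, hinf, hfr] at hcount
  have hg := Comb.h9_genus_count N
  have hg' : ((Nat.card (Comb.X N) : ℚ)
      - (Nat.card (MulAction.orbitRel.Quotient (Subgroup.zpowers ModularGroup.S) (Comb.X N)) : ℚ)
      - (Nat.card (MulAction.orbitRel.Quotient
          (Subgroup.zpowers (ModularGroup.S * ModularGroup.T)) (Comb.X N)) : ℚ)
      - (Nat.card (MulAction.orbitRel.Quotient (Subgroup.zpowers ModularGroup.T) (Comb.X N)) : ℚ))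
      = 2 * ModularCurve.genusFormula N - 2 := hg
  have hW : (Module.finrank ℂ (regSub ℂ (jF N)) : ℚ) = ModularCurve.genusFormula N := by
    have hc := congrArg (fun t : ℤ => (t : ℚ)) hcount
    push_cast at hc
    linarith
  obtain ⟨φ, hφ⟩ := hinj
  have := Upper.finiteDimensional_cuspForm_two N
  have hle : Module.finrank ℂ (regSub ℂ (jF N)) ≤ Module.finrank ℂ (CuspForm (Gamma0 N) 2) :=
    LinearMap.finrank_le_finrank_of_injective hφ
  have hle' : (Module.finrank ℂ (regSub ℂ (jF N)) : ℚ) ≤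
      (Module.finrank ℂ (CuspForm (Gamma0 N) 2) : ℚ) := by exact_mod_cast hle
  linarith

/-- **S20 from the S24 inputs at `K = ℂ`**, ALG-MAIN and the two MOD inputs. -/
theorem result_of_S24_inputs
    (hI : Fermat.Agent.S24.Final.Inputs ℂ N)
    (halg : AlgMainT ℂ (FC N))
    (hL0 : ∀ u : FC N, u ≠ 0 → (∀ v : Place ℂ (FC N), 0 ≤ v.ord u) →
      u ∈ Set.range (algebraMap ℂ (FC N)))
    (hinj : ∃ φ : regSub ℂ (jF N) →ₗ[ℂ] CuspForm (Gamma0 N) 2, Function.Injective φ) :
    (Module.finrank ℂ (CuspForm (Gamma0 N) 2) : ℚ) = ModularCurve.genusFormula N :=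
  le_antisymm (Upper.finrank_cuspForm_le_genusFormula N)
    (genusFormula_le_of_S24_inputs N hI halg hL0 hinj)

end Fermat.Agent.S20.Final
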