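import Fermat.Agent.S20.H29_Lattices

/-!
# S20, algebraic half: the objects of "Riemann-Roch for lattices"

`K` a field, `F` a finite separable extension of `RatFunc K`.
* `Aint K F`  : the elements of `F` integral over `K[X]`            (a `K`-subspace of `F`)
* `Bint K F`  : the elements of `F` integral over `DW.Oinf K`       (ring at infinity)
* `Adual K F` : the trace dual of `Aint`, `{h | ∀ a ∈ A, Tr (h a) ∈ K[X]}`
* `Bdual K F` : the trace dual of `Bint`, `{h | ∀ a ∈ B, Tr (h a) ∈ Oinf}`
* `regDiff K F` : `A* ∩ X⁻² B*`, the space of regular differentials `h dX`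
* `codim M N` : `dim_K (N / (M ∩ N))`
-/

namespace Fermat.Agent.S20.Alg

open Polynomial Module

noncomputable section

variable (K : Type*) [Field K] [DecidableEq (RatFunc K)]
  (F : Type*) [Field F] [Algebra (RatFunc K) F] [Algebra K[X] F]
  [IsScalarTower K[X] (RatFunc K) F] [Algebra K F] [IsScalarTower K (RatFunc K) F]

/-- The image of `X` in `F`. -/
abbrev xF : F := algebraMap (RatFunc K) F RatFunc.X

theorem algebraMap_K_eq_poly (c : K) : algebraMap K F c = algebraMap K[X] F (C c) := by
  rw [IsScalarTower.algebraMap_apply K (RatFunc K) F,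
    IsScalarTower.algebraMap_apply K[X] (RatFunc K) F, RatFunc.algebraMap_C,
    RatFunc.algebraMap_eq_C]

theorem algebraMap_K_eq_Oinf (c : K) :
    ∃ u : DW.Oinf K, algebraMap K F c = algebraMap (DW.Oinf K) F u := by
  have hc : algebraMap K (RatFunc K) c ∈ DW.Oinf K := by
    rw [DW.mem_Oinf_iff]
    by_cases h : c = 0
    · simp [h]
    · rw [RatFunc.algebraMap_eq_C, RatFunc.inftyValuation.C K h]
  refine ⟨⟨_, hc⟩, ?_⟩
  rw [IsScalarTower.algebraMap_apply K (RatFunc K) F]
  rfl

/-- `A`: the elements of `F` integral over `K[X]`, as a `K`-subspace. -/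
def Aint : Submodule K F where
  carrier := {h | IsIntegral K[X] h}
  zero_mem' := isIntegral_zero
  add_mem' := fun ha hb => IsIntegral.add ha hb
  smul_mem' := fun c h hh => by
    change IsIntegral K[X] (c • h)
    rw [Algebra.smul_def, algebraMap_K_eq_poly]
    exact IsIntegral.mul isIntegral_algebraMap hh

/-- `B`: the elements of `F` integral over the valuation ring at infinity. -/
def Bint : Submodule K F where
  carrier := {h | IsIntegral (DW.Oinf K) h}
  zero_mem' := isIntegral_zero
  add_mem' := fun ha hb => IsIntegral.add ha hb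
  smul_mem' := fun c h hh => by
    change IsIntegral (DW.Oinf K) (c • h)
    obtain ⟨u, hu⟩ := algebraMap_K_eq_Oinf K F c
    rw [Algebra.smul_def, hu]
    exact IsIntegral.mul isIntegral_algebraMap hh

/-- `A*`: the trace dual of `A` with respect to `K[X]`. -/
def Adual : Submodule K F where
  carrier := {h | ∀ a : F, IsIntegral K[X] a →
    Algebra.trace (RatFunc K) F (h * a) ∈ (algebraMap K[X] (RatFunc K)).range}
  zero_mem' := fun a _ => by simp
  add_mem' := fun {x y} hx hy a ha => by
    rw [add_mul, map_add]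
    exact add_mem (hx a ha) (hy a ha)
  smul_mem' := fun c h hh a ha => by
    have : c • h * a = (algebraMap K (RatFunc K) c) • (h * a) := by
      rw [algebraMap_smul, smul_mul_assoc]
    rw [this, map_smul, smul_eq_mul]
    refine mul_mem ⟨C c, ?_⟩ (hh a ha)
    rw [RatFunc.algebraMap_C, RatFunc.algebraMap_eq_C]

/-- `B*`: the trace dual of `B` with respect to the valuation ring at infinity. -/
def Bdual : Submodule K F where
  carrier := {h | ∀ a : F, IsIntegral (DW.Oinf K) a →
    Algebra.trace (RatFunc K) F (h * a) ∈ DW.Oinf K}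
  zero_mem' := fun a _ => by simp
  add_mem' := fun {x y} hx hy a ha => by
    rw [add_mul, map_add]
    exact add_mem (hx a ha) (hy a ha)
  smul_mem' := fun c h hh a ha => by
    have : c • h * a = (algebraMap K (RatFunc K) c) • (h * a) := by
      rw [algebraMap_smul, smul_mul_assoc]
    rw [this, map_smul, smul_eq_mul]
    obtain ⟨u, hu⟩ := algebraMap_K_eq_Oinf K (RatFunc K) c
    have hc : algebraMap K (RatFunc K) c ∈ DW.Oinf K := by
      rw [hu]; exact u.2
    exact mul_mem hc (hh a ha)

/-- `W = A* ∩ X⁻² B*`: the `h` such that `h dX` is a regular differential. -/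
def regDiff : Submodule K F where
  carrier := {h | h ∈ Adual K F ∧ xF K F ^ 2 * h ∈ Bdual K F}
  zero_mem' := ⟨zero_mem _, by rw [mul_zero]; exact zero_mem _⟩
  add_mem' := fun {x y} hx hy => ⟨add_mem hx.1 hy.1, by
    rw [mul_add]; exact add_mem hx.2 hy.2⟩
  smul_mem' := fun c h hh => ⟨Submodule.smul_mem _ c hh.1, by
    rw [mul_smul_comm]; exact Submodule.smul_mem _ c hh.2⟩

variable {K F}

theorem mem_Aint {h : F} : h ∈ Aint K F ↔ IsIntegral K[X] h := Iff.rfl

theorem mem_Bint {h : F} : h ∈ Bint K F ↔ IsIntegral (DW.Oinf K) h := Iff.rfl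

theorem mem_Adual {h : F} : h ∈ Adual K F ↔ ∀ a : F, IsIntegral K[X] a →
    Algebra.trace (RatFunc K) F (h * a) ∈ (algebraMap K[X] (RatFunc K)).range := Iff.rfl

theorem mem_Bdual {h : F} : h ∈ Bdual K F ↔ ∀ a : F, IsIntegral (DW.Oinf K) a →
    Algebra.trace (RatFunc K) F (h * a) ∈ DW.Oinf K := Iff.rfl

theorem mem_regDiff {h : F} :
    h ∈ regDiff K F ↔ h ∈ Adual K F ∧ xF K F ^ 2 * h ∈ Bdual K F := Iff.rfl

/-- `codim M N = dim_K (N / (M ∩ N))`; used for `M ≤ N`. -/
def codim (M N : Submodule K F) : ℕ := Module.finrank K (↥N ⧸ M.submoduleOf N)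

end

end Fermat.Agent.S20.Alg
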