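import Fermat.Agent.S20.H29_DedekindWeber

/-!
# The integral closures of `K[X]` and of the valuation ring at infinity are lattices

Let `F` be a finite separable extension of `RatFunc K`. We show that the integral closure of
`K[X]` in `F` is a polynomial lattice and that the integral closure of the valuation ring at
infinity `Oinf K` of `RatFunc K` in `F` is a lattice at infinity, in the sense of
`Fermat.Agent.S20.DW`. Combined with the Dedekind–Weber theorem this gives a simultaneous
reduced basis of the two integral closures.
-/

namespace Fermat.Agent.S20.DW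

open Polynomial WithZero Module
open scoped nonZeroDivisors

section generic

variable (A K L : Type*) [CommRing A] [IsDomain A] [IsPrincipalIdealRing A] [Field K]
  [Algebra A K] [IsFractionRing A K] [Field L] [Algebra K L] [Algebra A L] [IsScalarTower A K L]
  [FiniteDimensional K L] [Algebra.IsSeparable K L]

/-- For a principal ideal domain `A` with fraction field `K` and a finite separable extension
`L / K` there is a `K`-basis of `L` such that the elements of `L` integral over `A` are exactly
the vectors with coordinates in `A`. -/
theorem exists_basis_isIntegral_iff :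
    ∃ e : Basis (Fin (Module.finrank K L)) K L,
      ∀ v : L, IsIntegral A v ↔ ∀ i, e.repr v i ∈ (algebraMap A K).range := by
  have htf : IsTorsionFree A L := .trans_faithfulSMul A K L
  have hfree : Module.Free A (integralClosure A L) :=
    IsIntegralClosure.module_free A K L (integralClosure A L)
  have hnoeth : IsNoetherian A (integralClosure A L) :=
    IsIntegralClosure.isNoetherian A K L (integralClosure A L)
  have hloc : IsLocalization (Algebra.algebraMapSubmonoid (integralClosure A L) A⁰) L :=
    IsIntegralClosure.isLocalization A K L (integralClosure A L)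
  have hrank : Module.finrank A (integralClosure A L) = Module.finrank K L :=
    IsIntegralClosure.rank A K L (integralClosure A L)
  let b : Basis (Fin (Module.finrank K L)) A (integralClosure A L) :=
    Module.finBasisOfFinrankEq A (integralClosure A L) hrank
  refine ⟨Basis.localizationLocalization K A⁰ L b, fun v => ⟨fun hv i => ?_, fun h => ?_⟩⟩
  · have := Basis.localizationLocalization_repr_algebraMap K A⁰ L b ⟨v, hv⟩ i
    exact ⟨_, this.symm⟩
  · choose a ha using h
    rw [← (Basis.localizationLocalization K A⁰ L b).sum_repr v]
    refine IsIntegral.sum _ fun i _ => ?_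
    rw [← ha i, Basis.localizationLocalization_apply, algebraMap_smul]
    exact IsIntegral.smul _ (b i).2

end generic

section infty

variable (K : Type*) [Field K] [DecidableEq (RatFunc K)]

/-- The valuation ring at infinity of `RatFunc K`: the rational functions of degree `≤ 0`. -/
noncomputable abbrev Oinf : ValuationSubring (RatFunc K) :=
  (RatFunc.inftyValuation K).valuationSubring

theorem mem_Oinf_iff (f : RatFunc K) : f ∈ Oinf K ↔ RatFunc.inftyValuation K f ≤ 1 :=
  Iff.rfl

theorem range_algebraMap_Oinf (f : RatFunc K) :
    f ∈ (algebraMap (Oinf K) (RatFunc K)).range ↔ RatFunc.inftyValuation K f ≤ 1 := by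
  rw [← mem_Oinf_iff]
  constructor
  · rintro ⟨a, rfl⟩
    exact a.2
  · intro h
    exact ⟨⟨f, h⟩, rfl⟩

/-- The valuation ring at infinity is a principal ideal ring. -/
instance Oinf_isPrincipalIdealRing : IsPrincipalIdealRing (Oinf K) := by
  refine ⟨fun I => ?_⟩
  by_cases hI : I = ⊥
  · rw [hI]
    exact bot_isPrincipal
  -- choose a nonzero element of maximal degree
  obtain ⟨a₀, ha₀I, ha₀⟩ := Submodule.exists_mem_ne_zero_of_ne_bot hI
  have hbdd : ∀ n : ℤ, (∃ a ∈ I, a ≠ 0 ∧ (a : RatFunc K).intDegree = n) → n ≤ 0 := by
    rintro n ⟨a, -, ha, rfl⟩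
    have h1 : RatFunc.inftyValuation K (a : RatFunc K) ≤ 1 := a.2
    have h2 : (a : RatFunc K) ≠ 0 := fun h => ha (Subtype.ext h)
    rw [← exp_zero, val_le_exp_iff] at h1
    rcases h1 with h1 | h1
    · exact absurd h1 h2
    · exact h1
  obtain ⟨n, ⟨a, haI, ha0, han⟩, hmax⟩ := Int.exists_greatest_of_bdd ⟨0, hbdd⟩
    ⟨_, a₀, ha₀I, ha₀, rfl⟩
  have ha0' : (a : RatFunc K) ≠ 0 := fun h => ha0 (Subtype.ext h)
  refine ⟨a, le_antisymm (fun b hb => ?_) ?_⟩
  · rw [Submodule.mem_span_singleton]
    by_cases hb0 : b = 0
    · exact ⟨0, by rw [hb0, zero_smul]⟩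
    have hb0' : (b : RatFunc K) ≠ 0 := fun h => hb0 (Subtype.ext h)
    have hle : (b : RatFunc K).intDegree ≤ (a : RatFunc K).intDegree := by
      rw [han]
      exact hmax _ ⟨b, hb, hb0, rfl⟩
    have hmem : (b : RatFunc K) / a ∈ Oinf K := by
      rw [mem_Oinf_iff, ← exp_zero, val_le_exp_iff]
      right
      rw [RatFunc.intDegree_div hb0' ha0']
      omega
    refine ⟨⟨_, hmem⟩, Subtype.ext ?_⟩
    simp only [smul_eq_mul]
    change (b : RatFunc K) / a * a = b
    exact div_mul_cancel₀ _ ha0'
  · rw [Submodule.span_singleton_le_iff_mem]
    exact haI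

end infty

section functionField

variable (K : Type*) [Field K] [DecidableEq (RatFunc K)]
  (F : Type*) [Field F] [Algebra (RatFunc K) F] [Algebra K[X] F] [IsScalarTower K[X] (RatFunc K) F]
  [FiniteDimensional (RatFunc K) F] [Algebra.IsSeparable (RatFunc K) F]

/-- The integral closure of `K[X]` in `F` is a polynomial lattice. -/
theorem exists_isPolyLattice_integral :
    ∃ e : Basis (Fin (Module.finrank (RatFunc K) F)) (RatFunc K) F,
      IsPolyLattice e {h : F | IsIntegral K[X] h} :=
  exists_basis_isIntegral_iff K[X] (RatFunc K) F

/-- The integral closure of the valuation ring at infinity in `F` is a lattice at infinity. -/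
theorem exists_isInftyLattice_integral :
    ∃ e' : Basis (Fin (Module.finrank (RatFunc K) F)) (RatFunc K) F,
      IsInftyLattice e' {h : F | IsIntegral (Oinf K) h} := by
  obtain ⟨e', he'⟩ := exists_basis_isIntegral_iff (Oinf K) (RatFunc K) F
  refine ⟨e', fun v => ?_⟩
  rw [Set.mem_setOf_eq, he' v]
  exact forall_congr' fun i => range_algebraMap_Oinf K _

/-- **Simultaneous reduced basis of the two integral closures.** There are a basis `b` of `F`
over `RatFunc K` and integers `d i` such that the integral closure of `K[X]` consists of the
vectors with polynomial coordinates and the integral closure of the valuation ring at infinity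
consists of the vectors whose `i`-th coordinate is zero or of degree at most `d i`. -/
theorem exists_reduced_basis_integral :
    ∃ (b : Basis (Fin (Module.finrank (RatFunc K) F)) (RatFunc K) F)
      (d : Fin (Module.finrank (RatFunc K) F) → ℤ),
      IsPolyLattice b {h : F | IsIntegral K[X] h} ∧
      (∀ v : F, IsIntegral (Oinf K) v ↔
        ∀ i, RatFunc.inftyValuation K (b.repr v i) ≤ exp (d i)) ∧
      (∀ v : F, IsIntegral (Oinf K) v ↔
        ∀ i, b.repr v i = 0 ∨ (b.repr v i).intDegree ≤ d i) := by
  obtain ⟨e, he⟩ := exists_isPolyLattice_integral K F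
  obtain ⟨e', he'⟩ := exists_isInftyLattice_integral K F
  obtain ⟨b, d, hb, hd⟩ := exists_reduced_basis he he'
  exact ⟨b, d, hb, hd, fun v => (hd v).trans (by simp only [val_le_exp_iff])⟩

/-- The dimension of the space of elements integral both over `K[X]` and over the valuation
ring at infinity, in terms of a simultaneous reduced basis. -/
theorem finrank_integral_inter [Algebra K F] [IsScalarTower K (RatFunc K) F]
    {b : Basis (Fin (Module.finrank (RatFunc K) F)) (RatFunc K) F}
    {d : Fin (Module.finrank (RatFunc K) F) → ℤ}
    (hb : IsPolyLattice b {h : F | IsIntegral K[X] h})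
    (hd : ∀ v : F, IsIntegral (Oinf K) v ↔
      ∀ i, RatFunc.inftyValuation K (b.repr v i) ≤ exp (d i))
    (W : Submodule K F) (hW : ∀ v, v ∈ W ↔ IsIntegral K[X] v ∧ IsIntegral (Oinf K) v) :
    Module.finrank K W = ∑ i, (d i + 1).toNat :=
  finrank_inter (M := {h : F | IsIntegral K[X] h}) (M' := {h : F | IsIntegral (Oinf K) h})
    hb hd W hW

end functionField

end Fermat.Agent.S20.DW
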