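import Fermat.Agent.S20.H27_Dual
import Fermat.Agent.S20.H29_Lattices

/-!
# S20, package L3 (helper27): the lattice count for the two integral closures

Bridge between the coordinate statements of `H27_Dual` and

* helper29's objects `{h | IsIntegral K[X] h}`, `{h | IsIntegral (Oinf K) h}` with a simultaneous
  reduced basis `(b, d)`;
* Mathlib's `Submodule.traceDual` of the unit ideal of the integral closures.

Main result `rr_count`:
`dim_K (A ∩ B) - dim_K (A* ∩ X⁻² B*) = n + ∑ d i`.
-/

set_option autoImplicit false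

open Polynomial Module

namespace Fermat.Agent.S20.L3

open Fermat.Agent.S20.DW

section Bridge

variable (K : Type*) [Field K] [DecidableEq (RatFunc K)]

theorem degLE_zero_iff_mem_range_Oinf (r : RatFunc K) :
    DegLE 0 r ↔ r ∈ (algebraMap (Oinf K) (RatFunc K)).range := by
  rw [range_algebraMap_Oinf, val_le_one_iff]
  rfl

variable (F : Type*) [Field F] [Algebra (RatFunc K) F] [Algebra K[X] F]
  [IsScalarTower K[X] (RatFunc K) F]

omit [DecidableEq (RatFunc K)] in
/-- The trace dual of the integral closure of `K[X]`, as a set. -/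
theorem mem_dualPoly_integral_iff (h : F) :
    h ∈ dualPoly K {a : F | IsIntegral K[X] a} ↔
      h ∈ Submodule.traceDual K[X] (RatFunc K) (1 : Submodule (integralClosure K[X] F) F) := by
  rw [Submodule.mem_traceDual]
  constructor
  · intro hh a ha
    obtain ⟨y, rfl⟩ := Submodule.mem_one.mp ha
    rw [Algebra.traceForm_apply]
    exact hh _ y.2
  · intro hh a ha
    have := hh a (Submodule.mem_one.mpr ⟨⟨a, ha⟩, rfl⟩)
    rwa [Algebra.traceForm_apply] at this

omit [Algebra K[X] F] [IsScalarTower K[X] (RatFunc K) F] in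
/-- The trace dual of the integral closure of the valuation ring at infinity, as a set. -/
theorem mem_dualInfty_integral_iff (h : F) :
    h ∈ dualInfty K {a : F | IsIntegral (Oinf K) a} ↔
      h ∈ Submodule.traceDual (Oinf K) (RatFunc K)
        (1 : Submodule (integralClosure (Oinf K) F) F) := by
  rw [Submodule.mem_traceDual]
  constructor
  · intro hh a ha
    obtain ⟨y, rfl⟩ := Submodule.mem_one.mp ha
    rw [Algebra.traceForm_apply, ← degLE_zero_iff_mem_range_Oinf]
    exact hh _ y.2
  · intro hh a ha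
    have := hh a (Submodule.mem_one.mpr ⟨⟨a, ha⟩, rfl⟩)
    rwa [Algebra.traceForm_apply, ← degLE_zero_iff_mem_range_Oinf] at this

variable {K F}
variable {ι : Type*} [Fintype ι] [DecidableEq ι]
  [FiniteDimensional (RatFunc K) F] [Algebra.IsSeparable (RatFunc K) F]
  [Algebra K F] [IsScalarTower K (RatFunc K) F]

/-- **The lattice count.** For a simultaneous reduced basis `(b, d)` of the two integral closures
`A` (of `K[X]`) and `B` (of `Oinf K`):
`dim_K (A ∩ B) - dim_K (A* ∩ X⁻² B*) = n + ∑ d i`, where `A*`, `B*` are the trace duals. -/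
theorem rr_count {b : Basis ι (RatFunc K) F} {d : ι → ℤ}
    (hb : IsPolyLattice b {h : F | IsIntegral K[X] h})
    (hd : ∀ v : F, IsIntegral (Oinf K) v ↔ ∀ i, b.repr v i = 0 ∨ (b.repr v i).intDegree ≤ d i)
    (W : Submodule K F) (hW : ∀ v, v ∈ W ↔ IsIntegral K[X] v ∧ IsIntegral (Oinf K) v)
    (Ω : Submodule K F)
    (hΩ : ∀ h, h ∈ Ω ↔
      h ∈ Submodule.traceDual K[X] (RatFunc K) (1 : Submodule (integralClosure K[X] F) F) ∧
      (RatFunc.X ^ (2 : ℤ) : RatFunc K) • h ∈ Submodule.traceDual (Oinf K) (RatFunc K)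
        (1 : Submodule (integralClosure (Oinf K) F) F)) :
    (finrank K W : ℤ) - finrank K Ω = Fintype.card ι + ∑ i, d i := by
  have hA : {h : F | IsIntegral K[X] h} = polyLat b := Set.ext fun v => hb v
  have hB : {h : F | IsIntegral (Oinf K) h} = inftyLat b d := Set.ext fun v => hd v
  refine dual_count b d hA hB W ?_ Ω ?_
  · ext v
    exact hW v
  · intro h
    rw [hΩ, mem_dualPoly_integral_iff K F, mem_dualInfty_integral_iff K F]

/-- If moreover `A ∩ B = K` (one-dimensional), then
`dim_K (A* ∩ X⁻² B*) = 1 - n - ∑ d i`. -/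
theorem rr_count_of_finrank_eq_one {b : Basis ι (RatFunc K) F} {d : ι → ℤ}
    (hb : IsPolyLattice b {h : F | IsIntegral K[X] h})
    (hd : ∀ v : F, IsIntegral (Oinf K) v ↔ ∀ i, b.repr v i = 0 ∨ (b.repr v i).intDegree ≤ d i)
    (W : Submodule K F) (hW : ∀ v, v ∈ W ↔ IsIntegral K[X] v ∧ IsIntegral (Oinf K) v)
    (hW1 : finrank K W = 1)
    (Ω : Submodule K F)
    (hΩ : ∀ h, h ∈ Ω ↔
      h ∈ Submodule.traceDual K[X] (RatFunc K) (1 : Submodule (integralClosure K[X] F) F) ∧
      (RatFunc.X ^ (2 : ℤ) : RatFunc K) • h ∈ Submodule.traceDual (Oinf K) (RatFunc K)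
        (1 : Submodule (integralClosure (Oinf K) F) F)) :
    (finrank K Ω : ℤ) = 1 - Fintype.card ι - ∑ i, d i := by
  have := rr_count hb hd W hW Ω hΩ
  rw [hW1] at this
  push_cast at this
  linarith

end Bridge

end Fermat.Agent.S20.L3
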