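import Fermat.Agent.S20.H28_Index
import Fermat.Agent.S20.H29_Lattices

/-!
# S20, package L5 (helper28): the valuation ring at infinity as a `K`-algebra

`DW.Oinf K` is a discrete valuation ring with uniformiser `X⁻¹` and residue field `K`:
for `a ≠ 0` in `Oinf K`, `dim_K (Oinf K / (a)) = - intDegree a`.
-/

set_option autoImplicit false
set_option linter.unusedSectionVars false
set_option linter.style.haveILetI false

open Module Polynomial

namespace Fermat.Agent.S20.Idx

open Fermat.Agent.S20.DW

section Oinf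

variable (K : Type*) [Field K] [DecidableEq (RatFunc K)]

theorem h28_algebraMap_mem_Oinf (c : K) : algebraMap K (RatFunc K) c ∈ Oinf K := by
  rw [mem_Oinf_iff]
  by_cases h : c = 0
  · simp [h]
  · rw [RatFunc.algebraMap_eq_C, RatFunc.inftyValuation.C K h]

/-- The inclusion of the constants into the valuation ring at infinity. -/
noncomputable def h28_toOinf : K →+* Oinf K :=
  (algebraMap K (RatFunc K)).codRestrict (Oinf K) (h28_algebraMap_mem_Oinf K)

/-- The `K`-algebra structure of the valuation ring at infinity. -/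
@[reducible] noncomputable def h28_algebraOinf : Algebra K (Oinf K) := (h28_toOinf K).toAlgebra

attribute [local instance] h28_algebraOinf

theorem h28_isScalarTower_Oinf : IsScalarTower K (Oinf K) (RatFunc K) :=
  IsScalarTower.of_algebraMap_eq fun _ => rfl

attribute [local instance] h28_isScalarTower_Oinf

theorem h28_mem_Oinf_iff (f : RatFunc K) : f ∈ Oinf K ↔ f = 0 ∨ f.intDegree ≤ 0 := by
  rw [mem_Oinf_iff, ← WithZero.exp_zero, val_le_exp_iff]

/-- The uniformiser `X⁻¹`. -/
noncomputable def h28_pi : Oinf K :=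
  ⟨(RatFunc.X : RatFunc K)⁻¹, (h28_mem_Oinf_iff K _).mpr (Or.inr (by
    rw [RatFunc.intDegree_inv, RatFunc.intDegree_X]; norm_num))⟩

theorem h28_coe_pi_pow (m : ℕ) : ((h28_pi K ^ m : Oinf K) : RatFunc K) = (RatFunc.X)⁻¹ ^ m := by
  rfl

theorem h28_intDegree_pi_pow (m : ℕ) :
    (((RatFunc.X : RatFunc K))⁻¹ ^ m).intDegree = -(m : ℤ) := by
  induction m with
  | zero => simp
  | succ m ih =>
    rw [pow_succ, RatFunc.intDegree_mul (pow_ne_zero _ (inv_ne_zero RatFunc.X_ne_zero))
      (inv_ne_zero RatFunc.X_ne_zero), ih, RatFunc.intDegree_inv, RatFunc.intDegree_X]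
    push_cast
    ring

/-- Membership in the ideal `(π ^ m)`. -/
theorem h28_mem_span_pi_pow_iff (m : ℕ) (g : Oinf K) :
    g ∈ Ideal.span {h28_pi K ^ m} ↔ (g : RatFunc K) = 0 ∨ (g : RatFunc K).intDegree ≤ -(m : ℤ) := by
  have hX : ((RatFunc.X : RatFunc K))⁻¹ ^ m ≠ 0 := pow_ne_zero _ (inv_ne_zero RatFunc.X_ne_zero)
  rw [Ideal.mem_span_singleton]
  constructor
  · rintro ⟨h, rfl⟩
    by_cases h0 : (h : RatFunc K) = 0
    · left
      rw [Subring.coe_mul, h0, mul_zero]
    · right
      have hh := (h28_mem_Oinf_iff K _).mp h.2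
      rw [Subring.coe_mul, h28_coe_pi_pow, RatFunc.intDegree_mul hX h0, h28_intDegree_pi_pow]
      rcases hh with hh | hh
      · exact absurd hh h0
      · omega
  · intro hg
    have hmem : (g : RatFunc K) / (RatFunc.X)⁻¹ ^ m ∈ Oinf K := by
      rw [h28_mem_Oinf_iff]
      rcases hg with hg | hg
      · left; rw [hg, zero_div]
      · by_cases g0 : (g : RatFunc K) = 0
        · left; rw [g0, zero_div]
        · right
          rw [RatFunc.intDegree_div g0 hX, h28_intDegree_pi_pow]
          omega
    refine ⟨⟨_, hmem⟩, Subtype.ext ?_⟩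
    rw [Subring.coe_mul, h28_coe_pi_pow]
    show (g : RatFunc K) = (RatFunc.X)⁻¹ ^ m * ((g : RatFunc K) / (RatFunc.X)⁻¹ ^ m)
    rw [mul_div_cancel₀ _ hX]

theorem h28_span_eq_span_pi_pow {a : Oinf K} (ha : a ≠ 0) :
    Ideal.span {a} = Ideal.span {h28_pi K ^ (-(a : RatFunc K).intDegree).toNat} := by
  have ha' : (a : RatFunc K) ≠ 0 := fun h => ha (Subtype.ext h)
  have hdeg : (a : RatFunc K).intDegree ≤ 0 := by
    rcases (h28_mem_Oinf_iff K _).mp a.2 with h | h
    · exact absurd h ha'
    · exact h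
  set m := (-(a : RatFunc K).intDegree).toNat with hm
  have hm' : (m : ℤ) = -(a : RatFunc K).intDegree := by
    rw [hm, Int.toNat_of_nonneg]; omega
  have hX : ((RatFunc.X : RatFunc K))⁻¹ ^ m ≠ 0 := pow_ne_zero _ (inv_ne_zero RatFunc.X_ne_zero)
  apply le_antisymm
  · rw [Ideal.span_singleton_le_iff_mem, h28_mem_span_pi_pow_iff]
    right
    omega
  · rw [Ideal.span_singleton_le_iff_mem, Ideal.mem_span_singleton]
    have hmem : (RatFunc.X : RatFunc K)⁻¹ ^ m / (a : RatFunc K) ∈ Oinf K := by
      rw [h28_mem_Oinf_iff]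
      right
      rw [RatFunc.intDegree_div hX ha', h28_intDegree_pi_pow]
      omega
    refine ⟨⟨_, hmem⟩, Subtype.ext ?_⟩
    rw [Subring.coe_mul, h28_coe_pi_pow]
    show (RatFunc.X : RatFunc K)⁻¹ ^ m = (a : RatFunc K) * ((RatFunc.X)⁻¹ ^ m / (a : RatFunc K))
    rw [mul_div_cancel₀ _ ha']

/-- Every element of `Oinf K` is congruent to a constant modulo `π`. -/
theorem h28_exists_const_sub_mem (f : Oinf K) :
    ∃ c : K, f - algebraMap K (Oinf K) c ∈ Ideal.span {h28_pi K ^ 1} := by
  by_cases hf0 : (f : RatFunc K) = 0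
  · refine ⟨0, ?_⟩
    rw [map_zero, sub_zero, h28_mem_span_pi_pow_iff]
    exact Or.inl hf0
  have hdeg : (f : RatFunc K).intDegree ≤ 0 := by
    rcases (h28_mem_Oinf_iff K _).mp f.2 with h | h
    · exact absurd h hf0
    · exact h
  rcases hdeg.lt_or_eq with hlt | heq
  · refine ⟨0, ?_⟩
    rw [map_zero, sub_zero, h28_mem_span_pi_pow_iff]
    right
    push_cast
    omega
  · -- degree zero: subtract the quotient of the leading coefficients
    set p := (f : RatFunc K).num with hp
    set q := (f : RatFunc K).denom with hq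
    have hq0 : q ≠ 0 := RatFunc.denom_ne_zero _
    have hp0 : p ≠ 0 := RatFunc.num_ne_zero hf0
    have hfpq : algebraMap K[X] (RatFunc K) p / algebraMap K[X] (RatFunc K) q = f :=
      RatFunc.num_div_denom _
    have hnat : p.natDegree = q.natDegree := by
      have h : ((f : RatFunc K).num.natDegree : ℤ) - (f : RatFunc K).denom.natDegree = 0 := heq
      rw [← hp, ← hq] at h
      omega
    set c : K := p.leadingCoeff / q.leadingCoeff with hc
    have hlq : q.leadingCoeff ≠ 0 := Polynomial.leadingCoeff_ne_zero.mpr hq0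
    have hlp : p.leadingCoeff ≠ 0 := Polynomial.leadingCoeff_ne_zero.mpr hp0
    have hc0 : c ≠ 0 := div_ne_zero hlp hlq
    refine ⟨c, ?_⟩
    rw [h28_mem_span_pi_pow_iff]
    have hcoe : ((f - algebraMap K (Oinf K) c : Oinf K) : RatFunc K)
        = algebraMap K[X] (RatFunc K) (p - Polynomial.C c * q) / algebraMap K[X] (RatFunc K) q := by
      have hq' : algebraMap K[X] (RatFunc K) q ≠ 0 := by
        rw [Ne, map_eq_zero_iff _ (IsFractionRing.injective K[X] (RatFunc K))]
        exact hq0
      rw [map_sub, map_mul, sub_div, hfpq, mul_div_assoc, div_self hq', mul_one]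
      rfl
    rw [hcoe]
    by_cases hr0 : p - Polynomial.C c * q = 0
    · left
      rw [hr0, map_zero, zero_div]
    · right
      have hq' : algebraMap K[X] (RatFunc K) q ≠ 0 := by
        rw [Ne, map_eq_zero_iff _ (IsFractionRing.injective K[X] (RatFunc K))]
        exact hq0
      have hr' : algebraMap K[X] (RatFunc K) (p - Polynomial.C c * q) ≠ 0 := by
        rw [Ne, map_eq_zero_iff _ (IsFractionRing.injective K[X] (RatFunc K))]
        exact hr0
      rw [RatFunc.intDegree_div hr' hq', RatFunc.intDegree_polynomial,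
        RatFunc.intDegree_polynomial]
      have hdegeq : p.degree = (Polynomial.C c * q).degree := by
        rw [Polynomial.degree_C_mul hc0, Polynomial.degree_eq_natDegree hp0,
          Polynomial.degree_eq_natDegree hq0, hnat]
      have hlc : p.leadingCoeff = (Polynomial.C c * q).leadingCoeff := by
        rw [Polynomial.leadingCoeff_mul, Polynomial.leadingCoeff_C, hc, div_mul_cancel₀ _ hlq]
      have hlt := Polynomial.degree_sub_lt_left hdegeq hp0 hlc
      have hlt' : (p - Polynomial.C c * q).natDegree < p.natDegree :=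
        Polynomial.natDegree_lt_natDegree hr0 hlt
      push_cast
      omega

theorem h28_one_notMem_span_pi : (1 : Oinf K) ∉ Ideal.span {h28_pi K ^ 1} := by
  rw [h28_mem_span_pi_pow_iff]
  rintro (h | h)
  · exact one_ne_zero h
  · have : ((1 : Oinf K) : RatFunc K) = 1 := rfl
    rw [this, RatFunc.intDegree_one] at h
    norm_num at h

/-- The residue field of `Oinf K` is `K`. -/
theorem h28_bijective_algebraMap_quotient :
    Function.Bijective (Algebra.linearMap K (Oinf K ⧸ Ideal.span {h28_pi K ^ 1})) := by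
  constructor
  · rw [← LinearMap.ker_eq_bot, Submodule.eq_bot_iff]
    intro c hc
    by_contra hc0
    rw [LinearMap.mem_ker, Algebra.linearMap_apply, IsScalarTower.algebraMap_apply K (Oinf K),
      Ideal.Quotient.algebraMap_eq, Ideal.Quotient.eq_zero_iff_mem] at hc
    apply h28_one_notMem_span_pi K
    have h1 : (1 : Oinf K) = algebraMap K (Oinf K) c⁻¹ * algebraMap K (Oinf K) c := by
      rw [← map_mul, inv_mul_cancel₀ hc0, map_one]
    rw [h1]
    exact Ideal.mul_mem_left _ _ hc
  · intro x
    obtain ⟨f, rfl⟩ := Ideal.Quotient.mk_surjective x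
    obtain ⟨c, hc⟩ := h28_exists_const_sub_mem K f
    refine ⟨c, ?_⟩
    rw [Algebra.linearMap_apply, IsScalarTower.algebraMap_apply K (Oinf K),
      Ideal.Quotient.algebraMap_eq]
    exact (Ideal.Quotient.eq.mpr hc).symm

theorem h28_finite_quotient_pi :
    Module.Finite K (Oinf K ⧸ Ideal.span {h28_pi K ^ 1}) :=
  Module.Finite.equiv (LinearEquiv.ofBijective _ (h28_bijective_algebraMap_quotient K))

theorem h28_finrank_quotient_pi :
    finrank K (Oinf K ⧸ Ideal.span {h28_pi K ^ 1}) = 1 := by
  rw [← (LinearEquiv.ofBijective _ (h28_bijective_algebraMap_quotient K)).finrank_eq]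
  exact finrank_self K

theorem h28_quotient_pi_pow (m : ℕ) :
    Module.Finite K (Oinf K ⧸ Ideal.span {h28_pi K ^ m}) ∧
      finrank K (Oinf K ⧸ Ideal.span {h28_pi K ^ m}) = m := by
  have hpi : h28_pi K ^ 1 ≠ 0 := by
    intro h
    have h1 : ((h28_pi K ^ 1 : Oinf K) : RatFunc K) = 0 := by rw [h]; rfl
    rw [h28_coe_pi_pow, pow_one] at h1
    exact inv_ne_zero RatFunc.X_ne_zero h1
  induction m with
  | zero =>
    have hs : Subsingleton (Oinf K ⧸ Ideal.span {h28_pi K ^ 0}) := by
      rw [pow_zero]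
      exact Ideal.Quotient.subsingleton_iff.mpr Ideal.span_singleton_one
    exact ⟨inferInstance, Module.finrank_zero_of_subsingleton⟩
  | succ m ih =>
    have e : h28_pi K ^ (m + 1) = h28_pi K ^ 1 * h28_pi K ^ m := by
      rw [pow_one, pow_succ']
    rw [e]
    have hfin := h28_finite_quotient_span_mul K hpi (h28_finite_quotient_pi K) ih.1
    refine ⟨hfin, ?_⟩
    rw [h28_finrank_quotient_span_mul K hpi hfin, h28_finrank_quotient_pi, ih.2, add_comm]

/-- Quotients of `Oinf K` by nonzero principal ideals are finite dimensional over `K`. -/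
theorem finite_quotient_Oinf {a : Oinf K} (ha : a ≠ 0) :
    Module.Finite K (Oinf K ⧸ Ideal.span {a}) := by
  rw [h28_span_eq_span_pi_pow K ha]
  exact (h28_quotient_pi_pow K _).1

/-- `dim_K (Oinf K / (a)) = - intDegree a`. -/
theorem finrank_quotient_Oinf {a : Oinf K} (ha : a ≠ 0) :
    (finrank K (Oinf K ⧸ Ideal.span {a}) : ℤ) = -(a : RatFunc K).intDegree := by
  have ha' : (a : RatFunc K) ≠ 0 := fun h => ha (Subtype.ext h)
  have hdeg : (a : RatFunc K).intDegree ≤ 0 := by
    rcases (h28_mem_Oinf_iff K _).mp a.2 with h | h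
    · exact absurd h ha'
    · exact h
  rw [h28_span_eq_span_pi_pow K ha, (h28_quotient_pi_pow K _).2, Int.toNat_of_nonneg]
  omega

end Oinf

end Fermat.Agent.S20.Idx
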