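import Fermat.Agent.S20.H28_Trace
import Fermat.Agent.S20.H28_Oinf
import Fermat.Agent.S20.Alg_Defs
import Fermat.Agent.S20.H27_DualDW

/-!
# S20, package L5 (helper28): `dim A*/A + dim B*/B = -2 ∑ d i`

For a simultaneous reduced basis `(b, d)` of the integral closures `A` of `K[X]` and `B` of the
valuation ring at infinity in a finite separable extension `F` of `RatFunc K`:

* `codim_Aint_eq` : `dim_K (A* / A) = deg (det (Tr (b i * b j)))`,
* `codim_Bint_eq` : `dim_K (B* / B) = - 2 ∑ d i - deg (det (Tr (b i * b j)))`,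
* `codim_add_codim` : the sum is `- 2 ∑ d i`.
-/

set_option autoImplicit false
set_option linter.unusedSectionVars false
set_option linter.style.haveILetI false

open Module Polynomial

namespace Fermat.Agent.S20.Idx

open Fermat.Agent.S20.DW Fermat.Agent.S20.Alg Fermat.Agent.S20.L3

attribute [local instance] h28_algebraOinf h28_isScalarTower_Oinf

section Poly

variable (K : Type*) [Field K]

theorem h28_finite_quotient_poly {a : K[X]} (ha : a ≠ 0) :
    Module.Finite K (K[X] ⧸ Ideal.span {a}) :=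
  PowerBasis.finite (AdjoinRoot.powerBasis ha)

theorem h28_finrank_quotient_poly {a : K[X]} (ha : a ≠ 0) :
    finrank K (K[X] ⧸ Ideal.span {a}) = a.natDegree :=
  (AdjoinRoot.powerBasis ha).finrank.trans (AdjoinRoot.powerBasis_dim ha)

end Poly

section Main

variable (K : Type*) [Field K] [DecidableEq (RatFunc K)]
  (F : Type*) [Field F] [Algebra (RatFunc K) F] [Algebra K[X] F]
  [IsScalarTower K[X] (RatFunc K) F] [Algebra K F] [IsScalarTower K (RatFunc K) F]
  [FiniteDimensional (RatFunc K) F] [Algebra.IsSeparable (RatFunc K) F]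
  {ι : Type*} [Fintype ι] [DecidableEq ι]

variable {K F}

/-- The traces `Tr (b i * b j)` are polynomials. -/
theorem h28_exists_trace_poly {b : Basis ι (RatFunc K) F}
    (hb : IsPolyLattice b {h : F | IsIntegral K[X] h}) :
    ∃ G : Matrix ι ι K[X], ∀ i j,
      algebraMap K[X] (RatFunc K) (G i j) = Algebra.trace (RatFunc K) F (b i * b j) := by
  have h : ∀ i j, ∃ y : K[X],
      algebraMap K[X] (RatFunc K) y = Algebra.trace (RatFunc K) F (b i * b j) := by
    intro i j
    have hi : IsIntegral K[X] (b i) := basis_mem hb i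
    have hj : IsIntegral K[X] (b j) := basis_mem hb j
    exact IsIntegrallyClosed.isIntegral_iff.mp
      (Algebra.isIntegral_trace (L := RatFunc K) (hi.mul hj))
  choose G hG using h
  exact ⟨Matrix.of G, hG⟩

/-- **Poly side**: `dim_K (A* / A) = deg disc`. -/
theorem codim_Aint_eq {b : Basis ι (RatFunc K) F}
    (hb : IsPolyLattice b {h : F | IsIntegral K[X] h}) (G : Matrix ι ι K[X])
    (hG : ∀ i j,
      algebraMap K[X] (RatFunc K) (G i j) = Algebra.trace (RatFunc K) F (b i * b j)) :
    codim (Aint K F) (Adual K F) = G.det.natDegree := by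
  have h := finrank_traceDual_quotient K (R := K[X])
    (fun a ha => h28_finite_quotient_poly K ha) b G hG (Aint K F) (Adual K F)
    (fun v => hb v) (fun v => Iff.rfl)
  rw [h28_finrank_quotient_poly K (h28_det_ne_zero K b G hG)] at h
  exact h

/-! ### The side at infinity -/

/-- The rescaled basis `X ^ (d i) • b i`. -/
noncomputable def h28_rescale (b : Basis ι (RatFunc K) F) (d : ι → ℤ) : Basis ι (RatFunc K) F :=
  b.unitsSMul fun i => Units.mk0 ((RatFunc.X : RatFunc K) ^ d i) (zpow_ne_zero _ RatFunc.X_ne_zero)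

theorem h28_rescale_apply (b : Basis ι (RatFunc K) F) (d : ι → ℤ) (i : ι) :
    h28_rescale b d i = ((RatFunc.X : RatFunc K) ^ d i) • b i := by
  rw [h28_rescale, Basis.unitsSMul_apply]
  rfl

theorem h28_rescale_repr (b : Basis ι (RatFunc K) F) (d : ι → ℤ) (v : F) (i : ι) :
    (h28_rescale b d).repr v i = (RatFunc.X : RatFunc K) ^ (-d i) * b.repr v i := by
  rw [h28_rescale, Basis.repr_unitsSMul, Units.smul_def, smul_eq_mul, zpow_neg]
  rfl

theorem h28_prod_X_zpow (s : Finset ι) (d : ι → ℤ) :
    ∏ i ∈ s, (RatFunc.X : RatFunc K) ^ d i = RatFunc.X ^ (∑ i ∈ s, d i) := by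
  classical
  induction s using Finset.induction_on with
  | empty => simp
  | insert i s hi ih =>
    rw [Finset.prod_insert hi, Finset.sum_insert hi, ih, zpow_add₀ RatFunc.X_ne_zero]

theorem h28_trace_rescale (b : Basis ι (RatFunc K) F) (d : ι → ℤ) (i j : ι) :
    Algebra.trace (RatFunc K) F (h28_rescale b d i * h28_rescale b d j)
      = (RatFunc.X : RatFunc K) ^ d i *
        ((RatFunc.X : RatFunc K) ^ d j * Algebra.trace (RatFunc K) F (b i * b j)) := by
  rw [h28_rescale_apply, h28_rescale_apply, smul_mul_assoc, mul_smul_comm, map_smul, map_smul,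
    smul_eq_mul, smul_eq_mul]

theorem h28_rescale_integral {b : Basis ι (RatFunc K) F} {d : ι → ℤ}
    (hd : ∀ v : F, IsIntegral (Oinf K) v ↔ ∀ i, b.repr v i = 0 ∨ (b.repr v i).intDegree ≤ d i)
    (i : ι) : IsIntegral (Oinf K) (h28_rescale b d i) := by
  rw [h28_rescale_apply, hd]
  exact X_zpow_smul_basis_mem_inftyLat b d i

/-- The traces `Tr (X ^ d i b i * X ^ d j b j)` lie in the valuation ring at infinity. -/
theorem h28_exists_trace_infty {b : Basis ι (RatFunc K) F} {d : ι → ℤ}
    (hd : ∀ v : F, IsIntegral (Oinf K) v ↔ ∀ i, b.repr v i = 0 ∨ (b.repr v i).intDegree ≤ d i) :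
    ∃ G : Matrix ι ι (Oinf K), ∀ i j, algebraMap (Oinf K) (RatFunc K) (G i j)
      = Algebra.trace (RatFunc K) F (h28_rescale b d i * h28_rescale b d j) := by
  have h : ∀ i j, ∃ y : Oinf K, algebraMap (Oinf K) (RatFunc K) y
      = Algebra.trace (RatFunc K) F (h28_rescale b d i * h28_rescale b d j) := by
    intro i j
    exact IsIntegrallyClosed.isIntegral_iff.mp
      (Algebra.isIntegral_trace (L := RatFunc K)
        ((h28_rescale_integral hd i).mul (h28_rescale_integral hd j)))
  choose G hG using h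
  exact ⟨Matrix.of G, hG⟩

/-- **Side at infinity**: `dim_K (B* / B) = - 2 ∑ d i - deg disc`. -/
theorem codim_Bint_eq {b : Basis ι (RatFunc K) F} {d : ι → ℤ}
    (hd : ∀ v : F, IsIntegral (Oinf K) v ↔ ∀ i, b.repr v i = 0 ∨ (b.repr v i).intDegree ≤ d i)
    (G : Matrix ι ι K[X])
    (hG : ∀ i j,
      algebraMap K[X] (RatFunc K) (G i j) = Algebra.trace (RatFunc K) F (b i * b j)) :
    (codim (Bint K F) (Bdual K F) : ℤ) = - 2 * ∑ i, d i - G.det.natDegree := by
  obtain ⟨G', hG'⟩ := h28_exists_trace_infty hd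
  have hdet' : G'.det ≠ 0 := h28_det_ne_zero K (h28_rescale b d) G' hG'
  have hdet : G.det ≠ 0 := h28_det_ne_zero K b G hG
  have h := finrank_traceDual_quotient K (R := Oinf K)
    (fun a ha => finite_quotient_Oinf K ha) (h28_rescale b d) G' hG' (Bint K F) (Bdual K F)
    ?_ ?_
  · have h1 : (codim (Bint K F) (Bdual K F) : ℤ)
        = (finrank K (Oinf K ⧸ Ideal.span {G'.det}) : ℤ) := by
      rw [← h]; rfl
    rw [h1, finrank_quotient_Oinf K hdet']
    -- the determinant
    have h2 : ((G'.det : Oinf K) : RatFunc K)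
        = (∏ i, (RatFunc.X : RatFunc K) ^ d i) * ((∏ i, (RatFunc.X : RatFunc K) ^ d i) *
          algebraMap K[X] (RatFunc K) G.det) := by
      have e1 : ((G'.det : Oinf K) : RatFunc K) = algebraMap (Oinf K) (RatFunc K) G'.det := rfl
      rw [e1, RingHom.map_det, RingHom.map_det, ← Matrix.det_mul_row, ← Matrix.det_mul_column]
      congr 1
      ext i j
      simp only [RingHom.mapMatrix_apply, Matrix.map_apply, Matrix.of_apply]
      rw [hG', h28_trace_rescale, hG]
    have hGdet : algebraMap K[X] (RatFunc K) G.det ≠ 0 := by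
      rw [Ne, map_eq_zero_iff _ (IsFractionRing.injective K[X] (RatFunc K))]
      exact hdet
    have hX : (∏ i, (RatFunc.X : RatFunc K) ^ d i) ≠ 0 := by
      rw [h28_prod_X_zpow]; exact zpow_ne_zero _ RatFunc.X_ne_zero
    rw [h2, RatFunc.intDegree_mul hX (mul_ne_zero hX hGdet), RatFunc.intDegree_mul hX hGdet,
      h28_prod_X_zpow, intDegree_X_zpow, RatFunc.intDegree_polynomial]
    ring
  · intro v
    rw [mem_Bint, hd]
    refine forall_congr' fun i => ?_
    rw [h28_rescale_repr, ← degLE_zero_iff_mem_range_Oinf, degLE_X_zpow_mul_iff]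
    simp only [zero_sub, neg_neg]
    rfl
  · intro v
    rw [mem_Bdual]
    refine forall_congr' fun a => ?_
    rw [mem_Bint]
    refine imp_congr_right fun _ => ?_
    rw [range_algebraMap_Oinf, mem_Oinf_iff]

/-- **(L5)** `dim_K (A* / A) + dim_K (B* / B) = - 2 ∑ d i`. -/
theorem codim_add_codim (b : Basis ι (RatFunc K) F) (d : ι → ℤ)
    (hb : IsPolyLattice b {h : F | IsIntegral K[X] h})
    (hd : ∀ v : F, IsIntegral (Oinf K) v ↔ ∀ i, b.repr v i = 0 ∨ (b.repr v i).intDegree ≤ d i) :
    (codim (Aint K F) (Adual K F) : ℤ) + codim (Bint K F) (Bdual K F) = - 2 * ∑ i, d i := by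
  obtain ⟨G, hG⟩ := h28_exists_trace_poly hb
  rw [codim_Aint_eq hb G hG, codim_Bint_eq hd G hG]
  ring

end Main

end Fermat.Agent.S20.Idx
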