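import Fermat.Agent.S20.H29_RRAssembly
import Fermat.Agent.S20.H28_L5

/-!
# S20, package L5 (helper28): the hypothesis `CodimHyp` of the Riemann-Roch assembly holds
-/

set_option autoImplicit false

open Polynomial Module

namespace Fermat.Agent.S20.Idx

variable (K : Type*) [Field K] [DecidableEq (RatFunc K)]
    (F : Type*) [Field F] [Algebra (RatFunc K) F] [Algebra K[X] F]
    [IsScalarTower K[X] (RatFunc K) F] [Algebra K F] [IsScalarTower K (RatFunc K) F]
    [FiniteDimensional (RatFunc K) F] [Algebra.IsSeparable (RatFunc K) F]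

/-- "Index = discriminant" in the shape consumed by `RRA.riemann_roch_of_codim`. -/
theorem codimHyp : RRA.CodimHyp K F :=
  fun b d hb hd => codim_add_codim b d hb hd

/-- Riemann-Roch for lattices with the codimensions still explicit:
`2 dim (A* ∩ X⁻² B*) = 2 - 2 n + dim A*/A + dim B*/B`. -/
theorem riemann_roch_codim
    (hconst : ∀ h : F, IsIntegral K[X] h → IsIntegral (DW.Oinf K) h →
      ∃ c : K, h = algebraMap K F c) :
    2 * (finrank K (Alg.regDiff K F) : ℤ) =
      2 - 2 * (finrank (RatFunc K) F : ℤ) + Alg.codim (Alg.Aint K F) (Alg.Adual K F) +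
        Alg.codim (Alg.Bint K F) (Alg.Bdual K F) :=
  RRA.riemann_roch_of_codim hconst (codimHyp K F)

end Fermat.Agent.S20.Idx
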