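import Fermat.Agent.S20.H29_AlgMainRat
import Fermat.Agent.S20.Alg_Counts
import Fermat.Agent.S20.H16_Br2b
import Fermat.Agent.S20.H28_CodimHyp
import Fermat.Agent.S20.H18_DictFin3
import Fermat.Agent.S20.H18_Br2a
import Fermat.Agent.S20.H16_Codim
import Fermat.Agent.S20.H22_DictInf
import Fermat.Agent.S24.H2_Adapter
import Fermat.Agent.S20.H26_Final2

/-!
# S20 ALG: the final theorem for a generic function field `F / K` with a transcendental `x`
-/

namespace Fermat.Agent.S20.Alg

open Polynomial Module IsDedekindDomain AlgebraicCurve IntermediateField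

noncomputable section

section explicit
variable {K F : Type*} [Field K] [Field F] [Algebra K F]

/-- `u dx` is regular at every place, in explicit form (no Kaehler differentials). -/
def IsRegExplicit (x u : F) : Prop :=
  u = 0 ∨ ((∀ (v : Place K F) (c : K), 0 < v.ord (x - algebraMap K F c) →
      0 ≤ v.ord u + v.ord (x - algebraMap K F c) - 1) ∧
    (∀ v : Place K F, v.ord x < 0 → 0 ≤ v.ord u + v.ord x - 1))

end explicit

section rat

variable (K : Type*) [Field K] [DecidableEq (RatFunc K)]
  (F : Type*) [Field F] [Algebra (RatFunc K) F] [Algebra K[X] F]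
  [IsScalarTower K[X] (RatFunc K) F] [Algebra K F] [IsScalarTower K (RatFunc K) F]
  [FiniteDimensional (RatFunc K) F] [CharZero K] [IsAlgClosed K]

/-- **Riemann-Roch for lattices in place form** ([Br6]), all leaves plugged in. -/
theorem alg_main_rat
    (hL0 : ∀ u : F, u ≠ 0 → (∀ v : Place K F, 0 ≤ v.ord u) → u ∈ Set.range (algebraMap K F))
    (B : Finset K) (hB : ∀ c, c ∉ B → ∀ v : Place K F,
      0 < v.ord (xF K F - algebraMap K F c) → v.ord (xF K F - algebraMap K F c) = 1)
    (W : Submodule K F) (hW : ∀ u, u ∈ W ↔ IsRegExplicit (K := K) (xF K F) u) :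
    Module.Finite K W ∧ 2 * (Module.finrank K W : ℤ) - 2 =
      ∑ c ∈ B, ((finrank (RatFunc K) F : ℤ) -
          (Nat.card {v : Place K F // 0 < v.ord (xF K F - algebraMap K F c)} : ℤ))
        - ((finrank (RatFunc K) F : ℤ) +
          (Nat.card {v : Place K F // 0 < v.ord (xF K F)⁻¹} : ℤ)) := by
  exact RRA.alg_main_rat_of_leaves
    (fun u hu v hv => (DictFin.isIntegral_poly_iff_places K F u).mp hu v hv)
    (fun u hu v hv => H22.h22_mem_place_of_isIntegral v hv u hu)
    (DictFin.mem_Adual_iff_places K F)
    (Tame.h16_mem_Bdual_iff_places K F)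
    (Idx.codimHyp K F) (rFin K F) (rInf K F)
    (Tame.h16_codim_Aint K F) (Tame.h16_codim_Bint K F)
    (Tame.h16_rFin_le K F) (Tame.h16_rInf_le K F)
    (DictFin.rFin_eq_card K F)
    H22.h22_card_primesOver_eq_card_places
    (DictFin.rFin_eq_finrank_of_unramified K F)
    hL0 B hB W hW

end rat

section setting

variable {K F : Type*} [Field K] [Field F] [Algebra K F] (x : F) (hx : Transcendental K x)

/-- The ring hom `RatFunc K → F`, `X ↦ x`. -/
def ratHom : RatFunc K →ₐ[K] F :=
  (IntermediateField.val K⟮x⟯).comp (RatFunc.algEquivOfTranscendental x hx).toAlgHom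

theorem ratHom_X : ratHom x hx RatFunc.X = x := by
  simp [ratHom]

theorem ratHom_algebraMap (p : K[X]) :
    ratHom x hx (algebraMap K[X] (RatFunc K) p) = aeval x p := by
  have h1 : ratHom x hx (algebraMap K[X] (RatFunc K) p) =
      ((RatFunc.algEquivOfTranscendental x hx (algebraMap K[X] (RatFunc K) p) : K⟮x⟯) : F) := rfl
  rw [h1, RatFunc.algEquivOfTranscendental_algebraMap, ← IntermediateField.algebraMap_apply,
    ← aeval_algebraMap_apply]
  rfl

theorem range_ratHom : (ratHom x hx).fieldRange = K⟮x⟯ := by
  ext y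
  simp only [ratHom, AlgHom.mem_fieldRange, AlgHom.coe_comp, Function.comp_apply]
  constructor
  · rintro ⟨r, rfl⟩
    exact Subtype.mem _
  · intro hy
    refine ⟨(RatFunc.algEquivOfTranscendental x hx).symm ⟨y, hy⟩, ?_⟩
    simp

end setting

section final

variable {K F : Type*} [Field K] [Field F] [Algebra K F] [CharZero K] [IsAlgClosed K]

/-- **ALG, final form (explicit regularity conditions).** Generic function field `F / K` with a
transcendental `x`, `F` finite over `K(x)`. -/
theorem alg_main_explicit' (x : F) (hx : Transcendental K x) [FiniteDimensional K⟮x⟯ F]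
    (hL0 : ∀ u : F, u ≠ 0 → (∀ v : Place K F, 0 ≤ v.ord u) → u ∈ Set.range (algebraMap K F))
    (B : Finset K) (hB : ∀ c, c ∉ B → ∀ v : Place K F,
      0 < v.ord (x - algebraMap K F c) → v.ord (x - algebraMap K F c) = 1)
    (W : Submodule K F) (hW : ∀ u, u ∈ W ↔ IsRegExplicit (K := K) x u) :
    Module.Finite K W ∧ 2 * (Module.finrank K W : ℤ) - 2 =
      ∑ c ∈ B, ((finrank K⟮x⟯ F : ℤ) -
          (Nat.card {v : Place K F // 0 < v.ord (x - algebraMap K F c)} : ℤ))
        - ((finrank K⟮x⟯ F : ℤ) + (Nat.card {v : Place K F // 0 < v.ord x⁻¹} : ℤ)) := by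
  classical
  letI a1 : Algebra (RatFunc K) F := (ratHom x hx).toRingHom.toAlgebra
  letI a2 : Algebra K[X] F := (aeval x).toRingHom.toAlgebra
  haveI t1 : IsScalarTower K[X] (RatFunc K) F :=
    IsScalarTower.of_algebraMap_eq (fun p => (ratHom_algebraMap x hx p).symm)
  haveI t2 : IsScalarTower K (RatFunc K) F :=
    IsScalarTower.of_algebraMap_eq (fun c => ((ratHom x hx).commutes c).symm)
  have hfr : finrank (RatFunc K) F = finrank K⟮x⟯ F :=
    Algebra.finrank_eq_of_equiv_equiv (RatFunc.algEquivOfTranscendental x hx).toRingEquiv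
      (RingEquiv.refl F) (by ext r; rfl)
  haveI fd : FiniteDimensional (RatFunc K) F := by
    have he' : RingHom.comp (algebraMap (RatFunc K) F)
        ((RatFunc.algEquivOfTranscendental x hx).symm.toRingEquiv : K⟮x⟯ →+* RatFunc K) =
        RingHom.comp ((RingEquiv.refl F : F ≃+* F) : F →+* F) (algebraMap K⟮x⟯ F) := by
      ext r
      change ratHom x hx ((RatFunc.algEquivOfTranscendental x hx).symm r) = r
      simp [ratHom]
    exact Module.Finite.of_equiv_equiv _ _ he'
  have hX : xF K F = x := ratHom_X x hx
  have key := alg_main_rat K F hL0 B (by rwa [hX]) W (by rwa [hX])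
  rw [hX, hfr] at key
  exact key

end final

section kaehler

open KaehlerDifferential Fermat.Agent.S24.RH

variable {K F : Type*} [Field K] [Field F] [Algebra K F] [CharZero K] [IsAlgClosed K]

/-- The prelude form of regularity (order of the differential `dx`) is the explicit one. -/
theorem isRegularCoeff_iff_isRegExplicit (x : F) (hx : Transcendental K x)
    [FiniteDimensional K⟮x⟯ F] (u : F) :
    Final.IsRegularCoeff (K := K) x u ↔ IsRegExplicit (K := K) x u := by
  have h := Fermat.Agent.S24.Alg.countData (K := K) x hx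
  have hfin := h.fin
  constructor
  · rintro (rfl | hu)
    · exact Or.inl rfl
    · refine Or.inr ⟨fun v c hc => ?_, fun v hv => ?_⟩
      · haveI := Fermat.Agent.S24.Alg.nontrivial_kaehler (K := K) x v
        have := hu v
        rw [ordDifferential_D_of_zero v (h.res v) hc] at this
        omega
      · haveI := Fermat.Agent.S24.Alg.nontrivial_kaehler (K := K) x v
        have := hu v
        rw [ordDifferential_D_of_pole v (h.res v) hv] at this
        omega
  · rintro (rfl | ⟨h1, h2⟩)
    · exact Or.inl rfl
    · refine Or.inr fun v => ?_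
      haveI := Fermat.Agent.S24.Alg.nontrivial_kaehler (K := K) x v
      rcases ord_pos_or_ord_neg v (h.res v) h.not_const with hneg | ⟨c, hc⟩
      · rw [ordDifferential_D_of_pole v (h.res v) hneg]
        have := h2 v hneg
        omega
      · rw [ordDifferential_D_of_zero v (h.res v) hc]
        have := h1 v c hc
        omega

/-- **ALG-MAIN** (prelude form): Riemann-Roch for the canonical divisor `div (dx)` of a function
field of one variable over an algebraically closed field of characteristic zero. -/
theorem alg_main (x : F) (hx : Transcendental K x) [FiniteDimensional K⟮x⟯ F]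
    (hL0 : ∀ u : F, u ≠ 0 → (∀ v : Place K F, 0 ≤ v.ord u) → u ∈ Set.range (algebraMap K F))
    (B : Finset K) (hB : ∀ c, c ∉ B → ∀ v : Place K F,
      0 < v.ord (x - algebraMap K F c) → v.ord (x - algebraMap K F c) = 1)
    (W : Submodule K F) (hW : ∀ u, u ∈ W ↔ Final.IsRegularCoeff (K := K) x u) :
    Module.Finite K W ∧ 2 * (Module.finrank K W : ℤ) - 2 =
      ∑ c ∈ B, ((finrank K⟮x⟯ F : ℤ) -
          (Nat.card {v : Place K F // 0 < v.ord (x - algebraMap K F c)} : ℤ))
        - ((finrank K⟮x⟯ F : ℤ) + (Nat.card {v : Place K F // 0 < v.ord x⁻¹} : ℤ)) :=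
  alg_main_explicit' x hx hL0 B hB W
    (fun u => (hW u).trans (isRegularCoeff_iff_isRegExplicit x hx u))

/-- ALG-MAIN in the shape consumed by the final assembly of S20. -/
theorem algMainT : Final.AlgMainT K F :=
  fun x hx _ _ hL0 B hB => alg_main x hx hL0 B hB (Final.regSub K x) (fun _ => Iff.rfl)

end kaehler

end

end Fermat.Agent.S20.Alg
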