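import Mathlib
import Fermat.Agent.S24.H7_CuspJ

/-!
# S20 [M-B3] (inline version on helper7's `ordInf`): vanishing at the cusp of a quotient

If `G * β = α` with `α`, `β` meromorphic at `i∞` (period `N`), `G` holomorphic and
`ordInf N β < ordInf N α`, then `G` tends to `0` at `i∞`.
-/

set_option autoImplicit false

open UpperHalfPlane ModularForm EisensteinSeries Filter Topology
open scoped Manifold MatrixGroups

namespace Fermat.Agent.S20.M4

open Fermat.Agent.S24.Cusp

/-- A holomorphic quotient of two `h`-periodic functions is `h`-periodic. -/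
theorem periodic_of_mul_eq {h : ℝ} {G α β : ℍ → ℂ}
    (hG : MDifferentiable 𝓘(ℂ) 𝓘(ℂ) G)
    (hα : Function.Periodic (α ∘ ofComplex) h) (hβ : Function.Periodic (β ∘ ofComplex) h)
    (hβh : MDifferentiable 𝓘(ℂ) 𝓘(ℂ) β) (hβ0 : β ≠ 0)
    (hmul : ∀ z, G z * β z = α z) : Function.Periodic (G ∘ ofComplex) h := by
  refine periodic_comp_ofComplex_of_vadd fun z => ?_
  have hGs : MDifferentiable 𝓘(ℂ) 𝓘(ℂ) (fun z : ℍ => G (h +ᵥ z)) := mdiff_vadd hG h
  have key : ((fun z : ℍ => G (h +ᵥ z)) - G) * β = 0 := by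
    funext w
    have h1 := hmul (h +ᵥ w)
    rw [vadd_of_periodic hα, vadd_of_periodic hβ] at h1
    simp only [Pi.mul_apply, Pi.sub_apply, Pi.zero_apply, sub_mul, h1, hmul w, sub_self]
  rcases (UpperHalfPlane.mul_eq_zero_iff (hGs.sub hG) hβh).mp key with h1 | h1
  · have := congrFun h1 z
    simpa [sub_eq_zero] using this
  · exact absurd h1 hβ0

/-- **[M-B3]**: if `G * β = α`, `G` holomorphic, `α`, `β` meromorphic at `i∞` and
`ordInf β < ordInf α`, then `G` vanishes at `i∞`. -/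
theorem isZeroAtImInfty_of_mul_eq {h : ℝ} (hh : 0 < h) {G α β : ℍ → ℂ}
    (hG : MDifferentiable 𝓘(ℂ) 𝓘(ℂ) G) (hα : MeroAtInf h α) (hβ : MeroAtInf h β)
    (hβ0 : β ≠ 0) (hmul : ∀ z, G z * β z = α z) (hord : ordInf h β < ordInf h α) :
    IsZeroAtImInfty G := by
  by_cases hG0 : G = 0
  · subst hG0
    exact Filter.zero_zeroAtFilter _
  have hper := periodic_of_mul_eq hG hα.periodic hβ.periodic hβ.holo hβ0 hmul
  have hGβ : G * β = α := funext hmul
  have hGm : MeroAtInf h G := MeroAtInf.of_mul hper hG hβ hh hβ0 (by rw [hGβ]; exact hα.mero)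
  have hsum := MeroAtInf.ordInf_mul hGm hβ hh hG0 hβ0
  rw [hGβ] at hsum
  exact (hGm.ordInf_pos_iff hh hG0).mp (by linarith)

end Fermat.Agent.S20.M4
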