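import Mathlib

set_option autoImplicit false

open UpperHalfPlane ModularForm Filter Topology
open scoped Manifold MatrixGroups

/-!
# S20 [M-B1]: holomorphic quotient by orders

If `a`, `b` are holomorphic on the upper half plane, `b` is not identically zero and the order of
vanishing of `b` is at most that of `a` at every point, then `a / b` is holomorphic.
-/

namespace Fermat.Agent.S20.M4

theorem analyticOnNhd_comp_ofComplex {b : ℍ → ℂ} (hb : MDifferentiable 𝓘(ℂ) 𝓘(ℂ) b) :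
    AnalyticOnNhd ℂ (b ∘ ofComplex) {z : ℂ | 0 < z.im} := fun _ hw =>
  (UpperHalfPlane.mdifferentiable_iff.mp hb).analyticAt (isOpen_upperHalfPlaneSet.mem_nhds hw)

/-- The order of a nonzero holomorphic function on `ℍ` is finite everywhere. -/
theorem analyticOrderAt_comp_ofComplex_ne_top {b : ℍ → ℂ}
    (hb : MDifferentiable 𝓘(ℂ) 𝓘(ℂ) b) (hb0 : b ≠ 0) (z : ℍ) :
    analyticOrderAt (b ∘ ofComplex) (z : ℂ) ≠ ⊤ := by
  intro h
  apply hb0
  have hconn : IsPreconnected {z : ℂ | 0 < z.im} := (convex_halfSpace_im_gt 0).isPreconnected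
  rw [analyticOrderAt_eq_top] at h
  have := (analyticOnNhd_comp_ofComplex hb).eqOn_zero_of_preconnected_of_eventuallyEq_zero
    hconn z.im_pos h
  funext w
  have h2 := this w.im_pos
  simpa using h2

/-- **Division by orders**: if `a`, `b` are holomorphic on `ℍ`, `b ≠ 0` and the order of `b` is at
most the order of `a` at every point, then `a / b` is holomorphic. -/
theorem exists_mdifferentiable_mul_eq_of_order_le {a b : ℍ → ℂ}
    (ha : MDifferentiable 𝓘(ℂ) 𝓘(ℂ) a) (hb : MDifferentiable 𝓘(ℂ) 𝓘(ℂ) b) (hb0 : b ≠ 0)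
    (hord : ∀ z : ℍ, analyticOrderAt (b ∘ ofComplex) (z : ℂ) ≤
      analyticOrderAt (a ∘ ofComplex) (z : ℂ)) :
    ∃ g : ℍ → ℂ, MDifferentiable 𝓘(ℂ) 𝓘(ℂ) g ∧ ∀ z, g z * b z = a z := by
  classical
  set U : Set ℂ := {z : ℂ | 0 < z.im} with hU
  set A : ℂ → ℂ := a ∘ ofComplex with hA
  set B : ℂ → ℂ := b ∘ ofComplex with hB
  have hAU : AnalyticOnNhd ℂ A U := analyticOnNhd_comp_ofComplex ha
  have hBU : AnalyticOnNhd ℂ B U := analyticOnNhd_comp_ofComplex hb
  have hF : MeromorphicOn (fun w => A w / B w) U := fun w hw =>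
    (hAU w hw).meromorphicAt.div (hBU w hw).meromorphicAt
  set G : ℂ → ℂ := toMeromorphicNFOn (fun w => A w / B w) U with hG
  have hGnf : MeromorphicNFOn G U := meromorphicNFOn_toMeromorphicNFOn _ _
  have hBnt : ∀ w ∈ U, analyticOrderAt B w ≠ ⊤ := fun w hw =>
    analyticOrderAt_comp_ofComplex_ne_top hb hb0 ⟨w, hw⟩
  have hGan : ∀ w ∈ U, AnalyticAt ℂ G w := by
    intro w hw
    rw [← (hGnf hw).meromorphicOrderAt_nonneg_iff_analyticAt, hG,
      meromorphicOrderAt_toMeromorphicNFOn hF hw]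
    have h1 : meromorphicOrderAt (fun w => A w / B w) w
        = meromorphicOrderAt A w - meromorphicOrderAt B w :=
      meromorphicOrderAt_div (hAU w hw).meromorphicAt (hBU w hw).meromorphicAt
    rw [h1, (hAU w hw).meromorphicOrderAt_eq, (hBU w hw).meromorphicOrderAt_eq]
    have hle : analyticOrderAt B w ≤ analyticOrderAt A w := hord ⟨w, hw⟩
    obtain ⟨n, hn⟩ := ENat.ne_top_iff_exists.mp (hBnt w hw)
    rw [← hn] at hle ⊢
    by_cases hAt : analyticOrderAt A w = ⊤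
    · rw [hAt]
      simp
    · obtain ⟨m, hm⟩ := ENat.ne_top_iff_exists.mp hAt
      rw [← hm] at hle ⊢
      have hnm : n ≤ m := by exact_mod_cast hle
      simp only [ENat.map_natCast]
      have h0 : ((0 : ℤ) : WithTop ℤ) ≤ (((m : ℤ) - (n : ℤ) : ℤ) : WithTop ℤ) := by
        exact_mod_cast (by omega : (0 : ℤ) ≤ (m : ℤ) - (n : ℤ))
      exact h0
  have hmul : ∀ w ∈ U, G w * B w = A w := by
    intro w hw
    have hGB : AnalyticAt ℂ (fun x => G x * B x) w := (hGan w hw).mul (hBU w hw)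
    have h1 : ∀ᶠ x in 𝓝[≠] w, G x = A x / B x := by
      have := MeromorphicOn.toMeromorphicNFOn_eq_self_on_nhdsNE hF hw
      filter_upwards [this] with x hx
      rw [hG, ← hx]
    have h2 : ∀ᶠ x in 𝓝[≠] w, B x ≠ 0 := by
      rcases (hBU w hw).eventually_eq_zero_or_eventually_ne_zero with h | h
      · exact absurd (analyticOrderAt_eq_top.mpr h) (hBnt w hw)
      · exact h
    have h3 : ∃ᶠ x in 𝓝[≠] w, G x * B x = A x := by
      refine Eventually.frequently ?_
      filter_upwards [h1, h2] with x hx1 hx2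
      rw [hx1, div_mul_cancel₀ _ hx2]
    exact ((hGB.frequently_eq_iff_eventually_eq (hAU w hw)).mp h3).self_of_nhds
  refine ⟨fun z => G (z : ℂ), ?_, ?_⟩
  · rw [UpperHalfPlane.mdifferentiable_iff]
    have hGd : DifferentiableOn ℂ G U := fun w hw => (hGan w hw).differentiableAt.differentiableWithinAt
    refine hGd.congr fun z hz => ?_
    simp only [Function.comp_apply]
    rw [ofComplex_apply_of_im_pos hz]
  · intro z
    have := hmul (z : ℂ) z.im_pos
    simpa [hA, hB, ofComplex_apply] using this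

/-- **[M-B1]** in the exact shape of the S20 architecture. -/
theorem exists_mdifferentiable_quotient {a b : ℍ → ℂ}
    (ha : MDifferentiable 𝓘(ℂ) 𝓘(ℂ) a) (hb : MDifferentiable 𝓘(ℂ) 𝓘(ℂ) b) (hb0 : ∃ z, b z ≠ 0)
    (hord : ∀ z : ℍ, analyticOrderAt (b ∘ ofComplex) (z : ℂ) ≤
      analyticOrderAt (a ∘ ofComplex) (z : ℂ)) :
    ∃ g : ℍ → ℂ, MDifferentiable 𝓘(ℂ) 𝓘(ℂ) g ∧ ∀ z, g z * b z = a z :=
  exists_mdifferentiable_mul_eq_of_order_le ha hb
    (by rintro rfl; obtain ⟨z, hz⟩ := hb0; exact hz rfl) hord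

/-- Uniqueness of the quotient. -/
theorem quotient_unique {b g₁ g₂ : ℍ → ℂ}
    (hb : MDifferentiable 𝓘(ℂ) 𝓘(ℂ) b) (hb0 : b ≠ 0)
    (hg₁ : MDifferentiable 𝓘(ℂ) 𝓘(ℂ) g₁) (hg₂ : MDifferentiable 𝓘(ℂ) 𝓘(ℂ) g₂)
    (h : ∀ z, g₁ z * b z = g₂ z * b z) : g₁ = g₂ := by
  have h2 : (g₁ - g₂) * b = 0 := by
    funext z
    simp only [Pi.mul_apply, Pi.sub_apply, Pi.zero_apply, sub_mul, h z, sub_self]
  rcases (UpperHalfPlane.mul_eq_zero_iff (hg₁.sub hg₂) hb).mp h2 with h3 | h3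
  · exact sub_eq_zero.mp h3
  · exact absurd h3 hb0

/-- The order of the quotient. -/
theorem analyticOrderAt_quotient {a b g : ℍ → ℂ}
    (hb : MDifferentiable 𝓘(ℂ) 𝓘(ℂ) b)
    (hg : MDifferentiable 𝓘(ℂ) 𝓘(ℂ) g) (h : ∀ z, g z * b z = a z) (z : ℍ) :
    analyticOrderAt (a ∘ ofComplex) (z : ℂ) =
      analyticOrderAt (g ∘ ofComplex) (z : ℂ) + analyticOrderAt (b ∘ ofComplex) (z : ℂ) := by
  have hab : a ∘ ofComplex = (g ∘ ofComplex) * (b ∘ ofComplex) := by
    funext w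
    simp only [Function.comp_apply, Pi.mul_apply, h]
  rw [hab]
  exact analyticOrderAt_mul (analyticOnNhd_comp_ofComplex hg _ z.im_pos)
    (analyticOnNhd_comp_ofComplex hb _ z.im_pos)

end Fermat.Agent.S20.M4
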