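import Mathlib
import Fermat.Agent.S20.H14_HolQuot
import Fermat.Agent.S24.H17_JLocal

/-!
# S20 [M4], function level: from local orders to a cusp form

`θ := E₄² E₆ / Δ` is a weight `2` level one function with `ord_z θ = e(z) - 1`, where `e(z)` is the
local degree of `j` at `z`.  If `a`, `b` are holomorphic `Γ₀(N)`-invariant functions, `b ≠ 0`, and
`ord_z b ≤ ord_z a + e(z) - 1` for all `z`, then `(a / b) θ` is a holomorphic function of weight `2`
for `Γ₀(N)`; if it vanishes at all cusps it is a cusp form.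
-/

set_option autoImplicit false

open UpperHalfPlane ModularForm EisensteinSeries Filter Topology
open scoped Manifold MatrixGroups

namespace Fermat.Agent.S20.M4

open Fermat.Agent.S23 Fermat.Agent.S24.G1

/-- `ord_z (b Δ) = ord_z b`. -/
theorem analyticOrderAt_mul_discriminant {b : ℍ → ℂ} (hb : MDifferentiable 𝓘(ℂ) 𝓘(ℂ) b) (z : ℍ) :
    analyticOrderAt ((fun w => b w * ModularForm.discriminant w) ∘ ofComplex) (z : ℂ) =
      analyticOrderAt (b ∘ ofComplex) (z : ℂ) := by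
  have h : (fun w => b w * ModularForm.discriminant w) ∘ ofComplex =
      (b ∘ ofComplex) * ((ModularForm.discriminant : ℍ → ℂ) ∘ ofComplex) := by
    funext w; rfl
  rw [h, analyticOrderAt_mul (analyticAt_comp_ofComplex hb z) (analyticAt_discriminantC z),
    analyticOrderAt_discriminantC, add_zero]

/-- `ord_z (a E₄² E₆) + 1 = ord_z a + e(z)`, `e(z)` the local degree of `j`. -/
theorem analyticOrderAt_mul_E4_sq_E6 {a : ℍ → ℂ} (ha : MDifferentiable 𝓘(ℂ) 𝓘(ℂ) a) (z : ℍ) :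
    analyticOrderAt ((fun w => a w * E₄ w ^ 2 * E₆ w) ∘ ofComplex) (z : ℂ) + 1 =
      analyticOrderAt (a ∘ ofComplex) (z : ℂ) +
        analyticOrderAt (fun w => jC w - jC z) (z : ℂ) := by
  have h : (fun w => a w * E₄ w ^ 2 * E₆ w) ∘ ofComplex =
      (a ∘ ofComplex) * ((E₄ : ℍ → ℂ) ∘ ofComplex) ^ 2 * ((E₆ : ℍ → ℂ) ∘ ofComplex) := by
    funext w; rfl
  rw [h, analyticOrderAt_mul ((analyticAt_comp_ofComplex ha z).mul ((analyticAt_E4C z).pow 2))
      (analyticAt_E6C z),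
    analyticOrderAt_mul (analyticAt_comp_ofComplex ha z) ((analyticAt_E4C z).pow 2),
    analyticOrderAt_pow (analyticAt_E4C z), analyticOrderAt_jC_sub]
  simp only [nsmul_eq_mul, Nat.cast_ofNat]
  ring

/-- **Holomorphy from local orders**: if `ord_z b + 1 ≤ ord_z a + e(z)` everywhere then
`a E₄² E₆ / (b Δ)` is holomorphic. -/
theorem exists_mdifferentiable_theta_quotient {a b : ℍ → ℂ}
    (ha : MDifferentiable 𝓘(ℂ) 𝓘(ℂ) a) (hb : MDifferentiable 𝓘(ℂ) 𝓘(ℂ) b) (hb0 : b ≠ 0)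
    (hord : ∀ z : ℍ, analyticOrderAt (b ∘ ofComplex) (z : ℂ) + 1 ≤
      analyticOrderAt (a ∘ ofComplex) (z : ℂ) + analyticOrderAt (fun w => jC w - jC z) (z : ℂ)) :
    ∃ g : ℍ → ℂ, MDifferentiable 𝓘(ℂ) 𝓘(ℂ) g ∧
      ∀ z, g z * (b z * ModularForm.discriminant z) = a z * E₄ z ^ 2 * E₆ z := by
  have hbΔ : MDifferentiable 𝓘(ℂ) 𝓘(ℂ) (fun w => b w * ModularForm.discriminant w) :=
    hb.mul (ModularFormClass.holo CuspForm.discriminant)
  have haE : MDifferentiable 𝓘(ℂ) 𝓘(ℂ) (fun w => a w * E₄ w ^ 2 * E₆ w) :=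
    (ha.mul ((ModularFormClass.holo E₄).pow 2)).mul (ModularFormClass.holo E₆)
  have hbΔ0 : (fun w => b w * ModularForm.discriminant w) ≠ 0 := by
    intro h
    apply hb0
    funext w
    have := congrFun h w
    simpa [discriminant_ne_zero w] using this
  refine exists_mdifferentiable_mul_eq_of_order_le haE hbΔ hbΔ0 fun z => ?_
  rw [analyticOrderAt_mul_discriminant hb z]
  have h1 := analyticOrderAt_mul_E4_sq_E6 ha z
  have h2 := hord z
  rw [← h1] at h2
  exact (ENat.add_le_add_iff_right ENat.one_ne_top).mp h2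

/-- Transformation of the defining equation under `γ ∈ SL(2, ℤ)`. -/
theorem slash_theta_quotient {a b g : ℍ → ℂ}
    (hg : ∀ z, g z * (b z * ModularForm.discriminant z) = a z * E₄ z ^ 2 * E₆ z)
    (γ : SL(2, ℤ)) (z : ℍ) :
    (g ∣[(2 : ℤ)] γ) z * (b (γ • z) * ModularForm.discriminant z) =
      a (γ • z) * E₄ z ^ 2 * E₆ z := by
  have hd : denom γ z ≠ 0 := denom_ne_zero γ z
  have h := hg (γ • z)
  rw [R1.discriminant_smul_eq, R1.level_one_smul_eq E₄, R1.level_one_smul_eq E₆] at h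
  rw [SL_slash_apply]
  have h12 : denom γ z ^ (12 : ℤ) ≠ 0 := zpow_ne_zero _ hd
  have e1 : denom γ z ^ (-(2 : ℤ)) * denom γ z ^ (14 : ℤ) = denom γ z ^ (12 : ℤ) := by
    rw [← zpow_add₀ hd]; norm_num
  have e2 : (denom γ z ^ (4 : ℤ)) ^ 2 * denom γ z ^ (6 : ℤ)
      = denom γ z ^ (14 : ℤ) := by
    rw [← zpow_natCast (denom γ z ^ (4 : ℤ)) 2, ← zpow_mul, ← zpow_add₀ hd]; norm_num
  apply mul_left_cancel₀ h12
  calc denom γ z ^ (12 : ℤ) * (g (γ • z) * denom γ z ^ (-(2 : ℤ)) *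
        (b (γ • z) * ModularForm.discriminant z))
      = denom γ z ^ (-(2 : ℤ)) * (g (γ • z) *
          (b (γ • z) * (denom γ z ^ (12 : ℤ) * ModularForm.discriminant z))) := by ring
    _ = denom γ z ^ (-(2 : ℤ)) * (a (γ • z) * (denom γ z ^ (4 : ℤ) * E₄ z) ^ 2 *
          (denom γ z ^ (6 : ℤ) * E₆ z)) := by rw [h]
    _ = (denom γ z ^ (-(2 : ℤ)) * denom γ z ^ (14 : ℤ)) *
          (a (γ • z) * E₄ z ^ 2 * E₆ z) := by rw [← e2]; ring
    _ = denom γ z ^ (12 : ℤ) * (a (γ • z) * E₄ z ^ 2 * E₆ z) := by rw [e1]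

/-- **[M4] function-level core**: from local orders and cusp conditions to a cusp form of
weight `2` on `Γ₀(N)`. The cusp condition is stated for the (unique) quotient at each cusp. -/
theorem exists_cuspForm_of_orders (N : ℕ) [NeZero N] {a b : ℍ → ℂ}
    (ha : MDifferentiable 𝓘(ℂ) 𝓘(ℂ) a) (hb : MDifferentiable 𝓘(ℂ) 𝓘(ℂ) b) (hb0 : b ≠ 0)
    (hinv : ∀ γ ∈ CongruenceSubgroup.Gamma0 N, ∀ z : ℍ, a (γ • z) * b z = a z * b (γ • z))
    (hord : ∀ z : ℍ, analyticOrderAt (b ∘ ofComplex) (z : ℂ) + 1 ≤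
      analyticOrderAt (a ∘ ofComplex) (z : ℂ) + analyticOrderAt (fun w => jC w - jC z) (z : ℂ))
    (hcusp : ∀ (γ : SL(2, ℤ)) (G : ℍ → ℂ), MDifferentiable 𝓘(ℂ) 𝓘(ℂ) G →
      (∀ z, G z * (b (γ • z) * ModularForm.discriminant z) = a (γ • z) * E₄ z ^ 2 * E₆ z) →
      IsZeroAtImInfty G) :
    ∃ f : CuspForm (CongruenceSubgroup.Gamma0 N) 2,
      ∀ z, f z * (b z * ModularForm.discriminant z) = a z * E₄ z ^ 2 * E₆ z := by
  obtain ⟨g, hgd, hg⟩ := exists_mdifferentiable_theta_quotient ha hb hb0 hord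
  have hbΔ : MDifferentiable 𝓘(ℂ) 𝓘(ℂ) (fun w => b w * ModularForm.discriminant w) :=
    hb.mul (ModularFormClass.holo CuspForm.discriminant)
  have hbΔ0 : (fun w => b w * ModularForm.discriminant w) ≠ 0 := by
    intro h
    apply hb0
    funext w
    have := congrFun h w
    simpa [discriminant_ne_zero w] using this
  have hslash : ∀ γ : SL(2, ℤ), MDifferentiable 𝓘(ℂ) 𝓘(ℂ) (g ∣[(2 : ℤ)] γ) := by
    intro γ
    rw [SL_slash]
    exact hgd.slash 2 _
  have hinv' : ∀ γ ∈ CongruenceSubgroup.Gamma0 N, g ∣[(2 : ℤ)] γ = g := by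
    intro γ hγ
    have hbγ : MDifferentiable 𝓘(ℂ) 𝓘(ℂ) (fun w => b (γ • w)) := by
      have := hb.slash 0 (γ : GL (Fin 2) ℝ)
      rw [← SL_slash] at this
      have h2 : (b ∣[(0 : ℤ)] γ) = fun w => b (γ • w) := by
        funext w; rw [SL_slash_apply]; simp
      rwa [h2] at this
    have hbγ0 : (fun w => b (γ • w)) ≠ 0 := by
      intro h
      apply hb0
      funext w
      have := congrFun h (γ⁻¹ • w)
      simpa using this
    -- `(b ∘ γ) * ((g∣γ) * (b Δ) - a E₄² E₆) = 0`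
    have key : (fun w => b (γ • w)) *
        ((g ∣[(2 : ℤ)] γ) * (fun w => b w * ModularForm.discriminant w) -
          fun w => a w * E₄ w ^ 2 * E₆ w) = 0 := by
      funext z
      have h1 := slash_theta_quotient hg γ z
      have h2 := hinv γ hγ z
      simp only [Pi.mul_apply, Pi.sub_apply, Pi.zero_apply]
      linear_combination (b z) * h1 + (E₄ z ^ 2 * E₆ z) * h2
    have haE : MDifferentiable 𝓘(ℂ) 𝓘(ℂ) (fun w => a w * E₄ w ^ 2 * E₆ w) :=
      (ha.mul ((ModularFormClass.holo E₄).pow 2)).mul (ModularFormClass.holo E₆)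
    rcases (UpperHalfPlane.mul_eq_zero_iff hbγ (((hslash γ).mul hbΔ).sub haE)).mp key with h | h
    · exact absurd h hbγ0
    · refine quotient_unique hbΔ hbΔ0 (hslash γ) hgd fun z => ?_
      have := congrFun h z
      simp only [Pi.mul_apply, Pi.sub_apply, Pi.zero_apply, sub_eq_zero] at this
      rw [this, hg z]
  refine ⟨{ toFun := g
            slash_action_eq' := ?_
            holo' := hgd
            zero_at_cusps' := ?_ }, hg⟩
  · intro γ hγ
    obtain ⟨γ', hγ', rfl⟩ := Subgroup.mem_map.mp hγ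
    exact hinv' γ' hγ'
  · intro c' hc'
    rw [Subgroup.IsArithmetic.isCusp_iff_isCusp_SL2Z] at hc'
    rw [OnePoint.isZeroAt_iff_forall_SL2Z hc']
    intro γ _
    exact hcusp γ _ (hslash γ) (slash_theta_quotient hg γ)

end Fermat.Agent.S20.M4
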