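import Mathlib
import Fermat.Agent.S20.H14_Theta
import Fermat.Agent.S20.H14_CuspZero
import Fermat.Agent.S24.H6_Frac
import Fermat.Agent.S23.H14_PolyJ
import Fermat.Prelude.Def_ModularCurve_CanonicalDivisor

/-!
# S20 [M4-inj]: the injection `W → S₂(Γ₀(N))`, `u ↦ u θ`

`F = ℂ(j_d : d ∣ N) ⊆ ℂ((q))` (prelude), `W = {u : ∀ v, 0 ≤ ord_v u + ord_v (dj)}` (regular
differentials `u dj`).  For `u = a / b ∈ W` (`a`, `b ∈ ℂ[j_d]`) the function
`ρ(a) E₄² E₆ / (ρ(b) Δ)` is a cusp form of weight `2` on `Γ₀(N)`; this defines an injective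
`ℂ`-linear map `W → S₂(Γ₀(N))`.

Inputs that are not proved here enter as the explicit hypotheses `PointPlaces`, `CuspPlaces`
(the valuation of a point / of a cusp is a multiple of a place) and `DiffOrd`
(`ord_v (dy) = ord_v y - 1` if `ord_v y ≠ 0`).
-/

set_option autoImplicit false
set_option synthInstance.maxHeartbeats 400000
set_option maxHeartbeats 1000000

open UpperHalfPlane ModularForm EisensteinSeries Filter Topology
open scoped Manifold MatrixGroups

namespace Fermat.Agent.S20.M4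

open Fermat.Agent.S23 Fermat.Agent.S24 Fermat.Agent.S24.Real Fermat.Agent.S24.Cusp
open Fermat.Agent.S24.G1 AlgebraicCurve

/-- The (integer valued) order of vanishing of `f : ℍ → ℂ` at `z`. -/
noncomputable def ordPt (z : ℍ) (f : ℍ → ℂ) : ℤ :=
  ((analyticOrderAt (f ∘ ofComplex) (z : ℂ)).toNat : ℤ)

variable (N : ℕ)

/-- The realisation `ℂ[j_d : d ∣ N] → (ℍ → ℂ)` at `K = ℂ`, `e = id`. -/
noncomputable abbrev rhoC : AK ℂ N →+* (ℍ → ℂ) := rho (K := ℂ) (N := N) (RingHom.id ℂ)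

/-- `j` as an element of the function field. -/
noncomputable abbrev jFC : FK ℂ N := inclAK ℂ N (jAK ℂ N)

/-- **Hypothesis [PT]**: for every point `z` the order at `z` is a positive multiple of the
order function of a place of `F`. -/
def PointPlaces : Prop :=
  ∀ z : ℍ, ∃ (v : Place ℂ (FK ℂ N)) (m : ℕ), 0 < m ∧
    ∀ (a b : AK ℂ N) (u : FK ℂ N), a ≠ 0 → b ≠ 0 → u * inclAK ℂ N b = inclAK ℂ N a →
      (m : ℤ) * v.ord u = ordPt z (rhoC N a) - ordPt z (rhoC N b)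

/-- **Hypothesis [CUSP]**: for every `γ ∈ SL(2, ℤ)` the order at the cusp `γ ∞` (in `q^(1/N)`)
is a positive multiple of the order function of a place of `F`. -/
def CuspPlaces : Prop :=
  ∀ γ : SL(2, ℤ), ∃ (v : Place ℂ (FK ℂ N)) (m : ℕ), 0 < m ∧
    ∀ (a b : AK ℂ N) (u : FK ℂ N), a ≠ 0 → b ≠ 0 → u * inclAK ℂ N b = inclAK ℂ N a →
      (m : ℤ) * v.ord u = ordInf (N : ℝ) (fun z => rhoC N a (γ • z)) -
        ordInf (N : ℝ) (fun z => rhoC N b (γ • z))

/-- **Hypothesis [DIFF]**: `ord_v (dy) = ord_v y - 1` whenever `ord_v y ≠ 0`. -/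
def DiffOrd : Prop :=
  ∀ (v : Place ℂ (FK ℂ N)) (y : FK ℂ N), v.ord y ≠ 0 →
    v.ordDifferential (KaehlerDifferential.D ℂ (FK ℂ N) y) = v.ord y - 1

/-- `u` is a regular differential coefficient: `u dj` has no poles. -/
def IsReg (u : FK ℂ N) : Prop :=
  u = 0 ∨ ∀ v : Place ℂ (FK ℂ N),
    0 ≤ v.ord u + v.ordDifferential (KaehlerDifferential.D ℂ (FK ℂ N) (jFC N))

/-- The relation `f = u θ` between an element `u` of the function field and a function `f`. -/
def IsThetaMul (u : FK ℂ N) (f : ℍ → ℂ) : Prop :=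
  ∃ a b : AK ℂ N, b ≠ 0 ∧ u * inclAK ℂ N b = inclAK ℂ N a ∧
    ∀ z, f z * (rhoC N b z * ModularForm.discriminant z) = rhoC N a z * E₄ z ^ 2 * E₆ z

variable {N}

theorem mdifferentiable_rhoC (a : AK ℂ N) : MDifferentiable 𝓘(ℂ) 𝓘(ℂ) (rhoC N a) :=
  mdifferentiable_rho (RingHom.id ℂ) a

theorem rhoC_ne_zero {a : AK ℂ N} (ha : a ≠ 0) : rhoC N a ≠ 0 := fun h =>
  ha ((rho_apply_eq_zero_iff (RingHom.id ℂ) a).mp h)

theorem mdifferentiable_E4sqE6 :
    MDifferentiable 𝓘(ℂ) 𝓘(ℂ) (fun z : ℍ => E₄ z ^ 2 * E₆ z) :=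
  ((ModularFormClass.holo E₄).pow 2).mul (ModularFormClass.holo E₆)

theorem E4sqE6_ne_zero : (fun z : ℍ => E₄ z ^ 2 * E₆ z) ≠ 0 := by
  intro h
  apply R1.e4SqE6_ne_zero
  ext z
  rw [R1.e4SqE6_apply]
  exact congrFun h z

theorem mdifferentiable_mul_discriminant {b : ℍ → ℂ} (hb : MDifferentiable 𝓘(ℂ) 𝓘(ℂ) b) :
    MDifferentiable 𝓘(ℂ) 𝓘(ℂ) (fun w => b w * ModularForm.discriminant w) :=
  hb.mul (ModularFormClass.holo CuspForm.discriminant)

theorem mul_discriminant_ne_zero {b : ℍ → ℂ} (hb0 : b ≠ 0) :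
    (fun w => b w * ModularForm.discriminant w) ≠ 0 := by
  intro h
  apply hb0
  funext w
  have := congrFun h w
  simpa [discriminant_ne_zero w] using this

namespace IsThetaMul

variable {u u' : FK ℂ N} {f f' : ℍ → ℂ}

theorem zero : IsThetaMul N 0 0 :=
  ⟨0, 1, one_ne_zero, by simp, fun z => by simp⟩

theorem add (h : IsThetaMul N u f) (h' : IsThetaMul N u' f') : IsThetaMul N (u + u') (f + f') := by
  obtain ⟨a, b, hb, hu, hf⟩ := h
  obtain ⟨a', b', hb', hu', hf'⟩ := h'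
  refine ⟨a * b' + a' * b, b * b', mul_ne_zero hb hb', ?_, fun z => ?_⟩
  · rw [map_add, map_mul, map_mul, map_mul, ← hu, ← hu']
    ring
  · have h1 := hf z
    have h2 := hf' z
    simp only [map_add, map_mul, Pi.add_apply, Pi.mul_apply]
    linear_combination (rhoC N b' z) * h1 + (rhoC N b z) * h2

theorem smul (c : ℂ) (h : IsThetaMul N u f) : IsThetaMul N (c • u) (c • f) := by
  obtain ⟨a, b, hb, hu, hf⟩ := h
  refine ⟨algebraMap ℂ (AK ℂ N) c * a, b, hb, ?_, fun z => ?_⟩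
  · rw [map_mul, ← hu, AlgHom.commutes, Algebra.smul_def]
    ring
  · have h1 := hf z
    have h2 : rhoC N (algebraMap ℂ (AK ℂ N) c) = fun _ => c := by
      have := rho_algebraMap (K := ℂ) (N := N) (RingHom.id ℂ) c
      simpa using this
    simp only [map_mul, Pi.smul_apply, Pi.mul_apply, h2, smul_eq_mul]
    linear_combination c * h1

theorem unique (h : IsThetaMul N u f) (h' : IsThetaMul N u f')
    (hf : MDifferentiable 𝓘(ℂ) 𝓘(ℂ) f) (hf' : MDifferentiable 𝓘(ℂ) 𝓘(ℂ) f') : f = f' := by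
  obtain ⟨a, b, hb, hu, hfa⟩ := h
  obtain ⟨a', b', hb', hu', hfa'⟩ := h'
  have hab : a * b' = a' * b := by
    apply inclAK_injective ℂ N
    rw [map_mul, map_mul, ← hu, ← hu']
    ring
  have hρ : ∀ z, rhoC N a z * rhoC N b' z = rhoC N a' z * rhoC N b z := fun z => by
    have := congrArg (fun x => rhoC N x z) hab
    simpa only [map_mul, Pi.mul_apply] using this
  have hB : MDifferentiable 𝓘(ℂ) 𝓘(ℂ)
      (fun w => (rhoC N b w * rhoC N b' w) * ModularForm.discriminant w) :=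
    mdifferentiable_mul_discriminant ((mdifferentiable_rhoC b).mul (mdifferentiable_rhoC b'))
  have hB0 : (fun w => (rhoC N b w * rhoC N b' w) * ModularForm.discriminant w) ≠ 0 := by
    refine mul_discriminant_ne_zero ?_
    intro h0
    have h1 : rhoC N b * rhoC N b' = 0 := h0
    rcases (UpperHalfPlane.mul_eq_zero_iff (mdifferentiable_rhoC b)
      (mdifferentiable_rhoC b')).mp h1 with h2 | h2
    · exact rhoC_ne_zero hb h2
    · exact rhoC_ne_zero hb' h2
  refine quotient_unique hB hB0 hf hf' fun z => ?_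
  have h1 := hfa z
  have h2 := hfa' z
  have h3 := hρ z
  linear_combination (rhoC N b' z) * h1 - (rhoC N b z) * h2 + (E₄ z ^ 2 * E₆ z) * h3

theorem eq_zero (h : IsThetaMul N u 0) : u = 0 := by
  obtain ⟨a, b, hb, hu, hfa⟩ := h
  have h1 : rhoC N a * (fun z : ℍ => E₄ z ^ 2 * E₆ z) = 0 := by
    funext z
    have := hfa z
    simp only [Pi.zero_apply, zero_mul] at this
    simp only [Pi.mul_apply, Pi.zero_apply]
    rw [← mul_assoc, ← this]
  have ha : a = 0 := by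
    rcases (UpperHalfPlane.mul_eq_zero_iff (mdifferentiable_rhoC a)
      mdifferentiable_E4sqE6).mp h1 with h2 | h2
    · exact (rho_apply_eq_zero_iff (RingHom.id ℂ) a).mp h2
    · exact absurd h2 E4sqE6_ne_zero
  rw [ha, map_zero] at hu
  have hb' : inclAK ℂ N b ≠ 0 := fun h0 =>
    hb (inclAK_injective ℂ N (by rw [h0, map_zero]))
  exact (mul_eq_zero.mp hu).resolve_right hb'

end IsThetaMul

/-! ### Analytic preliminaries -/

/-- A level one form with nonzero constant term has order `0` at `i∞`. -/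
theorem ordInf_levelOne_eq_zero {k : ℤ} (F : ModularForm 𝒮ℒ k)
    (h0 : (qExpansion 1 F).coeff 0 ≠ 0) : ordInf 1 (F : ℍ → ℂ) = 0 := by
  have hper := Cusp.periodic_levelOne F
  have han : AnalyticAt ℂ (cuspFunction 1 (F : ℍ → ℂ)) 0 :=
    analyticAt_cuspFunction_zero one_pos hper (ModularFormClass.holo F)
      (isBoundedAtImInfty_levelOne F)
  have hv : cuspFunction 1 (F : ℍ → ℂ) 0 ≠ 0 := by
    rw [cuspFunction_apply_zero one_pos han hper, ← qExpansion_coeff_zero one_pos han hper]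
    exact h0
  unfold ordInf
  rw [han.meromorphicOrderAt_eq, han.analyticOrderAt_eq_zero.mpr hv]
  rfl

theorem meroAtInf_E4sqE6 {N : ℕ} (hN : N ≠ 0) :
    MeroAtInf (N : ℝ) (fun z : ℍ => E₄ z ^ 2 * E₆ z) := by
  have h1 : MeroAtInf 1 (R1.e4SqE6 : ℍ → ℂ) := meroAtInf_levelOne R1.e4SqE6
  have h2 := h1.period_mul one_ne_zero N hN
  have h3 : (R1.e4SqE6 : ℍ → ℂ) = fun z : ℍ => E₄ z ^ 2 * E₆ z := by
    funext z; exact R1.e4SqE6_apply z
  rw [h3] at h2
  simpa using h2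

theorem ordInf_E4sqE6 {N : ℕ} (hN : N ≠ 0) :
    ordInf (N : ℝ) (fun z : ℍ => E₄ z ^ 2 * E₆ z) = 0 := by
  have h1 : MeroAtInf 1 (R1.e4SqE6 : ℍ → ℂ) := meroAtInf_levelOne R1.e4SqE6
  have h2 := h1.ordInf_period_mul one_ne_zero N hN
  have h0 : ordInf 1 (R1.e4SqE6 : ℍ → ℂ) = 0 :=
    ordInf_levelOne_eq_zero R1.e4SqE6
      (by rw [R1.e4SqE6_qExpansion_coeff_zero]; exact one_ne_zero)
  have h3 : (R1.e4SqE6 : ℍ → ℂ) = fun z : ℍ => E₄ z ^ 2 * E₆ z := by
    funext z; exact R1.e4SqE6_apply z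
  rw [h0, h3] at h2
  simpa using h2

/-- Translates of realisations are meromorphic at `i∞`. -/
theorem meroAtInf_rhoC_smul [NeZero N] (a : AK ℂ N) (γ : SL(2, ℤ)) :
    MeroAtInf (N : ℝ) (fun z => rhoC N a (γ • z)) := by
  obtain ⟨m, hm⟩ := rho_modGrowth (RingHom.id ℂ) a γ
  exact MeroAtInf.of_mul_discriminant_pow (NeZero.ne N)
    (periodic_comp_smul_nat (fun γ hγ z => rho_smul_of_mem_Gamma0 (RingHom.id ℂ) a hγ z) γ)
    (R4.mdifferentiable_comp_smul (mdifferentiable_rhoC a) γ) m hm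

theorem rhoC_smul_ne_zero {a : AK ℂ N} (ha : a ≠ 0) (γ : SL(2, ℤ)) :
    (fun z => rhoC N a (γ • z)) ≠ 0 := by
  intro h
  apply rhoC_ne_zero ha
  funext w
  have := congrFun h (γ⁻¹ • w)
  simpa using this

theorem ordPt_one (z : ℍ) : ordPt z (1 : ℍ → ℂ) = 0 := by
  unfold ordPt
  have h : ((1 : ℍ → ℂ) ∘ ofComplex) = fun _ => (1 : ℂ) := rfl
  rw [h, (analyticAt_const (x := (z : ℂ)) (v := (1 : ℂ))).analyticOrderAt_eq_zero.mpr one_ne_zero]
  rfl

theorem coe_ordPt {f : ℍ → ℂ} (hf : MDifferentiable 𝓘(ℂ) 𝓘(ℂ) f) (hf0 : f ≠ 0) (z : ℍ) :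
    analyticOrderAt (f ∘ ofComplex) (z : ℂ) = ((ordPt z f).toNat : ℕ∞) := by
  unfold ordPt
  rw [Int.toNat_natCast, ENat.natCast_toNat (analyticOrderAt_comp_ofComplex_ne_top hf hf0 z)]

theorem ordPt_nonneg (z : ℍ) (f : ℍ → ℂ) : 0 ≤ ordPt z f := Int.natCast_nonneg _

/-! ### The local inequality at a point -/

/-- `D (j - c) = D j`. -/
theorem D_jFC_sub (c : ℂ) :
    KaehlerDifferential.D ℂ (FK ℂ N) (inclAK ℂ N (jAK ℂ N - algebraMap ℂ (AK ℂ N) c)) =
      KaehlerDifferential.D ℂ (FK ℂ N) (jFC N) := by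
  rw [map_sub, AlgHom.commutes, map_sub, Derivation.map_algebraMap, sub_zero]

theorem rhoC_j_sub (c : ℂ) :
    rhoC N (jAK ℂ N - algebraMap ℂ (AK ℂ N) c) = fun w => R4.jInv w - c := by
  have h2 : rhoC N (algebraMap ℂ (AK ℂ N) c) = fun _ => c := by
    have := rho_algebraMap (K := ℂ) (N := N) (RingHom.id ℂ) c
    simpa using this
  rw [map_sub, h2, rho_jAK]
  rfl

theorem j_sub_ne_zero (c : ℂ) : jAK ℂ N - algebraMap ℂ (AK ℂ N) c ≠ 0 := by
  intro h
  have h1 : rhoC N (jAK ℂ N - algebraMap ℂ (AK ℂ N) c) = 0 := by rw [h, map_zero]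
  rw [rhoC_j_sub] at h1
  obtain ⟨w, hw⟩ := exists_jInv_ne c
  exact hw (sub_eq_zero.mp (congrFun h1 w))

theorem ordPt_j_sub (z : ℍ) :
    ordPt z (fun w => R4.jInv w - R4.jInv z) =
      ((analyticOrderAt (fun w => jC w - jC z) (z : ℂ)).toNat : ℤ) := by
  unfold ordPt
  have h : (fun w : ℍ => R4.jInv w - R4.jInv z) ∘ ofComplex = fun w => jC w - jC z := by
    funext w
    simp only [Function.comp_apply, jC_coe]
    rfl
  rw [h]

theorem one_le_analyticOrderAt_jC_sub (z : ℍ) :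
    1 ≤ (analyticOrderAt (fun w => jC w - jC z) (z : ℂ)).toNat := by
  have hne := analyticOrderAt_jC_sub_ne_top z
  have h := analyticOrderAt_jC_sub z
  obtain ⟨e, he⟩ := ENat.ne_top_iff_exists.mp hne
  rw [← he, ENat.toNat_natCast]
  rw [← he] at h
  by_contra hcon
  have he0 : e = 0 := by omega
  rw [he0] at h
  have : (0 : ℕ∞) ≠ 2 * analyticOrderAt ((E₄ : ℍ → ℂ) ∘ ofComplex) (z : ℂ) +
      analyticOrderAt ((E₆ : ℍ → ℂ) ∘ ofComplex) (z : ℂ) + 1 := by
    intro h0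
    have := h0.symm
    simp at this
  exact this (by exact_mod_cast h)

/-- **Local inequality at a point**: a regular `u = a / b` satisfies
`ord_z b + 1 ≤ ord_z a + e(z)`. -/
theorem ord_le_of_isReg (hpt : PointPlaces N) (hdiff : DiffOrd N) {u : FK ℂ N}
    (hreg : ∀ v : Place ℂ (FK ℂ N),
      0 ≤ v.ord u + v.ordDifferential (KaehlerDifferential.D ℂ (FK ℂ N) (jFC N)))
    {a b : AK ℂ N} (ha : a ≠ 0) (hb : b ≠ 0) (hub : u * inclAK ℂ N b = inclAK ℂ N a) (z : ℍ) :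
    analyticOrderAt (rhoC N b ∘ ofComplex) (z : ℂ) + 1 ≤
      analyticOrderAt (rhoC N a ∘ ofComplex) (z : ℂ) +
        analyticOrderAt (fun w => jC w - jC z) (z : ℂ) := by
  obtain ⟨v, m, hm, hspec⟩ := hpt z
  have h1 := hspec a b u ha hb hub
  set c : ℂ := R4.jInv z with hc
  have h2 := hspec (jAK ℂ N - algebraMap ℂ (AK ℂ N) c) 1
    (inclAK ℂ N (jAK ℂ N - algebraMap ℂ (AK ℂ N) c)) (j_sub_ne_zero c) one_ne_zero
    (by rw [map_one, mul_one])
  rw [map_one, ordPt_one, sub_zero, rhoC_j_sub, hc, ordPt_j_sub] at h2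
  have he1 := one_le_analyticOrderAt_jC_sub z
  set e : ℕ := (analyticOrderAt (fun w => jC w - jC z) (z : ℂ)).toNat with he
  have hvt : v.ord (inclAK ℂ N (jAK ℂ N - algebraMap ℂ (AK ℂ N) c)) ≠ 0 := by
    intro h0
    rw [h0, mul_zero] at h2
    have : (e : ℤ) = 0 := h2.symm
    omega
  have h3 := hdiff v _ hvt
  rw [D_jFC_sub] at h3
  have h4 := hreg v
  rw [h3] at h4
  -- arithmetic in `ℤ`
  have hmpos : (1 : ℤ) ≤ m := by exact_mod_cast hm
  have h5 : 0 ≤ (m : ℤ) * (v.ord u +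
      (v.ord (inclAK ℂ N (jAK ℂ N - algebraMap ℂ (AK ℂ N) c)) - 1)) :=
    mul_nonneg (by omega) h4
  have h6 : ordPt z (rhoC N b) + 1 ≤ ordPt z (rhoC N a) + e := by
    have : (m : ℤ) * (v.ord u +
        (v.ord (inclAK ℂ N (jAK ℂ N - algebraMap ℂ (AK ℂ N) c)) - 1))
        = (ordPt z (rhoC N a) - ordPt z (rhoC N b)) + e - m := by
      rw [← h1, ← h2]; ring
    rw [this] at h5
    omega
  -- back to `ℕ∞`
  rw [coe_ordPt (mdifferentiable_rhoC a) (rhoC_ne_zero ha) z,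
    coe_ordPt (mdifferentiable_rhoC b) (rhoC_ne_zero hb) z,
    ← ENat.natCast_toNat (analyticOrderAt_jC_sub_ne_top z)]
  have ha' := ordPt_nonneg z (rhoC N a)
  have hb' := ordPt_nonneg z (rhoC N b)
  have : (ordPt z (rhoC N b)).toNat + 1 ≤ (ordPt z (rhoC N a)).toNat + e := by omega
  exact_mod_cast this

/-! ### The local inequality at a cusp -/

theorem ordInf_rhoC_j_smul [NeZero N] (γ : SL(2, ℤ)) :
    ordInf (N : ℝ) (fun z => rhoC N (jAK ℂ N) (γ • z)) = -(N : ℤ) := by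
  have h : (fun z => rhoC N (jAK ℂ N) (γ • z)) = R4.jInv := by
    funext z
    rw [rho_jAK]
    exact R1.jInv_smul γ z
  rw [h]
  exact ordInf_jInv_nat (NeZero.ne N)

theorem ordInf_rhoC_one_smul (γ : SL(2, ℤ)) :
    ordInf (N : ℝ) (fun z => rhoC N (1 : AK ℂ N) (γ • z)) = 0 := by
  have h : (fun z => rhoC N (1 : AK ℂ N) (γ • z)) = fun _ : ℍ => (1 : ℂ) := by
    funext z
    rw [map_one]
    rfl
  rw [h]
  exact MeroAtInf.ordInf_const _ one_ne_zero

/-- **Local inequality at a cusp**: for a regular `u = a / b`, the weight `2` quotient at the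
cusp `γ ∞` vanishes at `i∞`. -/
theorem isZeroAtImInfty_of_isReg [NeZero N] (hcusp : CuspPlaces N) (hdiff : DiffOrd N)
    {u : FK ℂ N}
    (hreg : ∀ v : Place ℂ (FK ℂ N),
      0 ≤ v.ord u + v.ordDifferential (KaehlerDifferential.D ℂ (FK ℂ N) (jFC N)))
    {a b : AK ℂ N} (ha : a ≠ 0) (hb : b ≠ 0) (hub : u * inclAK ℂ N b = inclAK ℂ N a)
    (γ : SL(2, ℤ)) (G : ℍ → ℂ) (hG : MDifferentiable 𝓘(ℂ) 𝓘(ℂ) G)
    (hGeq : ∀ z, G z * (rhoC N b (γ • z) * ModularForm.discriminant z) =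
      rhoC N a (γ • z) * E₄ z ^ 2 * E₆ z) :
    IsZeroAtImInfty G := by
  have hN : N ≠ 0 := NeZero.ne N
  have hN' : (0 : ℝ) < N := Nat.cast_pos.mpr (Nat.pos_of_ne_zero hN)
  obtain ⟨v, m, hm, hspec⟩ := hcusp γ
  have h1 := hspec a b u ha hb hub
  have h2 := hspec (jAK ℂ N) 1 (jFC N) (by
      intro h
      have := j_sub_ne_zero (N := N) 0
      rw [map_zero, sub_zero] at this
      exact this h) one_ne_zero (by rw [map_one, mul_one])
  rw [ordInf_rhoC_j_smul, ordInf_rhoC_one_smul, sub_zero] at h2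
  have hmpos : (1 : ℤ) ≤ m := by exact_mod_cast hm
  have hNpos : (1 : ℤ) ≤ N := by exact_mod_cast Nat.pos_of_ne_zero hN
  have hvj : v.ord (jFC N) ≠ 0 := by
    intro h0
    rw [h0, mul_zero] at h2
    omega
  have h3 := hdiff v _ hvj
  have h4 := hreg v
  rw [h3] at h4
  have h5 : 0 ≤ (m : ℤ) * (v.ord u + (v.ord (jFC N) - 1)) := mul_nonneg (by omega) h4
  set α : ℍ → ℂ := fun z => rhoC N a (γ • z) with hα
  set β : ℍ → ℂ := fun z => rhoC N b (γ • z) with hβ
  have h6 : ordInf (N : ℝ) β + N + 1 ≤ ordInf (N : ℝ) α := by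
    have : (m : ℤ) * (v.ord u + (v.ord (jFC N) - 1))
        = (ordInf (N : ℝ) α - ordInf (N : ℝ) β) - N - m := by
      rw [← h1]
      linear_combination h2
    rw [this] at h5
    omega
  have hαm : MeroAtInf (N : ℝ) α := meroAtInf_rhoC_smul a γ
  have hβm : MeroAtInf (N : ℝ) β := meroAtInf_rhoC_smul b γ
  have hα0 : α ≠ 0 := rhoC_smul_ne_zero ha γ
  have hβ0 : β ≠ 0 := rhoC_smul_ne_zero hb γ
  have hE := meroAtInf_E4sqE6 hN
  have hΔ := meroAtInf_discriminant_nat hN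
  have hβΔ0 : β * (ModularForm.discriminant : ℍ → ℂ) ≠ 0 :=
    MeroAtInf.mul_ne_zero hβm hΔ hβ0 discriminant_ne_zero_fun
  refine isZeroAtImInfty_of_mul_eq hN' hG (α := α * fun z : ℍ => E₄ z ^ 2 * E₆ z)
    (β := β * (ModularForm.discriminant : ℍ → ℂ)) (hαm.mul hE) (hβm.mul hΔ) hβΔ0
    (fun z => by
      have := hGeq z
      simp only [Pi.mul_apply]
      rw [this]; ring) ?_
  rw [MeroAtInf.ordInf_mul hβm hΔ hN' hβ0 discriminant_ne_zero_fun,
    MeroAtInf.ordInf_mul hαm hE hN' hα0 E4sqE6_ne_zero, ordInf_discriminant_nat hN,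
    ordInf_E4sqE6 hN]
  omega

/-! ### Existence and the linear map -/

/-- For regular `u` there is a cusp form `f = u θ`. -/
theorem exists_cuspForm_isThetaMul [NeZero N] (hpt : PointPlaces N) (hcusp : CuspPlaces N)
    (hdiff : DiffOrd N) {u : FK ℂ N} (hu : IsReg N u) :
    ∃ f : CuspForm (CongruenceSubgroup.Gamma0 N) 2, IsThetaMul N u f := by
  by_cases hu0 : u = 0
  · subst hu0
    exact ⟨0, by
      have := IsThetaMul.zero (N := N)
      exact this⟩
  have hreg := hu.resolve_left hu0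
  obtain ⟨a₀, ha₀, b₀, hb₀, hb0, hub₀⟩ := exists_div_of_mem_FK (K := ℂ) (N := N) u.2
  set a : AK ℂ N := ⟨a₀, ha₀⟩ with ha_def
  set b : AK ℂ N := ⟨b₀, hb₀⟩ with hb_def
  have hb : b ≠ 0 := fun h => hb0 (congrArg Subtype.val h)
  have hub : u * inclAK ℂ N b = inclAK ℂ N a := Subtype.ext hub₀
  have ha : a ≠ 0 := by
    intro h
    rw [h, map_zero] at hub
    have hb' : inclAK ℂ N b ≠ 0 := fun h0 =>
      hb (inclAK_injective ℂ N (by rw [h0, map_zero]))
    exact hu0 ((mul_eq_zero.mp hub).resolve_right hb')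
  obtain ⟨f, hf⟩ := exists_cuspForm_of_orders N (mdifferentiable_rhoC a) (mdifferentiable_rhoC b)
    (rhoC_ne_zero hb)
    (fun γ hγ z => by
      rw [rho_smul_of_mem_Gamma0 (RingHom.id ℂ) a hγ z,
        rho_smul_of_mem_Gamma0 (RingHom.id ℂ) b hγ z])
    (ord_le_of_isReg hpt hdiff hreg ha hb hub)
    (fun γ G hG hGeq => isZeroAtImInfty_of_isReg hcusp hdiff hreg ha hb hub γ G hG hGeq)
  exact ⟨f, a, b, hb, hub, hf⟩

/-- **[M4-inj]**: the injective linear map `W → S₂(Γ₀(N))`, `u ↦ u θ`. -/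
theorem exists_injective_W [NeZero N] (hpt : PointPlaces N) (hcusp : CuspPlaces N)
    (hdiff : DiffOrd N) (W : Submodule ℂ (FK ℂ N)) (hW : ∀ u, u ∈ W ↔ IsReg N u) :
    ∃ φ : W →ₗ[ℂ] CuspForm (CongruenceSubgroup.Gamma0 N) 2, Function.Injective φ := by
  classical
  have hex : ∀ u : W, ∃ f : CuspForm (CongruenceSubgroup.Gamma0 N) 2,
      IsThetaMul N (u : FK ℂ N) f := fun u =>
    exists_cuspForm_isThetaMul hpt hcusp hdiff ((hW u).mp u.2)
  choose φ hφ using hex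
  have huniq : ∀ (u : FK ℂ N) (f g : CuspForm (CongruenceSubgroup.Gamma0 N) 2),
      IsThetaMul N u f → IsThetaMul N u g → f = g := by
    intro u f g hf hg
    have := hf.unique hg (CuspFormClass.holo f) (CuspFormClass.holo g)
    exact DFunLike.coe_injective this
  refine ⟨{ toFun := φ
            map_add' := fun u u' => ?_
            map_smul' := fun c u => ?_ }, ?_⟩
  · refine huniq _ _ _ (hφ (u + u')) ?_
    have := (hφ u).add (hφ u')
    exact this
  · refine huniq _ _ _ (hφ (c • u)) ?_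
    have := (hφ u).smul c
    exact this
  · rw [← LinearMap.ker_eq_bot, LinearMap.ker_eq_bot']
    intro u hu
    have h1 := hφ u
    have h2 : φ u = 0 := hu
    rw [h2] at h1
    exact Subtype.ext (IsThetaMul.eq_zero (by
      have : ((0 : CuspForm (CongruenceSubgroup.Gamma0 N) 2) : ℍ → ℂ) = 0 := rfl
      rw [this] at h1
      exact h1))

end Fermat.Agent.S20.M4
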