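import Fermat.Agent.S24.H6_Frac
import Fermat.Agent.S24.H15_Hurwitz
import Fermat.Agent.S24.H21_Surj
import Fermat.Agent.S24.H9_CombFinal

/-
S20, FINAL ASSEMBLY SKELETON (helper26, S20 coordinator).

`result_of_inputs` proves the dimension formula `dim S₂(Γ₀(N)) = genusFormula N` from
  (I)   the S24 place layer at `K = ℂ` (CountData, unramified outside `{0, 1728}`, the three
        fibre counts),
  (II)  ALG-MAIN = Riemann-Roch for the canonical divisor in place form (`AlgMain`),
  (III) MOD: `L(0) = ℂ` and an injective linear map `W → S₂(Γ₀(N))`,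
  and the upper bound `dim S₂ ≤ g` (S21: E1 + E2 + E3).
All inputs are explicit hypotheses in the shapes in which they are produced.
-/

set_option autoImplicit false

open AlgebraicCurve KaehlerDifferential CongruenceSubgroup
open scoped MatrixGroups

namespace Fermat.Agent.S20.Final

open Fermat.Agent.S24

section generic

variable {K F : Type*} [Field K] [Field F] [Algebra K F]

/-- `u dx` is a regular differential (place-wise condition on the coefficient `u`). -/
def IsRegularCoeff (x u : F) : Prop :=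
  u = 0 ∨ ∀ v : Place K F, 0 ≤ v.ord u + v.ordDifferential (D K F x)

/-- The space `W` of coefficients of regular differentials. -/
def regSub (K : Type*) {F : Type*} [Field K] [Field F] [Algebra K F] (x : F) : Submodule K F where
  carrier := {u | IsRegularCoeff (K := K) x u}
  zero_mem' := Or.inl rfl
  add_mem' := by
    intro a b ha hb
    by_cases ha0 : a = 0
    · subst ha0; simpa using hb
    by_cases hb0 : b = 0
    · subst hb0; simpa using ha
    by_cases hab : a + b = 0
    · exact Or.inl hab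
    refine Or.inr fun v => ?_
    have h1 := (ha.resolve_left ha0) v
    have h2 := (hb.resolve_left hb0) v
    have h3 := Orb.le_ord_add v ha0 hb0 hab
    rcases min_le_iff.mp h3 with h | h <;> linarith
  smul_mem' := by
    intro c a ha
    by_cases hc : c = 0
    · subst hc; left; simp
    by_cases ha0 : a = 0
    · subst ha0; left; simp
    refine Or.inr fun v => ?_
    have h1 := (ha.resolve_left ha0) v
    have hc' : algebraMap K F c ≠ 0 := by
      simpa using hc
    have h2 : v.ord (c • a) = v.ord a := by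
      rw [Algebra.smul_def, v.ord_mul hc' ha0, Orb.ord_algebraMap v hc', zero_add]
    change 0 ≤ v.ord (c • a) + _
    rw [h2]; exact h1

lemma mem_regSub (x u : F) : u ∈ regSub K x ↔ IsRegularCoeff (K := K) x u := Iff.rfl

end generic


section assembly

variable (N : ℕ) [NeZero N]

/-- The function field of `X₀(N)` over `ℂ` (prelude model inside `ℂ((q))`). -/
abbrev FC : Type := ↥(Real.FK ℂ N)

/-- The formal `j` in `FC N`. -/
noncomputable def jF : FC N := Real.inclAK ℂ N (Real.jAK ℂ N)

/-- Statement of ALG-MAIN (Riemann-Roch for the canonical divisor, place form) for the pair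
`(K, F)`. -/
def AlgMain (K F : Type*) [Field K] [Field F] [Algebra K F] : Prop :=
  ∀ (x : F) (n : ℕ), RH.CountData (K := K) x n → 0 < n →
    (∀ u : F, u ≠ 0 → (∀ v : Place K F, 0 ≤ v.ord u) → u ∈ Set.range (algebraMap K F)) →
    ∀ (B : Finset K),
    (∀ c, c ∉ B → ∀ v : Place K F, 0 < v.ord (x - algebraMap K F c) →
        v.ord (x - algebraMap K F c) = 1) →
    Module.Finite K (regSub K x) ∧
    2 * (Module.finrank K (regSub K x) : ℤ) - 2 =
      ∑ c ∈ B, ((n : ℤ) - (Nat.card {v : Place K F // 0 < v.ord (x - algebraMap K F c)} : ℤ))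
        - ((n : ℤ) + (Nat.card {v : Place K F // 0 < v.ord x⁻¹} : ℤ))

/-- **Final assembly of S20** from its inputs, all in their landed / announced shapes. -/
theorem result_of_inputs
    -- (II) ALG-MAIN at `K = ℂ`
    (halg : AlgMain ℂ (FC N))
    -- (I) S24 at `K = ℂ`
    (hcd : RH.CountData (K := ℂ) (jF N) (Nat.card (Comb.X N)))
    (hB : ∀ c : ℂ, c ∉ ({0, 1728} : Finset ℂ) → ∀ v : Place ℂ (FC N),
      0 < v.ord (jF N - algebraMap ℂ (FC N) c) → v.ord (jF N - algebraMap ℂ (FC N) c) = 1)
    (h0 : Nat.card {v : Place ℂ (FC N) // 0 < v.ord (jF N - algebraMap ℂ (FC N) 0)} =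
      Comb.h9_orb N (ModularGroup.S * ModularGroup.T))
    (h1728 : Nat.card {v : Place ℂ (FC N) // 0 < v.ord (jF N - algebraMap ℂ (FC N) 1728)} =
      Comb.h9_orb N ModularGroup.S)
    (hinf : Nat.card {v : Place ℂ (FC N) // 0 < v.ord (jF N)⁻¹} = Comb.h9_orb N ModularGroup.T)
    -- (III) MOD
    (hL0 : ∀ u : FC N, u ≠ 0 → (∀ v : Place ℂ (FC N), 0 ≤ v.ord u) →
      u ∈ Set.range (algebraMap ℂ (FC N)))
    (hinj : ∃ φ : regSub ℂ (jF N) →ₗ[ℂ] CuspForm (Gamma0 N) 2, Function.Injective φ)
    -- upper bound (S21: E1 + E2 + E3) and finite dimensionality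
    (hfd : FiniteDimensional ℂ (CuspForm (Gamma0 N) 2))
    (hupper : (Module.finrank ℂ (CuspForm (Gamma0 N) 2) : ℚ) ≤ ModularCurve.genusFormula N) :
    (Module.finrank ℂ (CuspForm (Gamma0 N) 2) : ℚ) = ModularCurve.genusFormula N := by
  have hn : 0 < Nat.card (Comb.X N) := Nat.card_pos
  obtain ⟨hfin, hcount⟩ := halg (jF N) (Nat.card (Comb.X N)) hcd hn hL0 {0, 1728} hB
  have hne : (0 : ℂ) ≠ 1728 := by norm_num
  rw [Finset.sum_pair hne, h0, h1728, hinf] at hcount
  have hg := Comb.h9_genus_count N
  have hW : (Module.finrank ℂ (regSub ℂ (jF N)) : ℚ) = ModularCurve.genusFormula N := by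
    have hc : ((2 * (Module.finrank ℂ (regSub ℂ (jF N)) : ℤ) - 2 : ℤ) : ℚ) =
        (((Nat.card (Comb.X N) : ℤ) - (Comb.h9_orb N (ModularGroup.S * ModularGroup.T) : ℤ)
          + ((Nat.card (Comb.X N) : ℤ) - (Comb.h9_orb N ModularGroup.S : ℤ))
          - ((Nat.card (Comb.X N) : ℤ) + (Comb.h9_orb N ModularGroup.T : ℤ)) : ℤ) : ℚ) := by
      rw [hcount]
    push_cast at hc
    linarith
  obtain ⟨φ, hφ⟩ := hinj
  have hle : Module.finrank ℂ (regSub ℂ (jF N)) ≤ Module.finrank ℂ (CuspForm (Gamma0 N) 2) :=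
    LinearMap.finrank_le_finrank_of_injective hφ
  have hle' : (Module.finrank ℂ (regSub ℂ (jF N)) : ℚ) ≤
      (Module.finrank ℂ (CuspForm (Gamma0 N) 2) : ℚ) := by exact_mod_cast hle
  linarith

end assembly

end Fermat.Agent.S20.Final
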