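/-
S20 [M4-inj] (helper14), discharge of the place hypotheses of `exists_injective_W`:
  * `cuspPlaces N : CuspPlaces N`  from the cusp places of S24 G4.2 (H12_CuspPlace),
  * `diffOrd N : DiffOrd N`        from `RH.ordDifferential_D` (H15_Kaehler / H15_Fin) and the
                                   finiteness `[F : C(j)] < oo` (H24_T1),
  * `hinj_of_pointPlaces`          = `hinj` of `Final.result_of_S24_inputs`, from `PointPlaces N`.
-/
import Fermat.Agent.S20.H14_Inj
import Fermat.Agent.S24.H12_CuspPlace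
import Fermat.Agent.S24.H24_T1
import Fermat.Agent.S24.H15_Fin
import Fermat.Agent.S20.H26_Final

set_option synthInstance.maxHeartbeats 400000
set_option maxHeartbeats 1000000

open UpperHalfPlane Filter Topology
open CongruenceSubgroup AlgebraicCurve
open scoped MatrixGroups ModularForm Manifold

namespace Fermat.Agent.S20.M4

open Fermat.Agent.S24.Real Fermat.Agent.S24.Cusp Fermat.Agent.S23

/-- **[CUSP] discharged** (helper12's cusp places at `K = ℂ`, `e = id`). -/
theorem cuspPlaces (N : ℕ) [NeZero N] : CuspPlaces N := by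
  intro γ
  refine ⟨Fermat.Agent.S24.G4.cuspPlace (RingHom.id ℂ) N γ,
    Fermat.Agent.S24.G4.cuspMult (RingHom.id ℂ) N γ,
    Fermat.Agent.S24.G4.cuspMult_pos (RingHom.id ℂ) γ, ?_⟩
  intro a b u ha hb hab
  have hu : u ≠ 0 := by
    rintro rfl
    rw [zero_mul] at hab
    exact ha (inclAK_injective ℂ N (by rw [← hab, map_zero]))
  rw [← Fermat.Agent.S24.G4.cuspVal_eq_mul_ord (RingHom.id ℂ) γ hu,
    Fermat.Agent.S24.G4.cuspVal_eq (RingHom.id ℂ) γ hu hb hab]
  rfl

/-- **[DIFF] discharged** (helper15's `ord (dy) = ord y - 1` + helper24's `[F : ℂ(j)] < ∞`). -/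
theorem diffOrd (N : ℕ) [NeZero N] : DiffOrd N := by
  intro v y hy
  have hfd : FiniteDimensional (IntermediateField.adjoin ℂ {jFC N}) (FK ℂ N) :=
    Fermat.Agent.S24.G3.finDim_final ℂ N (RingHom.id ℂ)
  have := Fermat.Agent.S24.RH.finite_kaehler_place (jFC N) v
  have := Fermat.Agent.S24.RH.nontrivial_kaehler_place (jFC N) v
  exact Fermat.Agent.S24.RH.ordDifferential_D v
    (Fermat.Agent.S24.RH.residueTrivial_place (jFC N) v) hy

/-- The final `hinj` of helper26's `Final.result_of_S24_inputs`, from `[PT]` alone. -/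
theorem hinj_of_pointPlaces (N : ℕ) [NeZero N] (hpt : PointPlaces N) :
    ∃ φ : Fermat.Agent.S20.Final.regSub ℂ (Fermat.Agent.S20.Final.jF N) →ₗ[ℂ]
        CuspForm (Gamma0 N) 2, Function.Injective φ :=
  exists_injective_W hpt (cuspPlaces N) (diffOrd N)
    (Fermat.Agent.S20.Final.regSub ℂ (Fermat.Agent.S20.Final.jF N)) (fun _ => Iff.rfl)

end Fermat.Agent.S20.M4
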