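/-
S20 [M4-inj] (helper14), FINAL: the hypothesis `hinj` of `Final.result_of_S24_inputs`
(helper26), hypothesis-free:
  `hinj N : ∃ φ : regSub ℂ (jF N) →ₗ[ℂ] CuspForm (Gamma0 N) 2, Function.Injective φ`.
Point places: helper11 (`S24.PP.pointPlaces_toNat`); cusp places: helper12; differentials:
helper15 + helper24 (see `H14_Hinj`).
-/
import Fermat.Agent.S20.H14_Hinj
import Fermat.Agent.S24.H11_PointPlace

set_option synthInstance.maxHeartbeats 400000
set_option maxHeartbeats 1000000

open UpperHalfPlane Filter Topology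
open CongruenceSubgroup AlgebraicCurve
open scoped MatrixGroups ModularForm Manifold

namespace Fermat.Agent.S20.M4

/-- **[PT] discharged** (helper11's point places at `K = ℂ`, `e = id`). -/
theorem pointPlaces_M4 (N : ℕ) [NeZero N] : PointPlaces N :=
  Fermat.Agent.S24.PP.pointPlaces_toNat N

/-- **[M4-inj], hypothesis-free**: the space `W` of coefficients of regular differentials
`u dj` on `X₀(N)` over `ℂ` embeds `ℂ`-linearly into `S₂(Γ₀(N))`. -/
theorem hinj (N : ℕ) [NeZero N] :
    ∃ φ : Fermat.Agent.S20.Final.regSub ℂ (Fermat.Agent.S20.Final.jF N) →ₗ[ℂ]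
        CuspForm (Gamma0 N) 2, Function.Injective φ :=
  hinj_of_pointPlaces N (pointPlaces_M4 N)

end Fermat.Agent.S20.M4
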