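import Fermat.Agent.S24.H2_Adapter
import Fermat.Agent.S24.H24_T1
import Fermat.Agent.S20.H26_Final

/-!
# S20, hL0 (helper2): functions without poles are constant - purely algebraic proof

For a function field of one variable `F / K` (`K` algebraically closed of characteristic zero)
an element `u` with `0 ≤ ord_v u` at every place is constant: otherwise `u` is transcendental,
`F` is finite over `K(u)`, and the fundamental identity for `u⁻¹` produces a pole of `u`.
No analysis (maximum principle) is needed.
-/

set_option autoImplicit false
set_option linter.style.haveILetI false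

namespace Fermat.Agent.S24.Alg

open AlgebraicCurve IntermediateField

variable {K F : Type*} [Field K] [CharZero K] [Field F] [Algebra K F]

/-- A non-constant (transcendental) element of a function field has a pole. -/
theorem exists_ord_neg_of_transcendental (x : F) (hx : Transcendental K x)
    [FiniteDimensional K⟮x⟯ F] {u : F} (hut : Transcendental K u) :
    ∃ v : Place K F, v.ord u < 0 := by
  haveI := finiteDimensional_adjoin_of_transcendental hx hut
  haveI : FiniteDimensional K⟮u⁻¹⟯ F :=
    finiteDimensional_congr_intermediateField (adjoin_inv u).symm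
  obtain ⟨Z, hZ, hsum⟩ := exists_zeros u⁻¹ (transcendental_inv hut)
  have hpos : 0 < Module.finrank K⟮u⁻¹⟯ F := Module.finrank_pos
  have hne : Z.Nonempty := by
    by_contra h
    rw [Finset.not_nonempty_iff_eq_empty] at h
    rw [h, Finset.sum_empty] at hsum
    omega
  obtain ⟨v, hv⟩ := hne
  have h1 := (hZ v).1 hv
  rw [v.ord_inv] at h1
  exact ⟨v, by omega⟩

/-- A non-constant (transcendental) element of a function field has a zero. -/
theorem exists_ord_pos_of_transcendental (x : F) (hx : Transcendental K x)
    [FiniteDimensional K⟮x⟯ F] {u : F} (hut : Transcendental K u) :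
    ∃ v : Place K F, 0 < v.ord u := by
  obtain ⟨v, hv⟩ := exists_ord_neg_of_transcendental x hx (transcendental_inv hut)
  rw [v.ord_inv] at hv
  exact ⟨v, by omega⟩

/-- **L(0) = K.** In a function field of one variable over an algebraically closed field, an
element without poles is constant. -/
theorem mem_range_of_forall_ord_nonneg [IsAlgClosed K] (x : F) (hx : Transcendental K x)
    [FiniteDimensional K⟮x⟯ F] (u : F) (hu : ∀ v : Place K F, 0 ≤ v.ord u) :
    u ∈ Set.range (algebraMap K F) := by
  by_contra hnot
  have hut : Transcendental K u := by
    intro halg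
    apply hnot
    have hint : IsIntegral K u := halg.isIntegral
    exact minpoly.mem_range_of_degree_eq_one K u
      (IsAlgClosed.degree_eq_one_of_irreducible K (minpoly.irreducible hint))
  obtain ⟨v, hv⟩ := exists_ord_neg_of_transcendental x hx hut
  have := hu v
  omega

end Fermat.Agent.S24.Alg

namespace Fermat.Agent.S20.L0

open AlgebraicCurve IntermediateField Fermat.Agent.S24

/-- **hL0 of `S20.Final.result_of_inputs`**, verbatim. -/
theorem hL0 (N : ℕ) [NeZero N] :
    ∀ u : Final.FC N, u ≠ 0 → (∀ v : Place ℂ (Final.FC N), 0 ≤ v.ord u) →
      u ∈ Set.range (algebraMap ℂ (Final.FC N)) := by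
  intro u _ hu
  haveI : FiniteDimensional ℂ⟮Final.jF N⟯ (Final.FC N) :=
    G3.finDim_final ℂ N (RingHom.id ℂ)
  exact Alg.mem_range_of_forall_ord_nonneg (Final.jF N)
    (Fermat.Agent.S24.Final.transcendental_jF ℂ N) u hu

end Fermat.Agent.S20.L0
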