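import Fermat.Agent.S20.H26_Final2
import Fermat.Agent.S20.Alg_Final
import Fermat.Agent.S20.H2_L0
import Fermat.Agent.S20.H14_HinjFinal
import Fermat.Agent.S24.H21_NormInf
import Fermat.Agent.S24.H25_Inputs
import Fermat.Agent.S24.H25_G3Inst
import Fermat.Agent.S24.H24_G3

/-!
# S20 — final wiring (helper26)

`dim S₂(Γ₀(N)) = genusFormula N` from the three fibre counts over finite values of `j` for the
function field `FK ℂ N` (the count over `∞`, `halg`, `hL0`, `hinj` being landed).
-/

set_option autoImplicit false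

open CuspForm AlgebraicCurve MulAction
open scoped MatrixGroups

namespace Fermat.Agent.S20.Wire

open Fermat.Agent.S24 Fermat.Agent.S24.Real Fermat.Agent.S24.Comb

/-- `S24.Final.Inputs ℂ N` from the three finite fibre counts. -/
theorem inputs_of_finite_counts (N : ℕ) [NeZero N]
    (gen : ∀ c : ℂ, c ≠ 0 → c ≠ 1728 →
      Nat.card {v : Place ℂ (FK ℂ N) //
        0 < v.ord (Fermat.Agent.S24.Final.jF ℂ N - algebraMap ℂ (FK ℂ N) c)} =
        Nat.card (X N))
    (zero : Nat.card {v : Place ℂ (FK ℂ N) //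
        0 < v.ord (Fermat.Agent.S24.Final.jF ℂ N - algebraMap ℂ (FK ℂ N) 0)} =
      Nat.card (orbitRel.Quotient (Subgroup.zpowers (ModularGroup.S * ModularGroup.T)) (X N)))
    (one : Nat.card {v : Place ℂ (FK ℂ N) //
        0 < v.ord (Fermat.Agent.S24.Final.jF ℂ N - algebraMap ℂ (FK ℂ N) 1728)} =
      Nat.card (orbitRel.Quotient (Subgroup.zpowers ModularGroup.S) (X N))) :
    Fermat.Agent.S24.Final.Inputs ℂ N :=
  Fermat.Agent.S24.Final.inputs_of_places (RingHom.id ℂ) N gen zero one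
    (Fermat.Agent.S24.Mer.card_places_inf (RingHom.id ℂ) N)

/-- **S20 from the three finite fibre counts.** -/
theorem result_of_finite_counts (N : ℕ) [NeZero N]
    (gen : ∀ c : ℂ, c ≠ 0 → c ≠ 1728 →
      Nat.card {v : Place ℂ (FK ℂ N) //
        0 < v.ord (Fermat.Agent.S24.Final.jF ℂ N - algebraMap ℂ (FK ℂ N) c)} =
        Nat.card (X N))
    (zero : Nat.card {v : Place ℂ (FK ℂ N) //
        0 < v.ord (Fermat.Agent.S24.Final.jF ℂ N - algebraMap ℂ (FK ℂ N) 0)} =
      Nat.card (orbitRel.Quotient (Subgroup.zpowers (ModularGroup.S * ModularGroup.T)) (X N)))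
    (one : Nat.card {v : Place ℂ (FK ℂ N) //
        0 < v.ord (Fermat.Agent.S24.Final.jF ℂ N - algebraMap ℂ (FK ℂ N) 1728)} =
      Nat.card (orbitRel.Quotient (Subgroup.zpowers ModularGroup.S) (X N))) :
    (Module.finrank ℂ (CuspForm (CongruenceSubgroup.Gamma0 N) 2) : ℚ) =
      ModularCurve.genusFormula N :=
  Final.result_of_S24_inputs N (inputs_of_finite_counts N gen zero one)
    Alg.algMainT (L0.hL0 N) (M4.hinj N)

/-- The lower bound `genusFormula N ≤ dim S₂(Γ₀(N))` (input of S21) from the three finite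
fibre counts. -/
theorem genusFormula_le_of_finite_counts (N : ℕ) [NeZero N]
    (gen : ∀ c : ℂ, c ≠ 0 → c ≠ 1728 →
      Nat.card {v : Place ℂ (FK ℂ N) //
        0 < v.ord (Fermat.Agent.S24.Final.jF ℂ N - algebraMap ℂ (FK ℂ N) c)} =
        Nat.card (X N))
    (zero : Nat.card {v : Place ℂ (FK ℂ N) //
        0 < v.ord (Fermat.Agent.S24.Final.jF ℂ N - algebraMap ℂ (FK ℂ N) 0)} =
      Nat.card (orbitRel.Quotient (Subgroup.zpowers (ModularGroup.S * ModularGroup.T)) (X N)))
    (one : Nat.card {v : Place ℂ (FK ℂ N) //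
        0 < v.ord (Fermat.Agent.S24.Final.jF ℂ N - algebraMap ℂ (FK ℂ N) 1728)} =
      Nat.card (orbitRel.Quotient (Subgroup.zpowers ModularGroup.S) (X N))) :
    ModularCurve.genusFormula N ≤
      (Module.finrank ℂ (CuspForm (CongruenceSubgroup.Gamma0 N) 2) : ℚ) :=
  Final.genusFormula_le_of_S24_inputs N (inputs_of_finite_counts N gen zero one)
    Alg.algMainT (L0.hL0 N) (M4.hinj N)

end Fermat.Agent.S20.Wire
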