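import Fermat.Agent.S20.Alg_Defs
import Fermat.Agent.S20.H3_CodimSpec
import Fermat.Agent.S24.H2_FunField

/-!
# S20 BRIDGE, [DICT-INF] (helper10): places over infinity

Setting of `Alg_Defs`: `F` is a finite extension of `RatFunc K` (`K` of characteristic zero),
`x = xF K F` the image of `X`, `Oinf K` the valuation ring at infinity of `RatFunc K` and
`B1 := integralClosure (DW.Oinf K) F` its integral closure in `F`.

The `K`-algebra structure on `DW.Oinf K` is helper3's `L4c.h3_algebraOinf` (a local instance:
consumers write `attribute [local instance] Fermat.Agent.S20.L4c.h3_algebraOinf`).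

* [DICT-INF] (i)  instances for `B1` (Dedekind, fraction field `F`, finite over `Oinf K`, towers);
* `maximalIdeal_Oinf` : the maximal ideal of `Oinf K` is generated by `X⁻¹`;
* `algebraMap_Oinf_mem` : a place `v` of `F` with `x ∉ O_v` contains `Oinf K` (Ostrowski);
* [DICT-INF] (ii) `notMem_iff_exists_prime` :
  `x ∉ O_v ↔ ∃ P : HeightOneSpectrum B1, v = placeOfPrime K P`
  (and `ord_xF_neg_iff_exists_prime`, `ord_inv_xF_pos_iff_exists_prime`);
* [Br1b] `isIntegral_Oinf_iff_places`, `hBr1b`.
-/

set_option autoImplicit false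
set_option linter.style.haveILetI false
set_option linter.unusedSectionVars false

namespace Fermat.Agent.S20.DictInf

open Polynomial Module IsDedekindDomain AlgebraicCurve WithZero
open Fermat.Agent.S24.Alg Fermat.Agent.S20.Alg

noncomputable section

/-! ### the valuation ring at infinity -/

section Oinf

variable (K : Type*) [Field K] [DecidableEq (RatFunc K)]

theorem X_inv_mem_Oinf : (RatFunc.X : RatFunc K)⁻¹ ∈ DW.Oinf K := by
  rw [DW.mem_Oinf_iff, map_inv₀, RatFunc.inftyValuation.X, ← exp_neg, ← exp_zero, exp_le_exp]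
  omega

/-- The uniformizer `X⁻¹` of the valuation ring at infinity. -/
def piInf : DW.Oinf K := ⟨RatFunc.X⁻¹, X_inv_mem_Oinf K⟩

@[simp] theorem coe_piInf : ((piInf K : DW.Oinf K) : RatFunc K) = RatFunc.X⁻¹ := rfl

theorem piInf_ne_zero : piInf K ≠ 0 := by
  intro h
  have := congrArg (Subtype.val) h
  simp only [coe_piInf, ZeroMemClass.coe_zero, inv_eq_zero] at this
  exact RatFunc.X_ne_zero this

theorem mem_maximalIdeal_Oinf_iff (a : DW.Oinf K) :
    a ∈ IsLocalRing.maximalIdeal (DW.Oinf K) ↔ RatFunc.inftyValuation K (a : RatFunc K) < 1 := by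
  rw [ValuationSubring.valuation_lt_one_iff]
  exact ((RatFunc.inftyValuation K).isEquiv_valuation_valuationSubring.lt_one_iff_lt_one).symm

theorem piInf_mem_maximalIdeal : piInf K ∈ IsLocalRing.maximalIdeal (DW.Oinf K) := by
  rw [mem_maximalIdeal_Oinf_iff, coe_piInf, map_inv₀, RatFunc.inftyValuation.X,
    ← exp_neg, ← exp_zero, exp_lt_exp]
  omega

/-- The maximal ideal of the valuation ring at infinity is generated by `X⁻¹`. -/
theorem maximalIdeal_Oinf :
    IsLocalRing.maximalIdeal (DW.Oinf K) = Ideal.span {piInf K} := by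
  apply le_antisymm
  · intro a ha
    rw [mem_maximalIdeal_Oinf_iff] at ha
    rw [Ideal.mem_span_singleton']
    have hle : RatFunc.inftyValuation K ((a : RatFunc K) * RatFunc.X) ≤ 1 := by
      rw [map_mul, RatFunc.inftyValuation.X]
      have h1 : RatFunc.inftyValuation K (a : RatFunc K) ≤ exp (-1 : ℤ) :=
        le_exp_neg_one_of_lt_one ha
      calc RatFunc.inftyValuation K (a : RatFunc K) * exp (1 : ℤ)
          ≤ exp (-1 : ℤ) * exp (1 : ℤ) := by gcongr
        _ = 1 := by rw [← exp_add]; simp
    refine ⟨⟨_, hle⟩, Subtype.ext ?_⟩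
    show (a : RatFunc K) * (RatFunc.X : RatFunc K) * (RatFunc.X : RatFunc K)⁻¹ = a
    rw [mul_assoc, mul_inv_cancel₀ (RatFunc.X_ne_zero (K := K)), mul_one]
  · rw [Ideal.span_le, Set.singleton_subset_iff]
    exact piInf_mem_maximalIdeal K

theorem maximalIdeal_Oinf_ne_bot : IsLocalRing.maximalIdeal (DW.Oinf K) ≠ ⊥ := by
  intro h
  have := piInf_mem_maximalIdeal K
  rw [h, Ideal.mem_bot] at this
  exact piInf_ne_zero K this

end Oinf

variable (K : Type*) [Field K] [DecidableEq (RatFunc K)]
  (F : Type*) [Field F] [Algebra (RatFunc K) F] [Algebra K[X] F]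
  [IsScalarTower K[X] (RatFunc K) F] [Algebra K F] [IsScalarTower K (RatFunc K) F]

/-! ### (i) instances -/

attribute [local instance] L4c.h3_algebraOinf

instance isScalarTower_Oinf : IsScalarTower K (DW.Oinf K) F :=
  IsScalarTower.of_algebraMap_eq fun c => by
    rw [IsScalarTower.algebraMap_apply K (RatFunc K) F,
      IsScalarTower.algebraMap_apply (DW.Oinf K) (RatFunc K) F]
    rfl

example : Algebra K (integralClosure (DW.Oinf K) F) := inferInstance
example : IsScalarTower K (integralClosure (DW.Oinf K) F) F := inferInstance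
example : IsScalarTower K (DW.Oinf K) (integralClosure (DW.Oinf K) F) := inferInstance

theorem algebraMap_Oinf_injective : Function.Injective (algebraMap (DW.Oinf K) F) := by
  rw [IsScalarTower.algebraMap_eq (DW.Oinf K) (RatFunc K) F]
  exact (algebraMap (RatFunc K) F).injective.comp
    (IsFractionRing.injective (DW.Oinf K) (RatFunc K))

theorem algebraMap_piInf : algebraMap (DW.Oinf K) F (piInf K) = (xF K F)⁻¹ := by
  rw [IsScalarTower.algebraMap_apply (DW.Oinf K) (RatFunc K) F]
  show algebraMap (RatFunc K) F ((RatFunc.X : RatFunc K)⁻¹) = _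
  rw [map_inv₀]

theorem xF_ne_zero : xF K F ≠ 0 := by
  rw [Ne, map_eq_zero]
  exact RatFunc.X_ne_zero

section instances

variable [FiniteDimensional (RatFunc K) F] [CharZero K]

instance charZero_ratFunc_inf : CharZero (RatFunc K) :=
  charZero_of_injective_algebraMap (algebraMap K (RatFunc K)).injective

example : Algebra.IsSeparable (RatFunc K) F := inferInstance

instance isDedekindDomain_B1 : IsDedekindDomain (integralClosure (DW.Oinf K) F) :=
  integralClosure.isDedekindDomain (DW.Oinf K) (RatFunc K) F

instance isFractionRing_B1 : IsFractionRing (integralClosure (DW.Oinf K) F) F :=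
  integralClosure.isFractionRing_of_finite_extension (RatFunc K) F

instance finite_B1 : Module.Finite (DW.Oinf K) (integralClosure (DW.Oinf K) F) :=
  IsIntegralClosure.finite (DW.Oinf K) (RatFunc K) F (integralClosure (DW.Oinf K) F)

instance faithfulSMul_B1 : FaithfulSMul (DW.Oinf K) (integralClosure (DW.Oinf K) F) := by
  rw [faithfulSMul_iff_algebraMap_injective]
  intro a b hab
  apply algebraMap_Oinf_injective K F
  have := congrArg (algebraMap (integralClosure (DW.Oinf K) F) F) hab
  rwa [← IsScalarTower.algebraMap_apply, ← IsScalarTower.algebraMap_apply] at this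

instance isTorsionFree_B1 : Module.IsTorsionFree (DW.Oinf K) (integralClosure (DW.Oinf K) F) :=
  Module.isTorsionFree_iff_faithfulSMul.mpr inferInstance

end instances

/-! ### places with a pole at `x` contain the ring at infinity -/

theorem valuation_algebraMap_eq_one (v : Place K F) {a : K} (ha : a ≠ 0) :
    v.toValuationSubring.valuation (algebraMap K F a) = 1 := by
  apply le_antisymm
  · exact (ValuationSubring.valuation_le_one_iff _ _).2 (v.algebraMap_mem' a)
  · have h1 := (ValuationSubring.valuation_le_one_iff _ _).2 (v.algebraMap_mem' a⁻¹)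
    rw [map_inv₀, map_inv₀] at h1
    have h0 : v.toValuationSubring.valuation (algebraMap K F a) ≠ 0 := by
      rw [Ne, Valuation.zero_iff]
      exact (map_ne_zero (algebraMap K F)).2 ha
    exact (inv_le_one₀ (zero_lt_iff.mpr h0)).1 h1

/-- A place `v` of `F` with `x ∉ O_v` contains the valuation ring at infinity of `K(X)`
(Ostrowski for `K(X)`). -/
theorem algebraMap_Oinf_mem (v : Place K F) (hv : xF K F ∉ v.toValuationSubring)
    (f : RatFunc K) (hf : f ∈ DW.Oinf K) :
    algebraMap (RatFunc K) F f ∈ v.toValuationSubring := by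
  let w : Valuation (RatFunc K) v.toValuationSubring.ValueGroup :=
    v.toValuationSubring.valuation.comap (algebraMap (RatFunc K) F)
  haveI : w.IsTrivialOn K := ⟨fun a ha => by
    show v.toValuationSubring.valuation (algebraMap (RatFunc K) F (algebraMap K (RatFunc K) a)) = 1
    rw [← IsScalarTower.algebraMap_apply K (RatFunc K) F]
    exact valuation_algebraMap_eq_one K F v ha⟩
  have hX : 1 < w RatFunc.X := by
    show 1 < v.toValuationSubring.valuation (xF K F)
    rw [← not_le, ValuationSubring.valuation_le_one_iff]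
    exact hv
  have heq := RatFunc.valuation_isEquiv_inftyValuation_of_one_lt_valuation_X hX
  have h1 : w f ≤ 1 := heq.le_one_iff_le_one.2 hf
  exact (ValuationSubring.valuation_le_one_iff _ _).1 h1

/-- A place `v` with `x ∉ O_v` contains every element integral over `Oinf K`. -/
theorem mem_of_isIntegral_Oinf (v : Place K F) (hv : xF K F ∉ v.toValuationSubring)
    (u : F) (hu : IsIntegral (DW.Oinf K) u) : u ∈ v.toValuationSubring := by
  have hmem : ∀ g : DW.Oinf K, algebraMap (DW.Oinf K) F g ∈ v.toValuationSubring := by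
    intro g
    rw [IsScalarTower.algebraMap_apply (DW.Oinf K) (RatFunc K) F]
    exact algebraMap_Oinf_mem K F v hv _ g.2
  letI : Algebra (DW.Oinf K) v.toValuationSubring :=
    ((algebraMap (DW.Oinf K) F).codRestrict v.toValuationSubring.toSubring hmem).toAlgebra
  haveI : IsScalarTower (DW.Oinf K) v.toValuationSubring F :=
    IsScalarTower.of_algebraMap_eq (fun _ => rfl)
  have hu' : IsIntegral v.toValuationSubring u := hu.tower_top
  obtain ⟨y, hy⟩ := IsIntegrallyClosed.isIntegral_iff.1 hu'
  rw [← hy]
  exact y.2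

/-- **[Br1b] (→)**, literally the hypothesis `hBr1b` of `RRA.alg_main_rat_of_leaves`. -/
theorem hBr1b : ∀ u : F, IsIntegral (DW.Oinf K) u →
    ∀ v : Place K F, xF K F ∉ v.toValuationSubring → u ∈ v.toValuationSubring :=
  fun u hu v hv => mem_of_isIntegral_Oinf K F v hv u hu

/-! ### (ii) places with a pole at `x` are the places of the primes of `B1` -/

section dict

variable [FiniteDimensional (RatFunc K) F] [CharZero K]

/-- Every maximal ideal of `B1` lies over the maximal ideal of `Oinf K`. -/
theorem under_eq_maximalIdeal (P : HeightOneSpectrum (integralClosure (DW.Oinf K) F)) :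
    P.asIdeal.under (DW.Oinf K) = IsLocalRing.maximalIdeal (DW.Oinf K) := by
  haveI : P.asIdeal.IsMaximal := P.isMaximal
  haveI : (P.asIdeal.under (DW.Oinf K)).IsMaximal :=
    Ideal.IsMaximal.under (DW.Oinf K) P.asIdeal
  exact IsLocalRing.eq_maximalIdeal inferInstance

instance liesOver_maximalIdeal (P : HeightOneSpectrum (integralClosure (DW.Oinf K) F)) :
    P.asIdeal.LiesOver (IsLocalRing.maximalIdeal (DW.Oinf K)) :=
  ⟨(under_eq_maximalIdeal K F P).symm⟩

/-- The uniformizer `X⁻¹` lies in every maximal ideal of `B1`. -/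
theorem piInf_mem (P : HeightOneSpectrum (integralClosure (DW.Oinf K) F)) :
    algebraMap (DW.Oinf K) (integralClosure (DW.Oinf K) F) (piInf K) ∈ P.asIdeal := by
  have h := piInf_mem_maximalIdeal K
  rw [← under_eq_maximalIdeal K F P] at h
  exact h

theorem valuation_inv_xF_lt_one (P : HeightOneSpectrum (integralClosure (DW.Oinf K) F)) :
    P.valuation F (xF K F)⁻¹ < 1 := by
  have h := (P.valuation_lt_one_iff_mem (K := F) _).2 (piInf_mem K F P)
  have e : algebraMap (integralClosure (DW.Oinf K) F) F
      (algebraMap (DW.Oinf K) (integralClosure (DW.Oinf K) F) (piInf K)) = (xF K F)⁻¹ := by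
    rw [← IsScalarTower.algebraMap_apply, algebraMap_piInf]
  rw [← e]
  exact h

theorem one_lt_valuation_xF (P : HeightOneSpectrum (integralClosure (DW.Oinf K) F)) :
    1 < P.valuation F (xF K F) := by
  have h := valuation_inv_xF_lt_one K F P
  rw [map_inv₀] at h
  have h0 : P.valuation F (xF K F) ≠ 0 := by
    rw [Ne, Valuation.zero_iff]; exact xF_ne_zero K F
  exact (inv_lt_one₀ (zero_lt_iff.mpr h0)).1 h

/-- [DICT-INF] (ii) -/
theorem notMem_iff_exists_prime (v : Place K F) :
    xF K F ∉ v.toValuationSubring ↔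
      ∃ P : HeightOneSpectrum (integralClosure (DW.Oinf K) F), v = placeOfPrime K P := by
  constructor
  · intro hv
    exact exists_prime_of_le (B := integralClosure (DW.Oinf K) F) v
      (fun b => mem_of_isIntegral_Oinf K F v hv _ b.2)
  · rintro ⟨P, rfl⟩
    rw [mem_placeOfPrime_iff, not_le]
    exact one_lt_valuation_xF K F P

/-- [DICT-INF] (ii), `ord` form. -/
theorem ord_xF_neg_iff_exists_prime (v : Place K F) :
    v.ord (xF K F) < 0 ↔
      ∃ P : HeightOneSpectrum (integralClosure (DW.Oinf K) F), v = placeOfPrime K P := by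
  rw [← notMem_iff_exists_prime, mem_iff_ord_nonneg v (xF_ne_zero K F), not_le]

/-- [DICT-INF] (ii), `ord x⁻¹` form. -/
theorem ord_inv_xF_pos_iff_exists_prime (v : Place K F) :
    0 < v.ord (xF K F)⁻¹ ↔
      ∃ P : HeightOneSpectrum (integralClosure (DW.Oinf K) F), v = placeOfPrime K P := by
  rw [← ord_xF_neg_iff_exists_prime, Place.ord_inv, neg_pos]

/-- **[Br1b]** integrality over `Oinf K` in terms of places. -/
theorem isIntegral_Oinf_iff_places (u : F) :
    IsIntegral (DW.Oinf K) u ↔
      ∀ v : Place K F, xF K F ∉ v.toValuationSubring → u ∈ v.toValuationSubring := by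
  constructor
  · intro hu v hv
    exact mem_of_isIntegral_Oinf K F v hv u hu
  · intro h
    have h1 : ∀ P : HeightOneSpectrum (integralClosure (DW.Oinf K) F), P.valuation F u ≤ 1 := by
      intro P
      rw [← mem_placeOfPrime_iff (K := K)]
      exact h _ ((notMem_iff_exists_prime K F _).mpr ⟨P, rfl⟩)
    obtain ⟨b, hb⟩ := HeightOneSpectrum.mem_integers_of_valuation_le_one F u h1
    rw [← hb]
    exact b.2

end dict

end

end Fermat.Agent.S20.DictInf
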