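/-
S20, work package M-B3 (helper17): quotients at the cusp.

On top of helper7's cusp order `Fermat.Agent.S24.Cusp.ordInf` (`MeroAtInf h f`: `f` holomorphic,
`h`-periodic, meromorphic at `i∞` in the parameter `exp (2πi z / h)`):

* `CuspQuot.meroAtInf_of_mul_eq`, `CuspQuot.ordInf_of_mul_eq`: a holomorphic quotient `g = a / b`
  of two such functions is again of this type and `ordInf g = ordInf a - ordInf b`.
* `CuspQuot.isZeroAtImInfty_of_ordInf_lt`, `CuspQuot.isBoundedAtImInfty_of_ordInf_le`.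
* `CuspQuot.meroAtInf_cuspForm_slash`, `CuspQuot.ordInf_cuspForm_slash_pos`: the converse for
  cusp forms on `Γ₀(N)`.
-/
import Fermat.Agent.S24.H7_Cusp

set_option autoImplicit false

namespace Fermat.Agent.S20.CuspQuot

open UpperHalfPlane Filter Topology Function ModularForm CongruenceSubgroup
open scoped MatrixGroups ModularForm Manifold
open Fermat.Agent.S24.Cusp

variable {h : ℝ} {g a b : ℍ → ℂ}

/-- A holomorphic quotient of periodic functions is periodic. -/
theorem periodic_of_mul_eq (hg : MDiff g) (ha : Periodic (a ∘ ofComplex) h)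
    (hb : Periodic (b ∘ ofComplex) h) (hbh : MDiff b) (hb0 : b ≠ 0)
    (hmul : ∀ z, g z * b z = a z) : Periodic (g ∘ ofComplex) h := by
  refine periodic_comp_ofComplex_of_vadd fun z => ?_
  have hd : MDiff (fun z : ℍ => g (h +ᵥ z) - g z) := (mdiff_vadd hg h).sub hg
  have hzero : (fun z : ℍ => g (h +ᵥ z) - g z) * b = 0 := by
    funext w
    simp only [Pi.mul_apply, Pi.zero_apply]
    have h1 : g (h +ᵥ w) * b (h +ᵥ w) = a (h +ᵥ w) := hmul _
    rw [vadd_of_periodic hb w, vadd_of_periodic ha w, ← hmul w] at h1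
    rw [sub_mul, h1, sub_self]
  rcases (UpperHalfPlane.mul_eq_zero_iff hd hbh).mp hzero with h1 | h1
  · exact sub_eq_zero.mp (congrFun h1 z)
  · exact absurd h1 hb0

/-- A holomorphic quotient of two functions meromorphic at `i∞` is meromorphic at `i∞`. -/
theorem meroAtInf_of_mul_eq (hh : 0 < h) (hg : MDiff g) (ha : MeroAtInf h a)
    (hb : MeroAtInf h b) (hb0 : b ≠ 0) (hmul : ∀ z, g z * b z = a z) : MeroAtInf h g := by
  have hper := periodic_of_mul_eq hg ha.periodic hb.periodic hb.holo hb0 hmul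
  refine MeroAtInf.of_mul hper hg hb hh hb0 ?_
  have : g * b = a := funext hmul
  rw [this]
  exact ha.mero

/-- The quotient is nonzero if the numerator is. -/
theorem ne_zero_of_mul_eq (ha0 : a ≠ 0) (hmul : ∀ z, g z * b z = a z) : g ≠ 0 := by
  rintro rfl
  apply ha0
  funext z
  rw [← hmul z]
  simp

/-- The denominator is nonzero if the numerator is. -/
theorem ne_zero_right_of_mul_eq (ha0 : a ≠ 0) (hmul : ∀ z, g z * b z = a z) : b ≠ 0 := by
  rintro rfl
  apply ha0
  funext z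
  rw [← hmul z]
  simp

/-- The order at `i∞` of a holomorphic quotient. -/
theorem ordInf_of_mul_eq (hh : 0 < h) (hg : MDiff g) (ha : MeroAtInf h a)
    (hb : MeroAtInf h b) (ha0 : a ≠ 0) (hmul : ∀ z, g z * b z = a z) :
    ordInf h g = ordInf h a - ordInf h b := by
  have hb0 := ne_zero_right_of_mul_eq ha0 hmul
  have hg0 := ne_zero_of_mul_eq ha0 hmul
  have hgm := meroAtInf_of_mul_eq hh hg ha hb hb0 hmul
  have h1 := MeroAtInf.ordInf_mul hgm hb hh hg0 hb0
  have : g * b = a := funext hmul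
  rw [this] at h1
  omega

/-- **M-B3**: if `g * b = a` with `g` holomorphic, `a`, `b` meromorphic at `i∞`, `b ≠ 0`, and the
order of `b` at `i∞` is smaller than that of `a`, then `g` vanishes at `i∞`. -/
theorem isZeroAtImInfty_of_ordInf_lt (hh : 0 < h) (hg : MDiff g) (ha : MeroAtInf h a)
    (hb : MeroAtInf h b) (hb0 : b ≠ 0) (hmul : ∀ z, g z * b z = a z)
    (hord : a ≠ 0 → ordInf h b < ordInf h a) : IsZeroAtImInfty g := by
  by_cases ha0 : a = 0
  · have hg0 : g = 0 := by
      have hzero : g * b = 0 := by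
        rw [← ha0]
        exact funext hmul
      rcases (UpperHalfPlane.mul_eq_zero_iff hg hb.holo).mp hzero with h1 | h1
      · exact h1
      · exact absurd h1 hb0
    rw [hg0]
    show Tendsto (0 : ℍ → ℂ) atImInfty (𝓝 0)
    exact tendsto_const_nhds
  · have hgm := meroAtInf_of_mul_eq hh hg ha hb hb0 hmul
    refine (hgm.ordInf_pos_iff hh (ne_zero_of_mul_eq ha0 hmul)).mp ?_
    rw [ordInf_of_mul_eq hh hg ha hb ha0 hmul]
    have := hord ha0
    omega

/-- If `g * b = a` with `g` holomorphic, `a`, `b` meromorphic at `i∞`, `b ≠ 0`, and the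
order of `b` at `i∞` is at most that of `a`, then `g` is bounded at `i∞`. -/
theorem isBoundedAtImInfty_of_ordInf_le (hh : 0 < h) (hg : MDiff g) (ha : MeroAtInf h a)
    (hb : MeroAtInf h b) (hb0 : b ≠ 0) (hmul : ∀ z, g z * b z = a z)
    (hord : a ≠ 0 → ordInf h b ≤ ordInf h a) : IsBoundedAtImInfty g := by
  by_cases ha0 : a = 0
  · have hg0 : g = 0 := by
      have hzero : g * b = 0 := by
        rw [← ha0]
        exact funext hmul
      rcases (UpperHalfPlane.mul_eq_zero_iff hg hb.holo).mp hzero with h1 | h1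
      · exact h1
      · exact absurd h1 hb0
    rw [hg0]
    exact zero_form_isBoundedAtImInfty
  · have hgm := meroAtInf_of_mul_eq hh hg ha hb hb0 hmul
    refine (hgm.ordInf_nonneg_iff hh (ne_zero_of_mul_eq ha0 hmul)).mp ?_
    rw [ordInf_of_mul_eq hh hg ha hb ha0 hmul]
    have := hord ha0
    omega

/-- Converse: vanishing at `i∞` of the quotient gives the strict inequality of orders. -/
theorem ordInf_lt_of_isZeroAtImInfty (hh : 0 < h) (hg : MDiff g) (ha : MeroAtInf h a)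
    (hb : MeroAtInf h b) (ha0 : a ≠ 0) (hmul : ∀ z, g z * b z = a z)
    (hzero : IsZeroAtImInfty g) : ordInf h b < ordInf h a := by
  have hb0 := ne_zero_right_of_mul_eq ha0 hmul
  have hgm := meroAtInf_of_mul_eq hh hg ha hb hb0 hmul
  have h1 := (hgm.ordInf_pos_iff hh (ne_zero_of_mul_eq ha0 hmul)).mpr hzero
  rw [ordInf_of_mul_eq hh hg ha hb ha0 hmul] at h1
  omega

/-! ### Translates of slash invariant functions and cusp forms -/

/-- The denominator of an element of `SL(2, ℤ)`. -/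
theorem denom_SL_eq (γ : SL(2, ℤ)) (z : ℍ) :
    denom (γ : GL (Fin 2) ℝ) z = ((γ 1 0 : ℤ) : ℂ) * (z : ℂ) + ((γ 1 1 : ℤ) : ℂ) := by
  simp [denom]

/-- All `SL(2, ℤ)`-translates `f ∣[k] γ` of a function which is slash invariant of weight `k`
under `Γ₀(N)` are `N`-periodic. -/
theorem periodic_slash (N : ℕ) (k : ℤ) {f : ℍ → ℂ} (hinv : ∀ γ ∈ Gamma0 N, f ∣[k] γ = f)
    (γ : SL(2, ℤ)) : Periodic ((f ∣[k] γ) ∘ ofComplex) (N : ℝ) := by
  refine periodic_comp_ofComplex_of_vadd fun z => ?_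
  have h1 : (f ∣[k] γ) ∣[k] (ModularGroup.T ^ (N : ℤ)) = f ∣[k] γ := by
    rw [← SlashAction.slash_mul]
    have h2 : γ * ModularGroup.T ^ (N : ℤ) = (γ * ModularGroup.T ^ (N : ℤ) * γ⁻¹) * γ := by
      group
    rw [h2, SlashAction.slash_mul, hinv _ (conj_T_zpow_mem_Gamma0 N γ)]
  have h3 := congrFun h1 z
  rw [SL_slash_apply] at h3
  have h10 : (ModularGroup.T ^ (N : ℤ) : SL(2, ℤ)) 1 0 = 0 := by
    show ((ModularGroup.T ^ (N : ℤ) : SL(2, ℤ)) : Matrix (Fin 2) (Fin 2) ℤ) 1 0 = 0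
    rw [ModularGroup.coe_T_zpow]
    simp
  have h11 : (ModularGroup.T ^ (N : ℤ) : SL(2, ℤ)) 1 1 = 1 := by
    show ((ModularGroup.T ^ (N : ℤ) : SL(2, ℤ)) : Matrix (Fin 2) (Fin 2) ℤ) 1 1 = 1
    rw [ModularGroup.coe_T_zpow]
    simp
  have h4 : denom ((ModularGroup.T ^ (N : ℤ) : SL(2, ℤ)) : GL (Fin 2) ℝ) z = 1 := by
    rw [denom_SL_eq, h10, h11]
    simp
  rw [h4, one_zpow, mul_one, modular_T_zpow_smul] at h3
  simpa using h3

/-- The translates of a cusp form on `Γ₀(N)` are meromorphic (indeed holomorphic) at `i∞`. -/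
theorem meroAtInf_cuspForm_slash (N : ℕ) [NeZero N] (k : ℤ) (f : CuspForm (Gamma0 N) k)
    (γ : SL(2, ℤ)) : MeroAtInf (N : ℝ) ((f : ℍ → ℂ) ∣[k] γ) := by
  have hN : (0 : ℝ) < N := Nat.cast_pos.mpr (Nat.pos_of_ne_zero (NeZero.ne N))
  refine MeroAtInf.of_isBoundedAtImInfty hN ?_ ?_ ?_
  · refine periodic_slash N k (fun γ' hγ' => ?_) γ
    rw [SL_slash]
    exact SlashInvariantFormClass.slash_action_eq f _ (Subgroup.mem_map_of_mem _ hγ')
  · rw [SL_slash]
    exact (ModularFormClass.holo f).slash k _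
  · exact (CuspFormClass.zero_at_infty_slash f γ).isBoundedAtImInfty

/-- The slash by an element of `SL(2, ℤ)` of a nonzero function is nonzero. -/
theorem slash_ne_zero (k : ℤ) {f : ℍ → ℂ} (hf : f ≠ 0) (γ : SL(2, ℤ)) : f ∣[k] γ ≠ 0 := by
  intro h0
  apply hf
  have h1 : (f ∣[k] γ) ∣[k] γ⁻¹ = f := by
    rw [← SlashAction.slash_mul, mul_inv_cancel, SlashAction.slash_one]
  rw [← h1, h0, SlashAction.zero_slash]

/-- **M-B3, converse**: the translates of a nonzero cusp form on `Γ₀(N)` have positive order at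
`i∞`. -/
theorem ordInf_cuspForm_slash_pos (N : ℕ) [NeZero N] (k : ℤ) (f : CuspForm (Gamma0 N) k)
    (hf : f ≠ 0) (γ : SL(2, ℤ)) : 0 < ordInf (N : ℝ) ((f : ℍ → ℂ) ∣[k] γ) := by
  have hN : (0 : ℝ) < N := Nat.cast_pos.mpr (Nat.pos_of_ne_zero (NeZero.ne N))
  have hf0 : (f : ℍ → ℂ) ≠ 0 := by
    intro h0
    apply hf
    ext z
    simpa using congrFun h0 z
  exact ((meroAtInf_cuspForm_slash N k f γ).ordInf_pos_iff hN (slash_ne_zero k hf0 γ)).mpr
    (CuspFormClass.zero_at_infty_slash f γ)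

end Fermat.Agent.S20.CuspQuot
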