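/-
S20, work package M-B1 (helper17): holomorphic quotient by orders.

* `HolQuot.exists_differentiableOn_mul_eq_of_order`: if `a, b` are holomorphic on a connected open
  set `U ⊆ ℂ`, `b ≢ 0`, and `ord_z b ≤ ord_z a` at every `z ∈ U`, then `a / b` extends to a
  holomorphic function on `U`.
* `HolQuot.exists_mdifferentiable_mul_eq_of_order`: the same on the upper half plane.
* `HolQuot.analyticOrderAt_add_of_mul_eq`: the order of the quotient.
* `HolQuot.eq_of_mul_eq`: uniqueness of the quotient.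
-/
import Mathlib

set_option autoImplicit false

namespace Fermat.Agent.S20.HolQuot

open Filter Topology Set

/-- **Holomorphic quotient by orders** on a connected open subset of `ℂ`. -/
theorem exists_differentiableOn_mul_eq_of_order {U : Set ℂ} (hU : IsOpen U)
    (hUc : IsPreconnected U) {a b : ℂ → ℂ} (ha : DifferentiableOn ℂ a U)
    (hb : DifferentiableOn ℂ b U) (hb0 : ∃ z ∈ U, b z ≠ 0)
    (hord : ∀ z ∈ U, analyticOrderAt b z ≤ analyticOrderAt a z) :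
    ∃ g : ℂ → ℂ, DifferentiableOn ℂ g U ∧ ∀ z ∈ U, g z * b z = a z := by
  classical
  have haA : AnalyticOnNhd ℂ a U := ha.analyticOnNhd hU
  have hbA : AnalyticOnNhd ℂ b U := hb.analyticOnNhd hU
  obtain ⟨z₁, hz₁, hbz₁⟩ := hb0
  have hfin : ∀ z ∈ U, analyticOrderAt b z ≠ ⊤ := by
    intro z hz
    refine hbA.analyticOrderAt_ne_top_of_isPreconnected hUc hz₁ hz ?_
    have h0 : analyticOrderAt b z₁ = 0 := analyticOrderAt_eq_zero.mpr (Or.inr hbz₁)
    simp [h0]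
  -- local quotients
  have hloc : ∀ z ∈ U, ∃ q : ℂ → ℂ, AnalyticAt ℂ q z ∧ (∀ᶠ w in 𝓝 z, q w * b w = a w) ∧
      (∀ᶠ w in 𝓝 z, w ≠ z → b w ≠ 0) := by
    intro z hz
    obtain ⟨B, hBan, hB0, hBeq⟩ := (hbA z hz).analyticOrderAt_ne_top.mp (hfin z hz)
    have hn : ((analyticOrderNatAt b z : ℕ) : ℕ∞) ≤ analyticOrderAt a z := by
      have h := hord z hz
      rwa [← Nat.cast_analyticOrderNatAt (hfin z hz)] at h
    obtain ⟨A, hAan, hAeq⟩ := (natCast_le_analyticOrderAt (haA z hz)).mp hn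
    have hBne : ∀ᶠ w in 𝓝 z, B w ≠ 0 := hBan.continuousAt.eventually_ne hB0
    refine ⟨fun w => A w / B w, hAan.div hBan hB0, ?_, ?_⟩
    · filter_upwards [hBeq, hAeq, hBne] with w h1 h2 h3
      rw [h1, h2]
      simp only [smul_eq_mul]
      field_simp
    · filter_upwards [hBeq, hBne] with w h1 h3 hw
      rw [h1]
      simp only [smul_eq_mul]
      exact mul_ne_zero (pow_ne_zero _ (sub_ne_zero.mpr hw)) h3
  choose! q hqan hqeq hqne using hloc
  refine ⟨fun z => q z z, ?_, ?_⟩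
  · intro z hz
    have hev : (fun w => q w w) =ᶠ[𝓝 z] q z := by
      filter_upwards [hqne z hz, hqeq z hz, hU.mem_nhds hz] with w h1 h2 h3
      by_cases hw : w = z
      · subst hw
        rfl
      · have h4 : q w w * b w = a w := (hqeq w h3).self_of_nhds
        exact mul_right_cancel₀ (h1 hw) (h4.trans h2.symm)
    exact ((hqan z hz).differentiableAt.congr_of_eventuallyEq hev).differentiableWithinAt
  · intro z hz
    exact (hqeq z hz).self_of_nhds

/-! ### Upper half plane version -/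

open UpperHalfPlane
open scoped Manifold

/-- A holomorphic function on `ℍ`, composed with `ofComplex`, is analytic at the points of `ℍ`. -/
theorem analyticAt_comp_ofComplex {F : ℍ → ℂ} (hF : MDifferentiable 𝓘(ℂ) 𝓘(ℂ) F) (z : ℍ) :
    AnalyticAt ℂ (F ∘ ofComplex) (z : ℂ) :=
  (UpperHalfPlane.mdifferentiable_iff.mp hF).analyticAt
    (isOpen_upperHalfPlaneSet.mem_nhds z.im_pos)

/-- **Holomorphic quotient by orders** on the upper half plane: if `a, b` are holomorphic on `ℍ`,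
`b ≢ 0` and `ord_z b ≤ ord_z a` for every `z : ℍ`, then there is a holomorphic `g` with
`g * b = a`. -/
theorem exists_mdifferentiable_mul_eq_of_order {a b : ℍ → ℂ}
    (ha : MDifferentiable 𝓘(ℂ) 𝓘(ℂ) a) (hb : MDifferentiable 𝓘(ℂ) 𝓘(ℂ) b)
    (hb0 : ∃ z, b z ≠ 0)
    (hord : ∀ z : ℍ, analyticOrderAt (b ∘ ofComplex) (z : ℂ) ≤
      analyticOrderAt (a ∘ ofComplex) (z : ℂ)) :
    ∃ g : ℍ → ℂ, MDifferentiable 𝓘(ℂ) 𝓘(ℂ) g ∧ ∀ z, g z * b z = a z := by
  have hU : IsOpen {z : ℂ | 0 < z.im} := isOpen_upperHalfPlaneSet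
  have hUc : IsPreconnected {z : ℂ | 0 < z.im} :=
    (convex_halfSpace_im_gt 0).isPreconnected
  have ha' := UpperHalfPlane.mdifferentiable_iff.mp ha
  have hb' := UpperHalfPlane.mdifferentiable_iff.mp hb
  obtain ⟨z₁, hz₁⟩ := hb0
  have hb0' : ∃ z ∈ {z : ℂ | 0 < z.im}, (b ∘ ofComplex) z ≠ 0 :=
    ⟨(z₁ : ℂ), z₁.im_pos, by simpa [ofComplex_apply] using hz₁⟩
  have hord' : ∀ z ∈ {z : ℂ | 0 < z.im},
      analyticOrderAt (b ∘ ofComplex) z ≤ analyticOrderAt (a ∘ ofComplex) z := by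
    intro z hz
    exact hord ⟨z, hz⟩
  obtain ⟨g, hgd, hgb⟩ := exists_differentiableOn_mul_eq_of_order hU hUc ha' hb' hb0' hord'
  refine ⟨fun z => g (z : ℂ), ?_, ?_⟩
  · rw [UpperHalfPlane.mdifferentiable_iff]
    refine hgd.congr fun z hz => ?_
    simp only [Function.comp_apply]
    rw [ofComplex_apply_of_im_pos hz]
  · intro z
    have := hgb (z : ℂ) z.im_pos
    simpa [ofComplex_apply] using this

/-- The order of a holomorphic quotient: if `g * b = a` on `ℍ` then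
`ord_z g + ord_z b = ord_z a`. -/
theorem analyticOrderAt_add_of_mul_eq {a b g : ℍ → ℂ}
    (hb : MDifferentiable 𝓘(ℂ) 𝓘(ℂ) b) (hg : MDifferentiable 𝓘(ℂ) 𝓘(ℂ) g)
    (h : ∀ z, g z * b z = a z) (z : ℍ) :
    analyticOrderAt (g ∘ ofComplex) (z : ℂ) + analyticOrderAt (b ∘ ofComplex) (z : ℂ) =
      analyticOrderAt (a ∘ ofComplex) (z : ℂ) := by
  rw [← analyticOrderAt_mul (analyticAt_comp_ofComplex hg z) (analyticAt_comp_ofComplex hb z)]
  congr 1
  funext w
  simp only [Pi.mul_apply, Function.comp_apply]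
  exact h _

/-- Conversely, the existence of a holomorphic quotient forces the inequality of orders. -/
theorem analyticOrderAt_le_of_mul_eq {a b g : ℍ → ℂ}
    (hb : MDifferentiable 𝓘(ℂ) 𝓘(ℂ) b) (hg : MDifferentiable 𝓘(ℂ) 𝓘(ℂ) g)
    (h : ∀ z, g z * b z = a z) (z : ℍ) :
    analyticOrderAt (b ∘ ofComplex) (z : ℂ) ≤ analyticOrderAt (a ∘ ofComplex) (z : ℂ) := by
  rw [← analyticOrderAt_add_of_mul_eq hb hg h z]
  exact le_add_self

/-- A holomorphic function on `ℍ` which is not identically zero has finite order everywhere. -/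
theorem analyticOrderAt_ne_top {b : ℍ → ℂ} (hb : MDifferentiable 𝓘(ℂ) 𝓘(ℂ) b)
    (hb0 : ∃ z, b z ≠ 0) (z : ℍ) : analyticOrderAt (b ∘ ofComplex) (z : ℂ) ≠ ⊤ := by
  have hU : IsOpen {z : ℂ | 0 < z.im} := isOpen_upperHalfPlaneSet
  have hUc : IsPreconnected {z : ℂ | 0 < z.im} :=
    (convex_halfSpace_im_gt 0).isPreconnected
  have hbA : AnalyticOnNhd ℂ (b ∘ ofComplex) {z : ℂ | 0 < z.im} :=
    (UpperHalfPlane.mdifferentiable_iff.mp hb).analyticOnNhd hU
  obtain ⟨z₁, hz₁⟩ := hb0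
  refine hbA.analyticOrderAt_ne_top_of_isPreconnected hUc z₁.im_pos z.im_pos ?_
  have h0 : analyticOrderAt (b ∘ ofComplex) (z₁ : ℂ) = 0 :=
    analyticOrderAt_eq_zero.mpr (Or.inr (by simpa [ofComplex_apply] using hz₁))
  simp [h0]

/-- Two continuous functions on `ℍ` which agree after multiplication by a holomorphic `b ≢ 0`
agree. -/
theorem eq_of_mul_eq {b g₁ g₂ : ℍ → ℂ} (hb : MDifferentiable 𝓘(ℂ) 𝓘(ℂ) b)
    (hb0 : ∃ z, b z ≠ 0) (hg₁ : MDifferentiable 𝓘(ℂ) 𝓘(ℂ) g₁)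
    (hg₂ : MDifferentiable 𝓘(ℂ) 𝓘(ℂ) g₂) (h : ∀ z, g₁ z * b z = g₂ z * b z) : g₁ = g₂ := by
  funext z
  by_contra hne
  -- `d := g₁ - g₂` is holomorphic with `d * b = 0`, so the orders add up to `⊤`
  have hd : MDifferentiable 𝓘(ℂ) 𝓘(ℂ) (fun w => g₁ w - g₂ w) := hg₁.sub hg₂
  have hmul : ∀ w, (fun w => g₁ w - g₂ w) w * b w = (fun _ : ℍ => (0 : ℂ)) w := by
    intro w
    simp only
    rw [sub_mul, h w, sub_self]
  have hsum := analyticOrderAt_add_of_mul_eq hb hd hmul z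
  have htop : analyticOrderAt ((fun _ : ℍ => (0 : ℂ)) ∘ ofComplex) (z : ℂ) = ⊤ := by
    rw [analyticOrderAt_eq_top]
    exact Eventually.of_forall fun _ => rfl
  rw [htop] at hsum
  have hbfin := analyticOrderAt_ne_top hb hb0 z
  have hdfin : analyticOrderAt ((fun w => g₁ w - g₂ w) ∘ ofComplex) (z : ℂ) ≠ ⊤ := by
    refine analyticOrderAt_ne_top hd ⟨z, ?_⟩ z
    exact sub_ne_zero.mpr hne
  rcases WithTop.add_eq_top.mp hsum with h1 | h1
  · exact hdfin h1
  · exact hbfin h1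

/-- **Holomorphic quotient by orders**, `ℕ`-valued orders (`analyticOrderNatAt`). -/
theorem exists_mdifferentiable_mul_eq_of_orderNat {a b : ℍ → ℂ}
    (ha : MDifferentiable 𝓘(ℂ) 𝓘(ℂ) a) (hb : MDifferentiable 𝓘(ℂ) 𝓘(ℂ) b)
    (hb0 : ∃ z, b z ≠ 0)
    (hord : ∀ z : ℍ, analyticOrderNatAt (b ∘ ofComplex) (z : ℂ) ≤
      analyticOrderNatAt (a ∘ ofComplex) (z : ℂ)) :
    ∃ g : ℍ → ℂ, MDifferentiable 𝓘(ℂ) 𝓘(ℂ) g ∧ ∀ z, g z * b z = a z := by
  by_cases ha0 : ∃ z, a z ≠ 0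
  · refine exists_mdifferentiable_mul_eq_of_order ha hb hb0 fun z => ?_
    rw [← Nat.cast_analyticOrderNatAt (analyticOrderAt_ne_top hb hb0 z),
      ← Nat.cast_analyticOrderNatAt (analyticOrderAt_ne_top ha ha0 z)]
    exact_mod_cast hord z
  · simp only [not_exists, not_not] at ha0
    refine ⟨fun _ => 0, mdifferentiable_const, fun z => ?_⟩
    rw [ha0 z, zero_mul]

/-- `ℤ`-valued form: the difference of the orders of `a` and `b` is the order of the quotient. -/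
theorem analyticOrderNatAt_sub_of_mul_eq {a b g : ℍ → ℂ}
    (hb : MDifferentiable 𝓘(ℂ) 𝓘(ℂ) b) (hg : MDifferentiable 𝓘(ℂ) 𝓘(ℂ) g)
    (ha0 : ∃ z, a z ≠ 0) (h : ∀ z, g z * b z = a z) (z : ℍ) :
    (analyticOrderNatAt (a ∘ ofComplex) (z : ℂ) : ℤ) -
      (analyticOrderNatAt (b ∘ ofComplex) (z : ℂ) : ℤ) =
      (analyticOrderNatAt (g ∘ ofComplex) (z : ℂ) : ℤ) := by
  obtain ⟨z₀, hz₀⟩ := ha0
  have hb0 : ∃ z, b z ≠ 0 := ⟨z₀, fun h0 => hz₀ (by rw [← h z₀, h0, mul_zero])⟩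
  have hg0 : ∃ z, g z ≠ 0 := ⟨z₀, fun h0 => hz₀ (by rw [← h z₀, h0, zero_mul])⟩
  have hsum := analyticOrderAt_add_of_mul_eq hb hg h z
  have hbf := analyticOrderAt_ne_top hb hb0 z
  have hgf := analyticOrderAt_ne_top hg hg0 z
  have haf : analyticOrderAt (a ∘ ofComplex) (z : ℂ) ≠ ⊤ := by
    rw [← hsum]
    intro htop
    rcases WithTop.add_eq_top.mp htop with h1 | h1
    · exact hgf h1
    · exact hbf h1
  rw [← Nat.cast_analyticOrderNatAt hbf, ← Nat.cast_analyticOrderNatAt hgf,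
    ← Nat.cast_analyticOrderNatAt haf] at hsum
  have hnat : analyticOrderNatAt (g ∘ ofComplex) (z : ℂ) +
      analyticOrderNatAt (b ∘ ofComplex) (z : ℂ) =
      analyticOrderNatAt (a ∘ ofComplex) (z : ℂ) := by exact_mod_cast hsum
  omega

end Fermat.Agent.S20.HolQuot
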