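/-
S20, work package M-B3, part 2 (helper17): `θ = E₄² E₆ / Δ` at the cusps, and the packaged
criterion "orders at points and at cusps ⇒ cusp form of weight 2".

* `CuspQuot.tendsto_levelOne`: a level one modular form tends to its constant coefficient.
* `CuspQuot.ordInf_E4sqE6`, `CuspQuot.ordInf_mul_discriminant`, `CuspQuot.ordInf_mul_E4sqE6`.
* `CuspQuot.isZeroAtImInfty_theta_quotient`: the cusp condition of
  `M4.exists_cuspForm_of_orders` from the inequality of orders at `i∞`.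
* `CuspQuot.meroAtInf_translate`: translates of `Γ₀(N)`-invariant functions of moderate growth.
* `CuspQuot.exists_cuspForm_of_ordInf`: the packaged criterion.
-/
import Fermat.Agent.S20.H17_CuspQuot
import Fermat.Agent.S20.H14_Theta

set_option autoImplicit false

namespace Fermat.Agent.S20.CuspQuot

open UpperHalfPlane Filter Topology Function ModularForm EisensteinSeries CongruenceSubgroup
open scoped MatrixGroups ModularForm Manifold
open Fermat.Agent.S24.Cusp Fermat.Agent.S24.G1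

/-- A level one modular form tends to its constant `q`-coefficient at `i∞`. -/
theorem tendsto_levelOne {k : ℤ} (F : ModularForm 𝒮ℒ k) :
    Tendsto (F : ℍ → ℂ) atImInfty (𝓝 ((qExpansion 1 F).coeff 0)) := by
  have hper := SlashInvariantFormClass.periodic_comp_ofComplex F one_mem_strictPeriods_SL
  have han := ModularFormClass.analyticAt_cuspFunction_zero F one_pos one_mem_strictPeriods_SL
  rw [qExpansion_coeff_zero one_pos han hper]
  have h2 := han.continuousAt.tendsto.comp (qParam_tendsto_atImInfty one_pos)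
  rw [cuspFunction_apply_zero one_pos han hper] at h2
  refine h2.congr fun τ => ?_
  simp only [Function.comp_apply]
  exact eq_cuspFunction τ one_ne_zero hper

theorem tendsto_E4 : Tendsto (fun z : ℍ => E₄ z) atImInfty (𝓝 1) := by
  have h := tendsto_levelOne E₄
  have h1 := E_qExpansion_coeff_zero (by norm_num : 3 ≤ 4) ⟨2, rfl⟩
  rw [show E (by norm_num : 3 ≤ 4) = E₄ from rfl] at h1
  rw [h1] at h
  exact h

theorem tendsto_E6 : Tendsto (fun z : ℍ => E₆ z) atImInfty (𝓝 1) := by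
  have h := tendsto_levelOne E₆
  have h1 := E_qExpansion_coeff_zero (by norm_num : 3 ≤ 6) ⟨3, rfl⟩
  rw [show E (by norm_num : 3 ≤ 6) = E₆ from rfl] at h1
  rw [h1] at h
  exact h

/-- `E₄² E₆` tends to `1` at `i∞`. -/
theorem tendsto_E4sqE6 : Tendsto (fun z : ℍ => E₄ z ^ 2 * E₆ z) atImInfty (𝓝 1) := by
  have := (tendsto_E4.pow 2).mul tendsto_E6
  simpa using this

theorem E4sqE6_ne_zero_fun : (fun z : ℍ => E₄ z ^ 2 * E₆ z) ≠ 0 := by
  intro h0
  have h2 : Tendsto (fun z : ℍ => E₄ z ^ 2 * E₆ z) atImInfty (𝓝 0) := by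
    rw [h0]
    exact tendsto_const_nhds
  exact one_ne_zero (tendsto_nhds_unique tendsto_E4sqE6 h2)

theorem meroAtInf_E4sqE6 {N : ℕ} (hN : N ≠ 0) :
    MeroAtInf (N : ℝ) (fun z : ℍ => E₄ z ^ 2 * E₆ z) := by
  have h4 : MeroAtInf (N : ℝ) (E₄ : ℍ → ℂ) := by
    have := (meroAtInf_levelOne E₄).period_mul one_ne_zero N hN
    simpa using this
  have h6 : MeroAtInf (N : ℝ) (E₆ : ℍ → ℂ) := by
    have := (meroAtInf_levelOne E₆).period_mul one_ne_zero N hN
    simpa using this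
  exact (h4.pow 2).mul h6

theorem ordInf_E4sqE6 {N : ℕ} (hN : N ≠ 0) :
    ordInf (N : ℝ) (fun z : ℍ => E₄ z ^ 2 * E₆ z) = 0 :=
  (meroAtInf_E4sqE6 hN).ordInf_eq_zero_of_tendsto
    (Nat.cast_pos.mpr (Nat.pos_of_ne_zero hN)) one_ne_zero tendsto_E4sqE6

variable {N : ℕ} {G a b : ℍ → ℂ}

theorem meroAtInf_mul_discriminant (hN : N ≠ 0) (hb : MeroAtInf (N : ℝ) b) :
    MeroAtInf (N : ℝ) (fun z => b z * ModularForm.discriminant z) :=
  hb.mul (meroAtInf_discriminant_nat hN)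

theorem ordInf_mul_discriminant (hN : N ≠ 0) (hb : MeroAtInf (N : ℝ) b) (hb0 : b ≠ 0) :
    ordInf (N : ℝ) (fun z => b z * ModularForm.discriminant z) = ordInf (N : ℝ) b + N := by
  have h := MeroAtInf.ordInf_mul hb (meroAtInf_discriminant_nat hN)
    (Nat.cast_pos.mpr (Nat.pos_of_ne_zero hN)) hb0 discriminant_ne_zero_fun
  rw [ordInf_discriminant_nat hN] at h
  exact h

theorem mul_discriminant_ne_zero (hb0 : b ≠ 0) :
    (fun z => b z * ModularForm.discriminant z) ≠ 0 := by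
  intro h
  apply hb0
  funext w
  have := congrFun h w
  simpa [discriminant_ne_zero w] using this

theorem meroAtInf_mul_E4sqE6 (hN : N ≠ 0) (ha : MeroAtInf (N : ℝ) a) :
    MeroAtInf (N : ℝ) (fun z => a z * E₄ z ^ 2 * E₆ z) := by
  have := ha.mul (meroAtInf_E4sqE6 hN)
  refine ⟨?_, ?_, ?_⟩
  · convert this.periodic using 2
    funext z
    simp [mul_assoc]
  · convert this.holo using 1
    funext z
    simp [mul_assoc]
  · convert this.mero using 2
    funext z
    simp [mul_assoc]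

theorem ordInf_mul_E4sqE6 (hN : N ≠ 0) (ha : MeroAtInf (N : ℝ) a) (ha0 : a ≠ 0) :
    ordInf (N : ℝ) (fun z => a z * E₄ z ^ 2 * E₆ z) = ordInf (N : ℝ) a := by
  have h := MeroAtInf.ordInf_mul ha (meroAtInf_E4sqE6 hN)
    (Nat.cast_pos.mpr (Nat.pos_of_ne_zero hN)) ha0 E4sqE6_ne_zero_fun
  rw [ordInf_E4sqE6 hN, add_zero] at h
  rw [← h]
  congr 1
  funext z
  simp [mul_assoc]

theorem mul_E4sqE6_ne_zero (ha : MDiff a) (ha0 : a ≠ 0) :
    (fun z => a z * E₄ z ^ 2 * E₆ z) ≠ 0 := by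
  intro h
  have hE : MDiff (fun z : ℍ => E₄ z ^ 2 * E₆ z) :=
    ((ModularFormClass.holo E₄).pow 2).mul (ModularFormClass.holo E₆)
  have h1 : a * (fun z : ℍ => E₄ z ^ 2 * E₆ z) = 0 := by
    rw [← h]
    funext z
    simp [mul_assoc]
  rcases (UpperHalfPlane.mul_eq_zero_iff ha hE).mp h1 with h2 | h2
  · exact ha0 h2
  · exact E4sqE6_ne_zero_fun h2

/-- **M-B3 for `θ = E₄² E₆ / Δ`**: if `G * (b Δ) = a E₄² E₆` with `G` holomorphic, `a`, `b`
meromorphic at `i∞` (in `q^(1/N)`), `b ≠ 0`, and `ordInf b + N < ordInf a`, then `G` vanishes at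
`i∞`. -/
theorem isZeroAtImInfty_theta_quotient (hN : N ≠ 0) (hG : MDiff G)
    (ha : MeroAtInf (N : ℝ) a) (hb : MeroAtInf (N : ℝ) b) (hb0 : b ≠ 0)
    (hmul : ∀ z, G z * (b z * ModularForm.discriminant z) = a z * E₄ z ^ 2 * E₆ z)
    (hord : a ≠ 0 → ordInf (N : ℝ) b + N < ordInf (N : ℝ) a) : IsZeroAtImInfty G := by
  have hN' : (0 : ℝ) < N := Nat.cast_pos.mpr (Nat.pos_of_ne_zero hN)
  refine isZeroAtImInfty_of_ordInf_lt hN' hG (meroAtInf_mul_E4sqE6 hN ha)
    (meroAtInf_mul_discriminant hN hb) (mul_discriminant_ne_zero hb0) hmul ?_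
  intro hne
  have ha0 : a ≠ 0 := by
    rintro rfl
    apply hne
    funext z
    simp
  rw [ordInf_mul_discriminant hN hb hb0, ordInf_mul_E4sqE6 hN ha ha0]
  exact hord ha0

/-- The order at `i∞` of the `θ`-quotient. -/
theorem ordInf_theta_quotient (hN : N ≠ 0) (hG : MDiff G)
    (ha : MeroAtInf (N : ℝ) a) (hb : MeroAtInf (N : ℝ) b) (ha0 : a ≠ 0) (hb0 : b ≠ 0)
    (hmul : ∀ z, G z * (b z * ModularForm.discriminant z) = a z * E₄ z ^ 2 * E₆ z) :
    ordInf (N : ℝ) G = ordInf (N : ℝ) a - ordInf (N : ℝ) b - N := by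
  have hN' : (0 : ℝ) < N := Nat.cast_pos.mpr (Nat.pos_of_ne_zero hN)
  have h := ordInf_of_mul_eq hN' hG (meroAtInf_mul_E4sqE6 hN ha)
    (meroAtInf_mul_discriminant hN hb) (mul_E4sqE6_ne_zero ha.holo ha0) hmul
  rw [ordInf_mul_discriminant hN hb hb0, ordInf_mul_E4sqE6 hN ha ha0] at h
  omega

/-- Converse of `isZeroAtImInfty_theta_quotient`. -/
theorem ordInf_lt_of_isZeroAtImInfty_theta_quotient (hN : N ≠ 0) (hG : MDiff G)
    (ha : MeroAtInf (N : ℝ) a) (hb : MeroAtInf (N : ℝ) b) (ha0 : a ≠ 0) (hb0 : b ≠ 0)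
    (hmul : ∀ z, G z * (b z * ModularForm.discriminant z) = a z * E₄ z ^ 2 * E₆ z)
    (hzero : IsZeroAtImInfty G) : ordInf (N : ℝ) b + N < ordInf (N : ℝ) a := by
  have hN' : (0 : ℝ) < N := Nat.cast_pos.mpr (Nat.pos_of_ne_zero hN)
  have hGm := meroAtInf_of_mul_eq hN' hG (meroAtInf_mul_E4sqE6 hN ha)
    (meroAtInf_mul_discriminant hN hb) (mul_discriminant_ne_zero hb0) hmul
  have hG0 : G ≠ 0 := ne_zero_of_mul_eq (mul_E4sqE6_ne_zero ha.holo ha0) hmul
  have h1 := (hGm.ordInf_pos_iff hN' hG0).mpr hzero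
  rw [ordInf_theta_quotient hN hG ha hb ha0 hb0 hmul] at h1
  omega

/-! ### Translates of invariant functions of moderate growth -/

/-- The translate of a holomorphic function by an element of `SL(2, ℤ)` is holomorphic. -/
theorem mdiff_translate (ha : MDiff a) (γ : SL(2, ℤ)) : MDiff (fun z : ℍ => a (γ • z)) := by
  have h := ha.slash 0 (γ : GL (Fin 2) ℝ)
  have h2 : (fun z : ℍ => a (γ • z)) = a ∣[(0 : ℤ)] γ := by
    funext z
    rw [SL_slash_apply]
    simp
  rw [h2, SL_slash]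
  exact h

/-- Translates of `Γ₀(N)`-invariant holomorphic functions of moderate growth are meromorphic
at `i∞` in the parameter `q^(1/N)`. -/
theorem meroAtInf_translate (hN : N ≠ 0) (ha : MDiff a)
    (hinv : ∀ γ ∈ Gamma0 N, ∀ z : ℍ, a (γ • z) = a z) (γ : SL(2, ℤ))
    (hgrowth : ∃ m : ℕ, IsBoundedAtImInfty
      (fun z : ℍ => a (γ • z) * ModularForm.discriminant z ^ m)) :
    MeroAtInf (N : ℝ) (fun z : ℍ => a (γ • z)) := by
  obtain ⟨m, hm⟩ := hgrowth
  exact MeroAtInf.of_mul_discriminant_pow hN (periodic_comp_smul_nat hinv γ)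
    (mdiff_translate ha γ) m hm

/-- **Packaged criterion** (function level M4): let `a`, `b` be holomorphic `Γ₀(N)`-invariant
functions on `ℍ`, all of whose `SL(2, ℤ)`-translates have moderate growth, `b ≠ 0`. If
`ord_z b + 1 ≤ ord_z a + e_j(z)` at all points (`e_j(z)` the local degree of `j`) and
`ordInf N (b ∘ γ) + N < ordInf N (a ∘ γ)` at all cusps, then `(a / b) θ` is a cusp form of
weight `2` on `Γ₀(N)`. -/
theorem exists_cuspForm_of_ordInf (N : ℕ) [NeZero N] {a b : ℍ → ℂ}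
    (ha : MDiff a) (hb : MDiff b) (hb0 : b ≠ 0)
    (hainv : ∀ γ ∈ Gamma0 N, ∀ z : ℍ, a (γ • z) = a z)
    (hbinv : ∀ γ ∈ Gamma0 N, ∀ z : ℍ, b (γ • z) = b z)
    (hagrowth : ∀ γ : SL(2, ℤ), ∃ m : ℕ, IsBoundedAtImInfty
      (fun z : ℍ => a (γ • z) * ModularForm.discriminant z ^ m))
    (hbgrowth : ∀ γ : SL(2, ℤ), ∃ m : ℕ, IsBoundedAtImInfty
      (fun z : ℍ => b (γ • z) * ModularForm.discriminant z ^ m))
    (hord : ∀ z : ℍ, analyticOrderAt (b ∘ ofComplex) (z : ℂ) + 1 ≤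
      analyticOrderAt (a ∘ ofComplex) (z : ℂ) + analyticOrderAt (fun w => jC w - jC z) (z : ℂ))
    (hcusp : a ≠ 0 → ∀ γ : SL(2, ℤ),
      ordInf (N : ℝ) (fun z : ℍ => b (γ • z)) + N < ordInf (N : ℝ) (fun z : ℍ => a (γ • z))) :
    ∃ f : CuspForm (Gamma0 N) 2,
      ∀ z, f z * (b z * ModularForm.discriminant z) = a z * E₄ z ^ 2 * E₆ z := by
  have hN : N ≠ 0 := NeZero.ne N
  refine M4.exists_cuspForm_of_orders N ha hb hb0 ?_ hord ?_
  · intro γ hγ z
    rw [hainv γ hγ z, hbinv γ hγ z]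
  · intro γ G hG hmul
    have hbγ0 : (fun z : ℍ => b (γ • z)) ≠ 0 := by
      intro h0
      apply hb0
      funext z
      have := congrFun h0 (γ⁻¹ • z)
      simpa using this
    refine isZeroAtImInfty_theta_quotient hN hG
      (meroAtInf_translate hN ha hainv γ (hagrowth γ))
      (meroAtInf_translate hN hb hbinv γ (hbgrowth γ)) hbγ0 hmul ?_
    intro haγ0
    refine hcusp ?_ γ
    rintro rfl
    exact haγ0 rfl

end Fermat.Agent.S20.CuspQuot
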