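import Fermat.Agent.S20.Alg_Defs
import Fermat.Agent.S24.H2_FunField

/-!
# S20, BRIDGE (helper18): the dictionary primes <-> places over `K[X]`  (finite places)

Setting of `Alg_Defs`: `F` a finite extension of `RatFunc K`, `K` algebraically closed of
characteristic zero, `x := xF K F`, `A1 := integralClosure K[X] F`.

* [DICT-FIN] (i)   instances for `A1` (Dedekind, fraction field `F`, finite over `K[X]`, towers)
* [DICT-FIN] (ii)  `x ∈ O_v ↔ ∃ P : HeightOneSpectrum A1, v = placeOfPrime K P`
* [DICT-FIN] (iii) `e_P = ord_v (x - c)` for `P` over `(X - c)`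
* [DICT-FIN] (iv)  the maximal ideals of `K[X]` are the `(X - c)`
* [Br1a] `isIntegral_poly_iff_places`
* [Br5a] `rFin_eq_card_places`, [Br5c] `rFin_eq_of_unramified`
-/

set_option linter.unusedSectionVars false
set_option linter.style.haveILetI false

namespace Fermat.Agent.S20.DictFin

open Polynomial IsDedekindDomain AlgebraicCurve Fermat.Agent.S24.Alg Fermat.Agent.S20.Alg

noncomputable section

variable (K : Type*) [Field K] [DecidableEq (RatFunc K)]
  (F : Type*) [Field F] [Algebra (RatFunc K) F] [Algebra K[X] F]
  [IsScalarTower K[X] (RatFunc K) F] [Algebra K F] [IsScalarTower K (RatFunc K) F]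

/-! ### (i) instances -/

instance isScalarTower_poly : IsScalarTower K K[X] F :=
  IsScalarTower.of_algebraMap_eq (fun c => algebraMap_K_eq_poly K F c)

example : Algebra K (integralClosure K[X] F) := inferInstance
example : IsScalarTower K (integralClosure K[X] F) F := inferInstance
example : IsScalarTower K K[X] (integralClosure K[X] F) := inferInstance

variable [FiniteDimensional (RatFunc K) F] [CharZero K]

instance charZero_ratFunc : CharZero (RatFunc K) :=
  charZero_of_injective_algebraMap (algebraMap K (RatFunc K)).injective

example : Algebra.IsSeparable (RatFunc K) F := inferInstance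

instance isDedekindDomain_A1 : IsDedekindDomain (integralClosure K[X] F) :=
  integralClosure.isDedekindDomain K[X] (RatFunc K) F

instance isFractionRing_A1 : IsFractionRing (integralClosure K[X] F) F :=
  integralClosure.isFractionRing_of_finite_extension (RatFunc K) F

instance finite_A1 : Module.Finite K[X] (integralClosure K[X] F) :=
  IsIntegralClosure.finite K[X] (RatFunc K) F (integralClosure K[X] F)

theorem algebraMap_poly_injective : Function.Injective (algebraMap K[X] F) := by
  rw [IsScalarTower.algebraMap_eq K[X] (RatFunc K) F]
  exact (algebraMap (RatFunc K) F).injective.comp (IsFractionRing.injective K[X] (RatFunc K))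

instance faithfulSMul_A1 : FaithfulSMul K[X] (integralClosure K[X] F) := by
  rw [faithfulSMul_iff_algebraMap_injective]
  intro a b hab
  apply algebraMap_poly_injective K F
  have := congrArg (algebraMap (integralClosure K[X] F) F) hab
  rwa [← IsScalarTower.algebraMap_apply, ← IsScalarTower.algebraMap_apply] at this

instance isTorsionFree_A1 : Module.IsTorsionFree K[X] (integralClosure K[X] F) :=
  Module.isTorsionFree_iff_faithfulSMul.mpr inferInstance

/-! ### the structure map of `K[X]` is evaluation at `x` -/

theorem algebraMap_poly_X : algebraMap K[X] F X = xF K F := by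
  rw [IsScalarTower.algebraMap_apply K[X] (RatFunc K) F, RatFunc.algebraMap_X]

theorem algebraMap_poly_eq_aeval (g : K[X]) : algebraMap K[X] F g = aeval (xF K F) g := by
  have h : (IsScalarTower.toAlgHom K K[X] F) = aeval (xF K F) := by
    apply Polynomial.algHom_ext
    rw [IsScalarTower.coe_toAlgHom', algebraMap_poly_X, aeval_X]
  exact congrArg (fun φ : K[X] →ₐ[K] F => φ g) h

theorem algebraMap_X_sub_C (c : K) :
    algebraMap K[X] F (X - C c) = xF K F - algebraMap K F c := by
  rw [algebraMap_poly_eq_aeval, map_sub, aeval_X, aeval_C]

theorem algebraMap_A1_X_sub_C (c : K) :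
    algebraMap (integralClosure K[X] F) F (algebraMap K[X] (integralClosure K[X] F) (X - C c)) =
      xF K F - algebraMap K F c := by
  rw [← IsScalarTower.algebraMap_apply, algebraMap_X_sub_C]

theorem algebraMap_poly_mem (v : Place K F) (hv : xF K F ∈ v.toValuationSubring) (g : K[X]) :
    algebraMap K[X] F g ∈ v.toValuationSubring := by
  rw [algebraMap_poly_eq_aeval, aeval_def, eval₂_eq_sum_range]
  exact sum_mem fun i _ => mul_mem (v.algebraMap_mem' _) (pow_mem hv _)

/-- A place whose valuation ring contains `x` contains all elements integral over `K[X]`. -/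
theorem mem_of_isIntegral (v : Place K F) (hv : xF K F ∈ v.toValuationSubring) (u : F)
    (hu : IsIntegral K[X] u) : u ∈ v.toValuationSubring := by
  letI : Algebra K[X] v.toValuationSubring :=
    ((algebraMap K[X] F).codRestrict v.toValuationSubring.toSubring
      (algebraMap_poly_mem K F v hv)).toAlgebra
  haveI : IsScalarTower K[X] v.toValuationSubring F :=
    IsScalarTower.of_algebraMap_eq (fun _ => rfl)
  have hu' : IsIntegral v.toValuationSubring u := hu.tower_top
  obtain ⟨y, hy⟩ := IsIntegrallyClosed.isIntegral_iff.1 hu'
  rw [← hy]
  exact y.2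

/-! ### (ii) places containing `x` are the places of the primes of `A1` -/

/-- [DICT-FIN] (ii) -/
theorem mem_iff_exists_prime (v : Place K F) :
    xF K F ∈ v.toValuationSubring ↔
      ∃ P : HeightOneSpectrum (integralClosure K[X] F), v = placeOfPrime K P := by
  constructor
  · intro hv
    exact exists_prime_of_le (B := integralClosure K[X] F) v
      (fun b => mem_of_isIntegral K F v hv _ b.2)
  · rintro ⟨P, rfl⟩
    rw [mem_placeOfPrime_iff]
    have hx : IsIntegral K[X] (xF K F) := by
      rw [← algebraMap_poly_X]
      exact isIntegral_algebraMap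
    exact P.valuation_le_one (⟨xF K F, hx⟩ : integralClosure K[X] F)

/-- [Br1a] integrality over `K[X]` in terms of places. -/
theorem isIntegral_poly_iff_places (u : F) :
    IsIntegral K[X] u ↔
      ∀ v : Place K F, xF K F ∈ v.toValuationSubring → u ∈ v.toValuationSubring := by
  constructor
  · intro hu v hv
    exact mem_of_isIntegral K F v hv u hu
  · intro h
    have h1 : ∀ P : HeightOneSpectrum (integralClosure K[X] F), P.valuation F u ≤ 1 := by
      intro P
      rw [← mem_placeOfPrime_iff (K := K)]
      exact h _ ((mem_iff_exists_prime K F _).mpr ⟨P, rfl⟩)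
    obtain ⟨b, hb⟩ := HeightOneSpectrum.mem_integers_of_valuation_le_one F u h1
    rw [← hb]
    exact b.2

end

end Fermat.Agent.S20.DictFin
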