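import Fermat.Agent.S20.H18_DictFin
import Fermat.Agent.S20.H3_DualQuot

/-!
# S20, BRIDGE (helper18): dictionary primes <-> places over `K[X]`, part 2

* [DICT-FIN] (iii) `e_P = ord_v (x - c)` for `P` over `(X - c)`
* [DICT-FIN] (iv)  the maximal ideals of `K[X]` are the `(X - c)`; residue fields are `K`
* [Br5a] `rFin_eq_card_places`, [Br5c] `rFin_eq_of_unramified`
-/

set_option linter.unusedSectionVars false
set_option linter.style.haveILetI false

namespace Fermat.Agent.S20.DictFin

open Polynomial IsDedekindDomain AlgebraicCurve Fermat.Agent.S24.Alg Fermat.Agent.S20.Alg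

noncomputable section

variable (K : Type*) [Field K] [DecidableEq (RatFunc K)]
  (F : Type*) [Field F] [Algebra (RatFunc K) F] [Algebra K[X] F]
  [IsScalarTower K[X] (RatFunc K) F] [Algebra K F] [IsScalarTower K (RatFunc K) F]
  [FiniteDimensional (RatFunc K) F] [CharZero K]

/-! ### (iii) ramification index = order of `x - c` -/

/-- A height-one prime of `A1` over `(X - c)` as an element of `primesOver`. -/
def toPrimesOver (c : K) (P : HeightOneSpectrum (integralClosure K[X] F))
    (hP : P.asIdeal.LiesOver (Ideal.span {X - C c} : Ideal K[X])) :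
    (idealAt c).primesOver (integralClosure K[X] F) :=
  ⟨P.asIdeal, P.isPrime, hP⟩

theorem primeOver_toPrimesOver (c : K) (P : HeightOneSpectrum (integralClosure K[X] F))
    (hP : P.asIdeal.LiesOver (Ideal.span {X - C c} : Ideal K[X])) :
    primeOver c (toPrimesOver K F c P hP) = P :=
  HeightOneSpectrum.ext rfl

/-- The order of `x - c` at the place of a prime over `(X - c)` is the ramification index. -/
theorem ord_primeOver (c : K) (q : (idealAt c).primesOver (integralClosure K[X] F)) :
    (placeOfPrime K (primeOver c q) (F := F)).ord (xF K F - algebraMap K F c) =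
      (q.1.ramificationIdx K[X] : ℤ) := by
  rw [← algebraMap_A1_X_sub_C]
  exact ord_eq_ramificationIdx c q

/-- [DICT-FIN] (iii) -/
theorem ramificationIdx_eq_ord (c : K) (P : HeightOneSpectrum (integralClosure K[X] F))
    (hP : P.asIdeal.LiesOver (Ideal.span {X - C c} : Ideal K[X])) :
    (P.asIdeal.ramificationIdx K[X] : ℤ) =
      (placeOfPrime K P (F := F)).ord (xF K F - algebraMap K F c) := by
  have := ord_primeOver K F c (toPrimesOver K F c P hP)
  rw [primeOver_toPrimesOver] at this
  exact this.symm

/-- `x - c` has positive order at the place of `P` iff `P` lies over `(X - c)`. -/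
theorem ord_pos_iff_liesOver (c : K) (P : HeightOneSpectrum (integralClosure K[X] F)) :
    0 < (placeOfPrime K P (F := F)).ord (xF K F - algebraMap K F c) ↔
      P.asIdeal.LiesOver (Ideal.span {X - C c} : Ideal K[X]) := by
  have hXB : algebraMap K[X] (integralClosure K[X] F) (X - C c) ≠ 0 :=
    algebraMap_X_sub_C_ne_zero (B := integralClosure K[X] F) c
  rw [← algebraMap_A1_X_sub_C, ord_placeOfPrime_pos_iff _ hXB]
  constructor
  · intro hP
    have hle : idealAt c ≤ P.asIdeal.under K[X] := by
      rw [idealAt, Ideal.span_le, Set.singleton_subset_iff]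
      exact hP
    constructor
    haveI : (P.asIdeal.under K[X]).IsPrime := Ideal.IsPrime.under K[X] P.asIdeal
    exact (idealAt_isMaximal c).eq_of_le (Ideal.IsPrime.ne_top inferInstance) hle
  · intro hP
    have : X - C c ∈ P.asIdeal.under K[X] := by
      rw [← P.asIdeal.over_def (Ideal.span {X - C c} : Ideal K[X])]
      exact Ideal.mem_span_singleton_self _
    exact this

/-! ### (iv) maximal ideals of `K[X]`, residue fields -/

omit [DecidableEq (RatFunc K)] [CharZero K] in
/-- Over an algebraically closed field the maximal ideals of `K[X]` are the `(X - c)`. -/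
theorem exists_eq_span_X_sub_C [IsAlgClosed K] (p : Ideal K[X]) (hp : p.IsMaximal) :
    ∃ c : K, p = Ideal.span {X - C c} := by
  obtain ⟨f, rfl⟩ : ∃ f : K[X], p = Ideal.span {f} :=
    ⟨_, (Ideal.span_singleton_generator p).symm⟩
  have hpbot := Ring.ne_bot_of_isMaximal_of_not_isField hp (Polynomial.not_isField K)
  have hf0 : f ≠ 0 := by
    rintro rfl
    apply hpbot
    simp
  have hfu : ¬ IsUnit f := fun hu =>
    hp.ne_top (Ideal.span_singleton_eq_top.mpr hu)
  have hdeg : f.degree ≠ 0 := fun h0 =>
    hfu (Polynomial.isUnit_iff_degree_eq_zero.mpr h0)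
  obtain ⟨c, hc⟩ := IsAlgClosed.exists_root f hdeg
  refine ⟨c, hp.eq_of_le ?_ ?_⟩
  · rw [Ne, Ideal.span_singleton_eq_top]
    exact Polynomial.not_isUnit_X_sub_C c
  · rw [Ideal.span_singleton_le_span_singleton]
    exact Polynomial.dvd_iff_isRoot.mpr hc

/-- Every height-one prime of `A1` lies over some `(X - c)`. -/
theorem exists_liesOver [IsAlgClosed K] (P : HeightOneSpectrum (integralClosure K[X] F)) :
    ∃ c : K, P.asIdeal.LiesOver (Ideal.span {X - C c} : Ideal K[X]) := by
  haveI : P.asIdeal.IsMaximal := P.isMaximal
  have hmax : (P.asIdeal.under K[X]).IsMaximal := Ideal.IsMaximal.under K[X] P.asIdeal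
  obtain ⟨c, hc⟩ := exists_eq_span_X_sub_C K _ hmax
  exact ⟨c, ⟨hc.symm ▸ rfl⟩⟩

omit [DecidableEq (RatFunc K)] [CharZero K] in
/-- The residue fields of `K[X]` are `K`. -/
theorem algebraMap_quotient_surjective [IsAlgClosed K] (p : Ideal K[X]) (hp : p.IsMaximal) :
    Function.Surjective (algebraMap K (K[X] ⧸ p)) := by
  obtain ⟨c, rfl⟩ := exists_eq_span_X_sub_C K p hp
  intro y
  refine ⟨quotientSpanXSubCAlgEquiv c y, ?_⟩
  have := (quotientSpanXSubCAlgEquiv c).symm.commutes (quotientSpanXSubCAlgEquiv c y)
  rw [← this]
  simp

/-- The residue fields of `A1` are `K`. -/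
theorem finrank_quotient_A1 [IsAlgClosed K] (P : HeightOneSpectrum (integralClosure K[X] F)) :
    Module.finrank K ((integralClosure K[X] F) ⧸ P.asIdeal) = 1 := by
  haveI : P.asIdeal.IsMaximal := P.isMaximal
  have := L4c.h3_rank_quot_eq_one_of_integral (K := K) (A0 := K[X])
    (B := integralClosure K[X] F) (algebraMap_quotient_surjective K) P.asIdeal
  exact Module.rank_eq_one_iff_finrank_eq_one.mp this

/-- All places coming from primes of `A1` have degree one. -/
theorem deg_placeOfPrime_eq_one [IsAlgClosed K]
    (P : HeightOneSpectrum (integralClosure K[X] F)) :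
    (placeOfPrime K P (F := F)).deg = 1 := by
  rw [deg_placeOfPrime, finrank_quotient_A1]

/-! ### [Br5a] primes over `(X - c)` <-> places where `x - c` has positive order -/

/-- The place attached to a prime over `(X - c)`. -/
def placeOver (c : K)
    (q : (Ideal.span {X - C c} : Ideal K[X]).primesOver (integralClosure K[X] F)) :
    {v : Place K F // 0 < v.ord (xF K F - algebraMap K F c)} :=
  ⟨placeOfPrime K (primeOver c q), by
    rw [ord_pos_iff_liesOver]
    exact q.2.2⟩

theorem placeOver_injective (c : K) : Function.Injective (placeOver K F c) := by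
  intro q₁ q₂ h12
  have h1 : placeOfPrime K (primeOver c q₁) (F := F) = placeOfPrime K (primeOver c q₂) :=
    congrArg Subtype.val h12
  have := placeOfPrime_injective (K := K) (F := F) h1
  apply Subtype.ext
  exact congrArg HeightOneSpectrum.asIdeal this

theorem placeOver_surjective (c : K) : Function.Surjective (placeOver K F c) := by
  rintro ⟨v, hv⟩
  have hmem : xF K F - algebraMap K F c ∈ v.toValuationSubring := mem_of_ord_pos v hv
  have hx : xF K F ∈ v.toValuationSubring := by
    have := add_mem hmem (v.algebraMap_mem' c)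
    rwa [sub_add_cancel] at this
  obtain ⟨P, rfl⟩ := (mem_iff_exists_prime K F v).mp hx
  have hlo := (ord_pos_iff_liesOver K F c P).mp hv
  refine ⟨toPrimesOver K F c P hlo, ?_⟩
  apply Subtype.ext
  show placeOfPrime K (primeOver c (toPrimesOver K F c P hlo)) = placeOfPrime K P
  rw [primeOver_toPrimesOver]

/-- The bijection between the primes of `A1` over `(X - c)` and the places of `F` at which
`x - c` has positive order. -/
def primesOverEquivPlaces (c : K) :
    (Ideal.span {X - C c} : Ideal K[X]).primesOver (integralClosure K[X] F) ≃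
      {v : Place K F // 0 < v.ord (xF K F - algebraMap K F c)} :=
  Equiv.ofBijective (placeOver K F c) ⟨placeOver_injective K F c, placeOver_surjective K F c⟩

/-- [Br5a] (with `rFin` unfolded). -/
theorem rFin_eq_card_places (c : K) :
    Nat.card ((Ideal.span {X - C c} : Ideal K[X]).primesOver (integralClosure K[X] F)) =
      Nat.card {v : Place K F // 0 < v.ord (xF K F - algebraMap K F c)} :=
  Nat.card_congr (primesOverEquivPlaces K F c)

/-! ### [Br5c] unramified fibres have `n` points -/

/-- The fundamental identity over `(X - c)`: `∑ e_q = n` (residue degrees are one). -/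
theorem sum_ramificationIdx_eq_finrank [IsAlgClosed K] (c : K) :
    ∑ q : (idealAt c).primesOver (integralClosure K[X] F), (q.1.ramificationIdx K[X] : ℤ) =
      (Module.finrank (RatFunc K) F : ℤ) := by
  have key := fundamental_identity (K := K) (B := integralClosure K[X] F) (F := F) c
  rw [← IsFractionRing.finrank_eq K[X] (RatFunc K) (integralClosure K[X] F) F] at key
  rw [← key]
  refine Finset.sum_congr rfl fun q _ => ?_
  rw [deg_placeOfPrime_eq_one, Nat.cast_one, mul_one, ord_eq_ramificationIdx]

/-- [Br5c] (with `rFin` unfolded). -/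
theorem rFin_eq_of_unramified [IsAlgClosed K] (c : K)
    (h : ∀ v : Place K F, 0 < v.ord (xF K F - algebraMap K F c) →
      v.ord (xF K F - algebraMap K F c) = 1) :
    Nat.card ((Ideal.span {X - C c} : Ideal K[X]).primesOver (integralClosure K[X] F)) =
      Module.finrank (RatFunc K) F := by
  have key := sum_ramificationIdx_eq_finrank K F c
  have h1 : ∀ q : (idealAt c).primesOver (integralClosure K[X] F),
      (q.1.ramificationIdx K[X] : ℤ) = 1 := by
    intro q
    rw [← ord_primeOver K F c q]
    exact h _ (placeOver K F c q).2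
  rw [Finset.sum_congr rfl (fun q _ => h1 q), Finset.sum_const, Finset.card_univ,
    nsmul_eq_mul, mul_one] at key
  change Nat.card ((idealAt c).primesOver (integralClosure K[X] F)) = _
  rw [Nat.card_eq_fintype_card]
  exact_mod_cast key

end

end Fermat.Agent.S20.DictFin
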