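import Fermat.Agent.S23.H26_Interp
import Fermat.Agent.S23.H14_PolyJ
import Fermat.Agent.S23.H23_JFun

/-
S20, package [M-A] (helper26): the function field identity for weight 2 cusp forms.

For `f ∈ S₂(Γ₀(N))` there are bivariate polynomials `A`, `B` over `ℂ` with
  `f Δ B(j, j_N) = E₄² E₆ A(j, j_N)`   on the upper half plane,
and `B(j, j_N) = ∏_{q ≠ 1} (j_N - j_N ∘ γ_q)` is not identically zero. Hence
`f / θ ∈ ℂ(j, j_N)` for `θ = E₄² E₆ / Δ` (a constant multiple of `j'`).
-/

set_option autoImplicit false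

open UpperHalfPlane ModularForm SlashInvariantForm Polynomial CongruenceSubgroup
open scoped MatrixGroups ModularForm Manifold Topology

namespace Fermat.Agent.S20.FunField

open Fermat.Agent.S23 Fermat.Agent.S23.R3H26

variable (N : ℕ) [NeZero N]

/-- `j_N` as a slash invariant form of weight `0` on `Γ₀(N)`. -/
noncomputable def jNForm : SlashInvariantForm (Gamma0 N) 0 where
  toFun := R4.jN N
  slash_action_eq' := by
    intro γ hγ
    obtain ⟨γ', hγ', rfl⟩ := hγ
    ext z
    show ((R4.jN N) ∣[(0 : ℤ)] γ') z = _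
    rw [SL_slash_apply]
    simp only [zpow_neg, zpow_zero, inv_one, mul_one]
    exact R4.jN_smul_of_mem_Gamma0 N γ' hγ' z

@[simp] lemma jNForm_apply (z : ℍ) : jNForm N z = R4.jN N z := rfl

lemma coe_jNForm : (jNForm N : ℍ → ℂ) = R4.jN N := rfl

/-- `f Δ` as a slash invariant form of weight `14` on `Γ₀(N)`. -/
noncomputable def mulDisc (f : CuspForm (Gamma0 N) 2) : SlashInvariantForm (Gamma0 N) 14 where
  toFun := fun z => f z * ModularForm.discriminant z
  slash_action_eq' := by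
    intro γ hγ
    obtain ⟨γ', hγ', rfl⟩ := hγ
    show ((f : ℍ → ℂ) * (ModularForm.discriminant : ℍ → ℂ)) ∣[((2 : ℤ) + 12)] γ' = _
    rw [ModularForm.mul_slash_SL2]
    have h1 : (f : ℍ → ℂ) ∣[(2 : ℤ)] γ' = f :=
      SlashInvariantFormClass.slash_action_eq f _ ⟨γ', hγ', rfl⟩
    have h2 : (ModularForm.discriminant : ℍ → ℂ) ∣[(12 : ℤ)] γ' = ModularForm.discriminant := by
      have := SlashInvariantFormClass.slash_action_eq (CuspForm.discriminant)
        (Matrix.SpecialLinearGroup.mapGL ℝ γ') ⟨γ', rfl⟩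
      exact this
    rw [h1, h2]
    rfl

omit [NeZero N] in
@[simp] lemma mulDisc_apply (f : CuspForm (Gamma0 N) 2) (z : ℍ) :
    mulDisc N f z = f z * ModularForm.discriminant z := rfl

omit [NeZero N] in
lemma coe_mulDisc (f : CuspForm (Gamma0 N) 2) :
    (mulDisc N f : ℍ → ℂ) = (f : ℍ → ℂ) * (ModularForm.discriminant : ℍ → ℂ) := rfl

abbrev GG : Subgroup (GL (Fin 2) ℝ) := ((Gamma0 N : Subgroup SL(2, ℤ)) : Subgroup (GL (Fin 2) ℝ))

omit [NeZero N] in
lemma discriminant_slash_SL (γ : SL(2, ℤ)) :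
    (ModularForm.discriminant : ℍ → ℂ) ∣[(12 : ℤ)] γ = ModularForm.discriminant := by
  have := SlashInvariantFormClass.slash_action_eq (CuspForm.discriminant)
    (Matrix.SpecialLinearGroup.mapGL ℝ γ) ⟨γ, rfl⟩
  exact this

omit [NeZero N] in
/-- every coset is represented by an element of `SL(2, ℤ)`. -/
lemma exists_rep (q : Q (GG N)) : ∃ γ : SL(2, ℤ), q = ((toSL γ : 𝒮ℒ) : Q (GG N)) := by
  induction q using Quotient.inductionOn with
  | h r =>
    obtain ⟨r, ⟨γ, rfl⟩⟩ := r
    exact ⟨γ, rfl⟩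

omit [NeZero N] in
lemma quotientFunc_toSL {k : ℤ} (F : SlashInvariantForm (GG N) k) (γ : SL(2, ℤ)) :
    quotientFunc F ((toSL γ : 𝒮ℒ) : Q (GG N)) = (F : ℍ → ℂ) ∣[k] γ⁻¹ := by
  show quotientFunc F ⟦toSL γ⟧ = _
  rw [quotientFunc_mk]
  show (F : ℍ → ℂ) ∣[k] (Matrix.SpecialLinearGroup.mapGL ℝ γ)⁻¹ =
    (F : ℍ → ℂ) ∣[k] (Matrix.SpecialLinearGroup.mapGL ℝ γ⁻¹)
  rw [map_inv]

lemma quotientFunc_jNForm (γ : SL(2, ℤ)) (z : ℍ) :
    quotientFunc (jNForm N) ((toSL γ : 𝒮ℒ) : Q (GG N)) z = R4.jN N (γ⁻¹ • z) := by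
  rw [quotientFunc_toSL, SL_slash_apply]
  simp

lemma isBoundedAtImInfty_quotientFunc_mulDisc (f : CuspForm (Gamma0 N) 2) (q : Q (GG N)) :
    IsBoundedAtImInfty (quotientFunc (mulDisc N f) q) := by
  obtain ⟨γ, rfl⟩ := exists_rep N q
  rw [quotientFunc_toSL, coe_mulDisc]
  have : ((f : ℍ → ℂ) * (ModularForm.discriminant : ℍ → ℂ)) ∣[(14 : ℤ)] γ⁻¹ =
      ((f : ℍ → ℂ) ∣[(2 : ℤ)] γ⁻¹) * (ModularForm.discriminant : ℍ → ℂ) := by
    have h := ModularForm.mul_slash_SL2 2 12 γ⁻¹ (f : ℍ → ℂ) (ModularForm.discriminant : ℍ → ℂ)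
    rw [discriminant_slash_SL] at h
    exact h
  rw [this]
  exact Filter.BoundedAtFilter.mul (ModularFormClass.bdd_at_infty_slash f γ⁻¹)
    ModularForm.discriminant_isZeroAtImInfty.boundedAtFilter

lemma isBoundedAtImInfty_quotientFunc_jNForm (q : Q (GG N)) :
    IsBoundedAtImInfty
      (fun z => quotientFunc (jNForm N) q z * ModularForm.discriminant z ^ N) := by
  obtain ⟨γ, rfl⟩ := exists_rep N q
  have := R4.isBoundedAtImInfty_jN_smul_mul_discriminant_pow N γ⁻¹
  convert this using 2 with z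
  rw [quotientFunc_jNForm]

lemma isBoundedAtImInfty_quotientFunc_one (q : Q (GG N)) :
    IsBoundedAtImInfty (quotientFunc (1 : SlashInvariantForm (GG N) 0) q) := by
  obtain ⟨γ, rfl⟩ := exists_rep N q
  rw [quotientFunc_toSL]
  have : ((1 : SlashInvariantForm (GG N) 0) : ℍ → ℂ) ∣[(0 : ℤ)] γ⁻¹ = fun _ => 1 := by
    ext z
    rw [SL_slash_apply]
    simp
  rw [this]
  exact Filter.const_boundedAtFilter _ _


omit [NeZero N] in
lemma mdifferentiable_mulDisc (f : CuspForm (Gamma0 N) 2) :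
    MDifferentiable 𝓘(ℂ) 𝓘(ℂ) (mulDisc N f : ℍ → ℂ) := by
  rw [coe_mulDisc]
  exact (CuspFormClass.holo f).mul (CuspFormClass.holo CuspForm.discriminant)

lemma mdifferentiable_one' :
    MDifferentiable 𝓘(ℂ) 𝓘(ℂ) ((1 : SlashInvariantForm (GG N) 0) : ℍ → ℂ) := by
  have : ((1 : SlashInvariantForm (GG N) 0) : ℍ → ℂ) = fun _ => 1 := by
    ext z; simp
  rw [this]
  exact mdifferentiable_const

open scoped Classical in
/-- the product of the differences `j_N - j_N ∘ γ` over the nontrivial cosets. -/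
noncomputable def diffProd (z : ℍ) : ℂ :=
  letI := Fintype.ofFinite (Q (GG N))
  ∏ q' ∈ Finset.univ.erase ((1 : 𝒮ℒ) : Q (GG N)), (R4.jN N z - quotientFunc (jNForm N) q' z)

open scoped Classical in
lemma exists_diffProd_ne_zero : ∃ z : ℍ, diffProd N z ≠ 0 := by
  let _ := Fintype.ofFinite (Q (GG N))
  by_contra hcon
  simp only [not_exists, not_not] at hcon
  have h0 : ∏ q' ∈ Finset.univ.erase ((1 : 𝒮ℒ) : Q (GG N)),
      ((R4.jN N : ℍ → ℂ) - quotientFunc (jNForm N) q') = 0 := by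
    funext z
    have := hcon z
    simp only [diffProd] at this
    simp only [Finset.prod_apply, Pi.sub_apply, Pi.zero_apply]
    convert this
  rw [UpperHalfPlane.prod_eq_zero_iff] at h0
  · obtain ⟨q', hq', hzero⟩ := h0
    obtain ⟨γ, rfl⟩ := exists_rep N q'
    have hγ : γ⁻¹ ∉ Gamma0 N := by
      intro hmem
      apply (Finset.mem_erase.mp hq').1
      have hmem' : γ ∈ Gamma0 N := by simpa using inv_mem hmem
      show (⟦toSL γ⟧ : Q (GG N)) = ⟦1⟧
      apply Quotient.sound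
      show QuotientGroup.leftRel _ _ _
      rw [QuotientGroup.leftRel_apply, Subgroup.mem_subgroupOf]
      simp only [mul_one, Subgroup.coe_inv]
      apply inv_mem
      exact ⟨γ, hmem', rfl⟩
    obtain ⟨z, hz⟩ := R4.exists_jN_smul_ne N γ⁻¹ hγ
    apply hz
    have := congrFun hzero z
    simp only [Pi.sub_apply, Pi.zero_apply, quotientFunc_jNForm] at this
    exact (sub_eq_zero.mp this).symm
  · intro q' _
    exact (R4.mdifferentiable_jN N).sub
      (mdifferentiable_quotientFunc (jNForm N) (R4.mdifferentiable_jN N) q')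


lemma interp_slash_all {w : ℤ} (F : SlashInvariantForm (GG N) w)
    (G : SlashInvariantForm (GG N) 0) (x : ℂ) (γ : SL(2, ℤ)) :
    (interp F G x) ∣[w] γ = interp F G x := interp_slash F G x γ

/-- The weight `14` interpolation sums are `E₄² E₆` times polynomials in `j`. -/
lemma exists_poly_interp_mulDisc (f : CuspForm (Gamma0 N) 2) (x : ℂ) :
    ∃ P : ℂ[X], ∀ z, interp (mulDisc N f) (jNForm N) x z =
      E₄ z ^ 2 * E₆ z * P.eval (R1.jInv z) := by
  obtain ⟨P, -, hP⟩ := R1.exists_poly_jInv_fourteen (interp (mulDisc N f) (jNForm N) x)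
    (mdifferentiable_interp _ _ (mdifferentiable_mulDisc N f) (R4.mdifferentiable_jN N) x)
    (fun γ => interp_slash _ _ x γ) (N * (Nat.card (Q (GG N)) - 1))
    (isBoundedAtImInfty_interp_mul _ _ N (isBoundedAtImInfty_quotientFunc_mulDisc N f)
      (isBoundedAtImInfty_quotientFunc_jNForm N) x)
  exact ⟨P, hP⟩

/-- The weight `0` interpolation sums are polynomials in `j`. -/
lemma exists_poly_interp_one (x : ℂ) :
    ∃ P : ℂ[X], ∀ z, interp (1 : SlashInvariantForm (GG N) 0) (jNForm N) x z =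
      P.eval (R1.jInv z) := by
  obtain ⟨P, -, hP⟩ := R1.exists_poly_jInv (interp (1 : SlashInvariantForm (GG N) 0) (jNForm N) x)
    (mdifferentiable_interp _ _ (mdifferentiable_one' N) (R4.mdifferentiable_jN N) x)
    (fun γ => interp_slash _ _ x γ) (N * (Nat.card (Q (GG N)) - 1))
    (isBoundedAtImInfty_interp_mul _ _ N (isBoundedAtImInfty_quotientFunc_one N)
      (isBoundedAtImInfty_quotientFunc_jNForm N) x)
  exact ⟨P, hP⟩

open scoped Classical in
/-- **Function field identity** for weight `2` cusp forms on `Γ₀(N)`: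
`f Δ B(j, j_N) = E₄² E₆ A(j, j_N)` with `B(j, j_N) = ∏_{q ≠ 1} (j_N - j_N ∘ γ_q) ≠ 0`. -/
theorem exists_funField_identity (f : CuspForm (Gamma0 N) 2) :
    ∃ A B : Polynomial (Polynomial ℂ), (∀ z, B.evalEval (R1.jInv z) (R4.jN N z) = diffProd N z) ∧
      ∀ z : ℍ, f z * ModularForm.discriminant z * B.evalEval (R1.jInv z) (R4.jN N z) =
        E₄ z ^ 2 * E₆ z * A.evalEval (R1.jInv z) (R4.jN N z) := by
  let _ := Fintype.ofFinite (Q (GG N))
  choose P hP using fun i : ℕ => exists_poly_interp_mulDisc N f (i : ℂ)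
  choose R hR using fun i : ℕ => exists_poly_interp_one N (i : ℂ)
  set μ := Nat.card (Q (GG N)) with hμ
  let L : ℕ → ℂ[X] := fun i => Lagrange.basis (Finset.range μ) (fun n : ℕ => (n : ℂ)) i
  refine ⟨∑ i ∈ Finset.range μ, (L i).map C * C (P i),
    ∑ i ∈ Finset.range μ, (L i).map C * C (R i), ?_, ?_⟩
  · intro z
    rw [evalEval_finsetSum]
    simp only [evalEval_mul, evalEval_map_C, evalEval_C]
    have h1 := interp_eq_sum_basis (1 : SlashInvariantForm (GG N) 0) (jNForm N) (R4.jN N z) z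
    have h2 := interp_self (1 : SlashInvariantForm (GG N) 0) (jNForm N) z
    simp only [jNForm_apply] at h2
    rw [h2] at h1
    have h3 : ((1 : SlashInvariantForm (GG N) 0) : ℍ → ℂ) z = 1 := by simp
    rw [h3, one_mul] at h1
    have e1 : ∑ i ∈ Finset.range μ, (L i).eval (R4.jN N z) * (R i).eval (R1.jInv z) =
        ∏ q' ∈ Finset.univ.erase ((1 : 𝒮ℒ) : Q (GG N)),
          (R4.jN N z - quotientFunc (jNForm N) q' z) := by
      rw [h1]
      refine Finset.sum_congr rfl fun i _ => ?_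
      rw [hR i z, mul_comm]
    rw [e1]
    rfl
  · intro z
    rw [evalEval_finsetSum, evalEval_finsetSum]
    simp only [evalEval_mul, evalEval_map_C, evalEval_C]
    have h1 := interp_eq_sum_basis (1 : SlashInvariantForm (GG N) 0) (jNForm N) (R4.jN N z) z
    have h2 := interp_self (1 : SlashInvariantForm (GG N) 0) (jNForm N) z
    simp only [jNForm_apply] at h2
    rw [h2] at h1
    have h3 : ((1 : SlashInvariantForm (GG N) 0) : ℍ → ℂ) z = 1 := by simp
    rw [h3, one_mul] at h1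
    have k1 := interp_eq_sum_basis (mulDisc N f) (jNForm N) (R4.jN N z) z
    have k2 := interp_self (mulDisc N f) (jNForm N) z
    simp only [jNForm_apply, mulDisc_apply] at k2
    rw [k2] at k1
    have e1 : ∑ i ∈ Finset.range μ, (L i).eval (R4.jN N z) * (R i).eval (R1.jInv z) =
        ∏ q' ∈ Finset.univ.erase ((1 : 𝒮ℒ) : Q (GG N)),
          (R4.jN N z - quotientFunc (jNForm N) q' z) := by
      rw [h1]
      refine Finset.sum_congr rfl fun i _ => ?_
      rw [hR i z, mul_comm]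
    have e2 : E₄ z ^ 2 * E₆ z * ∑ i ∈ Finset.range μ, (L i).eval (R4.jN N z) * (P i).eval (R1.jInv z) =
        f z * ModularForm.discriminant z * ∏ q' ∈ Finset.univ.erase ((1 : 𝒮ℒ) : Q (GG N)),
          (R4.jN N z - quotientFunc (jNForm N) q' z) := by
      rw [k1, Finset.mul_sum]
      refine Finset.sum_congr rfl fun i _ => ?_
      rw [hP i z]
      ring
    rw [e1, e2]

/-- The denominator in `exists_funField_identity` is not identically zero. -/
theorem exists_funField_identity' (f : CuspForm (Gamma0 N) 2) :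
    ∃ A B : Polynomial (Polynomial ℂ), (∃ z, B.evalEval (R1.jInv z) (R4.jN N z) ≠ 0) ∧
      ∀ z : ℍ, f z * ModularForm.discriminant z * B.evalEval (R1.jInv z) (R4.jN N z) =
        E₄ z ^ 2 * E₆ z * A.evalEval (R1.jInv z) (R4.jN N z) := by
  obtain ⟨A, B, hB, h⟩ := exists_funField_identity N f
  obtain ⟨z, hz⟩ := exists_diffProd_ne_zero N
  exact ⟨A, B, ⟨z, by rw [hB]; exact hz⟩, h⟩

end Fermat.Agent.S20.FunField
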