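import Fermat.Agent.S20.H26_Final2
import Fermat.Agent.S24.H24_T1
import Fermat.Agent.S24.H2_Adapter
import Fermat.Agent.S24.H6_Ord
import Fermat.Agent.S24.H21_PlaceOfVal
import Fermat.Agent.S24.H17_JLocal

/-
S20, the S24 place layer at `K = ℂ`, `e = id` (helper26): instantiations needed by MOD.

* `finDimC`, `countDataC`, ... : the ALG adapter (helper2) at `F = FK ℂ N`, `x = jF`.
* `diffOrd`  [DIFF]: `v.ordDifferential (D y) = v.ord y - 1` whenever `v.ord y ≠ 0`.
* `pointPlaces` [PT]: every `z : ℍ` gives a place `v` with `m * v.ord u = ord_z (ρ a) - ord_z (ρ b)`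
  for `u = a / b`.
-/

set_option autoImplicit false

open AlgebraicCurve KaehlerDifferential CongruenceSubgroup IntermediateField UpperHalfPlane
open scoped MatrixGroups

namespace Fermat.Agent.S20.PlacesC

open Fermat.Agent.S24 Fermat.Agent.S24.Real

variable (N : ℕ) [NeZero N]

/-- The realisation at `K = ℂ`. -/
noncomputable abbrev rhoC : AK ℂ N →+* (ℍ → ℂ) := rho (K := ℂ) (N := N) (RingHom.id ℂ)

/-- The analytic order at `z` of a function on `ℍ`, as an integer. -/
noncomputable def ordPt (z : ℍ) (f : ℍ → ℂ) : ℤ :=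
  ((analyticOrderAt (f ∘ ofComplex) (z : ℂ)).toNat : ℤ)

lemma ordPt_eq_ordH (z : ℍ) (f : ℍ → ℂ) : ordPt z f = (ordH f z : ℤ) := rfl

theorem finDimC : FiniteDimensional ℂ⟮Fermat.Agent.S24.Final.jF ℂ N⟯ (FK ℂ N) :=
  G3.finDim_final ℂ N (RingHom.id ℂ)

theorem finrankC : Module.finrank ℂ⟮Fermat.Agent.S24.Final.jF ℂ N⟯ (FK ℂ N) = Nat.card (Comb.X N) :=
  G3.finrank_eq_final ℂ N (RingHom.id ℂ)

theorem transcendentalC : Transcendental ℂ (Fermat.Agent.S24.Final.jF ℂ N) := Fermat.Agent.S24.Final.transcendental_jF ℂ N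

theorem countDataC :
    RH.CountData (K := ℂ) (Fermat.Agent.S24.Final.jF ℂ N) (Module.finrank ℂ⟮Fermat.Agent.S24.Final.jF ℂ N⟯ (FK ℂ N)) := by
  have := finDimC N
  exact Alg.countData (Fermat.Agent.S24.Final.jF ℂ N) (transcendentalC N)

theorem nontrivialC : Nontrivial Ω[FK ℂ N⁄ℂ] := by
  have := finDimC N
  obtain ⟨v⟩ := (countDataC N).exists_place (by rw [finrankC]; exact Nat.card_pos)
  exact Alg.nontrivial_kaehler (Fermat.Agent.S24.Final.jF ℂ N) v

/-- **[DIFF]** the order of `dy` at a place where `y` has a zero or a pole. -/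
theorem diffOrd (v : Place ℂ (FK ℂ N)) (y : FK ℂ N) (hy : v.ord y ≠ 0) :
    v.ordDifferential (D ℂ (FK ℂ N) y) = v.ord y - 1 := by
  have := finDimC N
  have := nontrivialC N
  have := Alg.finite_kaehler_place (Fermat.Agent.S24.Final.jF ℂ N) (transcendentalC N) v
  exact RH.ordDifferential_D v (Alg.residueTrivial (Fermat.Agent.S24.Final.jF ℂ N) (transcendentalC N) v) hy


omit [NeZero N] in
lemma jAK_sub_ne_zero (c : ℂ) : jAK ℂ N - algebraMap ℂ (AK ℂ N) c ≠ 0 := by
  intro h
  have h1 := rho_jAK_sub (K := ℂ) (N := N) (RingHom.id ℂ) c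
  rw [h, map_zero] at h1
  obtain ⟨z, hz⟩ := G1.exists_jInv_ne c
  have := congrFun h1 z
  simp only [Pi.zero_apply, RingHom.id_apply] at this
  exact hz (sub_eq_zero.mp this.symm)

omit [NeZero N] in
/-- **[PT]** every point of `ℍ` gives a place of `F`, whose order function is proportional to
the analytic order at the point. -/
theorem pointPlaces (z : ℍ) :
    ∃ (v : Place ℂ (FK ℂ N)) (m : ℕ), 0 < m ∧
      (∀ h : FK ℂ N, h ≠ 0 → ordAt (RingHom.id ℂ) z h = m * v.ord h) ∧
      ∀ (a b : AK ℂ N) (u : FK ℂ N), a ≠ 0 → b ≠ 0 →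
        u * inclAK ℂ N b = inclAK ℂ N a →
        (m : ℤ) * v.ord u = ordPt z (rhoC N a) - ordPt z (rhoC N b) := by
  obtain ⟨v, m, hm, hw, -⟩ := Orb.exists_place_of_valuation (K := ℂ) (F := FK ℂ N)
    (ordAt (RingHom.id ℂ) z)
    (fun f g hf hg => ordAt_mul _ z hf hg)
    (fun f g hf hg hfg => ordAt_add_ge _ z hf hg hfg)
    (fun a _ => (ordAt_algebraMap _ z a).ge)
    ⟨jF ℂ N - algebraMap ℂ (FK ℂ N) (Fermat.Agent.S23.R4.jInv z), by
      intro h
      rw [jF_sub_eq] at h
      exact jAK_sub_ne_zero N _ (inclAK_injective ℂ N (by rw [h, map_zero])),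
     by
      have := (ordAt_jF_sub_pos_iff (K := ℂ) (N := N) (RingHom.id ℂ) z (Fermat.Agent.S23.R4.jInv z)
        (jAK_sub_ne_zero N _)).mpr rfl
      exact this.ne'⟩
  refine ⟨v, m, hm, hw, ?_⟩
  intro a b u ha hb hab
  have hu : u ≠ 0 := by
    intro h
    rw [h, zero_mul] at hab
    exact ha (inclAK_injective ℂ N (by rw [← hab, map_zero]))
  rw [← hw u hu]
  have hab' : (u : LaurentSeries ℂ) * (b : LaurentSeries ℂ) = (a : LaurentSeries ℂ) := by
    have := congrArg (fun t : FK ℂ N => (t : LaurentSeries ℂ)) hab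
    simpa using this
  rw [ordAt_eq_sub _ z hu hb hab']
  rfl


/-- helper25's bundle `Final.Inputs` at `K = ℂ`, from the four fibre counts (G3, G4): the DEG and
ALG-adapter fields are discharged here. -/
theorem inputsC
    (hgen : ∀ c : ℂ, c ≠ 0 → c ≠ 1728 →
      Nat.card {v : Place ℂ (FK ℂ N) //
        0 < v.ord (Fermat.Agent.S24.Final.jF ℂ N - algebraMap ℂ (FK ℂ N) c)} = Nat.card (Comb.X N))
    (hzero : Nat.card {v : Place ℂ (FK ℂ N) //
        0 < v.ord (Fermat.Agent.S24.Final.jF ℂ N - algebraMap ℂ (FK ℂ N) 0)} =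
      Nat.card (MulAction.orbitRel.Quotient
        (Subgroup.zpowers (ModularGroup.S * ModularGroup.T)) (Comb.X N)))
    (hone : Nat.card {v : Place ℂ (FK ℂ N) //
        0 < v.ord (Fermat.Agent.S24.Final.jF ℂ N - algebraMap ℂ (FK ℂ N) 1728)} =
      Nat.card (MulAction.orbitRel.Quotient (Subgroup.zpowers ModularGroup.S) (Comb.X N)))
    (hinf : Nat.card {v : Place ℂ (FK ℂ N) // 0 < v.ord (Fermat.Agent.S24.Final.jF ℂ N)⁻¹} =
      Nat.card (MulAction.orbitRel.Quotient (Subgroup.zpowers ModularGroup.T) (Comb.X N))) :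
    Fermat.Agent.S24.Final.Inputs ℂ N where
  finDim := finDimC N
  finrank_eq := finrankC N
  count := countDataC N
  princ := by
    have := finDimC N
    exact Alg.degree_principal (Fermat.Agent.S24.Final.jF ℂ N) (transcendentalC N)
  nontrivial := nontrivialC N
  gen := hgen
  zero := hzero
  one := hone
  inf := hinf

end Fermat.Agent.S20.PlacesC
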