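import Mathlib

/-!
# S20, package L3 (helper27): trace-dual lattices in Dedekind–Weber coordinates

`K` is a field, `K(X) = RatFunc K`, `F` a finite separable extension of `K(X)` and
`b : Basis ι K(X) F`.  For `d : ι → ℤ` we consider

* the polynomial lattice `polyLat b = ⊕ K[X] • b i`,
* the lattice at infinity `inftyLat b d = ⊕ O∞ • X ^ (d i) • b i`
  (`O∞` = rational functions of degree `≤ 0`).

With `bstar` the trace-dual basis of `b` we show that the trace duals of these lattices are
`polyLat bstar` and `inftyLat bstar (-d)`, and we compute the `K`-dimension of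
`polyLat c ∩ inftyLat c d` as `∑ i, (d i + 1).toNat`.  Consequently
`dim (A ∩ B) - dim (A* ∩ X⁻² B*) = n + ∑ i, d i` for `A = polyLat b`, `B = inftyLat b d`.
-/

set_option autoImplicit false

open Polynomial Module

namespace Fermat.Agent.S20.L3

section Scalars

variable {K : Type*} [Field K]

/-- The rational function is a polynomial. -/
def IsPoly (r : RatFunc K) : Prop := r ∈ (algebraMap K[X] (RatFunc K)).range

/-- The rational function is zero or has degree at most `d`. -/
def DegLE (d : ℤ) (r : RatFunc K) : Prop := r = 0 ∨ r.intDegree ≤ d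

theorem isPoly_zero : IsPoly (0 : RatFunc K) := ⟨0, map_zero _⟩

theorem isPoly_one : IsPoly (1 : RatFunc K) := ⟨1, map_one _⟩

theorem IsPoly.add {r s : RatFunc K} (hr : IsPoly r) (hs : IsPoly s) : IsPoly (r + s) :=
  (algebraMap K[X] (RatFunc K)).range.add_mem hr hs

theorem IsPoly.mul {r s : RatFunc K} (hr : IsPoly r) (hs : IsPoly s) : IsPoly (r * s) :=
  (algebraMap K[X] (RatFunc K)).range.mul_mem hr hs

theorem isPoly_sum {ι : Type*} (s : Finset ι) (f : ι → RatFunc K) (h : ∀ i ∈ s, IsPoly (f i)) :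
    IsPoly (∑ i ∈ s, f i) :=
  (algebraMap K[X] (RatFunc K)).range.sum_mem h

theorem degLE_zero (d : ℤ) : DegLE d (0 : RatFunc K) := Or.inl rfl

theorem DegLE.mono {d e : ℤ} {r : RatFunc K} (h : DegLE d r) (hde : d ≤ e) : DegLE e r :=
  h.imp id fun h => h.trans hde

theorem DegLE.add {d : ℤ} {r s : RatFunc K} (hr : DegLE d r) (hs : DegLE d s) :
    DegLE d (r + s) := by
  by_cases hrs : r + s = 0
  · exact Or.inl hrs
  rcases hr with rfl | hr
  · simpa using hs
  rcases hs with rfl | hs
  · rw [add_zero]; exact Or.inr hr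
  by_cases hs0 : s = 0
  · subst hs0; rw [add_zero]; exact Or.inr hr
  exact Or.inr ((RatFunc.intDegree_add_le hs0 hrs).trans (max_le hr hs))

theorem DegLE.mul {d e : ℤ} {r s : RatFunc K} (hr : DegLE d r) (hs : DegLE e s) :
    DegLE (d + e) (r * s) := by
  by_cases hr0 : r = 0
  · subst hr0; simp [DegLE]
  by_cases hs0 : s = 0
  · subst hs0; simp [DegLE]
  refine Or.inr ?_
  rw [RatFunc.intDegree_mul hr0 hs0]
  exact add_le_add (hr.resolve_left hr0) (hs.resolve_left hs0)

theorem degLE_sum {ι : Type*} (s : Finset ι) (f : ι → RatFunc K) (d : ℤ)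
    (h : ∀ i ∈ s, DegLE d (f i)) : DegLE d (∑ i ∈ s, f i) := by
  classical
  induction s using Finset.induction_on with
  | empty => simpa using degLE_zero d
  | insert a s ha ih =>
    rw [Finset.sum_insert ha]
    exact (h a (Finset.mem_insert_self a s)).add
      (ih fun i hi => h i (Finset.mem_insert_of_mem hi))

theorem intDegree_X_zpow (m : ℤ) : (RatFunc.X ^ m : RatFunc K).intDegree = m := by
  have hX : (RatFunc.X : RatFunc K) ≠ 0 := RatFunc.X_ne_zero
  have hnat : ∀ n : ℕ, (RatFunc.X ^ n : RatFunc K).intDegree = n := by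
    intro n
    induction n with
    | zero => simp
    | succ n ih =>
      rw [pow_succ, RatFunc.intDegree_mul (pow_ne_zero n hX) hX, ih, RatFunc.intDegree_X]
      push_cast; ring
  obtain ⟨n, rfl | rfl⟩ := m.eq_nat_or_neg
  · rw [zpow_natCast]; exact hnat n
  · rw [zpow_neg, zpow_natCast, RatFunc.intDegree_inv, hnat n]

theorem X_zpow_ne_zero (m : ℤ) : (RatFunc.X ^ m : RatFunc K) ≠ 0 :=
  zpow_ne_zero m RatFunc.X_ne_zero

theorem degLE_X_zpow (m : ℤ) : DegLE m (RatFunc.X ^ m : RatFunc K) :=
  Or.inr (intDegree_X_zpow m).le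

theorem degLE_X_zpow_mul_iff (m d : ℤ) (r : RatFunc K) :
    DegLE d (RatFunc.X ^ m * r) ↔ DegLE (d - m) r := by
  by_cases hr : r = 0
  · subst hr; simp [DegLE]
  have h1 : RatFunc.X ^ m * r ≠ 0 := mul_ne_zero (X_zpow_ne_zero m) hr
  simp only [DegLE, hr, h1, false_or]
  rw [RatFunc.intDegree_mul (X_zpow_ne_zero m) hr, intDegree_X_zpow]
  constructor <;> intro h <;> linarith

theorem degLE_one : DegLE 0 (1 : RatFunc K) := Or.inr (by simp)

end Scalars

section Lattices

variable {K : Type*} [Field K] {F : Type*} [Field F] [Algebra (RatFunc K) F]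
  {ι : Type*}

/-- The `K[X]`-lattice spanned by the basis `b`. -/
def polyLat (b : Basis ι (RatFunc K) F) : Set F := {v | ∀ i, IsPoly (b.repr v i)}

/-- The lattice at infinity `⊕ O∞ • X ^ (d i) • b i`. -/
def inftyLat (b : Basis ι (RatFunc K) F) (d : ι → ℤ) : Set F :=
  {v | ∀ i, DegLE (d i) (b.repr v i)}

theorem mem_polyLat {b : Basis ι (RatFunc K) F} {v : F} :
    v ∈ polyLat b ↔ ∀ i, b.repr v i ∈ (algebraMap K[X] (RatFunc K)).range := Iff.rfl

theorem mem_inftyLat {b : Basis ι (RatFunc K) F} {d : ι → ℤ} {v : F} :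
    v ∈ inftyLat b d ↔ ∀ i, b.repr v i = 0 ∨ (b.repr v i).intDegree ≤ d i := Iff.rfl

theorem zero_mem_polyLat (b : Basis ι (RatFunc K) F) : (0 : F) ∈ polyLat b := by
  intro i; simp [isPoly_zero]

theorem zero_mem_inftyLat (b : Basis ι (RatFunc K) F) (d : ι → ℤ) : (0 : F) ∈ inftyLat b d := by
  intro i; simp [degLE_zero]

theorem add_mem_polyLat {b : Basis ι (RatFunc K) F} {v w : F} (hv : v ∈ polyLat b)
    (hw : w ∈ polyLat b) : v + w ∈ polyLat b := by
  intro i
  rw [map_add, Finsupp.add_apply]
  exact (hv i).add (hw i)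

theorem add_mem_inftyLat {b : Basis ι (RatFunc K) F} {d : ι → ℤ} {v w : F}
    (hv : v ∈ inftyLat b d) (hw : w ∈ inftyLat b d) : v + w ∈ inftyLat b d := by
  intro i
  rw [map_add, Finsupp.add_apply]
  exact (hv i).add (hw i)

theorem smul_mem_polyLat {b : Basis ι (RatFunc K) F} {r : RatFunc K} (hr : IsPoly r) {v : F}
    (hv : v ∈ polyLat b) : r • v ∈ polyLat b := by
  intro i
  rw [map_smul, Finsupp.smul_apply, smul_eq_mul]
  exact hr.mul (hv i)

theorem smul_mem_inftyLat {b : Basis ι (RatFunc K) F} {d : ι → ℤ} {r : RatFunc K}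
    (hr : DegLE 0 r) {v : F} (hv : v ∈ inftyLat b d) : r • v ∈ inftyLat b d := by
  intro i
  rw [map_smul, Finsupp.smul_apply, smul_eq_mul]
  simpa using hr.mul (hv i)

section

variable [DecidableEq ι]

theorem basis_mem_polyLat (b : Basis ι (RatFunc K) F) (i : ι) : b i ∈ polyLat b := by
  intro j
  rw [b.repr_self, Finsupp.single_apply]
  split_ifs
  · exact isPoly_one
  · exact isPoly_zero

theorem X_zpow_smul_basis_mem_inftyLat (b : Basis ι (RatFunc K) F) (d : ι → ℤ) (i : ι) :
    (RatFunc.X ^ d i : RatFunc K) • b i ∈ inftyLat b d := by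
  intro j
  rw [map_smul, Finsupp.smul_apply, smul_eq_mul, b.repr_self, Finsupp.single_apply]
  split_ifs with h
  · subst h; rw [mul_one]; exact degLE_X_zpow _
  · rw [mul_zero]; exact degLE_zero _

end

/-- Scaling by a power of `X` shifts the degrees. -/
theorem X_zpow_smul_mem_inftyLat_iff (b : Basis ι (RatFunc K) F) (d : ι → ℤ) (m : ℤ) (v : F) :
    (RatFunc.X ^ m : RatFunc K) • v ∈ inftyLat b d ↔ v ∈ inftyLat b (fun i => d i - m) := by
  simp only [inftyLat, Set.mem_ofPred_eq, map_smul, Finsupp.smul_apply, smul_eq_mul,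
    degLE_X_zpow_mul_iff]

variable (K) in
/-- The polynomial trace dual of a set. -/
def dualPoly (M : Set F) : Set F :=
  {h | ∀ a ∈ M, IsPoly (Algebra.trace (RatFunc K) F (h * a))}

variable (K) in
/-- The trace dual at infinity of a set. -/
def dualInfty (M : Set F) : Set F :=
  {h | ∀ a ∈ M, DegLE 0 (Algebra.trace (RatFunc K) F (h * a))}

variable [Fintype ι] [DecidableEq ι]
  [FiniteDimensional (RatFunc K) F] [Algebra.IsSeparable (RatFunc K) F]

/-- The trace-dual basis. -/
noncomputable def bstar (b : Basis ι (RatFunc K) F) : Basis ι (RatFunc K) F :=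
  (Algebra.traceForm (RatFunc K) F).dualBasis (traceForm_nondegenerate (RatFunc K) F) b

theorem bstar_repr_apply (b : Basis ι (RatFunc K) F) (h : F) (i : ι) :
    (bstar b).repr h i = Algebra.trace (RatFunc K) F (h * b i) := by
  rw [bstar, LinearMap.BilinForm.dualBasis_repr_apply, Algebra.traceForm_apply]

theorem trace_bstar_mul (b : Basis ι (RatFunc K) F) (i j : ι) :
    Algebra.trace (RatFunc K) F (bstar b i * b j) = if j = i then 1 else 0 := by
  rw [← Algebra.traceForm_apply, bstar, LinearMap.BilinForm.apply_dualBasis_left]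

theorem bstar_bstar (b : Basis ι (RatFunc K) F) : bstar (bstar b) = b := by
  rw [bstar, bstar]
  exact LinearMap.BilinForm.dualBasis_dualBasis _ (Algebra.traceForm_isSymm (RatFunc K)) b

/-- The trace pairing in dual coordinates. -/
theorem trace_mul_eq_sum (b : Basis ι (RatFunc K) F) (h a : F) :
    Algebra.trace (RatFunc K) F (h * a) = ∑ i, (bstar b).repr h i * b.repr a i := by
  conv_lhs => rw [← b.sum_repr a]
  rw [Finset.mul_sum, map_sum]
  refine Finset.sum_congr rfl fun i _ => ?_
  rw [mul_smul_comm, map_smul, smul_eq_mul, bstar_repr_apply, mul_comm]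

/-- **(D1)** The polynomial trace dual of `⊕ K[X] b i` is `⊕ K[X] b* i`. -/
theorem dualPoly_polyLat (b : Basis ι (RatFunc K) F) :
    dualPoly K (polyLat b) = polyLat (bstar b) := by
  ext h
  constructor
  · intro hh i
    rw [bstar_repr_apply]
    exact hh _ (basis_mem_polyLat b i)
  · intro hh a ha
    rw [trace_mul_eq_sum b]
    exact isPoly_sum _ _ fun i _ => (hh i).mul (ha i)

/-- **(D2)** The trace dual at infinity of `⊕ O∞ X ^ (d i) b i` is `⊕ O∞ X ^ (- d i) b* i`. -/
theorem dualInfty_inftyLat (b : Basis ι (RatFunc K) F) (d : ι → ℤ) :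
    dualInfty K (inftyLat b d) = inftyLat (bstar b) (fun i => - d i) := by
  ext h
  constructor
  · intro hh i
    have h1 := hh _ (X_zpow_smul_basis_mem_inftyLat b d i)
    rw [mul_smul_comm, map_smul, smul_eq_mul, ← bstar_repr_apply, degLE_X_zpow_mul_iff] at h1
    simpa using h1
  · intro hh a ha
    rw [trace_mul_eq_sum b]
    refine degLE_sum _ _ _ fun i _ => ?_
    have := (hh i).mul (ha i)
    simpa using this

/-- The space of "regular differentials" in coordinates:
`A* ∩ X⁻² B* = polyLat b* ∩ inftyLat b* (- d - 2)`. -/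
theorem mem_dual_inter_iff (b : Basis ι (RatFunc K) F) (d : ι → ℤ) (h : F) :
    (h ∈ dualPoly K (polyLat b) ∧
        (RatFunc.X ^ (2 : ℤ) : RatFunc K) • h ∈ dualInfty K (inftyLat b d)) ↔
      h ∈ polyLat (bstar b) ∩ inftyLat (bstar b) (fun i => - d i - 2) := by
  rw [dualPoly_polyLat, dualInfty_inftyLat, X_zpow_smul_mem_inftyLat_iff]
  rfl

end Lattices

section Dim

variable {K : Type*} [Field K] {F : Type*} [Field F] [Algebra (RatFunc K) F] [Algebra K F]
  [IsScalarTower K (RatFunc K) F] {ι : Type*}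

theorem isPoly_algebraMap (k : K) : IsPoly (algebraMap K (RatFunc K) k) :=
  ⟨Polynomial.C k, by rw [RatFunc.algebraMap_C, RatFunc.algebraMap_eq_C]⟩

theorem degLE_algebraMap (k : K) : DegLE 0 (algebraMap K (RatFunc K) k) :=
  Or.inr (by rw [RatFunc.algebraMap_eq_C, RatFunc.intDegree_C])

/-- The `K`-subspace `polyLat c ∩ inftyLat c d`. -/
def interSub (c : Basis ι (RatFunc K) F) (d : ι → ℤ) : Submodule K F where
  carrier := polyLat c ∩ inftyLat c d
  zero_mem' := ⟨zero_mem_polyLat c, zero_mem_inftyLat c d⟩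
  add_mem' := fun hv hw => ⟨add_mem_polyLat hv.1 hw.1, add_mem_inftyLat hv.2 hw.2⟩
  smul_mem' := fun k v hv => by
    rw [← algebraMap_smul (RatFunc K) k v]
    exact ⟨smul_mem_polyLat (isPoly_algebraMap k) hv.1,
      smul_mem_inftyLat (degLE_algebraMap k) hv.2⟩

theorem coe_interSub (c : Basis ι (RatFunc K) F) (d : ι → ℤ) :
    (interSub c d : Set F) = polyLat c ∩ inftyLat c d := rfl

theorem mem_interSub {c : Basis ι (RatFunc K) F} {d : ι → ℤ} {v : F} :
    v ∈ interSub c d ↔ v ∈ polyLat c ∧ v ∈ inftyLat c d := Iff.rfl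

/-- A polynomial has degree `≤ d` (or is zero) iff it lies in `degreeLT K (d + 1).toNat`. -/
theorem degLE_algebraMap_iff (d : ℤ) (p : K[X]) :
    DegLE d (algebraMap K[X] (RatFunc K) p) ↔ p ∈ Polynomial.degreeLT K (d + 1).toNat := by
  rw [Polynomial.mem_degreeLT]
  by_cases hp : p = 0
  · subst hp
    simp [DegLE, Polynomial.degree_zero]
  have hp' : algebraMap K[X] (RatFunc K) p ≠ 0 := by
    rwa [Ne, map_eq_zero_iff _ (RatFunc.algebraMap_injective K)]
  simp only [DegLE, hp', false_or, RatFunc.intDegree_polynomial]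
  rw [Polynomial.degree_eq_natDegree hp, Nat.cast_lt]
  omega

variable [Fintype ι]

/-- The parametrisation of `polyLat c ∩ inftyLat c d` by tuples of polynomials of bounded
degree. -/
noncomputable def param (c : Basis ι (RatFunc K) F) (n : ι → ℕ) :
    ((i : ι) → Polynomial.degreeLT K (n i)) →ₗ[K] F where
  toFun p := ∑ i, algebraMap K[X] (RatFunc K) (p i : K[X]) • c i
  map_add' p q := by
    simp only [Pi.add_apply, Submodule.coe_add, map_add, add_smul, Finset.sum_add_distrib]
  map_smul' k p := by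
    simp only [Pi.smul_apply, Submodule.coe_smul, RingHom.id_apply, Finset.smul_sum]
    refine Finset.sum_congr rfl fun i _ => ?_
    rw [Algebra.smul_def k (p i : K[X]), map_mul, mul_smul, ← algebraMap_smul (RatFunc K) k,
      ← IsScalarTower.algebraMap_apply K K[X] (RatFunc K) k]

theorem repr_param [DecidableEq ι] (c : Basis ι (RatFunc K) F) (n : ι → ℕ)
    (p : (i : ι) → Polynomial.degreeLT K (n i)) (i : ι) :
    c.repr (param c n p) i = algebraMap K[X] (RatFunc K) (p i : K[X]) := by
  simp only [param, LinearMap.coe_mk, AddHom.coe_mk, map_sum, map_smul, Basis.repr_self,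
    Finsupp.coe_finsetSum, Finset.sum_apply, Finsupp.smul_apply, Finsupp.single_apply,
    smul_eq_mul, mul_ite, mul_one, mul_zero, Finset.sum_ite_eq', Finset.mem_univ, if_true]

theorem param_injective (c : Basis ι (RatFunc K) F) (n : ι → ℕ) :
    Function.Injective (param c n) := by
  classical
  intro p q hpq
  funext i
  have h := congrArg (fun v => c.repr v i) hpq
  simp only [repr_param] at h
  exact Subtype.ext (RatFunc.algebraMap_injective K h)

theorem range_param (c : Basis ι (RatFunc K) F) (d : ι → ℤ) :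
    LinearMap.range (param c fun i => (d i + 1).toNat) = interSub c d := by
  classical
  ext v
  constructor
  · rintro ⟨p, rfl⟩
    refine ⟨fun i => ?_, fun i => ?_⟩
    · rw [repr_param]; exact ⟨_, rfl⟩
    · rw [repr_param, degLE_algebraMap_iff]; exact (p i).2
  · rintro ⟨h1, h2⟩
    choose p hp using h1
    have hmem : ∀ i, p i ∈ Polynomial.degreeLT K (d i + 1).toNat := fun i => by
      rw [← degLE_algebraMap_iff, hp i]; exact h2 i
    refine ⟨fun i => ⟨p i, hmem i⟩, ?_⟩
    apply c.repr.injective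
    ext i
    rw [repr_param]
    exact hp i

theorem finrank_degreeLT (n : ℕ) : finrank K (Polynomial.degreeLT K n) = n := by
  rw [(Polynomial.degreeLTEquiv K n).finrank_eq, Module.finrank_fin_fun]

/-- **(D4)** `dim_K (polyLat c ∩ inftyLat c d) = ∑ i, (d i + 1)⁺`. -/
theorem finrank_interSub (c : Basis ι (RatFunc K) F) (d : ι → ℤ) :
    finrank K (interSub c d) = ∑ i, (d i + 1).toNat := by
  rw [← range_param, LinearMap.finrank_range_of_inj (param_injective c _),
    Module.finrank_pi_fintype]
  exact Finset.sum_congr rfl fun i _ => finrank_degreeLT _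

instance finiteDimensional_interSub (c : Basis ι (RatFunc K) F) (d : ι → ℤ) :
    FiniteDimensional K (interSub c d) := by
  rw [← range_param]
  infer_instance

end Dim

section Count

variable {K : Type*} [Field K] {F : Type*} [Field F] [Algebra (RatFunc K) F] [Algebra K F]
  [IsScalarTower K (RatFunc K) F] {ι : Type*} [Fintype ι] [DecidableEq ι]
  [FiniteDimensional (RatFunc K) F] [Algebra.IsSeparable (RatFunc K) F]

/-- The space `A* ∩ X⁻² B*` for `A = polyLat b`, `B = inftyLat b d`. -/
noncomputable def regSub (b : Basis ι (RatFunc K) F) (d : ι → ℤ) : Submodule K F :=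
  interSub (bstar b) (fun i => - d i - 2)

theorem mem_regSub_iff (b : Basis ι (RatFunc K) F) (d : ι → ℤ) (h : F) :
    h ∈ regSub b d ↔ h ∈ dualPoly K (polyLat b) ∧
      (RatFunc.X ^ (2 : ℤ) : RatFunc K) • h ∈ dualInfty K (inftyLat b d) := by
  rw [mem_dual_inter_iff]
  rfl

theorem finrank_regSub (b : Basis ι (RatFunc K) F) (d : ι → ℤ) :
    finrank K (regSub b d) = ∑ i, (- d i - 1).toNat := by
  rw [regSub, finrank_interSub]
  refine Finset.sum_congr rfl fun i _ => ?_
  congr 1
  ring

/-- **(D5)** `dim (A ∩ B) - dim (A* ∩ X⁻² B*) = n + ∑ d i`. -/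
theorem finrank_interSub_sub_finrank_regSub (b : Basis ι (RatFunc K) F) (d : ι → ℤ) :
    (finrank K (interSub b d) : ℤ) - finrank K (regSub b d) = Fintype.card ι + ∑ i, d i := by
  rw [finrank_interSub, finrank_regSub]
  push_cast
  rw [← Finset.sum_sub_distrib, Finset.card_univ.symm, Finset.card_eq_sum_ones]
  push_cast
  rw [← Finset.sum_add_distrib]
  refine Finset.sum_congr rfl fun i _ => ?_
  omega

/-- **(D5')** If `A ∩ B` is one-dimensional (the constants), then
`dim (A* ∩ X⁻² B*) = 1 - n - ∑ d i`. -/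
theorem finrank_regSub_of_finrank_interSub_eq_one (b : Basis ι (RatFunc K) F) (d : ι → ℤ)
    (h1 : finrank K (interSub b d) = 1) :
    (finrank K (regSub b d) : ℤ) = 1 - Fintype.card ι - ∑ i, d i := by
  have := finrank_interSub_sub_finrank_regSub b d
  rw [h1] at this
  push_cast at this
  linarith

/-- The count in terms of arbitrary sets / subspaces described by the reduced basis. -/
theorem dual_count {A B : Set F} (b : Basis ι (RatFunc K) F) (d : ι → ℤ)
    (hA : A = polyLat b) (hB : B = inftyLat b d)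
    (W : Submodule K F) (hW : (W : Set F) = A ∩ B)
    (Ω : Submodule K F)
    (hΩ : ∀ h, h ∈ Ω ↔ h ∈ dualPoly K A ∧ (RatFunc.X ^ (2 : ℤ) : RatFunc K) • h ∈ dualInfty K B) :
    (finrank K W : ℤ) - finrank K Ω = Fintype.card ι + ∑ i, d i := by
  subst hA hB
  have hW' : W = interSub b d := SetLike.coe_injective (by rw [hW, coe_interSub])
  have hΩ' : Ω = regSub b d := by
    ext h
    rw [hΩ, mem_regSub_iff]
  rw [hW', hΩ']
  exact finrank_interSub_sub_finrank_regSub b d

end Count

end Fermat.Agent.S20.L3
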