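import Mathlib

/-!
# S20, package L5 (helper28): index = determinant, generic part

Generic linear algebra over a principal ideal domain `R` which is an algebra over a field `K`
such that all quotients `R ⧸ (a)`, `a ≠ 0`, are finite dimensional over `K`
(e.g. `R = K[X]`, or a discrete valuation ring with residue field `K`).

* `h28_finrank_quotient_span_mul` : `dim_K R/(ab) = dim_K R/(a) + dim_K R/(b)`
* `finrank_quotient_range_eq` : for an endomorphism `f` with nonzero determinant of a finite free
  `R`-module `M`: `dim_K (M / f M) = dim_K R/(det f)`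
-/

set_option autoImplicit false
set_option linter.unusedSectionVars false
set_option linter.style.haveILetI false

open Module

namespace Fermat.Agent.S20.Idx

section Length

variable (K : Type*) {R : Type*} [Field K] [CommRing R] [IsDomain R] [Algebra K R]

/-- The two pieces of `R/(ab)`: the submodule `aR/(ab) ≅ R/(b)` and the quotient `≅ R/(a)`. -/
theorem h28_quotient_span_mul_pieces {a b : R} (ha : a ≠ 0) :
    ∃ N : Submodule R (R ⧸ Ideal.span {a * b}),
      Nonempty ((R ⧸ (Ideal.span {b} : Ideal R)) ≃ₗ[R] N) ∧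
      Nonempty (((R ⧸ Ideal.span {a * b}) ⧸ N) ≃ₗ[R] (R ⧸ (Ideal.span {a} : Ideal R))) := by
  set I : Ideal R := Ideal.span {a * b} with hI
  set J : Ideal R := Ideal.span {a} with hJ
  have hIJ : I ≤ J := by
    rw [hI, hJ, Ideal.span_singleton_le_span_singleton]
    exact dvd_mul_right a b
  -- the map `r ↦ a r mod ab`
  let g : R →ₗ[R] (R ⧸ I) := (Submodule.mkQ I).comp (LinearMap.mulLeft R a)
  have hker : LinearMap.ker g = Ideal.span {b} := by
    ext r
    simp only [g, LinearMap.mem_ker, LinearMap.comp_apply, LinearMap.mulLeft_apply,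
      Submodule.mkQ_apply, Submodule.Quotient.mk_eq_zero, hI, Ideal.mem_span_singleton]
    constructor
    · rintro ⟨c, hc⟩
      refine ⟨c, mul_left_cancel₀ ha ?_⟩
      rw [hc]; ring
    · rintro ⟨c, rfl⟩
      exact ⟨c, by ring⟩
  have hrange : LinearMap.range g = Submodule.map (Submodule.mkQ I) J := by
    ext x
    simp only [g, LinearMap.mem_range, LinearMap.comp_apply, LinearMap.mulLeft_apply,
      Submodule.mem_map, hJ]
    constructor
    · rintro ⟨r, rfl⟩
      exact ⟨a * r, Ideal.mem_span_singleton.mpr (dvd_mul_right a r), rfl⟩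
    · rintro ⟨y, hy, rfl⟩
      obtain ⟨r, rfl⟩ := Ideal.mem_span_singleton.mp hy
      exact ⟨r, rfl⟩
  exact ⟨LinearMap.range g,
    ⟨(Submodule.quotEquivOfEq _ _ hker.symm).trans (LinearMap.quotKerEquivRange g)⟩,
    ⟨(Submodule.quotEquivOfEq _ _ hrange).trans
      (Submodule.quotientQuotientEquivQuotient I J hIJ)⟩⟩

/-- `R/(ab)` is finite dimensional if `R/(a)` and `R/(b)` are. -/
theorem h28_finite_quotient_span_mul {a b : R} (ha : a ≠ 0)
    (hfa : Module.Finite K (R ⧸ Ideal.span {a})) (hfb : Module.Finite K (R ⧸ Ideal.span {b})) :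
    Module.Finite K (R ⧸ Ideal.span {a * b}) := by
  obtain ⟨N, ⟨e₁⟩, ⟨e₂⟩⟩ := h28_quotient_span_mul_pieces (R := R) (b := b) ha
  haveI : Module.Finite K ((N.restrictScalars K : Submodule K (R ⧸ Ideal.span {a * b}))) :=
    Module.Finite.equiv (e₁.restrictScalars K)
  haveI : Module.Finite K ((R ⧸ Ideal.span {a * b}) ⧸ (N.restrictScalars K)) :=
    Module.Finite.equiv (e₂.restrictScalars K).symm
  exact Module.Finite.of_submodule_quotient (N.restrictScalars K)

/-- `dim_K R/(ab) = dim_K R/(a) + dim_K R/(b)`. -/
theorem h28_finrank_quotient_span_mul {a b : R} (ha : a ≠ 0)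
    (hfin : Module.Finite K (R ⧸ Ideal.span {a * b})) :
    finrank K (R ⧸ Ideal.span {a * b}) =
      finrank K (R ⧸ Ideal.span {a}) + finrank K (R ⧸ Ideal.span {b}) := by
  obtain ⟨N, ⟨e₁⟩, ⟨e₂⟩⟩ := h28_quotient_span_mul_pieces (R := R) (b := b) ha
  have h₁ : finrank K (R ⧸ (Ideal.span {b} : Ideal R)) = finrank K N :=
    (e₁.restrictScalars K).finrank_eq
  have h₂ : finrank K ((R ⧸ Ideal.span {a * b}) ⧸ N) = finrank K (R ⧸ Ideal.span {a}) :=
    (e₂.restrictScalars K).finrank_eq
  have h₃ := Submodule.finrank_quotient_add_finrank (N.restrictScalars K)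
  have h₄ : finrank K ((R ⧸ Ideal.span {a * b}) ⧸ N.restrictScalars K)
      = finrank K ((R ⧸ Ideal.span {a * b}) ⧸ N) := rfl
  have h₅ : finrank K (N.restrictScalars K) = finrank K N := rfl
  rw [h₄, h₅, h₂, ← h₁] at h₃
  exact h₃.symm

end Length

end Fermat.Agent.S20.Idx

namespace Fermat.Agent.S20.Idx

section Range

variable (K : Type*) {R : Type*} [Field K] [CommRing R] [IsDomain R] [Algebra K R]

theorem h28_finrank_quotient_span_of_associated {a b : R} (h : Associated a b) :
    finrank K (R ⧸ Ideal.span {a}) = finrank K (R ⧸ Ideal.span {b}) := by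
  rw [Ideal.span_singleton_eq_span_singleton.mpr h]

theorem h28_finrank_quotient_span_prod
    (hfin : ∀ a : R, a ≠ 0 → Module.Finite K (R ⧸ Ideal.span {a}))
    {ι : Type*} (s : Finset ι) (a : ι → R) (ha : ∀ i ∈ s, a i ≠ 0) :
    finrank K (R ⧸ Ideal.span {∏ i ∈ s, a i}) = ∑ i ∈ s, finrank K (R ⧸ Ideal.span {a i}) := by
  classical
  induction s using Finset.induction_on with
  | empty =>
    have : Subsingleton (R ⧸ (Ideal.span {∏ i ∈ (∅ : Finset ι), a i} : Ideal R)) := by
      rw [Finset.prod_empty]
      exact Ideal.Quotient.subsingleton_iff.mpr Ideal.span_singleton_one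
    rw [Finset.sum_empty]
    exact Module.finrank_zero_of_subsingleton
  | insert i s hi ih =>
    rw [Finset.prod_insert hi, Finset.sum_insert hi]
    have hai : a i ≠ 0 := ha i (Finset.mem_insert_self i s)
    have has : ∀ j ∈ s, a j ≠ 0 := fun j hj => ha j (Finset.mem_insert_of_mem hj)
    have hprod : ∏ j ∈ s, a j ≠ 0 := Finset.prod_ne_zero_iff.mpr has
    rw [h28_finrank_quotient_span_mul K hai (hfin _ (mul_ne_zero hai hprod)), ih has]

variable [IsPrincipalIdealRing R]
  {M : Type*} [AddCommGroup M] [Module R M] [Module K M] [IsScalarTower K R M]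
  {ι : Type*} [Fintype ι] [DecidableEq ι]

omit [Algebra K R] in
theorem h28_injective_of_det_ne_zero (b : Basis ι R M) (f : M →ₗ[R] M)
    (hdet : LinearMap.det f ≠ 0) : Function.Injective f := by
  rw [← LinearMap.det_toMatrix b] at hdet
  have h := Matrix.mulVec_injective_of_det_ne_zero hdet
  rw [injective_iff_map_eq_zero]
  intro x hx
  have h1 : (LinearMap.toMatrix b b f).mulVec (b.repr x) = b.repr (f x) :=
    LinearMap.toMatrix_mulVec_repr b b f x
  rw [hx, map_zero, Finsupp.coe_zero] at h1
  have h2 : (b.repr x : ι → R) = 0 := h (by rw [h1, Matrix.mulVec_zero])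
  have h3 : b.repr x = 0 := by
    ext i
    exact congrFun h2 i
  exact b.repr.map_eq_zero_iff.mp h3

omit [Algebra K R] in
theorem h28_finrank_range (f : M →ₗ[R] M) (hf : Function.Injective f) :
    finrank R (LinearMap.range f) = finrank R M :=
  (LinearEquiv.ofInjective f hf).finrank_eq.symm

omit [Algebra K R] in
theorem h28_associated_det_prod_smith (b : Basis ι R M) (f : M →ₗ[R] M)
    (hf : Function.Injective f) (h : finrank R (LinearMap.range f) = finrank R M) :
    Associated (LinearMap.det f) (∏ i, Submodule.smithNormalFormCoeffs b h i) := by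
  let b' := Submodule.smithNormalFormTopBasis b h
  let ab := Submodule.smithNormalFormBotBasis b h
  let a := Submodule.smithNormalFormCoeffs b h
  have hab : ∀ i, (ab i : M) = a i • b' i := Submodule.smithNormalFormBotBasis_def b h
  let e : M ≃ₗ[R] M := (b'.equiv ab (Equiv.refl ι)).trans (LinearEquiv.ofInjective f hf).symm
  rw [← Matrix.det_diagonal, ← LinearMap.det_toLin b']
  have key : Matrix.toLin b' b' (Matrix.diagonal a) = f ∘ₗ (e : M →ₗ[R] M) := by
    refine b'.ext fun i => ?_
    have h1 : (LinearEquiv.ofInjective f hf) ((LinearEquiv.ofInjective f hf).symm (ab i))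
        = ab i := LinearEquiv.apply_symm_apply _ _
    have h2 : f ((LinearEquiv.ofInjective f hf).symm (ab i)) = (ab i : M) := by
      conv_rhs => rw [← h1]
      rfl
    simp only [Matrix.toLin_apply, Basis.repr_self, Finsupp.single_eq_pi_single,
      Matrix.diagonal_mulVec_single, Pi.single_apply, ite_smul, zero_smul, Finset.sum_ite_eq',
      mul_one, if_pos (Finset.mem_univ _), LinearMap.comp_apply, LinearEquiv.coe_coe, e,
      LinearEquiv.trans_apply, Basis.equiv_apply, Equiv.refl_apply]
    rw [h2, hab]
  refine (LinearMap.associated_det_of_eq_comp e _ _ ?_).symm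
  intro x
  rw [key]
  rfl

/-- **Index = determinant**: for an endomorphism `f` with nonzero determinant of a finite free
module `M` over the principal ideal domain `R`, `dim_K (M / f M) = dim_K (R / (det f))`. -/
theorem finrank_quotient_range_eq
    (hfin : ∀ a : R, a ≠ 0 → Module.Finite K (R ⧸ Ideal.span {a}))
    (b : Basis ι R M) (f : M →ₗ[R] M) (hdet : LinearMap.det f ≠ 0) :
    finrank K (M ⧸ LinearMap.range f) = finrank K (R ⧸ Ideal.span {LinearMap.det f}) := by
  have hf := h28_injective_of_det_ne_zero b f hdet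
  have h := h28_finrank_range f hf
  haveI : ∀ i, Module.Finite K (R ⧸ Ideal.span {Submodule.smithNormalFormCoeffs b h i}) :=
    fun i => hfin _ (Submodule.smithNormalFormCoeffs_ne_zero b h i)
  rw [Submodule.finrank_quotient_eq_sum K b h,
    h28_finrank_quotient_span_of_associated K (h28_associated_det_prod_smith b f hf h),
    h28_finrank_quotient_span_prod K hfin Finset.univ _
      (fun i _ => Submodule.smithNormalFormCoeffs_ne_zero b h i)]

end Range

end Fermat.Agent.S20.Idx
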