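import Fermat.Agent.S20.H28_Index

/-!
# S20, package L5 (helper28): index of a lattice in a bigger lattice given in coordinates

`R` a principal ideal domain and `K`-algebra, `Q` its fraction field, `V` a `Q`-vector space with
basis `c`.  `Lstar` is the `R`-lattice spanned by `c`, and `L` the sublattice spanned by the
vectors `∑ i, G i j • c i` for a matrix `G` over `R` with nonzero determinant.  Then
`dim_K (Lstar / L) = dim_K (R / (det G))`.
-/

set_option autoImplicit false
set_option linter.unusedSectionVars false
set_option linter.style.haveILetI false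

open Module

namespace Fermat.Agent.S20.Idx

section Lattice

variable (K : Type*) {R Q V : Type*} [Field K] [CommRing R] [IsDomain R] [IsPrincipalIdealRing R]
  [Algebra K R] [Field Q] [Algebra R Q] [Algebra K Q] [IsScalarTower K R Q]
  [AddCommGroup V] [Module Q V] [Module K V] [IsScalarTower K Q V]
  {ι : Type*} [Fintype ι] [DecidableEq ι]

/-- The coordinate parametrisation `w ↦ ∑ i, w i • c i` of the lattice spanned by `c`. -/
noncomputable def h28_param (c : Basis ι Q V) : (ι → R) →ₗ[K] V where
  toFun w := ∑ i, algebraMap R Q (w i) • c i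
  map_add' w w' := by
    simp only [Pi.add_apply, map_add, add_smul, Finset.sum_add_distrib]
  map_smul' k w := by
    simp only [Pi.smul_apply, RingHom.id_apply, Finset.smul_sum]
    refine Finset.sum_congr rfl fun i _ => ?_
    rw [← smul_assoc]
    congr 1
    rw [Algebra.smul_def, Algebra.smul_def, map_mul, ← IsScalarTower.algebraMap_apply]

omit [IsDomain R] [IsPrincipalIdealRing R] [DecidableEq ι] in
theorem h28_param_apply (c : Basis ι Q V) (w : ι → R) :
    h28_param K c w = ∑ i, algebraMap R Q (w i) • c i := rfl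

omit [IsDomain R] [IsPrincipalIdealRing R] in
theorem h28_repr_param (c : Basis ι Q V) (w : ι → R) (i : ι) :
    c.repr (h28_param K c w) i = algebraMap R Q (w i) := by
  rw [h28_param_apply, c.repr_sum_self]

variable [IsFractionRing R Q]

/-- **Index of a sublattice given by a matrix.** -/
theorem finrank_lattice_quotient
    (hfin : ∀ a : R, a ≠ 0 → Module.Finite K (R ⧸ Ideal.span {a}))
    (c : Basis ι Q V) (G : Matrix ι ι R) (hG : G.det ≠ 0) (L Lstar : Submodule K V)
    (hLstar : ∀ v, v ∈ Lstar ↔ ∀ i, c.repr v i ∈ (algebraMap R Q).range)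
    (hL : ∀ v, v ∈ L ↔ ∃ w : ι → R, ∀ i, c.repr v i = algebraMap R Q (G.mulVec w i)) :
    finrank K (↥Lstar ⧸ L.submoduleOf Lstar) = finrank K (R ⧸ Ideal.span {G.det}) := by
  have hinj : Function.Injective (algebraMap R Q) := IsFractionRing.injective R Q
  -- the parametrisation lands in `Lstar`
  have hmem : ∀ w : ι → R, h28_param K c w ∈ Lstar := fun w =>
    (hLstar _).mpr fun i => ⟨w i, (h28_repr_param K c w i).symm⟩
  let ψ : (ι → R) →ₗ[K] ↥Lstar := LinearMap.codRestrict Lstar (h28_param K c) hmem
  let Θ : (ι → R) →ₗ[K] (↥Lstar ⧸ L.submoduleOf Lstar) := (L.submoduleOf Lstar).mkQ ∘ₗ ψ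
  have hψsurj : Function.Surjective ψ := by
    rintro ⟨v, hv⟩
    choose w hw using (hLstar v).mp hv
    refine ⟨w, Subtype.ext ?_⟩
    show h28_param K c w = v
    apply c.repr.injective
    ext i
    rw [h28_repr_param, hw]
  have hΘsurj : Function.Surjective Θ :=
    (Submodule.mkQ_surjective _).comp hψsurj
  have hker : LinearMap.ker Θ = (LinearMap.range (Matrix.mulVecLin G)).restrictScalars K := by
    ext w
    simp only [Θ, LinearMap.mem_ker, LinearMap.comp_apply, Submodule.mkQ_apply,
      Submodule.Quotient.mk_eq_zero, Submodule.restrictScalars_mem,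
      LinearMap.mem_range, Matrix.mulVecLin_apply]
    have hmemL : ψ w ∈ L.submoduleOf Lstar ↔ h28_param K c w ∈ L := Iff.rfl
    rw [hmemL, hL]
    constructor
    · rintro ⟨w', hw'⟩
      refine ⟨w', funext fun i => hinj ?_⟩
      rw [← hw' i, h28_repr_param]
    · rintro ⟨w', rfl⟩
      exact ⟨w', fun i => h28_repr_param K c _ i⟩
  have e := (LinearMap.quotKerEquivOfSurjective Θ hΘsurj).finrank_eq
  rw [← e]
  have h1 : finrank K ((ι → R) ⧸ LinearMap.ker Θ)
      = finrank K ((ι → R) ⧸ LinearMap.range (Matrix.mulVecLin G)) := by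
    rw [hker]
    rfl
  rw [h1]
  have hdet : LinearMap.det (Matrix.mulVecLin G) = G.det := by
    rw [← Matrix.toLin'_apply', LinearMap.det_toLin']
  have h2 := finrank_quotient_range_eq K hfin (Pi.basisFun R ι) (Matrix.mulVecLin G)
    (by rw [hdet]; exact hG)
  rw [h2, hdet]

end Lattice

end Fermat.Agent.S20.Idx
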