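import Fermat.Agent.S20.H28_Lattice
import Fermat.Agent.S20.H27_Dual

/-!
# S20, package L5 (helper28): index of a lattice in its trace dual

`R` a principal ideal domain with fraction field `RatFunc K` (`R = K[X]` or the valuation ring at
infinity), `F / RatFunc K` finite separable, `e` a basis of `F` with `Tr (e i * e j) ∈ R`,
`L` the `R`-lattice spanned by `e` and `Lstar` its trace dual. Then
`dim_K (Lstar / L) = dim_K (R / (det (Tr (e i * e j))))`.
-/

set_option autoImplicit false
set_option linter.unusedSectionVars false
set_option linter.style.haveILetI false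

open Module Polynomial

namespace Fermat.Agent.S20.Idx

open Fermat.Agent.S20.L3

section Trace

variable (K : Type*) [Field K] {R : Type*} [CommRing R] [IsDomain R] [IsPrincipalIdealRing R]
  [Algebra K R] [Algebra R (RatFunc K)] [IsScalarTower K R (RatFunc K)]
  [IsFractionRing R (RatFunc K)]
  {F : Type*} [Field F] [Algebra (RatFunc K) F] [Algebra K F] [IsScalarTower K (RatFunc K) F]
  [FiniteDimensional (RatFunc K) F] [Algebra.IsSeparable (RatFunc K) F]
  {ι : Type*} [Fintype ι] [DecidableEq ι]

theorem h28_det_ne_zero (e : Basis ι (RatFunc K) F) (G : Matrix ι ι R)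
    (hG : ∀ i j, algebraMap R (RatFunc K) (G i j) = Algebra.trace (RatFunc K) F (e i * e j)) :
    G.det ≠ 0 := by
  intro h0
  have h1 : (G.map (algebraMap R (RatFunc K))).det = 0 := by
    rw [← RingHom.mapMatrix_apply, ← RingHom.map_det, h0, map_zero]
  have h2 : G.map (algebraMap R (RatFunc K)) = Algebra.traceMatrix (RatFunc K) e := by
    ext i j
    rw [Matrix.map_apply, hG, Algebra.traceMatrix_apply, Algebra.traceForm_apply]
  rw [h2] at h1
  exact Algebra.discr_not_zero_of_basis (RatFunc K) e h1

/-- **Index of a lattice in its trace dual.** -/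
theorem finrank_traceDual_quotient
    (hfin : ∀ a : R, a ≠ 0 → Module.Finite K (R ⧸ Ideal.span {a}))
    (e : Basis ι (RatFunc K) F) (G : Matrix ι ι R)
    (hG : ∀ i j, algebraMap R (RatFunc K) (G i j) = Algebra.trace (RatFunc K) F (e i * e j))
    (L Lstar : Submodule K F)
    (hL : ∀ v, v ∈ L ↔ ∀ i, e.repr v i ∈ (algebraMap R (RatFunc K)).range)
    (hLstar : ∀ v, v ∈ Lstar ↔
      ∀ a, a ∈ L → Algebra.trace (RatFunc K) F (v * a) ∈ (algebraMap R (RatFunc K)).range) :
    finrank K (↥Lstar ⧸ L.submoduleOf Lstar) = finrank K (R ⧸ Ideal.span {G.det}) := by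
  have hinj : Function.Injective (algebraMap R (RatFunc K)) := IsFractionRing.injective R _
  have hsymm : ∀ i j, G i j = G j i := fun i j => hinj (by rw [hG, hG, mul_comm])
  have hei : ∀ i, e i ∈ L := fun i => (hL _).mpr fun j => by
    rw [e.repr_self, Finsupp.single_apply]
    split_ifs
    · exact ⟨1, map_one _⟩
    · exact ⟨0, map_zero _⟩
  -- coordinates of an element of `L` in the dual basis
  have hcoord : ∀ (w : ι → R) (i : ι),
      (bstar e).repr (∑ j, algebraMap R (RatFunc K) (w j) • e j) i
        = algebraMap R (RatFunc K) (G.mulVec w i) := by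
    intro w i
    rw [bstar_repr_apply, Finset.sum_mul, map_sum, Matrix.mulVec, dotProduct, map_sum]
    refine Finset.sum_congr rfl fun j _ => ?_
    rw [smul_mul_assoc, map_smul, smul_eq_mul, ← hG, hsymm i j, map_mul, mul_comm]
  refine finrank_lattice_quotient K hfin (bstar e) G (h28_det_ne_zero K e G hG) L Lstar ?_ ?_
  · intro v
    rw [hLstar]
    constructor
    · intro h i
      rw [bstar_repr_apply]
      exact h _ (hei i)
    · intro h a ha
      rw [trace_mul_eq_sum e]
      exact Subring.sum_mem _ fun i _ => Subring.mul_mem _ (h i) ((hL a).mp ha i)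
  · intro v
    constructor
    · intro hv
      choose w hw using (hL v).mp hv
      refine ⟨w, fun i => ?_⟩
      rw [← hcoord w i]
      congr 2
      conv_lhs => rw [← e.sum_repr v]
      exact Finset.sum_congr rfl fun j _ => by rw [hw j]
    · rintro ⟨w, hw⟩
      have hv : v = ∑ j, algebraMap R (RatFunc K) (w j) • e j := by
        apply (bstar e).repr.injective
        ext i
        rw [hw i, hcoord w i]
      rw [hv, hL]
      intro i
      rw [e.repr_sum_self]
      exact ⟨w i, rfl⟩

end Trace

end Fermat.Agent.S20.Idx
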