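import Fermat.Agent.S20.H29_RRAssembly
import Fermat.Agent.S24.H2_PlacesDedekind

/-!
# S20, algebraic half: from the lattice form of Riemann-Roch to the place form (helper29)

Setting of `Alg_Defs`: `F` a finite separable extension of `RatFunc K`, `x = xF K F` the image of
`X`.  This file contains the *wiring* of the bridge packages:

* `finite_regDiff` : `regDiff K F` is finite dimensional over `K` (unconditional);
* `mem_regDiff_iff_places` ([Br4]) : `u ∈ regDiff K F` iff `u dx` is regular at all places, given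
  the place form of the two trace duals ([Br2a], [Br2b]) as hypotheses;
* `hconst_of_places` : the hypothesis `hL0` (functions without poles are constant) implies the
  hypothesis `hconst` of Riemann-Roch for lattices, given the easy halves of [Br1a], [Br1b];
* `alg_main_rat_of_leaves` ([Br6]) : the place form of Riemann-Roch for lattices with all bridge
  packages as explicit hypotheses.
-/

set_option autoImplicit false
set_option linter.unusedSectionVars false

open Polynomial Module AlgebraicCurve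

namespace Fermat.Agent.S20.RRA

open Fermat.Agent.S20.DW Fermat.Agent.S20.L3 Fermat.Agent.S20.Alg

variable {K : Type*} [Field K] [DecidableEq (RatFunc K)]
  {F : Type*} [Field F] [Algebra (RatFunc K) F] [Algebra K[X] F]
  [IsScalarTower K[X] (RatFunc K) F] [Algebra K F] [IsScalarTower K (RatFunc K) F]

theorem xF_ne_zero : xF K F ≠ 0 := by
  rw [Ne, map_eq_zero]
  exact RatFunc.X_ne_zero

section finite

variable [FiniteDimensional (RatFunc K) F] [Algebra.IsSeparable (RatFunc K) F]

/-- `regDiff K F` is the coordinate space `regSub b d` of a simultaneous reduced basis. -/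
theorem regDiff_eq_regSub {ι : Type*} [Fintype ι] [DecidableEq ι]
    {b : Basis ι (RatFunc K) F} {d : ι → ℤ}
    (hb : IsPolyLattice b {h : F | IsIntegral K[X] h})
    (hd : ∀ v : F, IsIntegral (Oinf K) v ↔ ∀ i, b.repr v i = 0 ∨ (b.repr v i).intDegree ≤ d i) :
    regDiff K F = regSub b d := by
  have hA : {h : F | IsIntegral K[X] h} = polyLat b := Set.ext fun v => hb v
  have hB : {h : F | IsIntegral (Oinf K) h} = inftyLat b d := Set.ext fun v => hd v
  ext h
  rw [mem_regDiff_iff, mem_regSub_iff, hA, hB]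

/-- The space of regular differentials is finite dimensional. -/
theorem finite_regDiff : Module.Finite K (regDiff K F) := by
  obtain ⟨b, d, hb, -, hd⟩ := exists_reduced_basis_integral K F
  rw [regDiff_eq_regSub hb hd]
  unfold regSub
  infer_instance

end finite

section places

/-- [Br4] `u ∈ A* ∩ X⁻² B*` iff `u dx` is regular at every place, given the place form of the
two trace duals. -/
theorem mem_regDiff_iff_places
    (hBr2a : ∀ u : F, u ≠ 0 → (u ∈ Adual K F ↔ ∀ (v : Place K F) (c : K),
      0 < v.ord (xF K F - algebraMap K F c) →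
        0 ≤ v.ord u + v.ord (xF K F - algebraMap K F c) - 1))
    (hBr2b : ∀ u : F, u ≠ 0 → (u ∈ Bdual K F ↔ ∀ v : Place K F, v.ord (xF K F) < 0 →
      0 ≤ v.ord u - v.ord (xF K F) - 1))
    (u : F) :
    u ∈ regDiff K F ↔ (u = 0 ∨
      ((∀ (v : Place K F) (c : K), 0 < v.ord (xF K F - algebraMap K F c) →
          0 ≤ v.ord u + v.ord (xF K F - algebraMap K F c) - 1) ∧
        (∀ v : Place K F, v.ord (xF K F) < 0 → 0 ≤ v.ord u + v.ord (xF K F) - 1))) := by
  rcases eq_or_ne u 0 with rfl | hu
  · simp only [true_or, iff_true]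
    exact zero_mem _
  have hx : xF K F ≠ 0 := xF_ne_zero
  have hx2 : xF K F ^ 2 ≠ 0 := pow_ne_zero 2 hx
  have hord : ∀ v : Place K F, v.ord (xF K F ^ 2 * u) = 2 * v.ord (xF K F) + v.ord u := by
    intro v
    rw [v.ord_mul hx2 hu, ← zpow_ofNat, v.ord_zpow]
  rw [mem_regDiff, hBr2a u hu, hBr2b _ (mul_ne_zero hx2 hu)]
  simp only [hu, false_or]
  refine and_congr Iff.rfl (forall_congr' fun v => imp_congr Iff.rfl ?_)
  rw [hord v]
  constructor <;> intro h <;> linarith

/-- `hL0` implies `hconst`: an element integral over both rings lies in every valuation ring,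
hence is constant. -/
theorem hconst_of_places
    (hBr1a : ∀ u : F, IsIntegral K[X] u →
      ∀ v : Place K F, xF K F ∈ v.toValuationSubring → u ∈ v.toValuationSubring)
    (hBr1b : ∀ u : F, IsIntegral (Oinf K) u →
      ∀ v : Place K F, xF K F ∉ v.toValuationSubring → u ∈ v.toValuationSubring)
    (hL0 : ∀ u : F, u ≠ 0 → (∀ v : Place K F, 0 ≤ v.ord u) → u ∈ Set.range (algebraMap K F))
    (h : F) (h1 : IsIntegral K[X] h) (h2 : IsIntegral (Oinf K) h) :
    ∃ c : K, h = algebraMap K F c := by
  rcases eq_or_ne h 0 with rfl | h0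
  · exact ⟨0, (map_zero _).symm⟩
  have hmem : ∀ v : Place K F, 0 ≤ v.ord h := by
    intro v
    rw [← Fermat.Agent.S24.Alg.mem_iff_ord_nonneg v h0]
    by_cases hx : xF K F ∈ v.toValuationSubring
    · exact hBr1a h h1 v hx
    · exact hBr1b h h2 v hx
  obtain ⟨c, hc⟩ := hL0 h h0 hmem
  exact ⟨c, hc.symm⟩

variable [FiniteDimensional (RatFunc K) F] [Algebra.IsSeparable (RatFunc K) F]

/-- [Br6] **Riemann-Roch for lattices in place form**, with the bridge packages as explicit
hypotheses: `hBr1a`, `hBr1b` (integral elements lie in the valuation rings), `hBr2a`, `hBr2b`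
(trace duals in place form), `hL5` (index = discriminant), `hcodimA`, `hcodimB`, `hrF_le`,
`hrI_le` (tame different count, with `rF c` / `rI` the number of primes over `c` / over `∞`),
`h5a`, `h5b`, `h5c` (primes = places). -/
theorem alg_main_rat_of_leaves
    (hBr1a : ∀ u : F, IsIntegral K[X] u →
      ∀ v : Place K F, xF K F ∈ v.toValuationSubring → u ∈ v.toValuationSubring)
    (hBr1b : ∀ u : F, IsIntegral (Oinf K) u →
      ∀ v : Place K F, xF K F ∉ v.toValuationSubring → u ∈ v.toValuationSubring)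
    (hBr2a : ∀ u : F, u ≠ 0 → (u ∈ Adual K F ↔ ∀ (v : Place K F) (c : K),
      0 < v.ord (xF K F - algebraMap K F c) →
        0 ≤ v.ord u + v.ord (xF K F - algebraMap K F c) - 1))
    (hBr2b : ∀ u : F, u ≠ 0 → (u ∈ Bdual K F ↔ ∀ v : Place K F, v.ord (xF K F) < 0 →
      0 ≤ v.ord u - v.ord (xF K F) - 1))
    (hL5 : CodimHyp K F)
    (rF : K → ℕ) (rI : ℕ)
    (hcodimA : ∀ S : Finset K, (∀ c, c ∉ S → rF c = finrank (RatFunc K) F) →
      codim (Aint K F) (Adual K F) = ∑ c ∈ S, (finrank (RatFunc K) F - rF c))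
    (hcodimB : codim (Bint K F) (Bdual K F) = finrank (RatFunc K) F - rI)
    (hrF_le : ∀ c, rF c ≤ finrank (RatFunc K) F) (hrI_le : rI ≤ finrank (RatFunc K) F)
    (h5a : ∀ c, rF c = Nat.card {v : Place K F // 0 < v.ord (xF K F - algebraMap K F c)})
    (h5b : rI = Nat.card {v : Place K F // 0 < v.ord (xF K F)⁻¹})
    (h5c : ∀ c, (∀ v : Place K F, 0 < v.ord (xF K F - algebraMap K F c) →
      v.ord (xF K F - algebraMap K F c) = 1) → rF c = finrank (RatFunc K) F)
    (hL0 : ∀ u : F, u ≠ 0 → (∀ v : Place K F, 0 ≤ v.ord u) → u ∈ Set.range (algebraMap K F))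
    (B : Finset K)
    (hB : ∀ c, c ∉ B → ∀ v : Place K F, 0 < v.ord (xF K F - algebraMap K F c) →
      v.ord (xF K F - algebraMap K F c) = 1)
    (W : Submodule K F)
    (hW : ∀ u, u ∈ W ↔ (u = 0 ∨
      ((∀ (v : Place K F) (c : K), 0 < v.ord (xF K F - algebraMap K F c) →
          0 ≤ v.ord u + v.ord (xF K F - algebraMap K F c) - 1) ∧
        (∀ v : Place K F, v.ord (xF K F) < 0 → 0 ≤ v.ord u + v.ord (xF K F) - 1)))) :
    Module.Finite K W ∧ 2 * (Module.finrank K W : ℤ) - 2 =
      ∑ c ∈ B, ((finrank (RatFunc K) F : ℤ) -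
          (Nat.card {v : Place K F // 0 < v.ord (xF K F - algebraMap K F c)} : ℤ)) -
        ((finrank (RatFunc K) F : ℤ) + (Nat.card {v : Place K F // 0 < v.ord (xF K F)⁻¹} : ℤ)) := by
  have hWeq : W = regDiff K F := by
    ext u
    rw [hW, mem_regDiff_iff_places hBr2a hBr2b]
  subst hWeq
  refine ⟨finite_regDiff, ?_⟩
  have hconst := hconst_of_places hBr1a hBr1b hL0
  have hS : ∀ c, c ∉ B → rF c = finrank (RatFunc K) F := fun c hc => h5c c (hB c hc)
  have hA : (codim (Aint K F) (Adual K F) : ℤ) =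
      ∑ c ∈ B, ((finrank (RatFunc K) F : ℤ) - (rF c : ℤ)) := by
    rw [hcodimA B hS]
    push_cast
    exact Finset.sum_congr rfl fun c _ => by rw [Nat.cast_sub (hrF_le c)]
  have hB' : (codim (Bint K F) (Bdual K F) : ℤ) = (finrank (RatFunc K) F : ℤ) - (rI : ℤ) := by
    rw [hcodimB, Nat.cast_sub hrI_le]
  have hrr := riemann_roch_of_counts hconst hL5 hA hB'
  have e1 : ∑ c ∈ B, ((finrank (RatFunc K) F : ℤ) -
      (Nat.card {v : Place K F // 0 < v.ord (xF K F - algebraMap K F c)} : ℤ)) =
      ∑ c ∈ B, ((finrank (RatFunc K) F : ℤ) - (rF c : ℤ)) :=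
    Finset.sum_congr rfl fun c _ => by rw [h5a c]
  rw [e1, ← h5b]
  linarith

end places

end Fermat.Agent.S20.RRA
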