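import Fermat.Agent.S20.H26_Final

/-!
# S20, algebraic half, bridge [Br8] (helper29): Kaehler form versus explicit form

For a function `x` satisfying the standing hypotheses `RH.CountData x n` of the Riemann-Hurwitz
count, the place-wise condition "`u dx` is regular" (`Final.IsRegularCoeff`, phrased with the
order of the Kaehler differential `dx`) is equivalent to the explicit condition

* `ord_v u + ord_v (x - c) - 1 ≥ 0` at every zero `v` of `x - c`,
* `ord_v u + ord_v x - 1 ≥ 0` at every pole `v` of `x`.
-/

set_option autoImplicit false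
set_option linter.unusedSectionVars false

open AlgebraicCurve KaehlerDifferential

namespace Fermat.Agent.S20.RRA

open Fermat.Agent.S24 Fermat.Agent.S20.Final

variable {K F : Type*} [Field K] [Field F] [Algebra K F]

/-- [Br8] The Kaehler form of regularity is the explicit form. -/
theorem isRegularCoeff_iff_explicit [CharZero K] [Nontrivial Ω[F⁄K]] {x : F} {n : ℕ}
    (h : RH.CountData (K := K) x n) (u : F) :
    IsRegularCoeff (K := K) x u ↔ (u = 0 ∨
      ((∀ (v : Place K F) (c : K), 0 < v.ord (x - algebraMap K F c) →
          0 ≤ v.ord u + v.ord (x - algebraMap K F c) - 1) ∧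
        (∀ v : Place K F, v.ord x < 0 → 0 ≤ v.ord u + v.ord x - 1))) := by
  have hfin := h.fin
  refine or_congr Iff.rfl ⟨fun hu => ⟨fun v c hc => ?_, fun v hv => ?_⟩, fun hu v => ?_⟩
  · have := hu v
    rw [RH.ordDifferential_D_of_zero v (h.res v) hc] at this
    linarith
  · have := hu v
    rw [RH.ordDifferential_D_of_pole v (h.res v) hv] at this
    linarith
  · rcases RH.ord_pos_or_ord_neg v (h.res v) h.not_const with hneg | ⟨c, hc⟩
    · rw [RH.ordDifferential_D_of_pole v (h.res v) hneg]
      have := hu.2 v hneg
      linarith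
    · rw [RH.ordDifferential_D_of_zero v (h.res v) hc]
      have := hu.1 v c hc
      linarith

/-- The explicit description of `Final.regSub`. -/
theorem mem_regSub_iff_explicit [CharZero K] [Nontrivial Ω[F⁄K]] {x : F} {n : ℕ}
    (h : RH.CountData (K := K) x n) (u : F) :
    u ∈ regSub K x ↔ (u = 0 ∨
      ((∀ (v : Place K F) (c : K), 0 < v.ord (x - algebraMap K F c) →
          0 ≤ v.ord u + v.ord (x - algebraMap K F c) - 1) ∧
        (∀ v : Place K F, v.ord x < 0 → 0 ≤ v.ord u + v.ord x - 1))) :=
  isRegularCoeff_iff_explicit h u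

/-- [Br8] **ALG-MAIN in Kaehler form** from ALG-MAIN in explicit form: if the count holds for
every subspace `W` cut out by the explicit regularity condition, then it holds for
`Final.regSub K x`. -/
theorem alg_main_kaehler_of_explicit [CharZero K] [Nontrivial Ω[F⁄K]] {x : F} {n : ℕ}
    (h : RH.CountData (K := K) x n) {P : Submodule K F → Prop}
    (hexp : ∀ W : Submodule K F, (∀ u, u ∈ W ↔ (u = 0 ∨
      ((∀ (v : Place K F) (c : K), 0 < v.ord (x - algebraMap K F c) →
          0 ≤ v.ord u + v.ord (x - algebraMap K F c) - 1) ∧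
        (∀ v : Place K F, v.ord x < 0 → 0 ≤ v.ord u + v.ord x - 1)))) → P W) :
    P (regSub K x) :=
  hexp _ (mem_regSub_iff_explicit h)

end Fermat.Agent.S20.RRA
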