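import Fermat.Agent.S20.H29_Generic
import Fermat.Agent.S20.H29_Kaehler
import Fermat.Agent.S20.H29_AlgMainRat
import Fermat.Agent.S24.H2_FunField
import Fermat.Agent.S24.H15_Fin
import Fermat.Agent.S24.H13_Transc

/-!
# S20, algebraic half, bridges [Br7] + [Br8] (helper29): ALG-MAIN for a generic function field

* `AlgMainStmt K F x n` : the statement of ALG-MAIN in explicit place form for the function `x`
  and the degree `n` (it only depends on the `K`-algebra `F`);
* `algMainStmt_of_leaves` : [Br6] in this language;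
* `algMainStmt_generic` : [Br7] transport along the `RatFunc K`-algebra structure attached to a
  transcendental `x` with `F` finite over `K⟮x⟯`;
* `countData_finrank` : `RH.CountData x n` forces `n = [F : K⟮x⟯]`;
* `algMain_of_stmt` : [Br8] the conclusion of `Final.AlgMain` at `(x, n)` from `AlgMainStmt`.
-/

set_option autoImplicit false
set_option linter.unusedSectionVars false
set_option linter.style.haveILetI false

open Polynomial Module AlgebraicCurve IntermediateField KaehlerDifferential

namespace Fermat.Agent.S20.RRA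

open Fermat.Agent.S24 Fermat.Agent.S20.Final Fermat.Agent.S20.Alg

/-- **ALG-MAIN, explicit place form**, for the function `x` and the degree `n`. -/
def AlgMainStmt (K : Type*) [Field K] (F : Type*) [Field F] [Algebra K F] (x : F) (n : ℕ) :
    Prop :=
  (∀ u : F, u ≠ 0 → (∀ v : Place K F, 0 ≤ v.ord u) → u ∈ Set.range (algebraMap K F)) →
  ∀ B : Finset K,
    (∀ c, c ∉ B → ∀ v : Place K F, 0 < v.ord (x - algebraMap K F c) →
      v.ord (x - algebraMap K F c) = 1) →
  ∀ W : Submodule K F,
    (∀ u, u ∈ W ↔ (u = 0 ∨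
      ((∀ (v : Place K F) (c : K), 0 < v.ord (x - algebraMap K F c) →
          0 ≤ v.ord u + v.ord (x - algebraMap K F c) - 1) ∧
        (∀ v : Place K F, v.ord x < 0 → 0 ≤ v.ord u + v.ord x - 1)))) →
    Module.Finite K W ∧ 2 * (Module.finrank K W : ℤ) - 2 =
      ∑ c ∈ B, ((n : ℤ) - (Nat.card {v : Place K F // 0 < v.ord (x - algebraMap K F c)} : ℤ)) -
        ((n : ℤ) + (Nat.card {v : Place K F // 0 < v.ord x⁻¹} : ℤ))

section generic

variable {K F : Type*} [Field K] [Field F] [Algebra K F]

/-- [Br7] Transport of ALG-MAIN along the `RatFunc K`-algebra structure attached to `x`. -/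
theorem algMainStmt_generic (x : F) (hx : Transcendental K x)
    (h : letI := algRat x hx
      AlgMainStmt K F (algebraMap (RatFunc K) F RatFunc.X) (Module.finrank (RatFunc K) F)) :
    AlgMainStmt K F x (Module.finrank K⟮x⟯ F) := by
  have h1 := algebraMap_rat_X x hx
  have h2 := finrank_rat x hx
  rwa [h1, h2] at h

/-- `RH.CountData x n` forces `n = [F : K(x)]`. -/
theorem countData_finrank [CharZero K] {x : F} {n : ℕ} (hcd : RH.CountData (K := K) x n)
    (hx : Transcendental K x) [FiniteDimensional K⟮x⟯ F] :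
    n = Module.finrank K⟮x⟯ F := by
  obtain ⟨Z, hZ, hsum⟩ := Fermat.Agent.S24.Alg.exists_zeros x hx
  obtain ⟨S, hS, hSsum⟩ := hcd.zero 0
  rw [map_zero, sub_zero] at hS hSsum
  have hSZ : S = Z := by
    ext v
    rw [hS, hZ]
  subst hSZ
  have : (n : ℤ) = (Module.finrank K⟮x⟯ F : ℤ) := by
    rw [← hSsum, ← hsum]
    refine Finset.sum_congr rfl fun v _ => ?_
    rw [hcd.deg v]
    simp
  exact_mod_cast this

/-- A function satisfying `RH.CountData x n` with `0 < n` is transcendental. -/
theorem countData_transcendental {x : F} {n : ℕ} (hcd : RH.CountData (K := K) x n)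
    (hn : 0 < n) : Transcendental K x := by
  obtain ⟨P, hP, hPsum⟩ := hcd.pole
  have hne : P.Nonempty := by
    rw [Finset.nonempty_iff_ne_empty]
    rintro rfl
    rw [Finset.sum_empty] at hPsum
    have : (n : ℤ) = 0 := hPsum.symm
    omega
  obtain ⟨v, hv⟩ := hne
  have h1 := (hP v).mp hv
  rw [v.ord_inv] at h1
  exact Fermat.Agent.S24.LD.transcendental_of_ord_ne_zero v (by omega)

/-- [Br8] **The conclusion of `Final.AlgMain` at `(x, n)`** from the explicit form. -/
theorem algMain_of_stmt [CharZero K] {x : F} {n : ℕ} [FiniteDimensional K⟮x⟯ F]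
    (hstmt : AlgMainStmt K F x (Module.finrank K⟮x⟯ F))
    (hcd : RH.CountData (K := K) x n) (hn : 0 < n)
    (hL0 : ∀ u : F, u ≠ 0 → (∀ v : Place K F, 0 ≤ v.ord u) → u ∈ Set.range (algebraMap K F))
    (B : Finset K)
    (hB : ∀ c, c ∉ B → ∀ v : Place K F, 0 < v.ord (x - algebraMap K F c) →
      v.ord (x - algebraMap K F c) = 1) :
    Module.Finite K (regSub K x) ∧
    2 * (Module.finrank K (regSub K x) : ℤ) - 2 =
      ∑ c ∈ B, ((n : ℤ) - (Nat.card {v : Place K F // 0 < v.ord (x - algebraMap K F c)} : ℤ))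
        - ((n : ℤ) + (Nat.card {v : Place K F // 0 < v.ord x⁻¹} : ℤ)) := by
  have hx := countData_transcendental hcd hn
  obtain ⟨v⟩ := hcd.exists_place hn
  haveI : Nontrivial Ω[F⁄K] := RH.nontrivial_kaehler_place x v
  rw [countData_finrank hcd hx]
  exact hstmt hL0 B hB (regSub K x) (mem_regSub_iff_explicit hcd)

end generic

section rat

variable {K : Type*} [Field K] [DecidableEq (RatFunc K)]
  {F : Type*} [Field F] [Algebra (RatFunc K) F] [Algebra K[X] F]
  [IsScalarTower K[X] (RatFunc K) F] [Algebra K F] [IsScalarTower K (RatFunc K) F]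
  [FiniteDimensional (RatFunc K) F] [Algebra.IsSeparable (RatFunc K) F]

/-- [Br6] in the language of `AlgMainStmt`. -/
theorem algMainStmt_of_leaves
    (hBr1a : ∀ u : F, IsIntegral K[X] u →
      ∀ v : Place K F, xF K F ∈ v.toValuationSubring → u ∈ v.toValuationSubring)
    (hBr1b : ∀ u : F, IsIntegral (DW.Oinf K) u →
      ∀ v : Place K F, xF K F ∉ v.toValuationSubring → u ∈ v.toValuationSubring)
    (hBr2a : ∀ u : F, u ≠ 0 → (u ∈ Adual K F ↔ ∀ (v : Place K F) (c : K),
      0 < v.ord (xF K F - algebraMap K F c) →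
        0 ≤ v.ord u + v.ord (xF K F - algebraMap K F c) - 1))
    (hBr2b : ∀ u : F, u ≠ 0 → (u ∈ Bdual K F ↔ ∀ v : Place K F, v.ord (xF K F) < 0 →
      0 ≤ v.ord u - v.ord (xF K F) - 1))
    (hL5 : CodimHyp K F)
    (rF : K → ℕ) (rI : ℕ)
    (hcodimA : ∀ S : Finset K, (∀ c, c ∉ S → rF c = finrank (RatFunc K) F) →
      codim (Aint K F) (Adual K F) = ∑ c ∈ S, (finrank (RatFunc K) F - rF c))
    (hcodimB : codim (Bint K F) (Bdual K F) = finrank (RatFunc K) F - rI)
    (hrF_le : ∀ c, rF c ≤ finrank (RatFunc K) F) (hrI_le : rI ≤ finrank (RatFunc K) F)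
    (h5a : ∀ c, rF c = Nat.card {v : Place K F // 0 < v.ord (xF K F - algebraMap K F c)})
    (h5b : rI = Nat.card {v : Place K F // 0 < v.ord (xF K F)⁻¹})
    (h5c : ∀ c, (∀ v : Place K F, 0 < v.ord (xF K F - algebraMap K F c) →
      v.ord (xF K F - algebraMap K F c) = 1) → rF c = finrank (RatFunc K) F) :
    AlgMainStmt K F (algebraMap (RatFunc K) F RatFunc.X) (Module.finrank (RatFunc K) F) :=
  fun hL0 B hB W hW =>
    alg_main_rat_of_leaves hBr1a hBr1b hBr2a hBr2b hL5 rF rI hcodimA hcodimB hrF_le hrI_le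
      h5a h5b h5c hL0 B hB W hW

end rat

end Fermat.Agent.S20.RRA
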