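import Mathlib

/-!
# Dedekind–Weber / Birkhoff: reduced bases of polynomial lattices

Let `K` be a field, `F = RatFunc K`, `V` a finite-dimensional `F`-vector space. A *polynomial
lattice* is the set of vectors with polynomial coordinates with respect to some basis, a *lattice
at infinity* is the set of vectors whose coordinates with respect to some basis lie in the
valuation ring at infinity. We prove that for a polynomial lattice `M` and a lattice at infinity
`M'` there are a basis `b` and integers `d i` such that `M` is the polynomial lattice of `b` and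
`M'` is the lattice at infinity of the basis `X ^ (d i) • b i`.
-/

namespace Fermat.Agent.S20.DW

open Polynomial WithZero Module

variable {K : Type*} [Field K]
  {V : Type*} [AddCommGroup V] [Module (RatFunc K) V] {ι : Type*} [Fintype ι]

/-- `M` is the set of vectors with polynomial coordinates with respect to the basis `e`. -/
def IsPolyLattice (e : Basis ι (RatFunc K) V) (M : Set V) : Prop :=
  ∀ v, v ∈ M ↔ ∀ i, e.repr v i ∈ (algebraMap K[X] (RatFunc K)).range

theorem basis_mem {M : Set V} {b : Basis ι (RatFunc K) V} (hb : IsPolyLattice b M) (i : ι) :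
    b i ∈ M := by
  classical
  rw [hb]
  intro j
  rw [Basis.repr_self, Finsupp.single_apply]
  split_ifs
  · exact Subring.one_mem _
  · exact Subring.zero_mem _

/-! ### The exchange step -/

section exchange

variable [DecidableEq ι]

/-- The coordinate change of the exchange step. -/
noncomputable def exchEquiv (i₀ : ι) (c : K) (hc : c ≠ 0) (q : ι → RatFunc K) :
    (ι → RatFunc K) ≃ₗ[RatFunc K] (ι → RatFunc K) where
  toFun f := fun i => if i = i₀ then RatFunc.C c⁻¹ * f i₀ else f i - RatFunc.C c⁻¹ * f i₀ * q i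
  invFun g := fun i => if i = i₀ then RatFunc.C c * g i₀ else g i + g i₀ * q i
  map_add' f g := by
    funext i
    simp only [Pi.add_apply]
    split_ifs <;> ring
  map_smul' a f := by
    funext i
    simp only [Pi.smul_apply, smul_eq_mul, RingHom.id_apply]
    split_ifs <;> ring
  left_inv f := by
    have hcc : RatFunc.C c * RatFunc.C c⁻¹ = (1 : RatFunc K) := by
      rw [← map_mul, mul_inv_cancel₀ hc, map_one]
    funext i
    by_cases hi : i = i₀
    · subst hi
      simp only [if_true]
      rw [← mul_assoc, hcc, one_mul]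
    · simp only [if_neg hi, if_true]
      ring
  right_inv g := by
    have hcc : RatFunc.C c⁻¹ * RatFunc.C c = (1 : RatFunc K) := by
      rw [← map_mul, inv_mul_cancel₀ hc, map_one]
    funext i
    by_cases hi : i = i₀
    · subst hi
      simp only [if_true]
      rw [← mul_assoc, hcc, one_mul]
    · simp only [if_neg hi, if_true]
      rw [← mul_assoc, hcc]
      ring

/-- The basis obtained from `b` by replacing `b i₀` with `∑ i, q i • b i`, where `q i₀ = c` is a
nonzero constant. -/
noncomputable def exchBasis (b : Basis ι (RatFunc K) V) (i₀ : ι) (c : K) (hc : c ≠ 0)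
    (q : ι → RatFunc K) : Basis ι (RatFunc K) V :=
  Basis.ofEquivFun (b.equivFun.trans (exchEquiv i₀ c hc q))

theorem exchBasis_repr (b : Basis ι (RatFunc K) V) (i₀ : ι) (c : K) (hc : c ≠ 0)
    (q : ι → RatFunc K) (v : V) (i : ι) :
    (exchBasis b i₀ c hc q).repr v i =
      if i = i₀ then RatFunc.C c⁻¹ * b.repr v i₀
      else b.repr v i - RatFunc.C c⁻¹ * b.repr v i₀ * q i := by
  simp [exchBasis, exchEquiv]

theorem exchBasis_apply_self (b : Basis ι (RatFunc K) V) (i₀ : ι) (c : K) (hc : c ≠ 0)
    (q : ι → RatFunc K) (hq : q i₀ = RatFunc.C c) :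
    exchBasis b i₀ c hc q i₀ = ∑ i, q i • b i := by
  rw [exchBasis, Basis.coe_ofEquivFun]
  simp only [LinearEquiv.trans_symm, LinearEquiv.trans_apply, Basis.equivFun_symm_apply]
  refine Finset.sum_congr rfl fun i _ => ?_
  congr 1
  simp only [exchEquiv, LinearEquiv.coe_symm_mk']
  by_cases hi : i = i₀
  · subst hi
    simp [hq]
  · simp [hi]

theorem exchBasis_apply_of_ne (b : Basis ι (RatFunc K) V) (i₀ : ι) (c : K) (hc : c ≠ 0)
    (q : ι → RatFunc K) {j : ι} (hj : j ≠ i₀) :
    exchBasis b i₀ c hc q j = b j := by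
  rw [exchBasis, Basis.coe_ofEquivFun]
  simp only [LinearEquiv.trans_symm, LinearEquiv.trans_apply, Basis.equivFun_symm_apply]
  rw [← b.sum_repr (b j)]
  refine Finset.sum_congr rfl fun i _ => ?_
  congr 1
  simp only [exchEquiv, LinearEquiv.coe_symm_mk', Basis.repr_self]
  by_cases hi : i = i₀
  · subst hi
    simp [hj, Finsupp.single_apply]
  · simp [hi, hj, Finsupp.single_apply, Pi.single_apply, eq_comm]

theorem exchBasis_isPolyLattice {b : Basis ι (RatFunc K) V} {M : Set V} (hM : IsPolyLattice b M)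
    (i₀ : ι) (c : K) (hc : c ≠ 0) (q : ι → RatFunc K)
    (hq : ∀ i, q i ∈ (algebraMap K[X] (RatFunc K)).range) :
    IsPolyLattice (exchBasis b i₀ c hc q) M := by
  have hC : ∀ a : K, RatFunc.C a ∈ (algebraMap K[X] (RatFunc K)).range := fun a =>
    ⟨Polynomial.C a, RatFunc.algebraMap_C a⟩
  intro v
  rw [hM v]
  constructor
  · intro h i
    rw [exchBasis_repr]
    split_ifs
    · exact Subring.mul_mem _ (hC _) (h i₀)
    · exact Subring.sub_mem _ (h i) (Subring.mul_mem _ (Subring.mul_mem _ (hC _) (h i₀)) (hq i))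
  · intro h i
    have h0 := h i₀
    rw [exchBasis_repr, if_pos rfl] at h0
    have h1 : b.repr v i₀ ∈ (algebraMap K[X] (RatFunc K)).range := by
      have : b.repr v i₀ = RatFunc.C c * (RatFunc.C c⁻¹ * b.repr v i₀) := by
        rw [← mul_assoc, ← map_mul, mul_inv_cancel₀ hc, map_one, one_mul]
      rw [this]
      exact Subring.mul_mem _ (hC _) h0
    by_cases hi : i = i₀
    · rw [hi]; exact h1
    · have h2 := h i
      rw [exchBasis_repr, if_neg hi] at h2
      have : b.repr v i = (b.repr v i - RatFunc.C c⁻¹ * b.repr v i₀ * q i) +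
          RatFunc.C c⁻¹ * b.repr v i₀ * q i := by ring
      rw [this]
      exact Subring.add_mem _ h2 (Subring.mul_mem _ h0 (hq i))

end exchange

/-! ### The sup-norm at infinity with respect to a basis -/

variable [DecidableEq (RatFunc K)]

/-- `M'` is the set of vectors whose coordinates with respect to the basis `e` are integral at
infinity. -/
def IsInftyLattice (e : Basis ι (RatFunc K) V) (M' : Set V) : Prop :=
  ∀ v, v ∈ M' ↔ ∀ i, RatFunc.inftyValuation K (e.repr v i) ≤ 1

/-- The sup-norm (at infinity) with respect to a basis. -/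
noncomputable def nrm (e : Basis ι (RatFunc K) V) (v : V) : ℤᵐ⁰ :=
  Finset.univ.sup fun i => RatFunc.inftyValuation K (e.repr v i)

variable (e : Basis ι (RatFunc K) V)

theorem val_repr_le_nrm (v : V) (i : ι) : RatFunc.inftyValuation K (e.repr v i) ≤ nrm e v :=
  Finset.le_sup (f := fun i => RatFunc.inftyValuation K (e.repr v i)) (Finset.mem_univ i)

theorem nrm_le_iff {v : V} {B : ℤᵐ⁰} :
    nrm e v ≤ B ↔ ∀ i, RatFunc.inftyValuation K (e.repr v i) ≤ B := by
  simp [nrm, Finset.sup_le_iff]

theorem nrm_lt_iff {v : V} {B : ℤᵐ⁰} (hB : 0 < B) :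
    nrm e v < B ↔ ∀ i, RatFunc.inftyValuation K (e.repr v i) < B := by
  rw [nrm, Finset.sup_lt_iff (by simpa using hB)]
  simp

@[simp] theorem nrm_zero : nrm e (0 : V) = 0 := by
  apply le_antisymm _ zero_le
  rw [nrm_le_iff]
  intro i
  simp

theorem nrm_eq_zero {v : V} : nrm e v = 0 ↔ v = 0 := by
  constructor
  · intro h
    apply e.repr.injective
    ext i
    have := val_repr_le_nrm e v i
    rw [h] at this
    simpa using this
  · rintro rfl
    simp

theorem nrm_add_le (v w : V) : nrm e (v + w) ≤ max (nrm e v) (nrm e w) := by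
  rw [nrm_le_iff]
  intro i
  rw [map_add, Finsupp.add_apply]
  exact (Valuation.map_add _ _ _).trans
    (max_le_max (val_repr_le_nrm e v i) (val_repr_le_nrm e w i))

theorem nrm_smul (f : RatFunc K) (v : V) :
    nrm e (f • v) = RatFunc.inftyValuation K f * nrm e v := by
  apply le_antisymm
  · rw [nrm_le_iff]
    intro i
    rw [map_smul, Finsupp.smul_apply, smul_eq_mul, map_mul]
    exact mul_le_mul_right (val_repr_le_nrm e v i) _
  · by_cases hf : f = 0
    · simp [hf]
    have hf' : RatFunc.inftyValuation K f ≠ 0 := by simpa using hf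
    rw [← le_div_iff₀' (zero_lt_iff.mpr hf'), nrm_le_iff]
    intro i
    rw [le_div_iff₀' (zero_lt_iff.mpr hf'), ← map_mul]
    have := val_repr_le_nrm e (f • v) i
    rwa [map_smul, Finsupp.smul_apply, smul_eq_mul] at this

theorem nrm_neg (v : V) : nrm e (-v) = nrm e v := by
  rw [← neg_one_smul (RatFunc K), nrm_smul]
  simp

theorem nrm_sub_le (v w : V) : nrm e (v - w) ≤ max (nrm e v) (nrm e w) := by
  rw [sub_eq_add_neg]
  exact (nrm_add_le e v (-w)).trans (by rw [nrm_neg])

theorem nrm_sum_le {α : Type*} (s : Finset α) (w : α → V) {B : ℤᵐ⁰}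
    (h : ∀ a ∈ s, nrm e (w a) ≤ B) : nrm e (∑ a ∈ s, w a) ≤ B := by
  classical
  induction s using Finset.induction_on with
  | empty => simp
  | insert a s ha ih =>
    rw [Finset.sum_insert ha]
    exact (nrm_add_le e _ _).trans (max_le (h a (Finset.mem_insert_self a s))
      (ih fun x hx => h x (Finset.mem_insert_of_mem hx)))

theorem nrm_sum_lt {α : Type*} (s : Finset α) (w : α → V) {B : ℤᵐ⁰} (hB : 0 < B)
    (h : ∀ a ∈ s, nrm e (w a) < B) : nrm e (∑ a ∈ s, w a) < B := by
  classical
  induction s using Finset.induction_on with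
  | empty => simpa using hB
  | insert a s ha ih =>
    rw [Finset.sum_insert ha]
    exact (nrm_add_le e _ _).trans_lt (max_lt (h a (Finset.mem_insert_self a s))
      (ih fun x hx => h x (Finset.mem_insert_of_mem hx)))

theorem isInftyLattice_iff_nrm {M' : Set V} :
    IsInftyLattice e M' ↔ ∀ v, v ∈ M' ↔ nrm e v ≤ 1 := by
  simp only [IsInftyLattice, nrm_le_iff]



/-! ### Lower bound for the norm on a polynomial lattice -/

theorem val_algebraMap {p : K[X]} (hp : p ≠ 0) :
    RatFunc.inftyValuation K (algebraMap K[X] (RatFunc K) p) = exp (p.natDegree : ℤ) := by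
  rw [RatFunc.inftyValuation_apply]
  exact RatFunc.inftyValuation.polynomial K hp

theorem one_le_nrm_of_mem {M : Set V} (hM : IsPolyLattice e M) {v : V} (hv : v ∈ M)
    (h0 : v ≠ 0) : 1 ≤ nrm e v := by
  obtain ⟨i, hi⟩ : ∃ i, e.repr v i ≠ 0 := by
    by_contra h
    push Not at h
    apply h0
    apply e.repr.injective
    ext i
    simpa using h i
  obtain ⟨p, hp⟩ := (hM v).1 hv i
  have hp0 : p ≠ 0 := by
    rintro rfl
    rw [map_zero] at hp
    exact hi hp.symm
  calc (1 : ℤᵐ⁰) = exp (0 : ℤ) := rfl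
    _ ≤ exp (p.natDegree : ℤ) := exp_le_exp.2 (Int.natCast_nonneg _)
    _ = RatFunc.inftyValuation K (e.repr v i) := by rw [← hp, val_algebraMap hp0]
    _ ≤ nrm e v := val_repr_le_nrm e v i

theorem nrm_le_mul (e' : Basis ι (RatFunc K) V) (v : V) :
    nrm e v ≤ (Finset.univ.sup fun j => nrm e (e' j)) * nrm e' v := by
  conv_lhs => rw [← e'.sum_repr v]
  apply nrm_sum_le
  intro j _
  rw [nrm_smul, mul_comm]
  exact mul_le_mul' (Finset.le_sup (f := fun j => nrm e (e' j)) (Finset.mem_univ j))
    (val_repr_le_nrm e' v j)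

theorem exists_lower_bound {M : Set V} (hM : IsPolyLattice e M) (e' : Basis ι (RatFunc K) V) :
    ∃ a : ℤ, ∀ v ∈ M, v ≠ 0 → -a ≤ log (nrm e' v) := by
  refine ⟨log (Finset.univ.sup fun j => nrm e (e' j)), fun v hv h0 => ?_⟩
  have h1 := (one_le_nrm_of_mem e hM hv h0).trans (nrm_le_mul e e' v)
  have hN : nrm e' v ≠ 0 := by rwa [Ne, nrm_eq_zero]
  have hC : (Finset.univ.sup fun j => nrm e (e' j)) ≠ 0 := by
    intro h
    rw [h, zero_mul] at h1
    exact absurd h1 (by simp)
  have h2 : log (1 : ℤᵐ⁰) ≤ log ((Finset.univ.sup fun j => nrm e (e' j)) * nrm e' v) :=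
    (log_le_log one_ne_zero (mul_ne_zero hC hN)).2 h1
  rw [log_one, log_mul hC hN] at h2
  linarith


/-! ### Minimal bases are reduced -/

/-- The measure that is minimised: the sum of the (shifted) logarithmic norms of the basis
vectors. -/
noncomputable def mu (e' : Basis ι (RatFunc K) V) (a : ℤ) (b : Basis ι (RatFunc K) V) : ℕ :=
  ∑ i, (log (nrm e' (b i)) + a).toNat

theorem lt_of_exp_mul_lt {n : ℤ} {x y : ℤᵐ⁰} (h : exp n * x < exp n * y) : x < y := by
  by_contra hxy
  rw [not_lt] at hxy
  exact absurd (mul_le_mul_right hxy (exp n)) (not_le.mpr h)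

set_option maxHeartbeats 1600000 in
/-- The key step: if `b` minimises `mu` among the bases of the polynomial lattice `M`, then
polynomial combinations of the `b i` have no cancellation of leading terms. -/
theorem reduced_poly {M : Set V} (e' : Basis ι (RatFunc K) V) (a : ℤ)
    (ha : ∀ v ∈ M, v ≠ 0 → -a ≤ log (nrm e' v)) {b : Basis ι (RatFunc K) V}
    (hb : IsPolyLattice b M)
    (hmin : ∀ b' : Basis ι (RatFunc K) V, IsPolyLattice b' M → mu e' a b ≤ mu e' a b')
    (p : ι → K[X]) (i : ι) :
    RatFunc.inftyValuation K (algebraMap K[X] (RatFunc K) (p i)) * nrm e' (b i) ≤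
      nrm e' (∑ j, algebraMap K[X] (RatFunc K) (p j) • b j) := by
  classical
  set w : ι → ℤᵐ⁰ := fun j =>
    RatFunc.inftyValuation K (algebraMap K[X] (RatFunc K) (p j)) * nrm e' (b j) with hw
  set D : ℤᵐ⁰ := Finset.univ.sup w with hD
  suffices hsuff : D ≤ nrm e' (∑ j, algebraMap K[X] (RatFunc K) (p j) • b j) from
    (Finset.le_sup (f := w) (Finset.mem_univ i)).trans hsuff
  by_contra hlt
  rw [not_le] at hlt
  have hD0 : 0 < D := lt_of_le_of_lt zero_le hlt
  have hN : ∀ j, nrm e' (b j) ≠ 0 := fun j => by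
    rw [Ne, nrm_eq_zero]
    exact b.ne_zero j
  -- the index set where the maximum is attained
  obtain ⟨i₁, -, hi₁⟩ := Finset.exists_mem_eq_sup Finset.univ ⟨i, Finset.mem_univ i⟩ w
  set I : Finset ι := Finset.univ.filter fun j => w j = D with hI
  have hI₁ : i₁ ∈ I := by
    rw [hI, Finset.mem_filter]
    exact ⟨Finset.mem_univ _, hi₁.symm⟩
  obtain ⟨i₀, hi₀I, hi₀max⟩ := Finset.exists_max_image I (fun j => nrm e' (b j)) ⟨i₁, hI₁⟩
  have hmemI : ∀ j, j ∈ I ↔ w j = D := fun j => by
    rw [hI, Finset.mem_filter]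
    simp
  have hp0 : ∀ j ∈ I, p j ≠ 0 := by
    intro j hj hpj
    have := (hmemI j).1 hj
    rw [hw] at this
    simp only [hpj, map_zero, zero_mul] at this
    exact hD0.ne this
  have hwI : ∀ j ∈ I, exp ((p j).natDegree : ℤ) * nrm e' (b j) = D := by
    intro j hj
    rw [← val_algebraMap (hp0 j hj)]
    exact (hmemI j).1 hj
  -- degrees: `natDegree (p i₀) ≤ natDegree (p j)` for `j ∈ I`
  have hdeg : ∀ j ∈ I, (p i₀).natDegree ≤ (p j).natDegree := by
    intro j hj
    have h1 := hwI j hj
    have h2 := hwI i₀ hi₀I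
    have h3 := hi₀max j hj
    have h4 : log (exp ((p j).natDegree : ℤ) * nrm e' (b j)) =
        log (exp ((p i₀).natDegree : ℤ) * nrm e' (b i₀)) := by rw [h1, h2]
    rw [log_mul exp_ne_zero (hN j), log_mul exp_ne_zero (hN i₀), log_exp, log_exp] at h4
    have h5 : log (nrm e' (b j)) ≤ log (nrm e' (b i₀)) := (log_le_log (hN j) (hN i₀)).2 h3
    omega
  -- the new basis vector
  set c : K := (p i₀).leadingCoeff with hc
  have hc0 : c ≠ 0 := Polynomial.leadingCoeff_ne_zero.mpr (hp0 i₀ hi₀I)
  set q : ι → K[X] := fun j =>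
    if j ∈ I then Polynomial.C (p j).leadingCoeff * X ^ ((p j).natDegree - (p i₀).natDegree)
    else 0 with hq
  set ℓ : ι → K[X] := fun j =>
    if j ∈ I then Polynomial.C (p j).leadingCoeff * X ^ (p j).natDegree else 0 with hℓ
  have hqi₀ : algebraMap K[X] (RatFunc K) (q i₀) = RatFunc.C c := by
    rw [hq]
    simp only [if_pos hi₀I, Nat.sub_self, pow_zero, mul_one]
    exact RatFunc.algebraMap_C _
  set b'' : Basis ι (RatFunc K) V :=
    exchBasis b i₀ c hc0 (fun j => algebraMap K[X] (RatFunc K) (q j)) with hb''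
  have hb''M : IsPolyLattice b'' M :=
    exchBasis_isPolyLattice hb i₀ c hc0 _ fun j => ⟨q j, rfl⟩
  have hb''i₀ : b'' i₀ = ∑ j, algebraMap K[X] (RatFunc K) (q j) • b j :=
    exchBasis_apply_self b i₀ c hc0 _ hqi₀
  have hb''ne : ∀ j, j ≠ i₀ → b'' j = b j := fun j hj =>
    exchBasis_apply_of_ne b i₀ c hc0 _ hj
  -- `X ^ n₀ • b'' i₀ = ∑ ℓ j • b j`
  have hXq : ∀ j, (X : K[X]) ^ (p i₀).natDegree * q j = ℓ j := by
    intro j
    rw [hq, hℓ]
    by_cases hj : j ∈ I
    · simp only [if_pos hj]
      rw [mul_left_comm, ← pow_add, Nat.add_sub_cancel' (hdeg j hj)]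
    · simp only [if_neg hj, mul_zero]
  have hkey : algebraMap K[X] (RatFunc K) (X ^ (p i₀).natDegree) • b'' i₀ =
      ∑ j, algebraMap K[X] (RatFunc K) (ℓ j) • b j := by
    rw [hb''i₀, Finset.smul_sum]
    refine Finset.sum_congr rfl fun j _ => ?_
    rw [smul_smul, ← map_mul, hXq]
  -- the remainder has small norm
  have hrem : nrm e' (∑ j, algebraMap K[X] (RatFunc K) (p j - ℓ j) • b j) < D := by
    apply nrm_sum_lt e' _ _ hD0
    intro j _
    rw [nrm_smul]
    by_cases hj : j ∈ I
    · have hpj := hp0 j hj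
      have hr : p j - ℓ j = (p j).eraseLead := by
        rw [hℓ]
        simp only [if_pos hj]
        rw [sub_eq_iff_eq_add]
        exact (Polynomial.eraseLead_add_C_mul_X_pow (p j)).symm
      rw [hr]
      by_cases hz : (p j).eraseLead = 0
      · rw [hz, map_zero, map_zero, zero_mul]
        exact hD0
      · rw [val_algebraMap hz, ← hwI j hj]
        have hlt' : (p j).eraseLead.natDegree < (p j).natDegree := by
          rcases Polynomial.eraseLead_natDegree_lt_or_eraseLead_eq_zero (p j) with h | h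
          · exact h
          · exact absurd h hz
        have h1 : exp (((p j).eraseLead.natDegree : ℕ) : ℤ) < exp (((p j).natDegree : ℕ) : ℤ) :=
          exp_lt_exp.2 (by exact_mod_cast hlt')
        exact mul_lt_mul_of_pos_right h1 (zero_lt_iff.mpr (hN j))
    · have hr : p j - ℓ j = p j := by
        rw [hℓ]
        simp only [if_neg hj, sub_zero]
      rw [hr]
      have h1 : w j ≤ D := Finset.le_sup (f := w) (Finset.mem_univ j)
      have h2 : w j ≠ D := fun h => hj ((hmemI j).2 h)
      exact lt_of_le_of_ne h1 h2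
  have hsum : ∑ j, algebraMap K[X] (RatFunc K) (ℓ j) • b j =
      ∑ j, algebraMap K[X] (RatFunc K) (p j) • b j -
        ∑ j, algebraMap K[X] (RatFunc K) (p j - ℓ j) • b j := by
    rw [← Finset.sum_sub_distrib]
    refine Finset.sum_congr rfl fun j _ => ?_
    rw [map_sub, sub_smul, sub_sub_cancel]
  have hL : nrm e' (algebraMap K[X] (RatFunc K) (X ^ (p i₀).natDegree) • b'' i₀) < D := by
    rw [hkey, hsum]
    exact (nrm_sub_le e' _ _).trans_lt (max_lt hlt hrem)
  rw [nrm_smul, val_algebraMap (pow_ne_zero _ Polynomial.X_ne_zero), Polynomial.natDegree_X_pow,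
    ← hwI i₀ hi₀I] at hL
  have hsmall : nrm e' (b'' i₀) < nrm e' (b i₀) := lt_of_exp_mul_lt hL
  -- contradiction with minimality
  have hb''0 : nrm e' (b'' i₀) ≠ 0 := by
    rw [Ne, nrm_eq_zero]
    exact b''.ne_zero i₀
  have hlog : log (nrm e' (b'' i₀)) < log (nrm e' (b i₀)) :=
    (log_lt_log hb''0 (hN i₀)).2 hsmall
  have hlow : -a ≤ log (nrm e' (b'' i₀)) := ha _ (basis_mem hb''M i₀) (b''.ne_zero i₀)
  have hmu : mu e' a b'' < mu e' a b := by
    unfold mu
    apply Finset.sum_lt_sum
    · intro j _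
      by_cases hj : j = i₀
      · rw [hj]
        omega
      · rw [hb''ne j hj]
    · exact ⟨i₀, Finset.mem_univ _, by omega⟩
  exact absurd (hmin b'' hb''M) (not_le.mpr hmu)


theorem le_of_exp_mul_le {n : ℤ} {x y : ℤᵐ⁰} (h : exp n * x ≤ exp n * y) : x ≤ y := by
  by_contra hxy
  rw [not_le] at hxy
  exact absurd (mul_lt_mul_of_pos_left hxy exp_pos) (not_lt.mpr h)

/-- If `b` minimises `mu` among the bases of the polynomial lattice `M`, then `b` is reduced:
the norm of a vector is the maximum of the norms of its components. -/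
theorem reduced {M : Set V} (e' : Basis ι (RatFunc K) V) (a : ℤ)
    (ha : ∀ v ∈ M, v ≠ 0 → -a ≤ log (nrm e' v)) {b : Basis ι (RatFunc K) V}
    (hb : IsPolyLattice b M)
    (hmin : ∀ b' : Basis ι (RatFunc K) V, IsPolyLattice b' M → mu e' a b ≤ mu e' a b')
    (v : V) (i : ι) :
    RatFunc.inftyValuation K (b.repr v i) * nrm e' (b i) ≤ nrm e' v := by
  obtain ⟨s, hs⟩ := IsLocalization.exist_integer_multiples_of_finite (nonZeroDivisors K[X])
    (fun j => b.repr v j)
  choose p hp using hs
  have hs0 : (s : K[X]) ≠ 0 := nonZeroDivisors.coe_ne_zero s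
  have hp' : ∀ j, algebraMap K[X] (RatFunc K) (p j) =
      algebraMap K[X] (RatFunc K) (s : K[X]) * b.repr v j := fun j => by
    rw [hp j, Algebra.smul_def]
  have hsum : ∑ j, algebraMap K[X] (RatFunc K) (p j) • b j =
      algebraMap K[X] (RatFunc K) (s : K[X]) • v := by
    conv_rhs => rw [← b.sum_repr v]
    rw [Finset.smul_sum]
    refine Finset.sum_congr rfl fun j _ => ?_
    rw [hp', mul_smul]
  have h := reduced_poly e' a ha hb hmin p i
  rw [hsum, nrm_smul, hp', map_mul, mul_assoc, val_algebraMap hs0] at h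
  exact le_of_exp_mul_le h

theorem nrm_le_iff_of_reduced (e' : Basis ι (RatFunc K) V) {b : Basis ι (RatFunc K) V}
    (hred : ∀ (v : V) (i : ι),
      RatFunc.inftyValuation K (b.repr v i) * nrm e' (b i) ≤ nrm e' v) (v : V) (B : ℤᵐ⁰) :
    nrm e' v ≤ B ↔ ∀ i, RatFunc.inftyValuation K (b.repr v i) * nrm e' (b i) ≤ B := by
  constructor
  · intro h i
    exact (hred v i).trans h
  · intro h
    conv_lhs => rw [← b.sum_repr v]
    apply nrm_sum_le
    intro j _
    rw [nrm_smul]
    exact h j

/-- **Dedekind–Weber / Birkhoff.** For a polynomial lattice `M` and a lattice at infinity `M'`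
in a finite-dimensional `RatFunc K`-vector space there are a basis `b` and integers `d i` such
that `M` is the set of vectors with polynomial `b`-coordinates and `M'` is the set of vectors
whose `i`-th `b`-coordinate has valuation at infinity at most `exp (d i)` (i.e. is zero or of
degree at most `d i`), for all `i`. -/
theorem exists_reduced_basis {M M' : Set V} {e e' : Basis ι (RatFunc K) V}
    (hM : IsPolyLattice e M) (hM' : IsInftyLattice e' M') :
    ∃ (b : Basis ι (RatFunc K) V) (d : ι → ℤ), IsPolyLattice b M ∧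
      ∀ v, v ∈ M' ↔ ∀ i, RatFunc.inftyValuation K (b.repr v i) ≤ exp (d i) := by
  obtain ⟨a, ha⟩ := exists_lower_bound e hM e'
  obtain ⟨b, hb, hbmin⟩ := exists_minimalFor_of_wellFoundedLT
    (fun b : Basis ι (RatFunc K) V => IsPolyLattice b M) (mu e' a) ⟨e, hM⟩
  have hmin : ∀ b' : Basis ι (RatFunc K) V, IsPolyLattice b' M → mu e' a b ≤ mu e' a b' := by
    intro b' hb'
    rcases le_total (mu e' a b) (mu e' a b') with h | h
    · exact h
    · exact hbmin hb' h
  have hred := reduced e' a ha hb hmin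
  have hN : ∀ j, nrm e' (b j) ≠ 0 := fun j => by
    rw [Ne, nrm_eq_zero]
    exact b.ne_zero j
  refine ⟨b, fun i => -log (nrm e' (b i)), hb, fun v => ?_⟩
  rw [(isInftyLattice_iff_nrm e').1 hM' v, nrm_le_iff_of_reduced e' hred]
  refine forall_congr' fun i => ?_
  have hexp : exp (-log (nrm e' (b i))) = 1 / nrm e' (b i) := by
    rw [exp_neg, exp_log (hN i), one_div]
  rw [hexp, le_div_iff₀ (zero_lt_iff.mpr (hN i))]


/-! ### Reformulations and consequences -/

theorem val_le_exp_iff (x : RatFunc K) (d : ℤ) :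
    RatFunc.inftyValuation K x ≤ exp d ↔ x = 0 ∨ x.intDegree ≤ d := by
  by_cases hx : x = 0
  · simp [hx]
  · rw [RatFunc.inftyValuation_apply, RatFunc.inftyValuation_of_nonzero K hx, exp_le_exp]
    simp [hx]

theorem val_le_one_iff (x : RatFunc K) :
    RatFunc.inftyValuation K x ≤ 1 ↔ x = 0 ∨ x.intDegree ≤ 0 := by
  rw [← val_le_exp_iff, exp_zero]

/-- **Dedekind–Weber / Birkhoff**, formulated with `RatFunc.intDegree`. -/
theorem exists_reduced_basis_intDegree {M M' : Set V} {e e' : Basis ι (RatFunc K) V}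
    (hM : IsPolyLattice e M) (hM' : IsInftyLattice e' M') :
    ∃ (b : Basis ι (RatFunc K) V) (d : ι → ℤ), IsPolyLattice b M ∧
      ∀ v, v ∈ M' ↔ ∀ i, b.repr v i = 0 ∨ (b.repr v i).intDegree ≤ d i := by
  obtain ⟨b, d, hb, h⟩ := exists_reduced_basis hM hM'
  exact ⟨b, d, hb, fun v => by simp only [h v, val_le_exp_iff]⟩

/-- **Dedekind–Weber / Birkhoff**, formulated with the rescaled basis `X ^ (d i) • b i`. -/
theorem exists_reduced_basis_rescaled {M M' : Set V} {e e' : Basis ι (RatFunc K) V}
    (hM : IsPolyLattice e M) (hM' : IsInftyLattice e' M') :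
    ∃ (b : Basis ι (RatFunc K) V) (d : ι → ℤ), IsPolyLattice b M ∧
      IsInftyLattice (b.unitsSMul fun i => (Units.mk0 (RatFunc.X : RatFunc K) RatFunc.X_ne_zero) ^ d i)
        M' := by
  obtain ⟨b, d, hb, h⟩ := exists_reduced_basis hM hM'
  refine ⟨b, d, hb, fun v => ?_⟩
  rw [h v]
  refine forall_congr' fun i => ?_
  rw [Basis.repr_unitsSMul, Units.smul_def, smul_eq_mul, map_mul]
  have hX : RatFunc.inftyValuation K
      (((Units.mk0 (RatFunc.X : RatFunc K) RatFunc.X_ne_zero ^ d i)⁻¹ : (RatFunc K)ˣ) : RatFunc K) =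
      1 / exp (d i) := by
    rw [← zpow_neg, Units.val_zpow_eq_zpow_val, Units.val_mk0, RatFunc.inftyValuation.X_zpow,
      exp_neg, one_div]
  rw [hX, one_div, inv_mul_le_iff₀ exp_pos, mul_one]

/-- The intersection of the two lattices in terms of a reduced basis: the vectors whose `i`-th
coordinate is a polynomial which is zero or of degree at most `d i`. -/
theorem mem_inter_iff {M M' : Set V} {b : Basis ι (RatFunc K) V} {d : ι → ℤ}
    (hb : IsPolyLattice b M)
    (hd : ∀ v, v ∈ M' ↔ ∀ i, RatFunc.inftyValuation K (b.repr v i) ≤ exp (d i)) (v : V) :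
    v ∈ M ∩ M' ↔ ∀ i, ∃ p : K[X], algebraMap K[X] (RatFunc K) p = b.repr v i ∧
      (p = 0 ∨ (p.natDegree : ℤ) ≤ d i) := by
  rw [Set.mem_inter_iff, hb v, hd v, ← forall_and]
  refine forall_congr' fun i => ?_
  constructor
  · rintro ⟨⟨p, hp⟩, h2⟩
    refine ⟨p, hp, ?_⟩
    by_cases hp0 : p = 0
    · exact Or.inl hp0
    · right
      rw [← hp, val_algebraMap hp0, exp_le_exp] at h2
      exact h2
  · rintro ⟨p, hp, h2⟩
    refine ⟨⟨p, hp⟩, ?_⟩
    rw [← hp]
    rcases h2 with rfl | h2
    · simp
    · by_cases hp0 : p = 0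
      · simp [hp0]
      · rw [val_algebraMap hp0, exp_le_exp]
        exact h2


/-! ### The dimension of the intersection -/

section finrank

variable [Module K V] [IsScalarTower K (RatFunc K) V]

/-- The `K`-linear map sending a family of polynomials `p i` of degree `< n i` to
`∑ i, p i • b i`. -/
noncomputable def polyMap (b : Basis ι (RatFunc K) V) (n : ι → ℕ) :
    (∀ i, Polynomial.degreeLT K (n i)) →ₗ[K] V where
  toFun p := ∑ i, algebraMap K[X] (RatFunc K) (p i : K[X]) • b i
  map_add' p q := by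
    rw [← Finset.sum_add_distrib]
    refine Finset.sum_congr rfl fun i _ => ?_
    rw [Pi.add_apply, Submodule.coe_add, map_add, add_smul]
  map_smul' c p := by
    rw [RingHom.id_apply, Finset.smul_sum]
    refine Finset.sum_congr rfl fun i _ => ?_
    rw [Pi.smul_apply, Submodule.coe_smul, Polynomial.smul_eq_C_mul, map_mul,
      RatFunc.algebraMap_C, mul_smul, ← RatFunc.algebraMap_eq_C, algebraMap_smul]

theorem polyMap_apply (b : Basis ι (RatFunc K) V) (n : ι → ℕ)
    (p : ∀ i, Polynomial.degreeLT K (n i)) :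
    polyMap b n p = ∑ i, algebraMap K[X] (RatFunc K) (p i : K[X]) • b i := rfl

theorem polyMap_injective (b : Basis ι (RatFunc K) V) (n : ι → ℕ) :
    Function.Injective (polyMap b n) := by
  rw [← LinearMap.ker_eq_bot, LinearMap.ker_eq_bot']
  intro p hp
  rw [polyMap_apply] at hp
  have h := Fintype.linearIndependent_iff.1 b.linearIndependent _ hp
  funext i
  apply Subtype.ext
  exact (IsFractionRing.injective K[X] (RatFunc K)) (by rw [h i]; simp)

omit [DecidableEq (RatFunc K)] [AddCommGroup V] [Module (RatFunc K) V] in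
theorem finrank_degreeLT_pi (n : ι → ℕ) :
    Module.finrank K (∀ i, Polynomial.degreeLT K (n i)) = ∑ i, n i := by
  have : ∀ i, Module.Finite K (Polynomial.degreeLT K (n i)) := fun i =>
    Module.Finite.equiv (Polynomial.degreeLTEquiv K (n i)).symm
  rw [Module.finrank_pi_fintype]
  refine Finset.sum_congr rfl fun i _ => ?_
  rw [(Polynomial.degreeLTEquiv K (n i)).finrank_eq, Module.finrank_fin_fun]

/-- The dimension of the intersection of a polynomial lattice and a lattice at infinity in
terms of a reduced basis: `∑ i, max 0 (d i + 1)`. -/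
theorem finrank_inter {M M' : Set V} {b : Basis ι (RatFunc K) V} {d : ι → ℤ}
    (hb : IsPolyLattice b M)
    (hd : ∀ v, v ∈ M' ↔ ∀ i, RatFunc.inftyValuation K (b.repr v i) ≤ exp (d i))
    (W : Submodule K V) (hW : ∀ v, v ∈ W ↔ v ∈ M ∩ M') :
    Module.finrank K W = ∑ i, (d i + 1).toNat := by
  classical
  have hrange : W = LinearMap.range (polyMap b fun i => (d i + 1).toNat) := by
    ext v
    rw [hW v, mem_inter_iff hb hd v, LinearMap.mem_range]
    constructor
    · intro h
      choose p hp hp' using h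
      have hmem : ∀ i, p i ∈ Polynomial.degreeLT K (d i + 1).toNat := by
        intro i
        rw [Polynomial.mem_degreeLT]
        rcases hp' i with h0 | h1
        · rw [h0, Polynomial.degree_zero]
          exact WithBot.bot_lt_coe _
        · by_cases h0 : p i = 0
          · rw [h0, Polynomial.degree_zero]
            exact WithBot.bot_lt_coe _
          · rw [Polynomial.degree_eq_natDegree h0]
            have : (p i).natDegree < (d i + 1).toNat := by omega
            exact_mod_cast this
      refine ⟨fun i => ⟨p i, hmem i⟩, ?_⟩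
      rw [polyMap_apply]
      conv_rhs => rw [← b.sum_repr v]
      refine Finset.sum_congr rfl fun i _ => ?_
      rw [hp i]
    · rintro ⟨p, rfl⟩ i
      refine ⟨(p i : K[X]), ?_, ?_⟩
      · rw [polyMap_apply, b.repr_sum_self]
      · have := (p i).2
        rw [Polynomial.mem_degreeLT] at this
        by_cases h0 : (p i : K[X]) = 0
        · exact Or.inl h0
        · right
          rw [Polynomial.degree_eq_natDegree h0] at this
          have h1 : (p i : K[X]).natDegree < (d i + 1).toNat := by exact_mod_cast this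
          omega
  rw [hrange, LinearMap.finrank_range_of_inj (polyMap_injective b _), finrank_degreeLT_pi]

end finrank

end Fermat.Agent.S20.DW
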