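import Mathlib

/-!
# S20, algebraic half, bridge [Br7] toolkit (helper29): a function field as a `RatFunc K`-algebra

`F` a field over `K`, `x : F` transcendental over `K`.  We make `F` an algebra over `RatFunc K`
(with `X ↦ x`) and over `K[X]`, and transfer finiteness, the degree and separability from
`K⟮x⟯` to `RatFunc K`.  Nothing here is an instance: use
`letI := algRat x hx; letI := algPoly K x; haveI := isScalarTower_poly x hx; ...`.
-/

set_option autoImplicit false
set_option linter.style.haveILetI false

open Polynomial IntermediateField

namespace Fermat.Agent.S20.RRA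

variable {K F : Type*} [Field K] [Field F] [Algebra K F] (x : F) (hx : Transcendental K x)

/-- The `K`-algebra homomorphism `RatFunc K → F` sending `X` to the transcendental `x`. -/
noncomputable def ratHom : RatFunc K →ₐ[K] F :=
  (IntermediateField.val K⟮x⟯).comp (RatFunc.algEquivOfTranscendental x hx).toAlgHom

theorem ratHom_apply (r : RatFunc K) :
    ratHom x hx r = ((RatFunc.algEquivOfTranscendental x hx r : K⟮x⟯) : F) := rfl

@[simp]
theorem ratHom_X : ratHom x hx RatFunc.X = x := by
  rw [ratHom_apply, RatFunc.algEquivOfTranscendental_X]

theorem ratHom_algebraMap (g : K[X]) :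
    ratHom x hx (algebraMap K[X] (RatFunc K) g) = aeval x g := by
  rw [ratHom_apply, RatFunc.algEquivOfTranscendental_algebraMap,
    ← IntermediateField.algebraMap_apply, ← aeval_algebraMap_apply]
  rfl

/-- The `RatFunc K`-algebra structure on `F` attached to the transcendental `x`. -/
noncomputable abbrev algRat : Algebra (RatFunc K) F := (ratHom x hx).toRingHom.toAlgebra

variable (K) in
/-- The `K[X]`-algebra structure on `F` attached to `x`. -/
noncomputable abbrev algPoly : Algebra K[X] F := (aeval x).toRingHom.toAlgebra

theorem algebraMap_rat_apply (r : RatFunc K) :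
    letI := algRat x hx
    algebraMap (RatFunc K) F r = ratHom x hx r := rfl

theorem algebraMap_rat_X :
    letI := algRat x hx
    algebraMap (RatFunc K) F RatFunc.X = x :=
  ratHom_X x hx

theorem isScalarTower_poly :
    letI := algRat x hx
    letI := algPoly K x
    IsScalarTower K[X] (RatFunc K) F := by
  letI := algRat x hx
  letI := algPoly K x
  refine IsScalarTower.of_algebraMap_eq fun g => ?_
  exact (ratHom_algebraMap x hx g).symm

theorem isScalarTower_const :
    letI := algRat x hx
    IsScalarTower K (RatFunc K) F := by
  letI := algRat x hx
  refine IsScalarTower.of_algebraMap_eq fun c => ?_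
  exact ((ratHom x hx).commutes c).symm

theorem isScalarTower_const_poly :
    letI := algPoly K x
    IsScalarTower K K[X] F := by
  letI := algPoly K x
  refine IsScalarTower.of_algebraMap_eq fun c => ?_
  show algebraMap K F c = aeval x (C c)
  rw [aeval_C]

/-- The degree over `RatFunc K` is the degree over `K⟮x⟯`. -/
theorem finrank_rat :
    letI := algRat x hx
    Module.finrank (RatFunc K) F = Module.finrank K⟮x⟯ F := by
  letI := algRat x hx
  exact Algebra.finrank_eq_of_equiv_equiv (RatFunc.algEquivOfTranscendental x hx).toRingEquiv
    (RingEquiv.refl F) rfl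

theorem finiteDimensional_rat [FiniteDimensional K⟮x⟯ F] :
    letI := algRat x hx
    FiniteDimensional (RatFunc K) F := by
  letI := algRat x hx
  apply Module.finite_of_finrank_pos
  rw [finrank_rat x hx]
  exact Module.finrank_pos

theorem isSeparable_rat [CharZero K] [FiniteDimensional K⟮x⟯ F] :
    letI := algRat x hx
    Algebra.IsSeparable (RatFunc K) F := by
  letI := algRat x hx
  haveI := finiteDimensional_rat x hx
  haveI : CharZero (RatFunc K) :=
    charZero_of_injective_algebraMap (algebraMap K (RatFunc K)).injective
  exact Algebra.IsSeparable.of_integral _ _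

end Fermat.Agent.S20.RRA
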