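import Fermat.Agent.S20.Alg_Defs
import Fermat.Agent.S20.H27_DualDW

/-!
# S20, algebraic half: assembly of "Riemann-Roch for lattices" (helper29)

`K` a field, `F` a finite separable extension of `RatFunc K` of degree `n`, `A` / `B` the
integral closures of `K[X]` / of the valuation ring at infinity in `F`, `A*` / `B*` their trace
duals and `regDiff = A* ∩ X⁻² B*` (all as `K`-subspaces of `F`, see `Alg_Defs`).

* `finrank_inter_sub_finrank_regDiff` : `dim (A ∩ B) - dim regDiff = n + ∑ d i` for a simultaneous
  reduced basis `(b, d)`;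
* `finrank_inter_eq_one` : if every element integral over both rings is a constant, then
  `dim (A ∩ B) = 1`;
* `finrank_regDiff` : under that hypothesis `dim regDiff = 1 - n - ∑ d i`;
* `riemann_roch_of_codim` : if moreover `dim A*/A + dim B*/B = -2 ∑ d i` for one simultaneous
  reduced basis (index = discriminant), then
  `2 dim regDiff = 2 - 2 n + dim A*/A + dim B*/B`.
-/

set_option autoImplicit false
set_option linter.unusedSectionVars false

open Polynomial Module

namespace Fermat.Agent.S20.RRA

open Fermat.Agent.S20.DW Fermat.Agent.S20.L3 Fermat.Agent.S20.Alg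

variable {K : Type*} [Field K] [DecidableEq (RatFunc K)]
  {F : Type*} [Field F] [Algebra (RatFunc K) F] [Algebra K[X] F]
  [IsScalarTower K[X] (RatFunc K) F] [Algebra K F] [IsScalarTower K (RatFunc K) F]

omit [Algebra K[X] F] [IsScalarTower K[X] (RatFunc K) F] [Algebra K F]
  [IsScalarTower K (RatFunc K) F] in
/-- The two ways of multiplying by `X ^ 2`. -/
theorem X_zpow_two_smul (h : F) :
    (RatFunc.X ^ (2 : ℤ) : RatFunc K) • h = algebraMap (RatFunc K) F RatFunc.X ^ 2 * h := by
  rw [Algebra.smul_def, zpow_ofNat, map_pow]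

/-- `Adual` is the coordinate-free trace dual of helper27. -/
theorem mem_Adual_iff_mem_dualPoly (h : F) :
    h ∈ Adual K F ↔ h ∈ dualPoly K {a : F | IsIntegral K[X] a} :=
  Iff.rfl

/-- `Bdual` is the coordinate-free trace dual at infinity of helper27. -/
theorem mem_Bdual_iff_mem_dualInfty (h : F) :
    h ∈ Bdual K F ↔ h ∈ dualInfty K {a : F | IsIntegral (Oinf K) a} := by
  constructor
  · intro hh a ha
    have h1 := hh a ha
    rw [degLE_zero_iff_mem_range_Oinf, range_algebraMap_Oinf]
    exact (mem_Oinf_iff K _).mp h1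
  · intro hh a ha
    have h1 := hh a ha
    rw [degLE_zero_iff_mem_range_Oinf, range_algebraMap_Oinf] at h1
    exact (mem_Oinf_iff K _).mpr h1

theorem mem_regDiff_iff (h : F) :
    h ∈ regDiff K F ↔ h ∈ dualPoly K {a : F | IsIntegral K[X] a} ∧
      (RatFunc.X ^ (2 : ℤ) : RatFunc K) • h ∈ dualInfty K {a : F | IsIntegral (Oinf K) a} := by
  rw [mem_regDiff, mem_Adual_iff_mem_dualPoly, mem_Bdual_iff_mem_dualInfty, X_zpow_two_smul]

variable [FiniteDimensional (RatFunc K) F] [Algebra.IsSeparable (RatFunc K) F]

/-- **The lattice count** for the objects of `Alg_Defs`. -/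
theorem finrank_inter_sub_finrank_regDiff {ι : Type*} [Fintype ι] [DecidableEq ι]
    {b : Basis ι (RatFunc K) F} {d : ι → ℤ}
    (hb : IsPolyLattice b {h : F | IsIntegral K[X] h})
    (hd : ∀ v : F, IsIntegral (Oinf K) v ↔ ∀ i, b.repr v i = 0 ∨ (b.repr v i).intDegree ≤ d i) :
    (finrank K ↥(Aint K F ⊓ Bint K F) : ℤ) - finrank K (regDiff K F) =
      Fintype.card ι + ∑ i, d i := by
  have hA : {h : F | IsIntegral K[X] h} = polyLat b := Set.ext fun v => hb v
  have hB : {h : F | IsIntegral (Oinf K) h} = inftyLat b d := Set.ext fun v => hd v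
  refine dual_count b d hA hB (Aint K F ⊓ Bint K F) ?_ (regDiff K F) mem_regDiff_iff
  ext v
  rfl

omit [FiniteDimensional (RatFunc K) F] [Algebra.IsSeparable (RatFunc K) F] in
/-- The constants are integral over both rings. -/
theorem algebraMap_mem_inter (c : K) : algebraMap K F c ∈ Aint K F ⊓ Bint K F := by
  refine ⟨?_, ?_⟩
  · change IsIntegral K[X] (algebraMap K F c)
    rw [algebraMap_K_eq_poly]
    exact isIntegral_algebraMap
  · change IsIntegral (Oinf K) (algebraMap K F c)
    obtain ⟨u, hu⟩ := algebraMap_K_eq_Oinf K F c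
    rw [hu]
    exact isIntegral_algebraMap

omit [FiniteDimensional (RatFunc K) F] [Algebra.IsSeparable (RatFunc K) F] in
/-- If the only elements integral over both rings are the constants, then `A ∩ B = K · 1`. -/
theorem inter_eq_span_one
    (hconst : ∀ h : F, IsIntegral K[X] h → IsIntegral (Oinf K) h →
      ∃ c : K, h = algebraMap K F c) :
    Aint K F ⊓ Bint K F = Submodule.span K {(1 : F)} := by
  apply le_antisymm
  · rintro h ⟨h1, h2⟩
    obtain ⟨c, rfl⟩ := hconst h h1 h2
    rw [Submodule.mem_span_singleton]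
    exact ⟨c, by rw [Algebra.smul_def, mul_one]⟩
  · rw [Submodule.span_le, Set.singleton_subset_iff]
    have := algebraMap_mem_inter (K := K) (F := F) 1
    rwa [map_one] at this

omit [FiniteDimensional (RatFunc K) F] [Algebra.IsSeparable (RatFunc K) F] in
/-- If the only elements integral over both rings are the constants, then `dim (A ∩ B) = 1`. -/
theorem finrank_inter_eq_one
    (hconst : ∀ h : F, IsIntegral K[X] h → IsIntegral (Oinf K) h →
      ∃ c : K, h = algebraMap K F c) :
    finrank K ↥(Aint K F ⊓ Bint K F) = 1 := by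
  rw [inter_eq_span_one hconst]
  exact finrank_span_singleton one_ne_zero

/-- **Dimension of the space of regular differentials** in terms of a simultaneous reduced
basis. -/
theorem finrank_regDiff {ι : Type*} [Fintype ι] [DecidableEq ι]
    (hconst : ∀ h : F, IsIntegral K[X] h → IsIntegral (Oinf K) h →
      ∃ c : K, h = algebraMap K F c)
    {b : Basis ι (RatFunc K) F} {d : ι → ℤ}
    (hb : IsPolyLattice b {h : F | IsIntegral K[X] h})
    (hd : ∀ v : F, IsIntegral (Oinf K) v ↔ ∀ i, b.repr v i = 0 ∨ (b.repr v i).intDegree ≤ d i) :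
    (finrank K (regDiff K F) : ℤ) = 1 - Fintype.card ι - ∑ i, d i := by
  have h1 := finrank_inter_sub_finrank_regDiff (K := K) (F := F) hb hd
  rw [finrank_inter_eq_one hconst] at h1
  push_cast at h1
  linarith

/-- The hypothesis "index = discriminant" (package L5) for one simultaneous reduced basis. -/
def CodimHyp (K : Type*) [Field K] [DecidableEq (RatFunc K)]
    (F : Type*) [Field F] [Algebra (RatFunc K) F] [Algebra K[X] F]
    [IsScalarTower K[X] (RatFunc K) F] [Algebra K F] [IsScalarTower K (RatFunc K) F] : Prop :=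
  ∀ (b : Basis (Fin (finrank (RatFunc K) F)) (RatFunc K) F)
    (d : Fin (finrank (RatFunc K) F) → ℤ),
    IsPolyLattice b {h : F | IsIntegral K[X] h} →
    (∀ v : F, IsIntegral (Oinf K) v ↔ ∀ i, b.repr v i = 0 ∨ (b.repr v i).intDegree ≤ d i) →
    (codim (Aint K F) (Adual K F) : ℤ) + codim (Bint K F) (Bdual K F) = - 2 * ∑ i, d i

/-- **Riemann-Roch for lattices, assembled**: if `A ∩ B = K` and "index = discriminant" holds,
then `2 dim (A* ∩ X⁻² B*) = 2 - 2 n + dim A*/A + dim B*/B`. -/
theorem riemann_roch_of_codim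
    (hconst : ∀ h : F, IsIntegral K[X] h → IsIntegral (Oinf K) h →
      ∃ c : K, h = algebraMap K F c)
    (hL5 : CodimHyp K F) :
    2 * (finrank K (regDiff K F) : ℤ) =
      2 - 2 * (finrank (RatFunc K) F : ℤ) + codim (Aint K F) (Adual K F) +
        codim (Bint K F) (Bdual K F) := by
  obtain ⟨b, d, hb, -, hd⟩ := exists_reduced_basis_integral K F
  have h1 := finrank_regDiff hconst hb hd
  have h2 := hL5 b d hb hd
  rw [Fintype.card_fin] at h1
  linarith

/-- **Riemann-Roch for lattices, assembled**, with the two codimensions given by counts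
(package L4). -/
theorem riemann_roch_of_counts
    (hconst : ∀ h : F, IsIntegral K[X] h → IsIntegral (Oinf K) h →
      ∃ c : K, h = algebraMap K F c)
    (hL5 : CodimHyp K F) {cA cB : ℤ}
    (hA : (codim (Aint K F) (Adual K F) : ℤ) = cA)
    (hB : (codim (Bint K F) (Bdual K F) : ℤ) = cB) :
    2 * (finrank K (regDiff K F) : ℤ) = 2 - 2 * (finrank (RatFunc K) F : ℤ) + cA + cB := by
  rw [riemann_roch_of_codim hconst hL5, hA, hB]

end Fermat.Agent.S20.RRA
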