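import Fermat.Agent.S20.Alg_Counts
import Fermat.Agent.S20.H3_CodimSpec
import Fermat.Agent.S20.H16_FibreSum

/-!
# S20 / [L4f], final shape: `codim A A*` and `codim B B*` as ramification counts

The four leaves `hcodimA`, `hcodimB`, `hrF_le`, `hrI_le` of `RRA.alg_main_rat_of_leaves`, with
`rF := Alg.rFin K F` and `rI := Alg.rInf K F` (`K` algebraically closed of characteristic zero):

* `h3_hcodimA` : `codim A A* = ∑ c ∈ S, (n - rFin c)` for every finite `S` containing all `c`
  with `rFin c ≠ n`;
* `h3_hcodimB` : `codim B B* = n - rInf`;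
* `h3_hrF_le`  : `rFin c ≤ n`;
* `h3_hrI_le`  : `rInf ≤ n`.

They are obtained from the finsum forms of `H3_CodimSpec` and the fibre sums of `H16_FibreSum`.
-/

set_option autoImplicit false
set_option linter.style.haveILetI false
set_option linter.unusedSectionVars false

namespace Fermat.Agent.S20.L4c

open Polynomial Module IsDedekindDomain

section Generic

variable (K A0 K0 F : Type*) [Field K] [CommRing A0] [IsDedekindDomain A0] [Algebra K A0]
  [Field K0] [Algebra A0 K0] [IsFractionRing A0 K0] [Field F] [Algebra K0 F] [Algebra A0 F]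
  [IsScalarTower A0 K0 F] [Algebra K F] [IsScalarTower K A0 F] [FiniteDimensional K0 F]
  [Algebra.IsSeparable K0 F] [IsAlgClosed K]

/-- The rank of the integral closure is the degree of the field extension. -/
theorem h3_finrank_integralClosure :
    Module.finrank A0 (integralClosure A0 F) = Module.finrank K0 F := by
  haveI : IsFractionRing (integralClosure A0 F) F :=
    integralClosure.isFractionRing_of_finite_extension K0 F
  exact (IsFractionRing.finrank_eq A0 K0 (integralClosure A0 F) F).symm

include K0 in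
/-- All inertia degrees of the integral closure are one. -/
theorem h3_inertiaDeg_eq_one
    (hres : ∀ p : Ideal A0, p.IsMaximal → Function.Surjective (algebraMap K (A0 ⧸ p)))
    (P : HeightOneSpectrum (integralClosure A0 F)) : P.asIdeal.inertiaDeg A0 = 1 := by
  letI : Algebra K (integralClosure A0 F) :=
    ((algebraMap A0 (integralClosure A0 F)).comp (algebraMap K A0)).toAlgebra
  haveI : IsScalarTower K A0 (integralClosure A0 F) := IsScalarTower.of_algebraMap_eq fun _ => rfl
  haveI : FaithfulSMul A0 F := h3_faithfulSMul A0 K0 F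
  haveI : IsDedekindDomain (integralClosure A0 F) := integralClosure.isDedekindDomain A0 K0 F
  haveI : Module.Finite A0 (integralClosure A0 F) :=
    IsIntegralClosure.finite A0 K0 F (integralClosure A0 F)
  exact Tame.h16_inertiaDeg_eq_one A0 K hres P

/-- The generic fibre-sum form of the ramification count, in terms of `finrank K0 F`. -/
theorem h3_finsum_eq_sum_index
    (hres : ∀ p : Ideal A0, p.IsMaximal → Function.Surjective (algebraMap K (A0 ⧸ p)))
    {ι : Type*} (S : Finset ι) (p : ι → Ideal A0) (hinj : Set.InjOn p S)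
    (hmax : ∀ i ∈ S, (p i).IsMaximal ∧ p i ≠ ⊥)
    (hS : ∀ q : Ideal A0, q.IsMaximal → q ≠ ⊥ → (∀ i ∈ S, q ≠ p i) →
      Nat.card (q.primesOver (integralClosure A0 F)) = Module.finrank K0 F) :
    ∑ᶠ P : HeightOneSpectrum (integralClosure A0 F), (P.asIdeal.ramificationIdx A0 - 1) =
      ∑ i ∈ S, (Module.finrank K0 F - Nat.card ((p i).primesOver (integralClosure A0 F))) := by
  haveI : FaithfulSMul A0 F := h3_faithfulSMul A0 K0 F
  haveI : IsDedekindDomain (integralClosure A0 F) := integralClosure.isDedekindDomain A0 K0 F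
  haveI : Module.Finite A0 (integralClosure A0 F) :=
    IsIntegralClosure.finite A0 K0 F (integralClosure A0 F)
  haveI : FaithfulSMul A0 (integralClosure A0 F) := by
    rw [faithfulSMul_iff_algebraMap_injective]
    intro a b hab
    apply FaithfulSMul.algebraMap_injective A0 F
    have := congrArg (algebraMap (integralClosure A0 F) F) hab
    rwa [← IsScalarTower.algebraMap_apply, ← IsScalarTower.algebraMap_apply] at this
  haveI : Module.IsTorsionFree A0 (integralClosure A0 F) :=
    Module.isTorsionFree_iff_faithfulSMul.mpr inferInstance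
  rw [← h3_finrank_integralClosure A0 K0 F] at hS ⊢
  exact Tame.h16_finsum_ramificationIdx_sub_one_index A0 (h3_inertiaDeg_eq_one K A0 K0 F hres)
    S p hinj hmax hS

/-- The number of primes over a maximal ideal is at most the degree. -/
theorem h3_card_primesOver_le
    (hres : ∀ p : Ideal A0, p.IsMaximal → Function.Surjective (algebraMap K (A0 ⧸ p)))
    (p : Ideal A0) [p.IsMaximal] (hp : p ≠ ⊥) :
    Nat.card (p.primesOver (integralClosure A0 F)) ≤ Module.finrank K0 F := by
  haveI : FaithfulSMul A0 F := h3_faithfulSMul A0 K0 F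
  haveI : IsDedekindDomain (integralClosure A0 F) := integralClosure.isDedekindDomain A0 K0 F
  haveI : Module.Finite A0 (integralClosure A0 F) :=
    IsIntegralClosure.finite A0 K0 F (integralClosure A0 F)
  haveI : FaithfulSMul A0 (integralClosure A0 F) := by
    rw [faithfulSMul_iff_algebraMap_injective]
    intro a b hab
    apply FaithfulSMul.algebraMap_injective A0 F
    have := congrArg (algebraMap (integralClosure A0 F) F) hab
    rwa [← IsScalarTower.algebraMap_apply, ← IsScalarTower.algebraMap_apply] at this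
  haveI : Module.IsTorsionFree A0 (integralClosure A0 F) :=
    Module.isTorsionFree_iff_faithfulSMul.mpr inferInstance
  rw [← h3_finrank_integralClosure A0 K0 F]
  refine Tame.h16_card_primesOver_le A0 p fun q => ?_
  exact h3_inertiaDeg_eq_one K A0 K0 F hres
    ⟨q.1, q.2.1, Ideal.ne_bot_of_mem_primesOver hp q.2⟩

end Generic

section PolyIdeals

variable (K : Type*) [Field K]

theorem h3_span_X_sub_C_isMaximal (c : K) : (Ideal.span {X - C c} : Ideal K[X]).IsMaximal := by
  rw [← Polynomial.ker_evalRingHom]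
  exact RingHom.ker_isMaximal_of_surjective _ fun y => ⟨C y, by simp⟩

theorem h3_span_X_sub_C_ne_bot (c : K) : (Ideal.span {X - C c} : Ideal K[X]) ≠ ⊥ := by
  rw [Ne, Ideal.span_singleton_eq_bot]
  exact Polynomial.X_sub_C_ne_zero c

theorem h3_span_X_sub_C_injective :
    Function.Injective fun c : K => (Ideal.span {X - C c} : Ideal K[X]) := by
  intro c c' h
  have h1 : X - C c' ∈ (Ideal.span {X - C c} : Ideal K[X]) := by
    change X - C c' ∈ (fun c : K => (Ideal.span {X - C c} : Ideal K[X])) c
    rw [h]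
    exact Ideal.subset_span rfl
  rw [← Polynomial.ker_evalRingHom, RingHom.mem_ker] at h1
  simp only [coe_evalRingHom, eval_sub, eval_X, eval_C] at h1
  exact sub_eq_zero.mp h1

/-- Over an algebraically closed field every maximal ideal of `K[X]` is `(X - c)`. -/
theorem h3_exists_eq_span_X_sub_C [IsAlgClosed K] (q : Ideal K[X]) (hq : q.IsMaximal) :
    ∃ c : K, q = Ideal.span {X - C c} := by
  obtain ⟨c, hc⟩ := h3_hres_poly K q hq (Ideal.Quotient.mk q X)
  refine ⟨c, ?_⟩
  have hmem : X - C c ∈ q := by
    rw [← Ideal.Quotient.eq, ← hc]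
    rfl
  have hle : (Ideal.span {X - C c} : Ideal K[X]) ≤ q :=
    (Ideal.span_singleton_le_iff_mem _).mpr hmem
  exact ((h3_span_X_sub_C_isMaximal K c).eq_of_le hq.ne_top hle).symm

end PolyIdeals

section Final

variable (K : Type*) [Field K] [DecidableEq (RatFunc K)]
  (F : Type*) [Field F] [Algebra (RatFunc K) F] [Algebra K[X] F]
  [IsScalarTower K[X] (RatFunc K) F] [Algebra K F] [IsScalarTower K (RatFunc K) F]
  [FiniteDimensional (RatFunc K) F] [Algebra.IsSeparable (RatFunc K) F]
  [CharZero K] [IsAlgClosed K]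

/-- **[L4f] `hcodimA`.** -/
theorem h3_hcodimA : ∀ S : Finset K, (∀ c, c ∉ S → Alg.rFin K F c = finrank (RatFunc K) F) →
    Alg.codim (Alg.Aint K F) (Alg.Adual K F) =
      ∑ c ∈ S, (finrank (RatFunc K) F - Alg.rFin K F c) := by
  intro S hS
  haveI := h3_isScalarTower_poly K F
  rw [h3_codim_Aint_eq_finsum]
  refine h3_finsum_eq_sum_index K K[X] (RatFunc K) F (h3_hres_poly K) S
    (fun c => Ideal.span {X - C c}) ((h3_span_X_sub_C_injective K).injOn)
    (fun c _ => ⟨h3_span_X_sub_C_isMaximal K c, h3_span_X_sub_C_ne_bot K c⟩) ?_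
  intro q hq _ hne
  obtain ⟨c, rfl⟩ := h3_exists_eq_span_X_sub_C K q hq
  have hc : c ∉ S := fun hc => hne c hc rfl
  exact hS c hc

/-- **[L4f] `hrF_le`.** -/
theorem h3_hrF_le : ∀ c, Alg.rFin K F c ≤ finrank (RatFunc K) F := by
  intro c
  haveI := h3_isScalarTower_poly K F
  haveI := h3_span_X_sub_C_isMaximal K c
  exact h3_card_primesOver_le K K[X] (RatFunc K) F (h3_hres_poly K) _ (h3_span_X_sub_C_ne_bot K c)

end Final

section FinalInf

variable (K : Type*) [Field K] [DecidableEq (RatFunc K)]
  (F : Type*) [Field F] [Algebra (RatFunc K) F] [Algebra K[X] F]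
  [IsScalarTower K[X] (RatFunc K) F] [Algebra K F] [IsScalarTower K (RatFunc K) F]
  [FiniteDimensional (RatFunc K) F] [Algebra.IsSeparable (RatFunc K) F]
  [CharZero K] [IsAlgClosed K]

attribute [local instance] h3_algebraOinf

omit [CharZero K] [IsAlgClosed K] in
/-- The valuation ring at infinity is not a field. -/
theorem h3_maximalIdeal_Oinf_ne_bot : IsLocalRing.maximalIdeal (DW.Oinf K) ≠ ⊥ := by
  intro h
  have hv : RatFunc.inftyValuation K (RatFunc.X : RatFunc K)⁻¹ = WithZero.exp (-1 : ℤ) := by
    rw [← one_div]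
    exact RatFunc.inftyValuation.X_inv K
  have hlt : RatFunc.inftyValuation K (RatFunc.X : RatFunc K)⁻¹ < 1 := by
    rw [hv]
    have : WithZero.exp (-1 : ℤ) < WithZero.exp (0 : ℤ) := WithZero.exp_lt_exp.mpr (by norm_num)
    simpa using this
  have hmem : (RatFunc.X : RatFunc K)⁻¹ ∈ DW.Oinf K := by
    rw [DW.mem_Oinf_iff]
    exact hlt.le
  have hm : (⟨_, hmem⟩ : DW.Oinf K) ∈ IsLocalRing.maximalIdeal (DW.Oinf K) := by
    rw [Valuation.mem_maximalIdeal_iff]
    exact hlt
  rw [h, Ideal.mem_bot] at hm
  have h0 : (RatFunc.X : RatFunc K)⁻¹ = 0 := congrArg Subtype.val hm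
  exact inv_ne_zero RatFunc.X_ne_zero h0

theorem h3_isScalarTower_Oinf : IsScalarTower K (DW.Oinf K) F :=
  IsScalarTower.of_algebraMap_eq fun c => by
    rw [IsScalarTower.algebraMap_apply K (RatFunc K) F,
      IsScalarTower.algebraMap_apply (DW.Oinf K) (RatFunc K) F]
    rfl

/-- **[L4f] `hcodimB`.** -/
theorem h3_hcodimB :
    Alg.codim (Alg.Bint K F) (Alg.Bdual K F) = finrank (RatFunc K) F - Alg.rInf K F := by
  haveI := h3_isScalarTower_Oinf K F
  rw [h3_codim_Bint_eq_finsum]
  have h := h3_finsum_eq_sum_index K (DW.Oinf K) (RatFunc K) F (h3_hres_Oinf K)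
    (Finset.univ : Finset Unit) (fun _ => IsLocalRing.maximalIdeal (DW.Oinf K))
    (fun _ _ _ _ _ => rfl)
    (fun _ _ => ⟨IsLocalRing.maximalIdeal.isMaximal _, h3_maximalIdeal_Oinf_ne_bot K⟩)
    (fun q hq _ hne => absurd (IsLocalRing.eq_maximalIdeal hq) (hne () (Finset.mem_univ _)))
  rw [h]
  simp only [Finset.univ_unique, Finset.sum_singleton]
  rfl

/-- **[L4f] `hrI_le`.** -/
theorem h3_hrI_le : Alg.rInf K F ≤ finrank (RatFunc K) F := by
  haveI := h3_isScalarTower_Oinf K F
  exact h3_card_primesOver_le K (DW.Oinf K) (RatFunc K) F (h3_hres_Oinf K) _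
    (h3_maximalIdeal_Oinf_ne_bot K)

end FinalInf

end Fermat.Agent.S20.L4c
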