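import Mathlib

/-!
# S20 / L4(2): counting the codifferent quotient

Generic Dedekind-domain algebra (Mathlib only).

* `h3_rank_quot_of_le` : for ideals `J ≤ I` of a `K`-algebra `B`,
  `rank_K (B/J) = rank_K (B/I) + rank_K (I/J)`.
* `h3_nonempty_subquot_mul_equiv` : in a Dedekind domain `I/(I*J) ≃ B/J`.
* `h3_rank_quot_mul` : `rank_K (B/(I*J)) = rank_K (B/I) + rank_K (B/J)`.
* `h3_finrank_quot_eq_card_normalizedFactors` : if all residue fields of `B` have
  `K`-dimension one, `finrank_K (B/J) = #(prime factors of J, with multiplicity)`.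
* `finrank_codifferent_quot` : `finrank_K (A1* / A1) = #(prime factors of the different)`.
-/

set_option autoImplicit false

namespace Fermat.Agent.S20.L4c

open Module Ideal UniqueFactorizationMonoid nonZeroDivisors

section Generic

variable {R M M' : Type*} [CommRing R] [AddCommGroup M] [Module R M]
  [AddCommGroup M'] [Module R M']

/-- Transport of a subquotient along an injective linear map. -/
noncomputable def h3_subquotMapEquiv (f : M →ₗ[R] M') (hf : Function.Injective f)
    (N P : Submodule R M) :
    (↥P ⧸ N.comap P.subtype) ≃ₗ[R]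
      (↥(P.map f) ⧸ (N.map f).comap (P.map f).subtype) :=
  Submodule.Quotient.equiv _ _ (Submodule.equivMapOfInjective f hf P) (by
    ext ⟨y, hy⟩
    simp only [Submodule.mem_map, Submodule.mem_comap, Submodule.subtype_apply, Subtype.exists]
    constructor
    · rintro ⟨a, ha, haN, h⟩
      refine ⟨a, haN, ?_⟩
      have := congrArg Subtype.val h
      simpa using this
    · rintro ⟨a, haN, rfl⟩
      obtain ⟨b, hb, hba⟩ := hy
      have : b = a := hf hba
      subst this
      exact ⟨b, hb, haN, rfl⟩)

/-- The subquotient `⊤ / N` is `M / N`. -/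
noncomputable def h3_topSubquotEquiv (N : Submodule R M) :
    (↥(⊤ : Submodule R M) ⧸ N.comap (⊤ : Submodule R M).subtype) ≃ₗ[R] (M ⧸ N) :=
  Submodule.Quotient.equiv _ _ (Submodule.topEquiv) (by
    ext y
    simp only [Submodule.mem_map, Submodule.mem_comap, Submodule.subtype_apply]
    constructor
    · rintro ⟨a, ha, rfl⟩
      exact ha
    · intro hy
      exact ⟨⟨y, trivial⟩, hy, rfl⟩)

end Generic

section RankLe

variable {K B : Type*} [Field K] [CommRing B] [Algebra K B]

/-- Additivity of the `K`-rank along `J ≤ I ≤ B`. -/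
theorem h3_rank_quot_of_le {I J : Ideal B} (h : J ≤ I) :
    Module.rank K (B ⧸ J) =
      Module.rank K (B ⧸ I) +
        Module.rank K (↥I ⧸ Submodule.comap (Submodule.subtype I) J) := by
  let π : (B ⧸ J) →ₗ[K] (B ⧸ I) := (Submodule.factor h).restrictScalars K
  have hπ : Function.Surjective π := fun y => by
    obtain ⟨b, rfl⟩ := Submodule.Quotient.mk_surjective _ y
    exact ⟨Submodule.Quotient.mk b, rfl⟩
  let φ : ↥I →ₗ[K] (B ⧸ J) :=
    ((Submodule.mkQ J).comp (Submodule.subtype I)).restrictScalars K
  have hker : LinearMap.ker φ =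
      (Submodule.comap (Submodule.subtype I) J).restrictScalars K := by
    ext x
    simp only [LinearMap.mem_ker, Submodule.restrictScalars_mem, Submodule.mem_comap,
      Submodule.subtype_apply]
    show (Submodule.Quotient.mk (x : B) : B ⧸ J) = 0 ↔ _
    rw [Submodule.Quotient.mk_eq_zero]
  have hrange : LinearMap.range φ = LinearMap.ker π := by
    ext y
    obtain ⟨b, rfl⟩ := Submodule.Quotient.mk_surjective _ y
    simp only [LinearMap.mem_range, LinearMap.mem_ker]
    constructor
    · rintro ⟨x, hx⟩
      rw [← hx]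
      show (Submodule.Quotient.mk (x : B) : B ⧸ I) = 0
      rw [Submodule.Quotient.mk_eq_zero]
      exact x.2
    · intro hb
      have hb' : (Submodule.Quotient.mk b : B ⧸ I) = 0 := hb
      rw [Submodule.Quotient.mk_eq_zero] at hb'
      exact ⟨⟨b, hb'⟩, rfl⟩
  have h1 := LinearMap.rank_range_add_rank_ker π
  rw [LinearMap.range_eq_top.mpr hπ, rank_top] at h1
  have e1 : (↥I ⧸ LinearMap.ker φ) ≃ₗ[K] ↥(LinearMap.range φ) := LinearMap.quotKerEquivRange φ
  have e2 : (↥I ⧸ LinearMap.ker φ) ≃ₗ[K]
      (↥I ⧸ (Submodule.comap (Submodule.subtype I) J).restrictScalars K) :=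
    Submodule.quotEquivOfEq _ _ hker
  have e3 := Submodule.Quotient.restrictScalarsEquiv K (Submodule.comap (Submodule.subtype I) J)
  have e4 : ↥(LinearMap.range φ) ≃ₗ[K] ↥(LinearMap.ker π) := LinearEquiv.ofEq _ _ hrange
  have hr : Module.rank K ↥(LinearMap.ker π) =
      Module.rank K (↥I ⧸ Submodule.comap (Submodule.subtype I) J) :=
    (e4.symm.trans (e1.symm.trans (e2.trans e3))).rank_eq
  rw [← h1, hr]

end RankLe

section Dedekind

variable {B : Type*} [CommRing B] [IsDedekindDomain B]

/-- In a Dedekind domain, `I / (I * J) ≃ B / J` as `B`-modules. -/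
theorem h3_nonempty_subquot_mul_equiv (I J : Ideal B) (hI : I ≠ ⊥) (hJ : J ≠ ⊥) :
    Nonempty ((↥I ⧸ Submodule.comap (Submodule.subtype I) (I * J)) ≃ₗ[B] (B ⧸ J)) := by
  let L := FractionRing B
  let f : B →ₗ[B] L := Algebra.linearMap B L
  have hf : Function.Injective f := IsFractionRing.injective B L
  have e1 := h3_subquotMapEquiv f hf (I * J) I
  have e3 := h3_subquotMapEquiv f hf J (⊤ : Ideal B)
  have e4 := h3_topSubquotEquiv (R := B) (M := B) J
  have e2 := FractionalIdeal.quotientEquiv (R := B) (K := L)
    (I : FractionalIdeal B⁰ L) ((I * J : Ideal B) : FractionalIdeal B⁰ L)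
    1 (J : FractionalIdeal B⁰ L)
    (by rw [one_mul, FractionalIdeal.coeIdeal_mul])
    ((FractionalIdeal.coeIdeal_le_coeIdeal L).mpr Ideal.mul_le_left)
    (FractionalIdeal.coeIdeal_le_one)
    (by simpa using hJ) (by simpa using hI)
  exact ⟨e1.trans (e2.trans (e3.symm.trans e4))⟩

variable {K : Type*} [Field K] [Algebra K B]

/-- Additivity of the `K`-rank of quotients of a Dedekind domain along products of ideals. -/
theorem h3_rank_quot_mul (I J : Ideal B) (hI : I ≠ ⊥) (hJ : J ≠ ⊥) :
    Module.rank K (B ⧸ I * J) = Module.rank K (B ⧸ I) + Module.rank K (B ⧸ J) := by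
  obtain ⟨e⟩ := h3_nonempty_subquot_mul_equiv I J hI hJ
  rw [h3_rank_quot_of_le (K := K) (Ideal.mul_le_left : I * J ≤ I),
    (e.restrictScalars K).rank_eq]

/-- The `K`-rank of `B / ∏ P` is the sum of the `K`-ranks of the `B / P`. -/
theorem h3_rank_quot_multiset_prod (s : Multiset (Ideal B)) (hs : ∀ P ∈ s, P ≠ ⊥) :
    Module.rank K (B ⧸ s.prod) = (s.map fun P => Module.rank K (B ⧸ P)).sum := by
  induction s using Multiset.induction_on with
  | empty =>
    rw [Multiset.prod_zero, Multiset.map_zero, Multiset.sum_zero, Ideal.one_eq_top]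
    have : Subsingleton (B ⧸ (⊤ : Ideal B)) := Ideal.Quotient.subsingleton_iff.mpr rfl
    exact rank_subsingleton' K _
  | cons P s ih =>
    have hP : P ≠ ⊥ := hs P (Multiset.mem_cons_self P s)
    have hs' : ∀ Q ∈ s, Q ≠ ⊥ := fun Q hQ => hs Q (Multiset.mem_cons_of_mem hQ)
    have hprod : s.prod ≠ ⊥ := by
      rw [← Ideal.zero_eq_bot]
      refine Multiset.prod_ne_zero ?_
      intro h0
      exact hs' 0 h0 Ideal.zero_eq_bot
    rw [Multiset.prod_cons, Multiset.map_cons, Multiset.sum_cons,
      h3_rank_quot_mul P s.prod hP hprod, ih hs']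

/-- If all residue fields at the prime factors of `J` are one-dimensional over `K`, then
`rank_K (B / J)` is the number of prime factors of `J` counted with multiplicity. -/
theorem h3_rank_quot_eq_card_normalizedFactors (J : Ideal B) (hJ : J ≠ ⊥)
    (hres : ∀ P ∈ normalizedFactors J, Module.rank K (B ⧸ P) = 1) :
    Module.rank K (B ⧸ J) = (Multiset.card (normalizedFactors J) : Cardinal) := by
  have h1 := h3_rank_quot_multiset_prod (K := K) (normalizedFactors J)
    (fun P hP => (prime_of_normalized_factor P hP).ne_zero)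
  rw [Ideal.prod_normalizedFactors_eq_self hJ] at h1
  rw [h1, Multiset.map_congr rfl hres]
  simp

theorem h3_finrank_quot_eq_card_normalizedFactors (J : Ideal B) (hJ : J ≠ ⊥)
    (hres : ∀ P ∈ normalizedFactors J, Module.rank K (B ⧸ P) = 1) :
    Module.finrank K (B ⧸ J) = Multiset.card (normalizedFactors J) :=
  Module.finrank_eq_of_rank_eq (h3_rank_quot_eq_card_normalizedFactors J hJ hres)

theorem h3_finite_quot (J : Ideal B) (hJ : J ≠ ⊥)
    (hres : ∀ P ∈ normalizedFactors J, Module.rank K (B ⧸ P) = 1) :
    Module.Finite K (B ⧸ J) := by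
  rw [← Module.rank_lt_aleph0_iff (R := K), h3_rank_quot_eq_card_normalizedFactors J hJ hres]
  exact Cardinal.natCast_lt_aleph0

end Dedekind

section Different

universe u

variable (k A K : Type*) {L : Type u} {B : Type*} [CommRing A] [Field K] [CommRing B] [Field L]
variable [Algebra A K] [Algebra B L] [Algebra A B] [Algebra K L] [Algebra A L]
variable [IsScalarTower A K L] [IsScalarTower A B L]
variable [IsDomain A] [IsFractionRing A K]
  [FiniteDimensional K L] [Algebra.IsSeparable K L] [IsIntegralClosure B A L]
variable [IsIntegrallyClosed A] [IsDedekindDomain B] [IsTorsionFree A B] [IsFractionRing B L]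

/-- Casting a subquotient along equalities of submodules. -/
theorem h3_nonempty_subquot_congr {R M : Type*} [CommRing R] [AddCommGroup M] [Module R M]
    {P P' N N' : Submodule R M} (hP : P = P') (hN : N = N') :
    Nonempty ((↥P ⧸ N.comap P.subtype) ≃ₗ[R] (↥P' ⧸ N'.comap P'.subtype)) := by
  subst hP hN
  exact ⟨LinearEquiv.refl _ _⟩

include K L in
theorem h3_differentIdeal_ne_bot : differentIdeal A B ≠ ⊥ := by
  intro h
  have h1 := coeIdeal_differentIdeal A K L B
  have h0 : ((differentIdeal A B : Ideal B) : FractionalIdeal B⁰ L) = 0 :=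
    FractionalIdeal.coeIdeal_eq_zero.mpr h
  rw [h0] at h1
  have h2 : FractionalIdeal.dual A K (1 : FractionalIdeal B⁰ L) ≠ 0 :=
    FractionalIdeal.dual_ne_zero A K one_ne_zero
  exact inv_ne_zero h2 h1.symm

/-- `B / 𝔇 ≃ B* / B` as `B`-modules, where `B* = traceDual A K 1` is the codifferent and
`𝔇 = differentIdeal A B`. -/
theorem nonempty_quot_differentIdeal_equiv :
    Nonempty ((B ⧸ differentIdeal A B) ≃ₗ[B]
      (↥(Submodule.traceDual A K (1 : Submodule B L)) ⧸
        Submodule.comap (Submodule.subtype (Submodule.traceDual A K (1 : Submodule B L)))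
          (1 : Submodule B L))) := by
  let f : B →ₗ[B] L := Algebra.linearMap B L
  have hf : Function.Injective f := IsFractionRing.injective B L
  have e3 := h3_subquotMapEquiv f hf (differentIdeal A B) (⊤ : Ideal B)
  have e4 := h3_topSubquotEquiv (R := B) (M := B) (differentIdeal A B)
  have hd : FractionalIdeal.dual A K (1 : FractionalIdeal B⁰ L) ≠ 0 :=
    FractionalIdeal.dual_ne_zero A K one_ne_zero
  have e2 := FractionalIdeal.quotientEquiv (R := B) (K := L)
    1 ((differentIdeal A B : Ideal B) : FractionalIdeal B⁰ L)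
    (FractionalIdeal.dual A K (1 : FractionalIdeal B⁰ L)) 1
    (by rw [coeIdeal_differentIdeal A K L B, mul_one, mul_inv_cancel₀ hd])
    (FractionalIdeal.coeIdeal_le_one)
    (FractionalIdeal.one_le_dual_one A K)
    one_ne_zero one_ne_zero
  obtain ⟨e5⟩ := h3_nonempty_subquot_congr (R := B) (M := L)
    (P := ((FractionalIdeal.dual A K (1 : FractionalIdeal B⁰ L) : FractionalIdeal B⁰ L) :
      Submodule B L))
    (P' := Submodule.traceDual A K (1 : Submodule B L))
    (N := ((1 : FractionalIdeal B⁰ L) : Submodule B L)) (N' := (1 : Submodule B L))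
    (FractionalIdeal.coe_dual_one A K L B) (FractionalIdeal.coe_one)
  exact ⟨e4.symm.trans (e3.trans (e2.trans e5))⟩

variable [Field k] [Algebra k B] [Module k L] [IsScalarTower k B L]

/-- **L4(2), count form.** The `k`-dimension of the codifferent quotient `B* / B` is the number
of prime factors of the different ideal, counted with multiplicity, provided the residue fields
at these primes are one-dimensional over `k`. No tameness is needed. -/
theorem finrank_codifferent_quot
    (hres : ∀ P ∈ normalizedFactors (differentIdeal A B), Module.rank k (B ⧸ P) = 1) :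
    Module.finrank k
      (↥(Submodule.traceDual A K (1 : Submodule B L)) ⧸
        Submodule.comap (Submodule.subtype (Submodule.traceDual A K (1 : Submodule B L)))
          (1 : Submodule B L)) =
      Multiset.card (normalizedFactors (differentIdeal A B)) := by
  obtain ⟨e⟩ := nonempty_quot_differentIdeal_equiv A K (L := L) (B := B)
  rw [← (e.restrictScalars k).finrank_eq]
  exact h3_finrank_quot_eq_card_normalizedFactors _ (h3_differentIdeal_ne_bot A K (L := L)) hres

/-- The number of prime factors with multiplicity, as a sum of multiplicities. -/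
theorem h3_card_normalizedFactors_eq_sum (J : Ideal B) :
    Multiset.card (normalizedFactors J) =
      ∑ P ∈ (normalizedFactors J).toFinset, (normalizedFactors J).count P := by
  classical
  exact (Multiset.toFinset_sum_count_eq (normalizedFactors J)).symm

/-- **L4(2), sum form.** `dim_k (B* / B) = ∑_P v_P(𝔇)`, the sum running over the prime factors
of the different. -/
theorem finrank_codifferent_quot_eq_sum
    (hres : ∀ P ∈ normalizedFactors (differentIdeal A B), Module.rank k (B ⧸ P) = 1) :
    Module.finrank k
      (↥(Submodule.traceDual A K (1 : Submodule B L)) ⧸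
        Submodule.comap (Submodule.subtype (Submodule.traceDual A K (1 : Submodule B L)))
          (1 : Submodule B L)) =
      ∑ P ∈ (normalizedFactors (differentIdeal A B)).toFinset,
        (normalizedFactors (differentIdeal A B)).count P := by
  rw [finrank_codifferent_quot k A K hres, h3_card_normalizedFactors_eq_sum]

/-- **L4(2) combined with the exact exponent (tame case) as a hypothesis.**
If `v_P(𝔇) = e_P - 1` for every nonzero prime `P` of `B`, then for every finite set `S` of nonzero
primes of `B` containing all primes with `e_P ≠ 1`: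
`dim_k (B* / B) = ∑_{P ∈ S} (e_P - 1)`. -/
theorem finrank_codifferent_quot_eq_sum_ramification
    (hres : ∀ P ∈ normalizedFactors (differentIdeal A B), Module.rank k (B ⧸ P) = 1)
    (e : Ideal B → ℕ)
    (hexp : ∀ P : Ideal B, P.IsPrime → P ≠ ⊥ →
      (normalizedFactors (differentIdeal A B)).count P = e P - 1)
    (S : Finset (Ideal B)) (hS : ∀ P ∈ S, P.IsPrime ∧ P ≠ ⊥)
    (hS' : ∀ P : Ideal B, P.IsPrime → P ≠ ⊥ → e P - 1 ≠ 0 → P ∈ S) :
    Module.finrank k
      (↥(Submodule.traceDual A K (1 : Submodule B L)) ⧸
        Submodule.comap (Submodule.subtype (Submodule.traceDual A K (1 : Submodule B L)))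
          (1 : Submodule B L)) =
      ∑ P ∈ S, (e P - 1) := by
  classical
  rw [finrank_codifferent_quot_eq_sum k A K hres]
  have hsub : (normalizedFactors (differentIdeal A B)).toFinset ⊆ S := by
    intro P hP
    rw [Multiset.mem_toFinset] at hP
    have hprime := prime_of_normalized_factor P hP
    have hPp : P.IsPrime := Ideal.isPrime_of_prime hprime
    have hP0 : P ≠ ⊥ := hprime.ne_zero
    refine hS' P hPp hP0 ?_
    rw [← hexp P hPp hP0]
    exact (Multiset.count_pos.mpr hP).ne'
  rw [← Finset.sum_subset hsub]
  · refine Finset.sum_congr rfl fun P hP => ?_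
    rw [Multiset.mem_toFinset] at hP
    have hprime := prime_of_normalized_factor P hP
    exact hexp P (Ideal.isPrime_of_prime hprime) hprime.ne_zero
  · intro P hPS hPn
    rw [Multiset.mem_toFinset] at hPn
    rw [← hexp P (hS P hPS).1 (hS P hPS).2]
    exact Multiset.count_eq_zero_of_notMem hPn

end Different

section Bridge

variable {k R R' M : Type*} [Field k] [CommRing R] [CommRing R'] [AddCommGroup M]
  [Module R M] [Module R' M] [Module k M] [Algebra k R] [Algebra k R']
  [IsScalarTower k R M] [IsScalarTower k R' M]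

/-- Subquotients `P / N` and `P' / N'` formed over two different rings, but with the same
underlying sets, have the same dimension over a common base field. (Bridge between the
`B`-module codifferent quotient and an `A`-lattice description of it.) -/
theorem h3_finrank_subquot_eq_of_coe_eq (P N : Submodule R M) (P' N' : Submodule R' M)
    (hP : (P : Set M) = (P' : Set M)) (hN : (N : Set M) = (N' : Set M)) :
    Module.finrank k (↥P ⧸ N.comap P.subtype) =
      Module.finrank k (↥P' ⧸ N'.comap P'.subtype) := by
  have hP' : P.restrictScalars k = P'.restrictScalars k := SetLike.coe_injective hP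
  let f0 : ↥P ≃ₗ[k] ↥(P.restrictScalars k) :=
    ((Submodule.restrictScalarsEquiv k R M P).restrictScalars k).symm
  let f1 : ↥(P.restrictScalars k) ≃ₗ[k] ↥(P'.restrictScalars k) := LinearEquiv.ofEq _ _ hP'
  let f2 : ↥(P'.restrictScalars k) ≃ₗ[k] ↥P' :=
    (Submodule.restrictScalarsEquiv k R' M P').restrictScalars k
  let f : ↥P ≃ₗ[k] ↥P' := f0.trans (f1.trans f2)
  have hf : ∀ x : ↥P, ((f x : ↥P') : M) = (x : M) := fun x => rfl
  let e : (↥P ⧸ (N.comap P.subtype).restrictScalars k) ≃ₗ[k]
      (↥P' ⧸ (N'.comap P'.subtype).restrictScalars k) :=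
    Submodule.Quotient.equiv _ _ f (by
      ext y
      simp only [Submodule.mem_map, Submodule.restrictScalars_mem, Submodule.mem_comap,
        Submodule.subtype_apply]
      constructor
      · rintro ⟨x, hx, rfl⟩
        show ((f x : ↥P') : M) ∈ N'
        rw [hf x]
        have : (x : M) ∈ (N : Set M) := hx
        rw [hN] at this
        exact this
      · intro hy
        have hyP : (y : M) ∈ (P : Set M) := by rw [hP]; exact y.2
        refine ⟨⟨(y : M), hyP⟩, ?_, ?_⟩
        · have : (y : M) ∈ (N' : Set M) := hy
          rw [← hN] at this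
          exact this
        · exact Subtype.ext (hf ⟨(y : M), hyP⟩))
  have e1 := Submodule.Quotient.restrictScalarsEquiv k (N.comap P.subtype)
  have e2 := Submodule.Quotient.restrictScalarsEquiv k (N'.comap P'.subtype)
  exact (e1.symm.trans (e.trans e2)).finrank_eq

end Bridge

section Residue

variable {k B : Type*} [Field k] [IsAlgClosed k] [CommRing B] [Algebra k B]

/-- Over an algebraically closed field, a residue field which is integral is one-dimensional. -/
theorem h3_rank_quot_eq_one_of_isAlgClosed (P : Ideal B) [P.IsPrime]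
    [Algebra.IsIntegral k (B ⧸ P)] : Module.rank k (B ⧸ P) = 1 := by
  have hbij : Function.Bijective (algebraMap k (B ⧸ P)) :=
    IsAlgClosed.algebraMap_bijective_of_isIntegral
  let e : k ≃ₗ[k] (B ⧸ P) :=
    LinearEquiv.ofBijective (Algebra.linearMap k (B ⧸ P)) hbij
  rw [Module.rank_eq_one_iff_finrank_eq_one, ← e.finrank_eq, Module.finrank_self]

end Residue

end Fermat.Agent.S20.L4c

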