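import Fermat.Agent.S23.R2_Esymm
import Fermat.Agent.S23.H14_PolyJ

/-!
# S20 / S24, work package M1a: modular functions are integral over `ℂ[j]`

A holomorphic function `h` on the upper half plane which is invariant under a subgroup `𝒢` of
finite index in `SL(2, ℤ)` and all of whose `SL(2, ℤ)`-translates have moderate growth at `i∞`
satisfies a monic polynomial equation of degree `μ = [SL(2, ℤ) : 𝒢]` whose coefficients are
polynomials in `j`.
-/

set_option autoImplicit false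

namespace Fermat.Agent.S20.H4

open UpperHalfPlane ModularForm SlashInvariantForm Filter Topology Polynomial

open scoped MatrixGroups ModularForm Manifold Pointwise

open Fermat.Agent.S23 Fermat.Agent.S23.R1

/-! ### Moderate growth -/

/-- `x` has moderate growth at `i∞`: some `x * Δ ^ m` is bounded at `i∞`. -/
def ModGrowth (x : ℍ → ℂ) : Prop :=
  ∃ m : ℕ, IsBoundedAtImInfty (fun z => x z * ModularForm.discriminant z ^ m)

theorem isBoundedAtImInfty_discriminant : IsBoundedAtImInfty ModularForm.discriminant :=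
  ModularFormClass.bdd_at_infty CuspForm.discriminant

theorem isBoundedAtImInfty_discriminant_pow (m : ℕ) :
    IsBoundedAtImInfty (fun z => ModularForm.discriminant z ^ m) := by
  induction m with
  | zero =>
    have : (fun z : ℍ => ModularForm.discriminant z ^ 0) = fun _ => (1 : ℂ) := by
      funext z; simp
    rw [this]
    exact Filter.const_boundedAtFilter atImInfty (1 : ℂ)
  | succ m ih =>
    have h := ih.mul isBoundedAtImInfty_discriminant
    have : (fun z : ℍ => ModularForm.discriminant z ^ (m + 1)) =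
        (fun z => ModularForm.discriminant z ^ m) * ModularForm.discriminant := by
      funext z; simp [pow_succ]
    rw [this]
    exact h

theorem ModGrowth.of_isBoundedAtImInfty {x : ℍ → ℂ} (hx : IsBoundedAtImInfty x) :
    ModGrowth x :=
  ⟨0, by simpa using hx⟩

theorem ModGrowth.mono {x : ℍ → ℂ} {m m' : ℕ} (hmm : m ≤ m')
    (hx : IsBoundedAtImInfty (fun z => x z * ModularForm.discriminant z ^ m)) :
    IsBoundedAtImInfty (fun z => x z * ModularForm.discriminant z ^ m') := by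
  have h := hx.mul (isBoundedAtImInfty_discriminant_pow (m' - m))
  have : (fun z : ℍ => x z * ModularForm.discriminant z ^ m') =
      (fun z => x z * ModularForm.discriminant z ^ m) *
        (fun z => ModularForm.discriminant z ^ (m' - m)) := by
    funext z
    simp only [Pi.mul_apply]
    rw [mul_assoc, ← pow_add, Nat.add_sub_cancel' hmm]
  rw [this]
  exact h

theorem ModGrowth.const (c : ℂ) : ModGrowth (fun _ : ℍ => c) :=
  .of_isBoundedAtImInfty (Filter.const_boundedAtFilter atImInfty c)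

theorem ModGrowth.zero : ModGrowth (0 : ℍ → ℂ) := ModGrowth.const 0

theorem ModGrowth.one : ModGrowth (1 : ℍ → ℂ) := ModGrowth.const 1

theorem ModGrowth.add {x y : ℍ → ℂ} (hx : ModGrowth x) (hy : ModGrowth y) :
    ModGrowth (x + y) := by
  obtain ⟨m, hm⟩ := hx
  obtain ⟨n, hn⟩ := hy
  refine ⟨max m n, ?_⟩
  have h := (ModGrowth.mono (le_max_left m n) hm).add (ModGrowth.mono (le_max_right m n) hn)
  have : (fun z : ℍ => (x + y) z * ModularForm.discriminant z ^ (max m n)) =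
      (fun z => x z * ModularForm.discriminant z ^ (max m n)) +
        (fun z => y z * ModularForm.discriminant z ^ (max m n)) := by
    funext z
    simp only [Pi.add_apply]
    ring
  rw [this]
  exact h

theorem ModGrowth.mul {x y : ℍ → ℂ} (hx : ModGrowth x) (hy : ModGrowth y) :
    ModGrowth (x * y) := by
  obtain ⟨m, hm⟩ := hx
  obtain ⟨n, hn⟩ := hy
  refine ⟨m + n, ?_⟩
  have h := hm.mul hn
  have : (fun z : ℍ => (x * y) z * ModularForm.discriminant z ^ (m + n)) =
      (fun z => x z * ModularForm.discriminant z ^ m) *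
        (fun z => y z * ModularForm.discriminant z ^ n) := by
    funext z
    simp only [Pi.mul_apply]
    ring
  rw [this]
  exact h

theorem ModGrowth.smul {x : ℍ → ℂ} (c : ℂ) (hx : ModGrowth x) : ModGrowth (c • x) :=
  (ModGrowth.const c).mul hx

theorem ModGrowth.neg {x : ℍ → ℂ} (hx : ModGrowth x) : ModGrowth (-x) := by
  have := hx.smul (-1)
  simpa using this

theorem ModGrowth.sub {x y : ℍ → ℂ} (hx : ModGrowth x) (hy : ModGrowth y) :
    ModGrowth (x - y) := by
  rw [sub_eq_add_neg]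
  exact hx.add hy.neg

theorem ModGrowth.pow {x : ℍ → ℂ} (hx : ModGrowth x) (n : ℕ) : ModGrowth (x ^ n) := by
  induction n with
  | zero => simpa using ModGrowth.one
  | succ n ih => rw [pow_succ]; exact ih.mul hx

theorem ModGrowth.sum {ι : Type*} (s : Finset ι) {x : ι → ℍ → ℂ}
    (h : ∀ i ∈ s, ModGrowth (x i)) : ModGrowth (∑ i ∈ s, x i) := by
  classical
  induction s using Finset.induction_on with
  | empty => simpa using ModGrowth.zero
  | insert a s ha ih =>
    rw [Finset.sum_insert ha]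
    exact (h a (Finset.mem_insert_self a s)).add
      (ih fun i hi => h i (Finset.mem_insert_of_mem hi))

theorem ModGrowth.prod {ι : Type*} (s : Finset ι) {x : ι → ℍ → ℂ}
    (h : ∀ i ∈ s, ModGrowth (x i)) : ModGrowth (∏ i ∈ s, x i) := by
  classical
  induction s using Finset.induction_on with
  | empty => simpa using ModGrowth.one
  | insert a s ha ih =>
    rw [Finset.prod_insert ha]
    exact (h a (Finset.mem_insert_self a s)).mul
      (ih fun i hi => h i (Finset.mem_insert_of_mem hi))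

/-! ### The translates -/

section Translates

variable {𝒢 : Subgroup (GL (Fin 2) ℝ)} [𝒢.IsArithmetic] {k : ℤ}
  {F : Type*} [FunLike F ℍ ℂ] [SlashInvariantFormClass F 𝒢 k]

omit [𝒢.IsArithmetic] in
/-- Every translate `quotientFunc f q` is a slash of `f` by an element of `SL(2, ℤ)`. -/
theorem exists_quotientFunc_eq_slash (f : F) (q : 𝒮ℒ ⧸ 𝒢.subgroupOf 𝒮ℒ) :
    ∃ γ : SL(2, ℤ), quotientFunc f q = (f : ℍ → ℂ) ∣[k] γ := by
  induction q using Quotient.inductionOn with
  | h r =>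
    obtain ⟨γ, hγ⟩ := (inv_mem r.2 : (r.val)⁻¹ ∈ 𝒮ℒ)
    refine ⟨γ, ?_⟩
    rw [quotientFunc_mk, ← hγ]
    rfl

omit [𝒢.IsArithmetic] in
theorem mdiff_quotientFunc (f : F) (hf : MDiff (f : ℍ → ℂ)) (q : 𝒮ℒ ⧸ 𝒢.subgroupOf 𝒮ℒ) :
    MDiff (quotientFunc f q) := by
  obtain ⟨γ, hγ⟩ := exists_quotientFunc_eq_slash f q
  rw [hγ]
  exact hf.slash k _

omit [𝒢.IsArithmetic] in
theorem modGrowth_quotientFunc (f : F)
    (hg : ∀ γ : SL(2, ℤ), ModGrowth ((f : ℍ → ℂ) ∣[k] γ)) (q : 𝒮ℒ ⧸ 𝒢.subgroupOf 𝒮ℒ) :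
    ModGrowth (quotientFunc f q) := by
  obtain ⟨γ, hγ⟩ := exists_quotientFunc_eq_slash f q
  rw [hγ]
  exact hg γ

theorem mdiff_esymmFun (f : F) (hf : MDiff (f : ℍ → ℂ)) (i : ℕ) : MDiff (esymmFun f i) := by
  classical
  let := Fintype.ofFinite (𝒮ℒ ⧸ 𝒢.subgroupOf 𝒮ℒ)
  rw [esymmFun_eq]
  exact MDifferentiable.sum fun s _ => MDifferentiable.prod fun q _ => mdiff_quotientFunc f hf q

theorem modGrowth_esymmFun (f : F)
    (hg : ∀ γ : SL(2, ℤ), ModGrowth ((f : ℍ → ℂ) ∣[k] γ)) (i : ℕ) :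
    ModGrowth (esymmFun f i) := by
  classical
  let := Fintype.ofFinite (𝒮ℒ ⧸ 𝒢.subgroupOf 𝒮ℒ)
  rw [esymmFun_eq]
  exact ModGrowth.sum _ fun s _ => ModGrowth.prod _ fun q _ => modGrowth_quotientFunc f hg q

end Translates

/-! ### Integrality over `ℂ[j]` -/

section Main

variable {𝒢 : Subgroup (GL (Fin 2) ℝ)} [𝒢.IsArithmetic]
  {F : Type*} [FunLike F ℍ ℂ] [SlashInvariantFormClass F 𝒢 0]

/-- The elementary symmetric functions of the translates of a modular function are polynomials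
in `j`. -/
theorem exists_poly_esymmFun (f : F) (hf : MDiff (f : ℍ → ℂ))
    (hg : ∀ γ : SL(2, ℤ), ModGrowth ((f : ℍ → ℂ) ∣[(0 : ℤ)] γ)) (i : ℕ) :
    ∃ P : ℂ[X], ∀ z, esymmFun f i z = P.eval (jInv z) := by
  obtain ⟨m, hm⟩ := modGrowth_esymmFun f hg i
  have hinv : ∀ γ : SL(2, ℤ), esymmFun f i ∣[(0 : ℤ)] γ = esymmFun f i := by
    intro γ
    have h := esymmFun_slash_SL f i γ
    rwa [zero_mul] at h
  obtain ⟨P, -, hP⟩ := exists_poly_jInv _ (mdiff_esymmFun f hf i) hinv m hm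
  exact ⟨P, hP⟩

/-- **Integrality over `ℂ[j]`**, coefficient form: a modular function for `𝒢` satisfies a monic
equation of degree `μ = [SL(2, ℤ) : 𝒢]` with coefficients in `ℂ[j]`. -/
theorem exists_monic_equation (f : F) (hf : MDiff (f : ℍ → ℂ))
    (hg : ∀ γ : SL(2, ℤ), ModGrowth ((f : ℍ → ℂ) ∣[(0 : ℤ)] γ)) :
    ∃ P : ℕ → ℂ[X], P 0 = 1 ∧ ∀ z : ℍ,
      ∑ j ∈ Finset.range (Nat.card (𝒮ℒ ⧸ 𝒢.subgroupOf 𝒮ℒ) + 1),
        (P j).eval (jInv z) * f z ^ (Nat.card (𝒮ℒ ⧸ 𝒢.subgroupOf 𝒮ℒ) - j) = 0 := by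
  choose Q hQ using exists_poly_esymmFun f hf hg
  refine ⟨fun j => if j = 0 then 1 else C ((-1 : ℂ) ^ j) * Q j, by simp, fun z => ?_⟩
  have h := esymm_integrality f z
  rw [← h]
  refine Finset.sum_congr rfl fun j _ => ?_
  by_cases hj : j = 0
  · subst hj
    simp [esymmFun_zero]
  · simp [hj, hQ]

/-- **Integrality over `ℂ[j]`**, bivariate form: there is `Φ ∈ ℂ[X][Y]`, monic of degree
`μ = [SL(2, ℤ) : 𝒢]` in `Y`, with `Φ(j, f) = 0`. -/
theorem exists_monic_bivariate (f : F) (hf : MDiff (f : ℍ → ℂ))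
    (hg : ∀ γ : SL(2, ℤ), ModGrowth ((f : ℍ → ℂ) ∣[(0 : ℤ)] γ)) :
    ∃ Φ : ℂ[X][X], Φ.Monic ∧ Φ.natDegree = Nat.card (𝒮ℒ ⧸ 𝒢.subgroupOf 𝒮ℒ) ∧
      ∀ z : ℍ, Φ.evalEval (jInv z) (f z) = 0 := by
  obtain ⟨P, hP0, hP⟩ := exists_monic_equation f hf hg
  set μ := Nat.card (𝒮ℒ ⧸ 𝒢.subgroupOf 𝒮ℒ) with hμ
  set Ψ : ℂ[X][X] := ∑ j ∈ Finset.range μ, C (P (j + 1)) * X ^ (μ - (j + 1)) with hΨ
  have hdeg : Ψ.degree < (μ : WithBot ℕ) := by
    rw [← Polynomial.mem_degreeLT]
    refine Submodule.sum_mem _ fun j hj => ?_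
    rw [Polynomial.mem_degreeLT]
    refine (Polynomial.degree_C_mul_X_pow_le _ _).trans_lt ?_
    have : μ - (j + 1) < μ := by
      have := Finset.mem_range.mp hj
      omega
    exact_mod_cast this
  have hmonic : (X ^ μ + Ψ).Monic := Polynomial.monic_X_pow_add hdeg
  refine ⟨X ^ μ + Ψ, hmonic, ?_, fun z => ?_⟩
  · have h1 : (X ^ μ + Ψ).degree = (μ : WithBot ℕ) := by
      rw [Polynomial.degree_add_eq_left_of_degree_lt (by rwa [Polynomial.degree_X_pow]),
        Polynomial.degree_X_pow]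
    exact Polynomial.natDegree_eq_of_degree_eq_some h1
  · have h := hP z
    rw [Finset.sum_range_succ', hP0] at h
    simp only [Polynomial.eval_one, one_mul, Nat.sub_zero] at h
    rw [Polynomial.evalEval_add, Polynomial.evalEval_pow, Polynomial.evalEval_X, hΨ,
      Polynomial.evalEval_finsetSum, add_comm]
    rw [← h]
    congr 1
    refine Finset.sum_congr rfl fun j _ => ?_
    rw [Polynomial.evalEval_mul, Polynomial.evalEval_C, Polynomial.evalEval_pow,
      Polynomial.evalEval_X]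

end Main

/-! ### Function-level statements -/

section FunLevel

/-- The index of `𝒢 ⊆ SL(2, ℤ)`, computed in the model used by `esymmFun`. -/
theorem card_quotient_map (Γ : Subgroup SL(2, ℤ)) :
    Nat.card (𝒮ℒ ⧸ (Subgroup.map (Matrix.SpecialLinearGroup.mapGL ℝ) Γ).subgroupOf 𝒮ℒ) =
      Nat.card (SL(2, ℤ) ⧸ Γ) := by
  rw [← Subgroup.index_eq_card, ← Subgroup.index_eq_card, ← Subgroup.relIndex,
    MonoidHom.range_eq_map,
    Subgroup.relIndex_map_map_of_injective Γ ⊤ Matrix.SpecialLinearGroup.mapGL_injective,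
    Subgroup.relIndex_top_right]

/-- A function on `ℍ` which is pointwise invariant under `Γ`, as a slash-invariant form of
weight `0`. -/
noncomputable def sifOfFun (Γ : Subgroup SL(2, ℤ)) (h : ℍ → ℂ)
    (hinv : ∀ γ ∈ Γ, ∀ z : ℍ, h (γ • z) = h z) : SlashInvariantForm Γ 0 where
  toFun := h
  slash_action_eq' := by
    rintro _ ⟨γ, hγ, rfl⟩
    funext z
    have := SL_slash_apply (k := 0) h γ z
    rw [neg_zero, zpow_zero, mul_one] at this
    exact this.trans (hinv γ hγ z)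

@[simp] theorem coe_sifOfFun (Γ : Subgroup SL(2, ℤ)) (h : ℍ → ℂ)
    (hinv : ∀ γ ∈ Γ, ∀ z : ℍ, h (γ • z) = h z) : (⇑(sifOfFun Γ h hinv) : ℍ → ℂ) = h := rfl

theorem slash_zero_SL (h : ℍ → ℂ) (γ : SL(2, ℤ)) : h ∣[(0 : ℤ)] γ = fun z => h (γ • z) := by
  funext z
  have := SL_slash_apply (k := 0) h γ z
  rwa [neg_zero, zpow_zero, mul_one] at this

variable (Γ : Subgroup SL(2, ℤ)) [Γ.FiniteIndex]

/-- **Integrality over `ℂ[j]`**, function level, coefficient form. -/
theorem exists_monic_equation_of_fun (h : ℍ → ℂ) (hhol : MDiff h)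
    (hinv : ∀ γ ∈ Γ, ∀ z : ℍ, h (γ • z) = h z)
    (hgrowth : ∀ γ : SL(2, ℤ), ModGrowth (fun z => h (γ • z))) :
    ∃ P : ℕ → ℂ[X], P 0 = 1 ∧ ∀ z : ℍ,
      ∑ j ∈ Finset.range (Nat.card (SL(2, ℤ) ⧸ Γ) + 1),
        (P j).eval (jInv z) * h z ^ (Nat.card (SL(2, ℤ) ⧸ Γ) - j) = 0 := by
  have := exists_monic_equation (sifOfFun Γ h hinv) hhol
    (fun γ => by rw [coe_sifOfFun, slash_zero_SL]; exact hgrowth γ)
  rwa [card_quotient_map] at this

/-- **Integrality over `ℂ[j]`**, function level, bivariate form. -/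
theorem exists_monic_bivariate_of_fun (h : ℍ → ℂ) (hhol : MDiff h)
    (hinv : ∀ γ ∈ Γ, ∀ z : ℍ, h (γ • z) = h z)
    (hgrowth : ∀ γ : SL(2, ℤ), ModGrowth (fun z => h (γ • z))) :
    ∃ Φ : ℂ[X][X], Φ.Monic ∧ Φ.natDegree = Nat.card (SL(2, ℤ) ⧸ Γ) ∧
      ∀ z : ℍ, Φ.evalEval (jInv z) (h z) = 0 := by
  have := exists_monic_bivariate (sifOfFun Γ h hinv) hhol
    (fun γ => by rw [coe_sifOfFun, slash_zero_SL]; exact hgrowth γ)
  rwa [card_quotient_map] at this

/-- A holomorphic `Γ`-invariant function all of whose translates are bounded at `i∞`, as a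
modular form of weight `0`. -/
noncomputable def mfOfFun (h : ℍ → ℂ) (hhol : MDiff h)
    (hinv : ∀ γ ∈ Γ, ∀ z : ℍ, h (γ • z) = h z)
    (hbdd : ∀ γ : SL(2, ℤ), IsBoundedAtImInfty (fun z => h (γ • z))) : ModularForm Γ 0 where
  toSlashInvariantForm := sifOfFun Γ h hinv
  holo' := hhol
  bdd_at_cusps' {c} hc := by
    rw [Subgroup.IsArithmetic.isCusp_iff_isCusp_SL2Z] at hc
    rw [OnePoint.isBoundedAt_iff_forall_SL2Z hc]
    intro γ _
    show IsBoundedAtImInfty (h ∣[(0 : ℤ)] γ)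
    rw [slash_zero_SL]
    exact hbdd γ

/-- **`A ∩ B = ℂ`**, function level: a holomorphic `Γ`-invariant function which is bounded at
all cusps is constant. -/
theorem eq_const_of_bounded (h : ℍ → ℂ) (hhol : MDiff h)
    (hinv : ∀ γ ∈ Γ, ∀ z : ℍ, h (γ • z) = h z)
    (hbdd : ∀ γ : SL(2, ℤ), IsBoundedAtImInfty (fun z => h (γ • z))) :
    ∃ c : ℂ, h = Function.const ℍ c :=
  ModularForm.eq_const_of_weight_zero (mfOfFun Γ h hhol hinv hbdd)

end FunLevel

/-! ### Roots of monic equations with bounded coefficients are bounded -/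

/-- If `h` satisfies, near `i∞`, a monic equation whose coefficients are bounded at `i∞`,
then `h` is bounded at `i∞`. -/
theorem isBoundedAtImInfty_of_monic_eq {h : ℍ → ℂ} {n : ℕ} {u : ℕ → ℍ → ℂ}
    (hu0 : ∀ z, u 0 z = 1) (hu : ∀ j, IsBoundedAtImInfty (u j))
    (heq : ∀ᶠ z in atImInfty, ∑ j ∈ Finset.range (n + 1), u j z * h z ^ (n - j) = 0) :
    IsBoundedAtImInfty h := by
  choose M A hMA using fun j => isBoundedAtImInfty_iff.mp (hu j)
  obtain ⟨A₀, hA₀⟩ := (atImInfty_mem _).mp heq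
  rw [isBoundedAtImInfty_iff]
  refine ⟨max 1 (∑ j ∈ Finset.range n, M (j + 1)),
    max A₀ ((Finset.range (n + 1)).sup' ⟨0, by simp⟩ A), fun z hz => ?_⟩
  have h0 : ∑ j ∈ Finset.range (n + 1), u j z * h z ^ (n - j) = 0 :=
    hA₀ z (le_trans (le_max_left _ _) hz)
  have h1 := norm_le_of_monic_eq (a := fun j => u j z) (hu0 z) h0
  refine h1.trans (max_le_max le_rfl (Finset.sum_le_sum fun j hj => hMA (j + 1) z ?_))
  have hj' : j + 1 ∈ Finset.range (n + 1) := by
    have := Finset.mem_range.mp hj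
    exact Finset.mem_range.mpr (by omega)
  exact (Finset.le_sup' A hj').trans ((le_max_right _ _).trans hz)

end Fermat.Agent.S20.H4
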