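import Mathlib

/-!
# S20 [M-B1] (helper8): holomorphic quotient by orders

If `a`, `b` are holomorphic on a connected open set `U ⊆ ℂ` (resp. on the upper half plane),
`b` is not identically zero and `ord_z b ≤ ord_z a` at every point, then `a = g * b` with `g`
holomorphic.  Local solutions `A₁ / B₁` (from the factorisations `a = (w - z) ^ n • A₁`,
`b = (w - z) ^ n • B₁`) are glued by uniqueness.
-/

set_option autoImplicit false

open Filter Topology UpperHalfPlane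
open scoped Manifold

namespace Fermat.Agent.S20.HolQuot

/-- Uniqueness of a local analytic quotient: values agree at the centre. -/
theorem h8q_quot_unique {b h₁ h₂ : ℂ → ℂ} {w : ℂ} (hb : AnalyticAt ℂ b w)
    (hbne : ¬ ∀ᶠ x in 𝓝 w, b x = 0) (h1 : AnalyticAt ℂ h₁ w) (h2 : AnalyticAt ℂ h₂ w)
    (heq : ∀ᶠ x in 𝓝 w, h₁ x * b x = h₂ x * b x) : ∀ᶠ x in 𝓝 w, h₁ x = h₂ x := by
  have hd : AnalyticAt ℂ (fun x => h₁ x - h₂ x) w := h1.sub h2
  rcases hd.eventually_eq_zero_or_eventually_ne_zero with h | h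
  · filter_upwards [h] with x hx
    exact sub_eq_zero.mp hx
  · exfalso
    rcases hb.eventually_eq_zero_or_eventually_ne_zero with h' | h'
    · exact hbne h'
    · have h3 : ∀ᶠ x in 𝓝[≠] w, h₁ x * b x = h₂ x * b x := heq.filter_mono nhdsWithin_le_nhds
      have h4 : ∀ᶠ x in 𝓝[≠] w, False := by
        filter_upwards [h, h', h3] with x hx hx' hx3
        have : (h₁ x - h₂ x) * b x = 0 := by rw [sub_mul, hx3, sub_self]
        rcases mul_eq_zero.mp this with h5 | h5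
        · exact hx h5
        · exact hx' h5
      exact (h4.exists).elim fun _ hf => hf

/-- Local existence of an analytic quotient at a point where `ord b ≤ ord a` and `ord b` is
finite. -/
theorem h8q_local_quot {a b : ℂ → ℂ} {z : ℂ} (ha : AnalyticAt ℂ a z) (hb : AnalyticAt ℂ b z)
    (hbne : ¬ ∀ᶠ x in 𝓝 z, b x = 0) (hord : analyticOrderAt b z ≤ analyticOrderAt a z) :
    ∃ h : ℂ → ℂ, AnalyticAt ℂ h z ∧ ∀ᶠ x in 𝓝 z, h x * b x = a x := by
  have hfin : analyticOrderAt b z ≠ ⊤ := by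
    intro htop
    exact hbne (analyticOrderAt_eq_top.mp htop)
  obtain ⟨n, hn⟩ := ENat.ne_top_iff_exists.mp hfin
  obtain ⟨B₁, hB₁, hB₁0, hB⟩ := (hb.analyticOrderAt_eq_natCast).mp hn.symm
  have hna : (n : ℕ∞) ≤ analyticOrderAt a z := by rw [hn]; exact hord
  obtain ⟨A₁, hA₁, hA⟩ := (natCast_le_analyticOrderAt ha).mp hna
  refine ⟨fun x => A₁ x / B₁ x, hA₁.div hB₁ hB₁0, ?_⟩
  have hB₁ne : ∀ᶠ x in 𝓝 z, B₁ x ≠ 0 := hB₁.continuousAt.eventually_ne hB₁0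
  filter_upwards [hB, hA, hB₁ne] with x hxB hxA hx0
  rw [hxB, hxA]
  simp only [smul_eq_mul]
  field_simp

/-- **[M-B1], `ℂ`-level.** On a connected open set, if `b ≢ 0` and `ord_z b ≤ ord_z a` for all
`z ∈ U`, then `a = g * b` on `U` with `g` holomorphic on `U`. -/
theorem h8q_exists_differentiableOn_quotient {U : Set ℂ} (hU : IsOpen U)
    (hUc : IsPreconnected U) {a b : ℂ → ℂ} (ha : DifferentiableOn ℂ a U)
    (hb : DifferentiableOn ℂ b U) (hb0 : ∃ z ∈ U, b z ≠ 0)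
    (hord : ∀ z ∈ U, analyticOrderAt b z ≤ analyticOrderAt a z) :
    ∃ g : ℂ → ℂ, DifferentiableOn ℂ g U ∧ ∀ z ∈ U, g z * b z = a z := by
  classical
  have haA : ∀ z ∈ U, AnalyticAt ℂ a z := fun z hz => ha.analyticAt (hU.mem_nhds hz)
  have hbA : ∀ z ∈ U, AnalyticAt ℂ b z := fun z hz => hb.analyticAt (hU.mem_nhds hz)
  have hbOn : AnalyticOnNhd ℂ b U := fun z hz => hbA z hz
  have hbne : ∀ z ∈ U, ¬ ∀ᶠ x in 𝓝 z, b x = 0 := by
    intro z hz hev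
    obtain ⟨z₁, hz₁, hbz₁⟩ := hb0
    have := hbOn.eqOn_zero_of_preconnected_of_eventuallyEq_zero hUc hz hev
    exact hbz₁ (this hz₁)
  have hloc : ∀ z : ℂ, ∃ h : ℂ → ℂ, z ∈ U → (AnalyticAt ℂ h z ∧ ∀ᶠ x in 𝓝 z, h x * b x = a x) := by
    intro z
    by_cases hz : z ∈ U
    · obtain ⟨h, hh⟩ := h8q_local_quot (haA z hz) (hbA z hz) (hbne z hz) (hord z hz)
      exact ⟨h, fun _ => hh⟩
    · exact ⟨0, fun h => absurd h hz⟩
  choose H hH using hloc
  have key : ∀ z ∈ U, ∀ᶠ w in 𝓝 z, H w w = H z w := by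
    intro z hz
    obtain ⟨hHz, hHzeq⟩ := hH z hz
    have h1 : ∀ᶠ w in 𝓝 z, AnalyticAt ℂ (H z) w := hHz.eventually_analyticAt
    have h2 : ∀ᶠ w in 𝓝 z, ∀ᶠ x in 𝓝 w, H z x * b x = a x := hHzeq.eventually_nhds
    have h3 : ∀ᶠ w in 𝓝 z, w ∈ U := hU.mem_nhds hz
    filter_upwards [h1, h2, h3] with w hw1 hw2 hw3
    obtain ⟨hHw, hHweq⟩ := hH w hw3
    have : ∀ᶠ x in 𝓝 w, H w x = H z x := by
      refine h8q_quot_unique (hbA w hw3) (hbne w hw3) hHw hw1 ?_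
      filter_upwards [hHweq, hw2] with x hx1 hx2
      rw [hx1, hx2]
    exact this.self_of_nhds
  refine ⟨fun w => H w w, ?_, ?_⟩
  · intro z hz
    have hd : DifferentiableAt ℂ (H z) z := (hH z hz).1.differentiableAt
    exact (hd.congr_of_eventuallyEq (key z hz)).differentiableWithinAt
  · intro z hz
    exact (hH z hz).2.self_of_nhds

/-- Uniqueness in `h8q_exists_differentiableOn_quotient`. -/
theorem h8q_quotient_unique {U : Set ℂ} (hU : IsOpen U) (hUc : IsPreconnected U)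
    {b g₁ g₂ : ℂ → ℂ} (hb : DifferentiableOn ℂ b U) (hb0 : ∃ z ∈ U, b z ≠ 0)
    (hg₁ : DifferentiableOn ℂ g₁ U) (hg₂ : DifferentiableOn ℂ g₂ U)
    (heq : ∀ z ∈ U, g₁ z * b z = g₂ z * b z) : ∀ z ∈ U, g₁ z = g₂ z := by
  have hbA : ∀ z ∈ U, AnalyticAt ℂ b z := fun z hz => hb.analyticAt (hU.mem_nhds hz)
  have hbOn : AnalyticOnNhd ℂ b U := fun z hz => hbA z hz
  have hbne : ∀ z ∈ U, ¬ ∀ᶠ x in 𝓝 z, b x = 0 := by
    intro z hz hev
    obtain ⟨z₁, hz₁, hbz₁⟩ := hb0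
    have := hbOn.eqOn_zero_of_preconnected_of_eventuallyEq_zero hUc hz hev
    exact hbz₁ (this hz₁)
  intro z hz
  have h1 : AnalyticAt ℂ g₁ z := hg₁.analyticAt (hU.mem_nhds hz)
  have h2 : AnalyticAt ℂ g₂ z := hg₂.analyticAt (hU.mem_nhds hz)
  have h3 : ∀ᶠ x in 𝓝 z, g₁ x * b x = g₂ x * b x := by
    filter_upwards [hU.mem_nhds hz] with x hx using heq x hx
  exact (h8q_quot_unique (hbA z hz) (hbne z hz) h1 h2 h3).self_of_nhds

/-- **[M-B1], upper half plane.** If `a`, `b : ℍ → ℂ` are holomorphic, `b ≢ 0` and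
`ord_z b ≤ ord_z a` at every `z : ℍ` (orders of `a ∘ ofComplex`, `b ∘ ofComplex`), then
`a = g * b` with `g` holomorphic on `ℍ`. -/
theorem exists_mdifferentiable_quotient {a b : ℍ → ℂ}
    (ha : MDifferentiable 𝓘(ℂ) 𝓘(ℂ) a) (hb : MDifferentiable 𝓘(ℂ) 𝓘(ℂ) b)
    (hb0 : ∃ z, b z ≠ 0)
    (hord : ∀ z : ℍ, analyticOrderAt (b ∘ ofComplex) (z : ℂ)
      ≤ analyticOrderAt (a ∘ ofComplex) (z : ℂ)) :
    ∃ g : ℍ → ℂ, MDifferentiable 𝓘(ℂ) 𝓘(ℂ) g ∧ ∀ z, g z * b z = a z := by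
  have hU : IsOpen {z : ℂ | 0 < z.im} := isOpen_upperHalfPlaneSet
  have hUc : IsPreconnected {z : ℂ | 0 < z.im} :=
    (convex_halfSpace_im_gt 0).isPreconnected
  have ha' := UpperHalfPlane.mdifferentiable_iff.mp ha
  have hb' := UpperHalfPlane.mdifferentiable_iff.mp hb
  obtain ⟨z₁, hz₁⟩ := hb0
  have hb0' : ∃ z ∈ {z : ℂ | 0 < z.im}, (b ∘ ofComplex) z ≠ 0 :=
    ⟨(z₁ : ℂ), z₁.im_pos, by simpa [ofComplex_apply] using hz₁⟩
  have hord' : ∀ z ∈ {z : ℂ | 0 < z.im},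
      analyticOrderAt (b ∘ ofComplex) z ≤ analyticOrderAt (a ∘ ofComplex) z := by
    intro z hz
    exact hord ⟨z, hz⟩
  obtain ⟨g, hgd, hgb⟩ := h8q_exists_differentiableOn_quotient hU hUc ha' hb' hb0' hord'
  refine ⟨fun z => g (z : ℂ), ?_, ?_⟩
  · rw [UpperHalfPlane.mdifferentiable_iff]
    refine hgd.congr fun z hz => ?_
    simp only [Function.comp_apply]
    rw [ofComplex_apply_of_im_pos hz]
  · intro z
    have := hgb (z : ℂ) z.im_pos
    simpa [ofComplex_apply] using this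

/-- Uniqueness of the holomorphic quotient on `ℍ`. -/
theorem mdifferentiable_quotient_unique {b g₁ g₂ : ℍ → ℂ}
    (hb : MDifferentiable 𝓘(ℂ) 𝓘(ℂ) b) (hb0 : ∃ z, b z ≠ 0)
    (hg₁ : MDifferentiable 𝓘(ℂ) 𝓘(ℂ) g₁) (hg₂ : MDifferentiable 𝓘(ℂ) 𝓘(ℂ) g₂)
    (heq : ∀ z, g₁ z * b z = g₂ z * b z) : g₁ = g₂ := by
  have hU : IsOpen {z : ℂ | 0 < z.im} := isOpen_upperHalfPlaneSet
  have hUc : IsPreconnected {z : ℂ | 0 < z.im} :=
    (convex_halfSpace_im_gt 0).isPreconnected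
  obtain ⟨z₁, hz₁⟩ := hb0
  have hb0' : ∃ z ∈ {z : ℂ | 0 < z.im}, (b ∘ ofComplex) z ≠ 0 :=
    ⟨(z₁ : ℂ), z₁.im_pos, by simpa [ofComplex_apply] using hz₁⟩
  have := h8q_quotient_unique hU hUc (UpperHalfPlane.mdifferentiable_iff.mp hb) hb0'
    (UpperHalfPlane.mdifferentiable_iff.mp hg₁) (UpperHalfPlane.mdifferentiable_iff.mp hg₂)
    (fun z _ => heq (ofComplex z))
  funext z
  have h := this (z : ℂ) z.im_pos
  simpa [ofComplex_apply] using h

end Fermat.Agent.S20.HolQuot
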